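import Fermat.Agent.LT.Reciprocity.Local

/-!
# Tame places

At odd `q` every semilocal element congruent to one is a fourth power of such an element, so
characters of exponent four kill it.
-/

set_option autoImplicit false

noncomputable section

namespace Fermat.Agent.LT.Reciprocity

open Fermat.Agent.PoitouTate

variable {q : ℕ} [hq : Fact q.Prime]

theorem norm_two_eq_one (h2 : q ≠ 2) : ‖(2 : PadicAlgCl q)‖ = 1 := by
  rw [← map_ofNat (algebraMap ℚ_[q] (PadicAlgCl q)) 2, norm_algebraMap']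
  refine le_antisymm ?_ (not_lt.1 fun h => ?_)
  · exact_mod_cast Padic.norm_int_le_one (p := q) 2
  · have h' : ‖((2 : ℕ) : ℚ_[q])‖ < 1 := by exact_mod_cast h
    rw [Padic.norm_natCast_lt_one_iff] at h'
    exact h2 ((Nat.prime_dvd_prime_iff_eq hq.out Nat.prime_two).1 h')

/-- At odd `q` an element near one has a square root near one. -/
theorem exists_sqrt_near {a : PadicAlgCl q} (ha : ‖a - 1‖ < 1) :
    ∃ z : PadicAlgCl q, z ^ 2 = a ∧ ‖z - 1‖ < 1 := by
  obtain ⟨z, hz⟩ := IsAlgClosed.exists_pow_nat_eq a two_pos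
  by_cases h : ‖z - 1‖ < 1
  · exact ⟨z, hz, h⟩
  refine ⟨-z, by rw [neg_sq, hz], ?_⟩
  have hprod : ‖z - 1‖ * ‖z + 1‖ < 1 := by
    rwa [← norm_mul, show (z - 1) * (z + 1) = z ^ 2 - 1 by ring, hz]
  rw [show -z - 1 = -(z + 1) by ring, norm_neg]
  by_contra h'
  exact absurd hprod (not_lt.2 (one_le_mul_of_one_le_of_one_le (not_lt.1 h) (not_lt.1 h')))

theorem sqrt_near_unique (h2 : q ≠ 2) {z z' : PadicAlgCl q} (h : z ^ 2 = z' ^ 2)
    (hz : ‖z - 1‖ < 1) (hz' : ‖z' - 1‖ < 1) : z = z' := by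
  rcases sq_eq_sq_iff_eq_or_eq_neg.1 h with h | h
  · exact h
  exfalso
  have hlt : ‖(2 : PadicAlgCl q)‖ < 1 := by
    rw [show (2 : PadicAlgCl q) = -((z - 1) + (z' - 1)) by rw [h]; ring, norm_neg]
    exact (IsUltrametricDist.norm_add_le_max _ _).trans_lt (max_lt hz hz')
  rw [norm_two_eq_one h2] at hlt
  exact lt_irrefl _ hlt

theorem exists_half {X : Type*} {τ : GQl q →* Equiv.Perm X} (h2 : q ≠ 2) (u : LStar τ)
    (hu : ∀ x, ‖((u.1 x).toMul : PadicAlgCl q) - 1‖ < 1) :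
    ∃ w : LStar τ, 2 • w = u ∧ ∀ x, ‖((w.1 x).toMul : PadicAlgCl q) - 1‖ < 1 := by
  choose z hz hz1 using fun x => exists_sqrt_near (hu x)
  have hz0 : ∀ x, z x ≠ 0 := fun x h0 => by
    have := hz x
    rw [h0, zero_pow two_ne_zero] at this
    exact Units.ne_zero _ this.symm
  refine ⟨⟨fun x => Additive.ofMul (Units.mk0 (z x) (hz0 x)), fun g => funext fun x =>
    Additive.toMul.injective (Units.ext ?_)⟩, Subtype.ext (funext fun x =>
      Additive.toMul.injective (Units.ext ?_)), hz1⟩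
  · show g (z ((τ g).symm x)) = z x
    refine sqrt_near_unique h2 ?_ ?_ (hz1 x)
    · rw [← map_pow, hz, hz]
      exact congrArg (fun a : Additive (PadicAlgCl q)ˣ => ((a.toMul : (PadicAlgCl q)ˣ) : PadicAlgCl q))
        (congrFun (u.2 g) x)
    · rw [← map_one g, ← map_sub, ← coe_nnnorm, nnnorm_padicAlgCl_algEquiv, coe_nnnorm]
      exact hz1 _
  · show z x ^ 2 = _
    exact hz x

/-- Tame places: elements congruent to one die. -/
theorem locHom_eq_zero_of_tame {H : Subgroup GQ} [Fintype (GQ ⧸ H)] {hH : IsLevelSubgroup H}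
    {φ : ↥H →* Multiplicative (ZMod 4)} (h : IsRecipHom hH φ) {q : Nat.Primes} (h2 : (q : ℕ) ≠ 2)
    (u : LocalStar (q : ℕ) (cosetPerm H))
    (hu : ∀ x, ‖((u.1 x).toMul : PadicAlgCl (q : ℕ)) - 1‖ < 1) : locHom h q u = 0 := by
  obtain ⟨w, hw, hw1⟩ := exists_half h2 u hu
  obtain ⟨w', hw', -⟩ := exists_half h2 w hw1
  rw [← hw, ← hw', map_nsmul, map_nsmul, ← mul_nsmul]
  exact (by decide : ∀ a : ZMod 4, (2 * 2) • a = 0) _

end Fermat.Agent.LT.Reciprocity

end
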