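import Fermat.Agent.LT.Reciprocity.Local
import Mathlib.NumberTheory.NumberField.InfinitePlace.TotallyRealComplex

/-!
# Ideles of a subfield of `ℚ̄` as semilocal families on `G_ℚ ⧸ G_K`

A finite idele of `K` gives at each prime `q` the semilocal element of its values under the
embeddings `padicEmbedding q ∘ g`. Almost all of their orders vanish, so this is a homomorphism
`toIdeleX` to the semilocal families; an idele at one place `v` goes to a family supported on the
orbit of `v`.
-/

set_option autoImplicit false

noncomputable section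

open NumberField IntermediateField WithZero
open scoped NumberField

namespace Fermat.Agent.LT.Reciprocity

open Fermat.Agent.PoitouTate Fermat.Agent.GaloisBasics

variable (K : IntermediateField ℚ QBar)

/-- The fixing subgroup of a number field is a level subgroup. -/
theorem isLevelSubgroup_fixingSubgroup [FiniteDimensional ℚ K] :
    IsLevelSubgroup K.fixingSubgroup :=
  ⟨_, ⟨fixingSubgroup_normal (IntermediateField.normalClosure ℚ K QBar)
      (h := normalClosure.normal ℚ _ QBar), _, inferInstance, trivial, rfl⟩,
    IntermediateField.fixingSubgroup_antitone (IntermediateField.le_normalClosure K)⟩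

/-- The core field of the fixing subgroup is the field. -/
theorem coreField_fixingSubgroup : coreField K.fixingSubgroup = K := by
  show IntermediateField.fixedField (stab _ _) = K
  rw [stab_baseCoset, InfiniteGalois.fixedField_fixingSubgroup]

/-- The ramification index of equal fields. -/
theorem eAt_congr {L L' : IntermediateField ℚ QBar} [FiniteDimensional ℚ L]
    [FiniteDimensional ℚ L'] (e : L = L') (q : Nat.Primes) (g : GQ) :
    eAt L (q : ℕ) g = eAt L' (q : ℕ) g := by subst e; rfl

/-- The residue cardinality of equal fields. -/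
theorem absNorm_placeAt_congr {L L' : IntermediateField ℚ QBar} [FiniteDimensional ℚ L]
    [FiniteDimensional ℚ L'] (e : L = L') (q : Nat.Primes) (g : GQ) :
    Ideal.absNorm (placeAt L (q : ℕ) g).asIdeal = Ideal.absNorm (placeAt L' (q : ℕ) g).asIdeal := by
  subst e; rfl

/-- Complex conjugation fixes no embedding of a totally complex field. -/
theorem complexConjugation_fixedFree [NumberField K] [IsTotallyComplex K]
    (x : GQ ⧸ K.fixingSubgroup) :
    cosetPerm K.fixingSubgroup complexConjugation x ≠ x := by
  induction x using QuotientGroup.induction_on with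
  | H g =>
    intro h
    rw [cosetPerm_mk] at h
    have hmem := QuotientGroup.eq.1 h.symm
    let τ : K →+* ℂ :=
      complexEmbedding.toRingHom.comp ((g : QBar →+* QBar).comp K.val.toRingHom)
    refine IsTotallyComplex.complexEmbedding_not_isReal τ
      (ComplexEmbedding.isReal_iff.2 (RingHom.ext fun a => ?_))
    rw [ComplexEmbedding.conjugate_coe_eq]
    show starRingEnd ℂ (complexEmbedding (g (a : QBar))) = complexEmbedding (g (a : QBar))
    rw [← complexEmbedding_complexConjugation]
    have h1 : (g⁻¹ * (complexConjugation * g)) (a : QBar) = a :=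
      (IntermediateField.mem_fixingSubgroup_iff K _).1 hmem _ a.2
    conv_rhs => rw [← h1]
    rw [← AlgEquiv.mul_apply, ← AlgEquiv.mul_apply g, mul_inv_cancel_left]

variable {K}

/-- The semilocal component of an idele. -/
def locPart (q : Nat.Primes) (u : (FinAdele K)ˣ) : LocalStar (q : ℕ) (cosetPerm K.fixingSubgroup) :=
  ⟨fun x => Additive.ofMul (Units.map (compAt K q x.out).toMonoidHom u), fun s => funext fun x =>
    Additive.toMul.injective (Units.ext (by
      show s (compAt K q ((localPerm (q : ℕ) (cosetPerm K.fixingSubgroup) s).symm x).out u) =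
        compAt K q x.out u
      rw [compAt_galois, compAt_congr]
      have h := inv_mem (out_inv_mul_mem K.fixingSubgroup (localGaloisToGlobal (q : ℕ) s) x)
      rwa [mul_inv_rev, inv_inv] at h))⟩

theorem locPart_mul (q : Nat.Primes) (u u' : (FinAdele K)ˣ) :
    locPart q (u * u') = locPart q u + locPart q u' :=
  Subtype.ext (funext fun x => by
    show Additive.ofMul (Units.map _ (u * u')) = _
    rw [map_mul]
    rfl)

/-- The semilocal element of an idele consists of its components. -/
theorem locPart_apply (q : Nat.Primes) (u : (FinAdele K)ˣ) (g : GQ) :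
    ((((locPart q u).1 (g : GQ ⧸ K.fixingSubgroup)).toMul : (PadicAlgCl (q : ℕ))ˣ) :
      PadicAlgCl (q : ℕ)) = compAt K q g u := by
  show compAt K q (g : GQ ⧸ K.fixingSubgroup).out u = _
  rw [compAt_congr]
  rw [← QuotientGroup.eq, QuotientGroup.out_eq']

variable [FiniteDimensional ℚ K]

instance fintypeFixingCosets : Fintype (GQ ⧸ K.fixingSubgroup) :=
  @Fintype.ofFinite _ (isLevelSubgroup_fixingSubgroup K).finite_coset

/-- The order of a component times the ramification index is the valuation at the place. -/
theorem ordQ_locPart (q : Nat.Primes) (u : (FinAdele K)ˣ) (g : GQ) :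
    ordQ (q : ℕ) ((locPart q u).1 (g : GQ ⧸ K.fixingSubgroup)) * eAt K (q : ℕ) g =
      ((Places.ord (placeAt K (q : ℕ) g) u).toAdd : ℤ) := by
  show -Real.logb (q : ℕ) ‖_‖ * _ = _
  rw [locPart_apply, neg_logb_norm_compAt]

/-- Almost all components of an idele have order zero. -/
theorem finite_locPart (u : (FinAdele K)ˣ) :
    {q : Nat.Primes | ∃ x, ordQ (q : ℕ) ((locPart q u).1 x) ≠ 0}.Finite := by
  classical
  refine Set.Finite.of_finite_image (f := fun q : Nat.Primes =>
    if h : ∃ x, ordQ (q : ℕ) ((locPart q u).1 x) ≠ 0 then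
      some (placeAt K (q : ℕ) h.choose.out) else none)
    (((Places.finite_ord u).image some).subset ?_) fun q hq r hr e => ?_
  · rintro _ ⟨q, hq', rfl⟩
    have hq : ∃ x, ordQ (q : ℕ) ((locPart q u).1 x) ≠ 0 := hq'
    dsimp only
    rw [dif_pos hq]
    refine ⟨_, fun h0 => hq.choose_spec ?_, rfl⟩
    have h := ordQ_locPart q u hq.choose.out
    rw [QuotientGroup.out_eq', h0, toAdd_one, Int.cast_zero, mul_eq_zero] at h
    exact h.resolve_right (by exact_mod_cast
      (zero_lt_one.trans_le (one_le_eAt K (q : ℕ) hq.choose.out)).ne')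
  · dsimp only at e
    have hq1 : ∃ x, ordQ (q : ℕ) ((locPart q u).1 x) ≠ 0 := hq
    have hr1 : ∃ x, ordQ (r : ℕ) ((locPart r u).1 x) ≠ 0 := hr
    rw [dif_pos hq1, dif_pos hr1] at e
    exact prime_eq_of_placeAt_eq (Option.some.inj e)

variable (K) in
/-- Ideles as semilocal families. -/
def toIdeleX : (FinAdele K)ˣ →* Multiplicative (IdeleX (cosetPerm K.fixingSubgroup)) :=
  MonoidHom.mk' (fun u => Multiplicative.ofAdd ⟨fun q => locPart q u, finite_locPart u⟩)
    fun u u' => by
      rw [← ofAdd_add]
      exact congrArg Multiplicative.ofAdd (Subtype.ext (funext fun q => locPart_mul q u u'))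

/-- The family of an idele is computed prime by prime. -/
theorem toIdeleX_apply (u : (FinAdele K)ˣ) (q : Nat.Primes) :
    (toIdeleX K u).toAdd.1 q = locPart q u := rfl

/-- An idele at `v` gives an element supported on the orbit of `v`. -/
theorem isSuppAt_locPart {q : Nat.Primes} {g : GQ} {v : Places.FinPlace K}
    (hv : placeAt K (q : ℕ) g = v) (a : (v.adicCompletion K)ˣ) :
    IsSuppAt q g (locPart q (Places.localUnit v a)) := fun x hx => by
  induction x using QuotientGroup.induction_on with
  | H b =>
    refine Additive.toMul.injective (Units.ext ?_)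
    rw [locPart_apply]
    refine compAt_localUnit_of_ne (fun he => hx ?_) a
    obtain ⟨s, hs⟩ := placeAt_eq_iff.1 (hv.trans he.symm)
    exact inOrbit_iff.2 ⟨s, hs⟩

/-- An idele at one place is the family supported at one prime. -/
theorem toIdeleX_localUnit {q : Nat.Primes} {g : GQ} {v : Places.FinPlace K}
    (hv : placeAt K (q : ℕ) g = v) (a : (v.adicCompletion K)ˣ) :
    (toIdeleX K (Places.localUnit v a)).toAdd =
      singleIdele q (locPart q (Places.localUnit v a)) := by
  refine Subtype.ext (funext fun r => ?_)
  rw [toIdeleX_apply]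
  rcases eq_or_ne r q with rfl | hr
  · rw [singleIdele_same]
  · rw [singleIdele_ne hr]
    refine Subtype.ext (funext fun x => Additive.toMul.injective (Units.ext ?_))
    exact compAt_localUnit_of_ne (fun he => hr (prime_eq_of_placeAt_eq (he.trans hv.symm))) a

/-- Components of adeles in the maximal ideal have absolute value below one. -/
theorem norm_compAt_lt_one {q : Nat.Primes} {g : GQ} {x : FinAdele K}
    (h : Places.placeVal (placeAt K (q : ℕ) g) x < 1) : ‖compAt K q g x‖ < 1 := by
  obtain ⟨a, ha, hv⟩ := exists_embAt_near (q := q) g x 1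
  have hva : (placeAt K (q : ℕ) g).valuation K a < 1 := by
    rw [← Places.placeVal_finIncl, show finIncl K a = x - (x - finIncl K a) by ring]
    exact (Places.placeVal_sub_le _ _ _).trans_lt
      (max_lt h (hv.trans_lt (valuation_prime_pow_lt_one g)))
  have hlt : ‖embAt K q g a‖ < 1 := by
    rcases eq_or_ne a 0 with rfl | ha0
    · simp
    refine lt_of_not_ge fun h1 => ?_
    have h2 := (valuation_placeAt_le_one_iff (q := q) g a⁻¹).2
      (by rw [map_inv₀, norm_inv]; exact inv_le_one_of_one_le₀ h1)
    rw [map_inv₀, inv_le_one₀ (zero_lt_iff.2 (by simpa using ha0))] at h2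
    exact absurd hva (not_lt.2 h2)
  rw [show compAt K q g x = compAt K q g x - embAt K q g a + embAt K q g a by ring]
  refine (IsUltrametricDist.norm_add_le_max _ _).trans_lt (max_lt (ha.trans_lt ?_) hlt)
  rw [pow_one]
  exact inv_lt_one_of_one_lt₀ (by exact_mod_cast q.2.one_lt)

/-- Every supported element is, near one, the component of a local element. -/
theorem exists_locPart_near {q : Nat.Primes} {g : GQ}
    (u : LocalStar (q : ℕ) (cosetPerm K.fixingSubgroup)) (hu : IsSuppAt q g u) {δ : ℝ}
    (hδ : 0 < δ) :
    ∃ a : ((placeAt K (q : ℕ) g).adicCompletion K)ˣ, ∀ x,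
      (locPart q (Places.localUnit (placeAt K (q : ℕ) g) a) - u).1 x ∈ nearOne (q : ℕ) δ := by
  obtain ⟨b, hb⟩ := exists_close (isLevelSubgroup_fixingSubgroup K).smooth
    (isTransitive_cosetPerm K.fixingSubgroup) (singleIdele q u).1 {q} hδ
  set y : QBar := (((b.1 (baseCoset K.fixingSubgroup)).toMul : QBarˣ) : QBar)
  have hy : y ∈ K := by
    have h := value_mem_fieldAt b (baseCoset K.fixingSubgroup)
    rwa [show fieldAt (cosetPerm K.fixingSubgroup) (baseCoset K.fixingSubgroup) = K from
      coreField_fixingSubgroup K] at h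
  have hy0 : (⟨y, hy⟩ : K) ≠ 0 := fun h => Units.ne_zero _ (congrArg Subtype.val h)
  let a : ((placeAt K (q : ℕ) g).adicCompletion K)ˣ :=
    Units.map (algebraMap K ((placeAt K (q : ℕ) g).adicCompletion K)).toMonoidHom
      (Units.mk0 ⟨y, hy⟩ hy0)
  refine ⟨a, fun x => ?_⟩
  by_cases hx : InOrbit K.fixingSubgroup q g x
  · obtain ⟨s, rfl⟩ := hx
    have h := hb q (Finset.mem_singleton_self q) (g : GQ ⧸ K.fixingSubgroup)
    rw [singleIdele_same] at h
    have hval : (locPart q (Places.localUnit (placeAt K (q : ℕ) g) a)).1 (g : GQ ⧸ K.fixingSubgroup)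
        = (toLocal (q : ℕ) (cosetPerm K.fixingSubgroup) b).1 (g : GQ ⧸ K.fixingSubgroup) := by
      refine Additive.toMul.injective (Units.ext ?_)
      rw [locPart_apply, toLocal_coe, compAt_localUnit_algebraMap ⟨y, hy⟩ a rfl]
      refine congrArg (padicEmbedding (q : ℕ)) ?_
      rw [← cosetPerm_base g, value_apply]
    have hd : ∀ w : LocalStar (q : ℕ) (cosetPerm K.fixingSubgroup),
        w.1 (g : GQ ⧸ K.fixingSubgroup) ∈ nearOne (q : ℕ) δ →
        w.1 (localPerm (q : ℕ) (cosetPerm K.fixingSubgroup) s (g : GQ ⧸ K.fixingSubgroup)) ∈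
          nearOne (q : ℕ) δ := fun w hw => by
      refine mem_nearOne_of_norm_lt ?_
      rw [lstar_value_apply, ← map_one s, ← map_sub, ← coe_nnnorm, nnnorm_padicAlgCl_algEquiv,
        coe_nnnorm]
      exact norm_sub_one_lt_of_mem_nearOne hδ hw
    refine hd _ ?_
    rw [AddSubgroup.coe_sub, Pi.sub_apply] at h ⊢
    rw [hval]
    exact h
  · rw [AddSubgroup.coe_sub, Pi.sub_apply, hu x hx, isSuppAt_locPart rfl a x hx, sub_zero]
    exact zero_mem _

end Fermat.Agent.LT.Reciprocity

end
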