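import Fermat.Agent.LT.Reciprocity.Interface
import Fermat.Agent.LT.Reciprocity.ToIdeleX
import Fermat.Agent.LT.Reciprocity.Tame

/-!
# The idele character of a character of exponent four

For a totally complex `K ⊆ ℚ̄` and a locally constant `χ : G_K → ℂˣ` with `χ ^ 4 = 1` there is an
idele class character with the local and global properties `IsIdeleChar`.
-/

set_option autoImplicit false

noncomputable section

open NumberField IntermediateField WithZero
open scoped NumberField Pointwise

namespace Fermat.Agent.LT.Reciprocity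

open Fermat.Agent.PoitouTate Fermat.Agent.GaloisBasics

/-- `i` as a unit. -/
def iUnit : ℂˣ := Units.mk0 Complex.I Complex.I_ne_zero

theorem iUnit_sq : iUnit ^ 2 = -1 := Units.ext (by simp [iUnit])

theorem iUnit_pow_four : iUnit ^ 4 = 1 := by
  rw [show 4 = 2 * 2 from rfl, pow_mul, iUnit_sq, neg_one_sq]

theorem orderOf_iUnit : orderOf iUnit = 4 := by
  have h := orderOf_eq_prime_pow (hp := Fact.mk Nat.prime_two) (x := iUnit) (n := 1)
    (by
      rw [pow_one, iUnit_sq]
      intro h
      have h' := congrArg Units.val h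
      rw [Units.val_neg, Units.val_one] at h'
      norm_num at h')
    (by exact iUnit_pow_four)
  exact h

/-- The fourth roots of unity. -/
def muFour : Multiplicative (ZMod 4) →* ℂˣ :=
  AddMonoidHom.toMultiplicativeLeft (ZMod.lift 4 ⟨zmultiplesHom _ (Additive.ofMul iUnit), by
    rw [zmultiplesHom_apply, natCast_zsmul, ← ofMul_pow, iUnit_pow_four, ofMul_one]⟩)

theorem muFour_natCast (n : ℕ) : muFour (Multiplicative.ofAdd (n : ZMod 4)) = iUnit ^ n := by
  rw [muFour, AddMonoidHom.coe_toMultiplicativeLeft, Function.comp_apply, Function.comp_apply,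
    toAdd_ofAdd, show ((n : ℕ) : ZMod 4) = (((n : ℕ) : ℤ) : ZMod 4) from (Int.cast_natCast n).symm,
    ZMod.lift_coe]
  show Additive.toMul (((n : ℕ) : ℤ) • Additive.ofMul iUnit) = _
  rw [natCast_zsmul, toMul_nsmul, toMul_ofMul]

theorem muFour_injective : Function.Injective muFour := by
  refine (injective_iff_map_eq_one _).2 fun x hx => ?_
  rw [← ofAdd_toAdd x, ← ZMod.natCast_zmod_val x.toAdd, muFour_natCast] at hx
  have h := orderOf_dvd_of_pow_eq_one hx
  rw [orderOf_iUnit] at h
  rw [← ofAdd_toAdd x, ← ZMod.natCast_zmod_val x.toAdd, (ZMod.natCast_eq_zero_iff _ _).2 h,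
    ofAdd_zero]

theorem exists_muFour_eq {z : ℂˣ} (hz : z ^ 4 = 1) : ∃ x, muFour x = z := by
  have h : ((z : ℂ) - 1) * ((z : ℂ) + 1) * ((z : ℂ) - Complex.I) * ((z : ℂ) + Complex.I) = 0 := by
    have h4 : (z : ℂ) ^ 4 = 1 := by
      rw [← Units.val_pow_eq_pow_val, hz, Units.val_one]
    linear_combination h4 + (1 - (z : ℂ) ^ 2) * Complex.I_sq
  simp only [mul_eq_zero, sub_eq_zero, add_eq_zero_iff_eq_neg] at h
  rcases h with ((h | h) | h) | h
  · exact ⟨1, by rw [map_one]; exact Units.ext h.symm⟩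
  · exact ⟨_, (muFour_natCast 2).trans (by rw [iUnit_sq]; exact Units.ext (by simp [h]))⟩
  · exact ⟨_, (muFour_natCast 1).trans (by rw [pow_one]; exact Units.ext h.symm)⟩
  · refine ⟨_, (muFour_natCast 3).trans ?_⟩
    rw [pow_succ, iUnit_sq]
    exact Units.ext (by simp [h, iUnit])

/-- A character with `χ ^ 4 = 1` is a power of `i` given by a homomorphism to `ℤ/4`. -/
theorem exists_hom_zmod_four {G : Type*} [Group G] (χ : G →* ℂˣ) (h4 : ∀ g, χ g ^ 4 = 1) :
    ∃ φ : G →* Multiplicative (ZMod 4), ∀ g, muFour (φ g) = χ g := by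
  choose f hf using fun g => exists_muFour_eq (h4 g)
  exact ⟨MonoidHom.mk' f fun a b => muFour_injective (by rw [map_mul, hf, hf, hf, map_mul]), hf⟩

variable {K : IntermediateField ℚ QBar}

theorem exists_level_of_isLocallyConstant [FiniteDimensional ℚ K] {M : Type*} [Group M]
    {χ : K.fixingSubgroup →* M} (h : IsLocallyConstant χ) :
    ∃ U, allLevels.mem U ∧ U ≤ K.fixingSubgroup ∧ U.subgroupOf K.fixingSubgroup ≤ χ.ker := by
  obtain ⟨O, hO, hOeq⟩ := isOpen_induced_iff.1 (h.isOpen_fiber 1)
  have h1 : (1 : GQ) ∈ O := by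
    have : (1 : K.fixingSubgroup) ∈ Subtype.val ⁻¹' O := by
      rw [hOeq]; exact map_one χ
    exact this
  obtain ⟨E, hE, hEO⟩ := (krullTopology_mem_nhds_one_iff ℚ QBar O).1 (hO.mem_nhds h1)
  have := hE
  let F := IntermediateField.normalClosure ℚ (E ⊔ K : IntermediateField ℚ QBar) QBar
  have hF : (E ⊔ K : IntermediateField ℚ QBar) ≤ F := IntermediateField.le_normalClosure _
  refine ⟨F.fixingSubgroup, ⟨fixingSubgroup_normal F (h := normalClosure.normal ℚ _ QBar), F,
    inferInstance, trivial, rfl⟩,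
    IntermediateField.fixingSubgroup_antitone (le_sup_right.trans hF), fun x hx => ?_⟩
  have hxO : (x : GQ) ∈ O :=
    hEO (IntermediateField.fixingSubgroup_antitone (le_sup_left.trans hF) hx)
  have : x ∈ Subtype.val ⁻¹' O := hxO
  rw [hOeq] at this
  exact this

section Props

variable [NumberField K] {φ : K.fixingSubgroup →* Multiplicative (ZMod 4)}
  {hH : IsLevelSubgroup K.fixingSubgroup}

/-- The idele character of a homomorphism to `ℤ/4`. -/
def ideleHom (h : IsRecipHom hH φ) : (FinAdele K)ˣ →* ℂˣ :=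
  muFour.comp ((AddMonoidHom.toMultiplicative (xiHom h)).comp (toIdeleX K))

theorem ideleHom_apply (h : IsRecipHom hH φ) (u : (FinAdele K)ˣ) :
    ideleHom h u = muFour (Multiplicative.ofAdd (xiHom h (toIdeleX K u).toAdd)) := rfl

/-- On a local unit the idele character is the local component. -/
theorem ideleHom_localUnit (h : IsRecipHom hH φ) {q : Nat.Primes} {g : GQ} {v : Places.FinPlace K}
    (hv : placeAt K (q : ℕ) g = v) (a : (v.adicCompletion K)ˣ) :
    ideleHom h (Places.localUnit v a) =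
      muFour (Multiplicative.ofAdd (locHom h q (locPart q (Places.localUnit v a)))) := by
  rw [ideleHom_apply, toIdeleX_localUnit hv, locHom_apply]

omit [NumberField K] in
theorem exists_pullPlace_eq {v : Places.FinPlace K} {A : ValuationSubring QBar}
    (hA : IsOver K v A) : ∃ (q : Nat.Primes) (g : GQ),
      pullPlace (q : ℕ) g = A ∧ placeAt K (q : ℕ) g = v := by
  obtain ⟨⟨p, hp, hAp⟩, hAv⟩ := hA
  let q : Nat.Primes := ⟨p, hp⟩
  have : Fact (q : ℕ).Prime := ⟨hp⟩
  obtain ⟨t, ht⟩ := exists_smul_eq (PoitouTate.liesOverPrime_padicPlace (q : ℕ)) hAp hp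
  subst ht
  have e : pullPlace (q : ℕ) t⁻¹ = t • padicPlace (q : ℕ) := by rw [pullPlace, inv_inv]
  refine ⟨q, t⁻¹, e, IsDedekindDomain.HeightOneSpectrum.ext ?_⟩
  show intIdeal K (pullPlace (q : ℕ) t⁻¹) = v.asIdeal
  rw [e]
  exact hAv

omit [NumberField K] in
theorem isOver_pullPlace {v : Places.FinPlace K} {q : Nat.Primes} {g : GQ}
    (hv : placeAt K (q : ℕ) g = v) : IsOver K v (pullPlace (q : ℕ) g) :=
  ⟨⟨(q : ℕ), q.2, liesOverPrime_pullPlace (q : ℕ) g⟩, by rw [← hv]; rfl⟩

theorem ordQ_locPart_core [FiniteDimensional ℚ (coreField K.fixingSubgroup)] (q : Nat.Primes)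
    (u : (FinAdele K)ˣ) (g : GQ) :
    ordQ (q : ℕ) ((locPart q u).1 (g : GQ ⧸ K.fixingSubgroup)) *
        eAt (coreField K.fixingSubgroup) (q : ℕ) g =
      ((Places.ord (placeAt K (q : ℕ) g) u).toAdd : ℤ) := by
  rw [eAt_congr (coreField_fixingSubgroup K) q g]
  exact ordQ_locPart q u g

theorem ord_localUnit_eq {v : Places.FinPlace K} {a : (v.adicCompletion K)ˣ} {n : ℤ}
    (ha : Valued.v (a : v.adicCompletion K) = exp (-n)) :
    (Places.ord v (Places.localUnit v a)).toAdd = n := by
  have h := Places.placeVal_eq_exp_ord v (Places.localUnit v a)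
  rw [Places.placeVal, Places.toPlace_localUnit_same, ha, exp_inj, neg_inj] at h
  exact h.symm

/-- The idele character has a modulus. -/
theorem ideleHom_exists_modulus (h : IsRecipHom hH φ) :
    ∃ N : ℕ, 0 < N ∧ ∀ u : (FinAdele K)ˣ,
      (∃ a ∈ integralAdele K, (u : FinAdele K) = 1 + (N : FinAdele K) * a) →
      (∀ w, Places.placeVal w (u : FinAdele K) = 1) → ideleHom h u = 1 := by
  classical
  obtain ⟨S, δ, hδ, hnear⟩ := xiHom_eq_zero_of_near h
  obtain ⟨k, hk⟩ := exists_pow_lt_of_lt_one (lt_min hδ one_pos) (by norm_num : (1 / 2 : ℝ) < 1)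
  refine ⟨∏ q ∈ S, (q : ℕ) ^ k, Finset.prod_pos fun q _ => pow_pos q.2.pos k,
    fun u ⟨a, ha, hu⟩ hu1 => ?_⟩
  rw [ideleHom_apply, hnear _ ⟨fun q hq x => ?_, fun q _ x => ?_⟩, ofAdd_zero, map_one]
  · induction x using QuotientGroup.induction_on with
    | H g =>
      refine mem_nearOne_of_norm_lt (lt_of_le_of_lt ?_ hk)
      rw [toIdeleX_apply, locPart_apply, hu, map_add, map_one, add_sub_cancel_left, map_mul,
        norm_mul, map_natCast]
      refine (mul_le_of_le_one_right (norm_nonneg _) (norm_compAt_le_one_of_mem g ha)).trans ?_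
      obtain ⟨c, hc⟩ := Finset.dvd_prod_of_mem (fun r : Nat.Primes => (r : ℕ) ^ k) hq
      rw [hc, Nat.cast_mul, norm_mul, norm_natCast_pow, ← map_natCast
        (algebraMap ℚ_[(q : ℕ)] (PadicAlgCl (q : ℕ))) c, norm_algebraMap']
      refine (mul_le_of_le_one_right (by positivity) ?_).trans (pow_le_pow_left₀ (by positivity) ?_ k)
      · exact_mod_cast Padic.norm_int_le_one (p := (q : ℕ)) (c : ℤ)
      · rw [one_div]
        exact inv_anti₀ two_pos (by exact_mod_cast q.2.two_le)
  · induction x using QuotientGroup.induction_on with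
    | H g =>
      show -Real.logb (q : ℕ) ‖_‖ = 0
      rw [toIdeleX_apply, locPart_apply, norm_compAt_eq_one (hu1 _), Real.logb_one, neg_zero]

/-- The idele character is trivial on the global elements. -/
theorem ideleHom_global (h : IsRecipHom hH φ) (x : Kˣ) :
    ideleHom h (Units.map (finIncl K).toMonoidHom x) = 1 := by
  let b : GlobalStar (cosetPerm K.fixingSubgroup) :=
    ⟨fun y => Additive.ofMul (Units.mk0 (y.out ((x : K) : QBar)) (by simp)), fun g => funext fun y =>
      Additive.toMul.injective (Units.ext (by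
        show g (((cosetPerm K.fixingSubgroup g).symm y).out ((x : K) : QBar)) = y.out ((x : K) : QBar)
        have hm := (IntermediateField.mem_fixingSubgroup_iff K _).1
          (out_inv_mul_mem K.fixingSubgroup g y) _ (x : K).2
        conv_rhs => rw [← hm]
        rw [← AlgEquiv.mul_apply, ← AlgEquiv.mul_apply y.out, mul_inv_cancel_left]))⟩
  have hd : (toIdeleX K (Units.map (finIncl K).toMonoidHom x)).toAdd =
      diagIdele hH.smooth (isTransitive_cosetPerm _) b :=
    Subtype.ext (funext fun q => Subtype.ext (funext fun y => Additive.toMul.injective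
      (Units.ext (compAt_finIncl (q := q) y.out (x : K)))))
  rw [ideleHom_apply, hd, xiHom_diag, ofAdd_zero, map_one]

/-- A supported semilocal element has the character of a local element. -/
theorem exists_localUnit_eq (h : IsRecipHom hH φ) {q : Nat.Primes} {g : GQ}
    (u : LocalStar (q : ℕ) (cosetPerm K.fixingSubgroup)) (hu : IsSuppAt q g u) :
    ∃ a : ((placeAt K (q : ℕ) g).adicCompletion K)ˣ,
      ideleHom h (Places.localUnit _ a) = muFour (Multiplicative.ofAdd (locHom h q u)) ∧
      ordQ (q : ℕ) ((locPart q (Places.localUnit _ a)).1 (g : GQ ⧸ K.fixingSubgroup)) =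
        ordQ (q : ℕ) (u.1 (g : GQ ⧸ K.fixingSubgroup)) := by
  obtain ⟨S, δ, hδ, hnear⟩ := xiHom_eq_zero_of_near h
  obtain ⟨a, ha⟩ := exists_locPart_near u hu hδ
  have h0 : locHom h q (locPart q (Places.localUnit _ a) - u) = 0 := by
    refine hnear _ ⟨fun r _ x => ?_, fun r _ x => ?_⟩ <;> rcases eq_or_ne r q with rfl | hr
    · rw [singleIdele_same]; exact ha x
    · rw [singleIdele_ne hr]; exact zero_mem _
    · rw [singleIdele_same]; exact ordQ_eq_zero_of_mem_nearOne (ha x)
    · rw [singleIdele_ne hr]; exact map_zero _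
  rw [map_sub, sub_eq_zero] at h0
  have h1 := ordQ_eq_zero_of_mem_nearOne (ha (g : GQ ⧸ K.fixingSubgroup))
  rw [AddSubgroup.coe_sub, Pi.sub_apply, map_sub, sub_eq_zero] at h1
  exact ⟨a, by rw [ideleHom_localUnit h rfl, h0], h1⟩

end Props

/-- The idele character exists. -/
theorem exists_isIdeleChar (K : IntermediateField ℚ Qbar) [NumberField K] [IsTotallyComplex K]
    (χ : K.fixingSubgroup →* ℂˣ) (hlc : IsLocallyConstant χ) (h4 : ∀ g, χ g ^ 4 = 1) :
    ∃ ξ : (FinAdele K)ˣ →* ℂˣ, IsIdeleChar K χ ξ := by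
  classical
  obtain ⟨φ, hφ⟩ := exists_hom_zmod_four χ h4
  have hH := isLevelSubgroup_fixingSubgroup K
  have := hH.finiteDimensional_core
  have hC := complexConjugation_fixedFree K
  have hlcφ : IsLCHom φ := by
    obtain ⟨U, hU, hUH, hUχ⟩ := exists_level_of_isLocallyConstant hlc
    exact ⟨U, hU, hUH, fun x hx => muFour_injective (by rw [hφ, map_one]; exact hUχ hx)⟩
  have h : IsRecipHom hH φ := isRecipHom_four hH hC hlcφ
  have hone : ∀ k, χ k = 1 → φ k = 1 := fun k hk => muFour_injective (by rw [hφ, hk, map_one])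
  refine ⟨ideleHom h,
    { exists_modulus := ideleHom_exists_modulus h
      map_global := ideleHom_global h
      unit_eq_one := ?_
      split_eq_one := ?_
      uniformiser := ?_
      surj_inertia := ?_
      surj_decomposition := ?_
      tame := ?_ }⟩
  · intro v hI a ha
    obtain ⟨q, g, rfl⟩ := exists_placeAt_eq K v
    obtain ⟨g₀, hg₀, hg₀F⟩ := exists_resFrob (q := q) (g := g) hH
    rw [ideleHom_localUnit h rfl, locHom_unramified hC h hlcφ
      (fun k hk hkI => hone _ (hI _ (isOver_pullPlace rfl) k hk hkI)) hg₀ hg₀F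
      (isSuppAt_locPart rfl a) (m := 0) (by
        rw [ordQ_locPart_core, ord_localUnit_eq (n := 0) (by rw [neg_zero, exp_zero]; exact ha)]),
      zero_smul, ofAdd_zero, map_one]
  · intro v hsplit a
    obtain ⟨q, g, rfl⟩ := exists_placeAt_eq K v
    rw [ideleHom_localUnit h rfl, locHom_eq_zero_of_split h hlcφ
      (fun k hk hkD => hone _ (hsplit _ (isOver_pullPlace rfl) k hk hkD)) (isSuppAt_locPart rfl a),
      ofAdd_zero, map_one]
  · intro v hI A hA g₀ hg₀ hg₀F a ha
    obtain ⟨q, g, rfl, hv⟩ := exists_pullPlace_eq hA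
    subst hv
    have hF : ResActs (pullPlace (q : ℕ) g) g₀ (resCard K.fixingSubgroup q g) := by
      rw [resCard, absNorm_placeAt_congr (coreField_fixingSubgroup K) q g]
      exact resActs_iff.2 hg₀F.2
    rw [ideleHom_localUnit h rfl, locHom_unramified hC h hlcφ
      (fun k hk hkI => hone _ (hI _ (isOver_pullPlace rfl) k hk hkI)) hg₀ hF
      (isSuppAt_locPart rfl a) (m := 1) (by rw [ordQ_locPart_core, ord_localUnit_eq (n := 1) ha]),
      one_smul, ofAdd_toAdd, hφ]
  · intro v A hA k hk hkI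
    obtain ⟨q, g, rfl, hv⟩ := exists_pullPlace_eq hA
    subst hv
    obtain ⟨u, hu, hu0, huv⟩ := exists_unit_eq hC h hlcφ hk hkI
    obtain ⟨a, hav, hao⟩ := exists_localUnit_eq h u hu
    refine ⟨a, ?_, by rw [hav, huv, ofAdd_toAdd, hφ]⟩
    have h1 := ordQ_locPart q (Places.localUnit (placeAt K (q : ℕ) g) a) g
    rw [hao, hu0, zero_mul, eq_comm, Int.cast_eq_zero] at h1
    have h2 := Places.placeVal_eq_exp_ord (placeAt K (q : ℕ) g)
      (Places.localUnit (placeAt K (q : ℕ) g) a)
    rw [Places.placeVal, Places.toPlace_localUnit_same, h1, neg_zero, exp_zero] at h2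
    exact h2
  · intro v A hA k hk hkD
    obtain ⟨q, g, rfl, hv⟩ := exists_pullPlace_eq hA
    subst hv
    obtain ⟨u, hu, huv⟩ := exists_eq hC h hlcφ hk hkD
    obtain ⟨a, hav, -⟩ := exists_localUnit_eq h u hu
    exact ⟨a, by rw [hav, huv, ofAdd_toAdd, hφ]⟩
  · intro v h2 a ha
    obtain ⟨q, g, rfl⟩ := exists_placeAt_eq K v
    have hq : (q : ℕ) ≠ 2 := fun e => h2 (by
      have hmem := GlobalUnits.natCast_mem_placeBelow K (liesOverPrime_pullPlace (q : ℕ) g) q.2
      have e2 : (((q : ℕ) : ℕ) : 𝓞 K) = 2 := by rw [e]; rfl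
      rw [e2] at hmem
      exact hmem)
    rw [ideleHom_localUnit h rfl, locHom_eq_zero_of_tame h hq _ fun x => ?_, ofAdd_zero, map_one]
    induction x using QuotientGroup.induction_on with
    | H b =>
      rw [locPart_apply]
      by_cases hb : placeAt K (q : ℕ) b = placeAt K (q : ℕ) g
      · rw [← map_one (compAt K q b), ← map_sub]
        refine norm_compAt_lt_one ?_
        rw [hb, Places.placeVal, map_sub, map_one, Places.toPlace_localUnit_same]
        exact ha
      · rw [compAt_localUnit_of_ne hb, sub_self, norm_zero]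
        exact one_pos

end Fermat.Agent.LT.Reciprocity

end
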