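import Fermat.Agent.LT.Reciprocity.Interface
import Fermat.Agent.LT.DihedralTheta.Instance.Places

/-!
# Frobenius elements at the places of `M / L`

Residue cardinalities bound by Frobenius elements, and the shape of the places of `M` over a place
of `L` without inertia: two places of the same degree, or one unramified place of degree two.
-/

set_option autoImplicit false

noncomputable section

open IsDedekindDomain NumberField WithZero
open Fermat.Agent.GaloisBasics
open Fermat.Agent.LT.Final (GF3 quatJ)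
open Fermat.Agent.LT.GaloisData
open scoped Pointwise

namespace Fermat.Agent.LT.Reciprocity

open Places

section General

variable {K : IntermediateField ℚ Qbar} [NumberField K]

/-- Residue fields have more than one element. -/
theorem one_lt_absNorm {F : Type*} [Field F] [NumberField F] (v : FinPlace F) :
    1 < Ideal.absNorm v.asIdeal := by
  have h0 : Ideal.absNorm v.asIdeal ≠ 0 := fun h => v.ne_bot (Ideal.absNorm_eq_zero_iff.1 h)
  have h1 : Ideal.absNorm v.asIdeal ≠ 1 := fun h =>
    v.isPrime.ne_top (Ideal.absNorm_eq_one_iff.1 h)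
  omega

/-- A place has a Frobenius element at each place of `ℚ̄` over it. -/
theorem exists_isFrobAt {v : FinPlace K} {A : ValuationSubring Qbar} (h : IsOver K v A) :
    ∃ g ∈ K.fixingSubgroup, IsFrobAt K v A g := by
  obtain ⟨⟨p, hp, hA⟩, hAv⟩ := h
  obtain ⟨-, p', f, A', -, hp', hA', -, hA'v, hN, -⟩ := exists_isFrobOver K v.isPrime v.ne_bot
  obtain rfl : p' = p := GlobalUnits.eq_of_natCast_mem_placeBelow K hA hp hp' (by
    show (p' : 𝓞 K) ∈ intIdeal K A
    rw [hAv, ← hA'v]
    exact natCast_mem_intIdeal K hA')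
  obtain ⟨φ, hφ⟩ := exists_isFrobeniusAt hA hp
  have := intIdeal_isMaximal K hA hp
  obtain ⟨τ, hτ, hI⟩ := exists_mem_inertia_lift hA hp K.fixingSubgroup
    (InfiniteGalois.fixingSubgroup_isClosed K) (φ ^ f) fun b hb => by
      obtain ⟨a, rfl⟩ := (fixed_iff_mem_range_intIncl K b).mp hb
      have h1 := pow_frobenius_sub_mem hA hp hφ f (intIncl K a)
      have h2 : a ^ p' ^ f - a ∈ intIdeal K A := by
        rw [← Ideal.Quotient.eq, map_pow, ← hN, ← hAv, ← natCard_quotient]
        let _ : Field (𝓞 K ⧸ intIdeal K A) := Ideal.Quotient.field _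
        have := (intIdeal K A).finiteQuotientOfFreeOfNeBot (GlobalUnits.intIdeal_ne_bot K hA hp)
        let _ := Fintype.ofFinite (𝓞 K ⧸ intIdeal K A)
        rw [Nat.card_eq_fintype_card, FiniteField.pow_card]
      rw [intIdeal, Ideal.mem_comap, map_sub, map_pow] at h2
      have h3 := add_mem h1 h2
      rwa [sub_add_sub_cancel] at h3
  have hD : φ ^ f ∈ A.decompositionSubgroup ℚ := by
    obtain ⟨hσ, -⟩ := hφ
    exact pow_mem hσ f
  have e : τ⁻¹ = (φ ^ f * τ)⁻¹ * φ ^ f := by group
  refine ⟨τ⁻¹, inv_mem hτ, ?_, fun b => ?_⟩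
  · rw [e]
    exact mul_mem (inv_mem (inertiaSubgroupIn_le_decompositionSubgroup hI)) hD
  · rw [e, mul_smul, hN, ← zbarResidue_eq_iff,
      zbarResidue_eq_iff.2 (smul_sub_mem_zbarIdeal_of_mem_inertia (inv_mem hI) _)]
    exact zbarResidue_eq_iff.2 (pow_frobenius_sub_mem hA hp hφ f b)

/-- An element of the Galois group acting on residues by `n`-th powers bounds the residue field. -/
theorem absNorm_le_of_pow {A : ValuationSubring Qbar} {p n : ℕ} (hA : A.LiesOverPrime p)
    (hp : p.Prime) (hn : 1 < n) {g : GalQ} (hg : g ∈ K.fixingSubgroup)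
    (h : ∀ b : Zbar, g • b - b ^ n ∈ zbarIdeal A) : Ideal.absNorm (intIdeal K A) ≤ n := by
  classical
  have := intIdeal_isMaximal K hA hp
  let _ : Field (𝓞 K ⧸ intIdeal K A) := Ideal.Quotient.field _
  have hroot : ∀ y : 𝓞 K ⧸ intIdeal K A, y ^ n = y := fun y => by
    obtain ⟨a, rfl⟩ := Ideal.Quotient.mk_surjective y
    rw [← map_pow, Ideal.Quotient.eq, intIdeal, Ideal.mem_comap, map_sub, map_pow]
    have h1 := h (intIncl K a)
    rw [(fixed_iff_mem_range_intIncl K _).mpr ⟨a, rfl⟩ _ hg] at h1
    have h2 := neg_mem h1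
    rwa [neg_sub] at h2
  set X' : Polynomial (𝓞 K ⧸ intIdeal K A) := Polynomial.X ^ n - Polynomial.X
  have hX0 : X' ≠ 0 := FiniteField.X_pow_card_sub_X_ne_zero _ hn
  have hdeg : X'.natDegree = n := FiniteField.X_pow_card_sub_X_natDegree_eq _ hn
  have hall : ∀ y, y ∈ X'.roots := fun y => by
    rw [Polynomial.mem_roots hX0]
    simp [X', hroot y]
  have := (intIdeal K A).finiteQuotientOfFreeOfNeBot (GlobalUnits.intIdeal_ne_bot K hA hp)
  let _ := Fintype.ofFinite (𝓞 K ⧸ intIdeal K A)
  rw [← natCard_quotient, Nat.card_eq_fintype_card]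
  calc Fintype.card (𝓞 K ⧸ intIdeal K A) ≤ X'.roots.toFinset.card :=
        Finset.card_le_card fun y _ => Multiset.mem_toFinset.mpr (hall y)
    _ ≤ Multiset.card X'.roots := Multiset.toFinset_card_le _
    _ ≤ n := hdeg ▸ Polynomial.card_roots' X'

variable {F E : Type*} [Field F] [NumberField F] [Field E] [NumberField E]

/-- The residue cardinality of a place is a power of that of the place below. -/
theorem exists_absNorm_eq_pow (f : F →+* E) (w : FinPlace E) :
    ∃ d, 0 < d ∧ Ideal.absNorm w.asIdeal = Ideal.absNorm (comapPlace f w).asIdeal ^ d := by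
  have hw := one_lt_absNorm w
  set v := comapPlace f w
  have := w.isPrime.isMaximal w.ne_bot
  have := v.isPrime.isMaximal v.ne_bot
  let _ : Field (𝓞 F ⧸ v.asIdeal) := Ideal.Quotient.field _
  let _ : Field (𝓞 E ⧸ w.asIdeal) := Ideal.Quotient.field _
  let _ : Algebra (𝓞 F ⧸ v.asIdeal) (𝓞 E ⧸ w.asIdeal) :=
    (Ideal.quotientMap w.asIdeal (RingOfIntegers.mapRingHom f) le_rfl).toAlgebra
  have := w.asIdeal.finiteQuotientOfFreeOfNeBot w.ne_bot
  have h := Module.natCard_eq_pow_finrank (K := 𝓞 F ⧸ v.asIdeal) (V := 𝓞 E ⧸ w.asIdeal)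
  have e1 : Nat.card (𝓞 E ⧸ w.asIdeal) = Ideal.absNorm w.asIdeal := by
    rw [Ideal.absNorm_apply, Submodule.cardQuot_apply]
  have e2 : Nat.card (𝓞 F ⧸ v.asIdeal) = Ideal.absNorm v.asIdeal := by
    rw [Ideal.absNorm_apply, Submodule.cardQuot_apply]
  rw [e1, e2] at h
  refine ⟨_, Nat.pos_of_ne_zero fun h0 => ?_, h⟩
  rw [h0, pow_zero] at h
  omega

/-- With equal residue fields the residues come from below. -/
theorem exists_sub_mem_of_absNorm_eq (f : F →+* E) (w : FinPlace E)
    (h : Ideal.absNorm w.asIdeal = Ideal.absNorm (comapPlace f w).asIdeal) (a : 𝓞 E) :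
    ∃ c : 𝓞 F, RingOfIntegers.mapRingHom f c - a ∈ w.asIdeal := by
  have := w.asIdeal.finiteQuotientOfFreeOfNeBot w.ne_bot
  have hb := (Ideal.quotientMap_injective (I := w.asIdeal)
    (f := RingOfIntegers.mapRingHom f)).bijective_of_nat_card_le (by
      rw [Ideal.absNorm_apply, Submodule.cardQuot_apply, Ideal.absNorm_apply,
        Submodule.cardQuot_apply] at h
      exact h.le)
  obtain ⟨y, hy⟩ := hb.2 (Ideal.Quotient.mk w.asIdeal a)
  obtain ⟨c, rfl⟩ := Ideal.Quotient.mk_surjective y
  rw [Ideal.quotientMap_mk, Ideal.Quotient.eq] at hy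
  exact ⟨c, hy⟩

end General

open DihedralTheta

variable {ρ : GalQ →* GF3} (hρ : IsSupersingularRep ρ)

include hρ

/-- Outside `M` the Galois group of `L` is one coset. -/
theorem inv_mul_mem_quartic {a b : GalQ} (ha : a ∈ (cubicField ρ).fixingSubgroup)
    (hna : a ∉ (quarticField ρ).fixingSubgroup) (hb : b ∈ (cubicField ρ).fixingSubgroup)
    (hnb : b ∉ (quarticField ρ).fixingSubgroup) :
    a⁻¹ * b ∈ (quarticField ρ).fixingSubgroup := by
  rw [mem_fixingSubgroup_fixH hρ.continuous] at ha hna hb hnb ⊢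
  have h1 : ρ a⁻¹ ∉ cycFour := fun h => hna (by rwa [map_inv, inv_mem_iff] at h)
  have h2 : ρ b⁻¹ ∉ cycFour := fun h => hnb (by rwa [map_inv, inv_mem_iff] at h)
  have ha' : ρ a⁻¹ ∈ quatGroup := by rw [map_inv]; exact inv_mem ha
  have hb' : ρ b⁻¹ ∈ quatGroup := by rw [map_inv]; exact inv_mem hb
  rcases quatGroup_cases ha' with h | ⟨hA, -⟩
  · exact absurd h h1
  rcases quatGroup_cases hb' with h | ⟨hB, -⟩
  · exact absurd h h2
  have := mul_mem hA (inv_mem hB)
  rw [mul_inv_rev, inv_inv, ← mul_assoc, inv_mul_cancel_right, map_inv, map_inv, inv_inv] at this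
  rwa [map_mul, map_inv]

/-- The fixing group of `M` has index at most two in that of `L`. -/
theorem mul_mem_quartic {a b : GalQ} (ha : a ∈ (cubicField ρ).fixingSubgroup)
    (hna : a ∉ (quarticField ρ).fixingSubgroup) (hb : b ∈ (cubicField ρ).fixingSubgroup)
    (hnb : b ∉ (quarticField ρ).fixingSubgroup) :
    a * b ∈ (quarticField ρ).fixingSubgroup := by
  have := inv_mul_mem_quartic hρ (inv_mem ha) (fun h => hna (inv_mem_iff.1 h)) hb hnb
  rwa [inv_inv] at this

theorem apply_eq_quartLift {g : GalQ} (hg : g ∈ (cubicField ρ).fixingSubgroup)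
    (hn : g ∉ (quarticField ρ).fixingSubgroup) (x : quarticField ρ) :
    g (x : Qbar) = quartLift hρ (x : Qbar) := by
  have hm := inv_mul_mem_quartic hρ (quartLift_mem hρ) (quartLift_notMem hρ) hg hn
  have := congrArg (quartLift hρ) ((IntermediateField.mem_fixingSubgroup_iff _ _).mp hm _ x.2)
  rwa [← AlgEquiv.mul_apply, mul_inv_cancel_left] at this

variable [NumberField (quarticField ρ)]

/-- The conjugate place. -/
abbrev conjPlace (w : FinPlace (quarticField ρ)) : FinPlace (quarticField ρ) :=
  comapPlace (quartAut hρ : quarticField ρ →+* quarticField ρ) w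

/-- Conjugation of places is an involution. -/
theorem conjPlace_conjPlace (w : FinPlace (quarticField ρ)) :
    conjPlace hρ (conjPlace hρ w) = w := by
  refine HeightOneSpectrum.ext (Ideal.ext fun a => ?_)
  rw [mem_comapPlace, mem_comapPlace]
  refine iff_of_eq (congrArg (· ∈ w.asIdeal) (RingOfIntegers.ext ?_))
  exact quartAut_quartAut hρ a

/-- A place of `ℚ̄` over `w` is carried to one over the conjugate of `w`. -/
theorem intIdeal_smul_quartLift {A : ValuationSubring Qbar} {w : FinPlace (quarticField ρ)}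
    (hw : intIdeal (quarticField ρ) A = w.asIdeal) :
    intIdeal (quarticField ρ) ((quartLift hρ)⁻¹ • A) = (conjPlace hρ w).asIdeal := by
  ext a
  rw [mem_comapPlace, ← hw, mem_intIdeal, mem_intIdeal, mem_nonunits_smul_iff, inv_inv]
  rfl

/-- Conjugate places have the same residue cardinality. -/
theorem absNorm_conjPlace (w : FinPlace (quarticField ρ)) :
    Ideal.absNorm (conjPlace hρ w).asIdeal = Ideal.absNorm w.asIdeal := by
  set e := NumberField.RingOfIntegers.mapRingEquiv (quartAut hρ)
  have h : (conjPlace hρ w).asIdeal = w.asIdeal.comap e.toRingHom := by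
    ext a
    exact Iff.rfl
  rw [h, ← natCard_quotient, ← natCard_quotient]
  exact Nat.card_congr (Ideal.quotientEquiv _ _ e
    ((Ideal.map_comap_of_surjective _ e.surjective _).symm)).toEquiv

/-- A decomposition element outside `M` fixes the place. -/
theorem conjPlace_eq_of_decomposition {A : ValuationSubring Qbar}
    {w : FinPlace (quarticField ρ)} (hw : intIdeal (quarticField ρ) A = w.asIdeal) {g : GalQ}
    (hg : g ∈ (cubicField ρ).fixingSubgroup) (hn : g ∉ (quarticField ρ).fixingSubgroup)
    (hD : g ∈ A.decompositionSubgroup ℚ) : conjPlace hρ w = w := by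
  refine HeightOneSpectrum.ext (Ideal.ext fun a => ?_)
  rw [mem_comapPlace, ← hw, mem_intIdeal, mem_intIdeal]
  show quartLift hρ ((a : quarticField ρ) : Qbar) ∈ A.nonunits ↔ _
  rw [← apply_eq_quartLift hρ hg hn]
  exact apply_mem_nonunits_iff hD _

variable [NumberField (cubicField ρ)] {v : FinPlace (cubicField ρ)}
  {w : FinPlace (quarticField ρ)}

/-- Over a place with a place of larger degree above it there is no inertia. -/
theorem noInertia_of_lt (hw : comapPlace (inclM ρ) w = v)
    (hlt : Ideal.absNorm v.asIdeal < Ideal.absNorm w.asIdeal) : NoInertia v := by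
  intro p A hp hA hv τ hτ hL
  by_contra hn
  set u := GlobalUnits.placeBelow (quarticField ρ) hA hp
  have hu : comapPlace (inclM ρ) u = v :=
    HeightOneSpectrum.ext (by rw [comapPlace_eq_of_intIdeal (A := A) rfl, hv])
  have hN : Ideal.absNorm w.asIdeal = Ideal.absNorm (intIdeal (quarticField ρ) A) := by
    rcases above_cases hρ (hu.trans hw.symm) with h | h
    · rw [← h]; rfl
    · rw [← absNorm_conjPlace hρ w, conjPlace, ← h]; rfl
  obtain ⟨g, hg, -, hres⟩ := exists_isFrobAt (K := cubicField ρ) (v := v) (A := A)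
    ⟨⟨p, hp, hA⟩, hv⟩
  have h1 := one_lt_absNorm v
  by_cases hgM : g ∈ (quarticField ρ).fixingSubgroup
  · have := absNorm_le_of_pow hA hp h1 hgM hres
    omega
  · have := absNorm_le_of_pow hA hp h1 (mul_mem_quartic hρ hg hgM hL hn) (fun b => by
      rw [mul_smul, ← zbarResidue_eq_iff, zbarResidue_eq_iff.2 (hres _), map_pow, map_pow,
        zbarResidue_eq_iff.2 (smul_sub_mem_zbarIdeal_of_mem_inertia hτ b)])
    omega

/-- Without inertia a place of degree one over `v` is moved. -/
theorem conjPlace_ne (hv : NoInertia v) (hw : comapPlace (inclM ρ) w = v)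
    (hN : Ideal.absNorm w.asIdeal = Ideal.absNorm v.asIdeal) : conjPlace hρ w ≠ w := by
  intro hc
  obtain ⟨a, ha⟩ := exists_sub_notMem hρ hv hw
  obtain ⟨c, hc'⟩ := exists_sub_mem_of_absNorm_eq (inclM ρ) w (by rw [hw, hN]) a
  have e : RingOfIntegers.mapRingHom (quartAut hρ : quarticField ρ →+* quarticField ρ)
      (RingOfIntegers.mapRingHom (inclM ρ) c) = RingOfIntegers.mapRingHom (inclM ρ) c :=
    RingOfIntegers.ext (quartAut_inclM hρ c)
  have h2 := hc'
  rw [← hc, mem_comapPlace, map_sub, e] at h2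
  have := sub_mem hc' h2
  rw [sub_sub_sub_cancel_left] at this
  exact ha this

/-- Without inertia a fixed place has ramification index one. -/
theorem valuation_inclM_of_conjPlace_eq (hv : NoInertia v) (hw : comapPlace (inclM ρ) w = v)
    (hc : conjPlace hρ w = w) (a : cubicField ρ) :
    w.valuation (quarticField ρ) (inclM ρ a) = v.valuation (cubicField ρ) a := by
  obtain ⟨e, he, hval⟩ := exists_pow_valuation (inclM ρ) w
  rw [hw] at hval
  obtain ⟨o, ho⟩ := exists_unit_sub hρ hv
  have hd := ho w hw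
  set π : quarticField ρ := (uniformizer w : quarticField ρ)
  have hπ : w.valuation (quarticField ρ) π = exp (-1 : ℤ) := valuation_uniformizer w
  have hne : (o : quarticField ρ) - quartAut hρ o ≠ 0 := fun h => by
    rw [h, map_zero] at hd; exact zero_ne_one hd
  have hne' : quartAut hρ (o : quarticField ρ) - o ≠ 0 := fun h => hne (by
    rw [← neg_sub, h, neg_zero])
  obtain ⟨β, hβ⟩ := exists_inclM_of_fixed hρ
    (x := (π - quartAut hρ π) / ((o : quarticField ρ) - quartAut hρ o)) (by
      rw [map_div₀, map_sub, map_sub, quartAut_quartAut, quartAut_quartAut,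
        div_eq_div_iff hne' hne]
      ring)
  obtain ⟨α, hα⟩ := exists_inclM_of_fixed hρ (x := π - inclM ρ β * (o : quarticField ρ)) (by
    rw [map_sub, map_mul, quartAut_inclM, hβ]
    field_simp
    ring)
  have hsmall : v.valuation (cubicField ρ) β < 1 := by
    rw [← pow_lt_one_iff he, ← hval, hβ, map_div₀, hd, div_one]
    refine (Valuation.map_sub _ _ _).trans_lt (max_lt ?_ ?_)
    · rw [hπ, ← exp_zero, exp_lt_exp]; omega
    · rw [valuation_quartAut, show comapPlace (quartAut hρ : quarticField ρ →+* quarticField ρ) w = w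
        from hc, hπ, ← exp_zero, exp_lt_exp]; omega
  suffices e = 1 by rw [hval, this, pow_one]
  by_contra he1
  have hlt : w.valuation (quarticField ρ) (inclM ρ β * (o : quarticField ρ)) < exp (-1 : ℤ) := by
    rw [map_mul]
    refine lt_of_le_of_lt (mul_le_of_le_one_right' (w.valuation_le_one o)) ?_
    rw [hval]
    rcases eq_or_ne (v.valuation (cubicField ρ) β) 0 with h0 | h0
    · rw [h0, zero_pow he]; exact zero_lt_iff.2 exp_ne_zero
    · rw [← exp_log h0, ← exp_zero, exp_lt_exp] at hsmall
      rw [← exp_log h0, ← exp_nsmul, exp_lt_exp, nsmul_eq_mul]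
      have : (2 : ℤ) ≤ e := by omega
      nlinarith
  have hαv : w.valuation (quarticField ρ) (inclM ρ α) = exp (-1 : ℤ) := by
    rw [hα, Valuation.map_sub_eq_of_lt_left _ (hπ.symm ▸ hlt), hπ]
  rw [hval] at hαv
  have h0 : v.valuation (cubicField ρ) α ≠ 0 := fun h => by
    rw [h, zero_pow he] at hαv; exact exp_ne_zero hαv.symm
  rw [← exp_log h0, ← exp_nsmul, exp_inj, nsmul_eq_mul] at hαv
  refine he1 (Nat.eq_one_of_dvd_one (Int.natCast_dvd_natCast.1 ?_))
  exact ⟨-log (v.valuation (cubicField ρ) α), by rw [mul_neg, hαv, Nat.cast_one, neg_neg]⟩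

end Fermat.Agent.LT.Reciprocity

end
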