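import Fermat.Agent.LT.Reciprocity.CharUnique
import Fermat.Agent.LT.Reciprocity.QuadPlaces
import Fermat.Agent.LT.Reciprocity.IdeleChar
import Fermat.Agent.LT.PlaceMatching.Maps

/-!
# The idele character of `psi`

The reciprocity character of `psi` on the ideles of `M` has the properties of `IdeleCharData`:
its conjugate is its inverse, and on the ideles of `L` it is the character of `M / L`.
-/

set_option autoImplicit false

noncomputable section

open IsDedekindDomain NumberField WithZero
open Fermat.Agent.GaloisBasics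
open Fermat.Agent.LT.Final (GF3)
open Fermat.Agent.LT.GaloisData
open Fermat.Agent.LT.DihedralTheta
open scoped Pointwise

namespace Fermat.Agent.LT.Reciprocity

open Places

variable {F : Type*} [Field F] [NumberField F]

theorem eq_localUnit_of_toPlace {u : (FinAdele F)ˣ} {v : FinPlace F}
    (h : ∀ w, w ≠ v → toPlace w (u : FinAdele F) = 1) : u = localUnit v (compUnit v u) :=
  units_ext fun w => by
    rcases eq_or_ne w v with rfl | hw
    · rw [toPlace_localUnit_same]; rfl
    · rw [toPlace_localUnit_ne hw, h w hw]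

variable {K : IntermediateField ℚ Qbar} [NumberField K] {χ : K.fixingSubgroup →* ℂˣ}
  {ξ : (FinAdele K)ˣ →* ℂˣ}

theorem IsIdeleChar.hasModulus (h : IsIdeleChar K χ ξ) : HasModulus ξ := h.exists_modulus

theorem IsIdeleChar.isGlobalTrivial (h : IsIdeleChar K χ ξ) : IsGlobalTrivial ξ := h.map_global

omit [NumberField K] in
theorem exists_isOver (v : FinPlace K) : ∃ A, IsOver K v A := by
  obtain ⟨q, A, hA, hv⟩ := GlobalUnits.exists_placeBelow_eq K v
  exact ⟨A, ⟨q, q.2, hA⟩, congrArg HeightOneSpectrum.asIdeal hv⟩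

variable {ρ : GalQ →* GF3} (hρ : IsSupersingularRep ρ)

include hρ

open Classical in
/-- The character of `M / L`. -/
def quadChar : (cubicField ρ).fixingSubgroup →* ℂˣ where
  toFun g := if (g : GalQ) ∈ (quarticField ρ).fixingSubgroup then 1 else -1
  map_one' := if_pos (one_mem _)
  map_mul' a b := by
    simp only [Subgroup.coe_mul]
    by_cases ha : (a : GalQ) ∈ (quarticField ρ).fixingSubgroup
    · simp only [Subgroup.mul_mem_cancel_left _ ha, if_pos ha, one_mul]
    · by_cases hb : (b : GalQ) ∈ (quarticField ρ).fixingSubgroup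
      · simp only [Subgroup.mul_mem_cancel_right _ hb, if_pos hb, mul_one]
      · rw [if_pos (mul_mem_quartic hρ a.2 ha b.2 hb), if_neg ha, if_neg hb, neg_mul_neg, one_mul]

theorem quadChar_mem {g : (cubicField ρ).fixingSubgroup}
    (h : (g : GalQ) ∈ (quarticField ρ).fixingSubgroup) : quadChar hρ g = 1 := if_pos h

theorem quadChar_notMem {g : (cubicField ρ).fixingSubgroup}
    (h : (g : GalQ) ∉ (quarticField ρ).fixingSubgroup) : quadChar hρ g = -1 := if_neg h

theorem quadChar_pow_four (g : (cubicField ρ).fixingSubgroup) : quadChar hρ g ^ 4 = 1 := by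
  by_cases h : (g : GalQ) ∈ (quarticField ρ).fixingSubgroup
  · rw [quadChar_mem hρ h, one_pow]
  · rw [quadChar_notMem hρ h, Even.neg_one_pow ⟨2, rfl⟩]

theorem isLocallyConstant_quadChar : IsLocallyConstant (quadChar hρ) := by
  refine IsLocallyConstant.iff_exists_open _ |>.mpr fun g =>
    ⟨{h | ρ (h : GalQ) = ρ (g : GalQ)}, ?_, rfl, fun h hh => ?_⟩
  · exact (isOpen_discrete {ρ (g : GalQ)}).preimage (hρ.continuous.comp continuous_subtype_val)
  · have e : ((h : GalQ) ∈ (quarticField ρ).fixingSubgroup) ↔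
        ((g : GalQ) ∈ (quarticField ρ).fixingSubgroup) := by
      rw [mem_fixingSubgroup_fixH hρ.continuous, mem_fixingSubgroup_fixH hρ.continuous,
        show ρ (h : GalQ) = ρ (g : GalQ) from hh]
    by_cases hg : (g : GalQ) ∈ (quarticField ρ).fixingSubgroup
    · rw [quadChar_mem hρ hg, quadChar_mem hρ (e.2 hg)]
    · rw [quadChar_notMem hρ hg, quadChar_notMem hρ (mt e.1 hg)]

variable [NumberField (quarticField ρ)] {ξM : (FinAdele (quarticField ρ))ˣ →* ℂˣ}
  (hξ : IsIdeleChar (quarticField ρ) (psi hρ) ξM)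

omit hρ in
theorem prime_ne_three {K : IntermediateField ℚ Qbar} [NumberField K] {v : FinPlace K}
    (h3 : (3 : 𝓞 K) ∉ v.asIdeal) {A : ValuationSubring Qbar} {p : ℕ} (hA : A.LiesOverPrime p)
    (hv : intIdeal K A = v.asIdeal) : p ≠ 3 := fun h => h3 (by
  subst h
  have := natCast_mem_intIdeal K hA
  rw [hv] at this
  exact_mod_cast this)

/-- `psi` is unramified away from `3`. -/
theorem psi_unramified {v : FinPlace (quarticField ρ)}
    (h3 : (3 : 𝓞 (quarticField ρ)) ∉ v.asIdeal) :
    ∀ A, IsOver (quarticField ρ) v A → ∀ g (hg : g ∈ (quarticField ρ).fixingSubgroup),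
      g ∈ A.inertiaSubgroupIn ℚ → psi hρ ⟨g, hg⟩ = 1 := by
  rintro A ⟨⟨p, hp, hA⟩, hv⟩ g hg hgI
  exact psi_inertia hρ hp (prime_ne_three h3 hA hv) hA ⟨g, hg⟩ hgI

include hξ

/-- Away from `3` the character at a uniformiser is `psi` at a Frobenius. -/
theorem psi_uniformiser {v : FinPlace (quarticField ρ)}
    (h3 : (3 : 𝓞 (quarticField ρ)) ∉ v.asIdeal) {A : ValuationSubring Qbar}
    (hA : IsOver (quarticField ρ) v A) {g : GalQ} (hg : g ∈ (quarticField ρ).fixingSubgroup)
    (hF : IsFrobAt (quarticField ρ) v A g) {a : (v.adicCompletion (quarticField ρ))ˣ}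
    (ha : Valued.v (a : v.adicCompletion (quarticField ρ)) = exp (-1 : ℤ)) :
    ξM (localUnit v a) = psi hρ ⟨g, hg⟩ :=
  hξ.uniformiser v (psi_unramified hρ h3) A hA g hg hF a ha

theorem xi_pow_four (u : (FinAdele (quarticField ρ))ˣ) : ξM u ^ 4 = 1 := by
  have h : (powMonoidHom 4).comp ξM = 1 := by
    refine char_eq_one (hξ.hasModulus.comp_hom _) (hξ.isGlobalTrivial.comp_hom _)
      (finite_natCast_mem 3 (by norm_num)) fun v hv => ?_
    have h3 : (3 : 𝓞 (quarticField ρ)) ∉ v.asIdeal := fun h => hv (by simpa using h)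
    obtain ⟨A, hA⟩ := exists_isOver v
    obtain ⟨g, hg, hF⟩ := exists_isFrobAt hA
    rw [MonoidHom.comp_apply, piUnit, psi_uniformiser hρ hξ h3 hA hg hF (valued_piLocal v)]
    exact psi_pow_four hρ _
  exact DFunLike.congr_fun h u

theorem xi_unit_trivial (u : (FinAdele (quarticField ρ))ˣ)
    (hu : ∀ w, placeVal w (u : FinAdele (quarticField ρ)) = 1)
    (hu3 : ∀ w : FinPlace (quarticField ρ), (3 : 𝓞 (quarticField ρ)) ∈ w.asIdeal →
      placeVal w ((u : FinAdele (quarticField ρ)) - 1) < 1) : ξM u = 1 := by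
  refine apply_eq_one_of_local hξ.hasModulus hu fun w => ?_
  by_cases h3 : (3 : 𝓞 (quarticField ρ)) ∈ w.asIdeal
  · refine hξ.tame w (fun h2 => w.isPrime.ne_top ((Ideal.eq_top_iff_one _).2 ?_)) _ ?_
    · have := sub_mem h3 h2
      norm_num at this
      exact this
    · have := hu3 w h3
      rwa [placeVal, map_sub, map_one] at this
  · exact hξ.unit_eq_one w (psi_unramified hρ h3) _ (hu w)

theorem xi_finMap (u : (FinAdele (quarticField ρ))ˣ) :
    ξM (Units.map (finMap (quartAut hρ : quarticField ρ →+* quarticField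
      ρ)).toRingHom.toMonoidHom u) = (ξM u)⁻¹ := by
  let σ : quarticField ρ →+* quarticField ρ := quartAut hρ
  have h : invMonoidHom.comp (ξM.comp (Units.map (finExtend σ).toRingHom.toMonoidHom)) = ξM := by
    refine char_ext ((hξ.hasModulus.comp_finExtend σ).comp_hom _) hξ.hasModulus
      ((hξ.isGlobalTrivial.comp_finExtend σ).comp_hom _) hξ.isGlobalTrivial
      (finite_natCast_mem 3 (by norm_num)) fun v hv => ?_
    have h3 : (3 : 𝓞 (quarticField ρ)) ∉ v.asIdeal := fun h => hv (by simpa using h)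
    obtain ⟨A, hA⟩ := exists_isOver v
    obtain ⟨g, hg, hF⟩ := exists_isFrobAt hA
    set v' := conjPlace hρ v
    set k := (quartLift hρ)⁻¹
    have hk : k ∈ (cubicField ρ).fixingSubgroup := inv_mem (quartLift_mem hρ)
    have hkn : k ∉ (quarticField ρ).fixingSubgroup := fun h =>
      quartLift_notMem hρ (inv_mem_iff.1 h)
    obtain ⟨hm, hψ⟩ := psi_conj hρ hk hkn ⟨g, hg⟩
    have hA' : IsOver (quarticField ρ) v' (k • A) := by
      obtain ⟨⟨p, hp, hAp⟩, hAv⟩ := hA
      exact ⟨⟨p, hp, liesOverPrime_smul hAp k⟩, intIdeal_smul_quartLift hρ hAv⟩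
    have h3' : (3 : 𝓞 (quarticField ρ)) ∉ v'.asIdeal := fun h => h3 (by
      rwa [mem_comapPlace, map_ofNat] at h)
    have hF' : IsFrobAt (quarticField ρ) v' (k • A) (k * g * k⁻¹) := by
      refine ⟨(decompositionSubgroup_smul_iff g k).2 hF.1, fun b => ?_⟩
      rw [absNorm_conjPlace hρ v, zbarIdeal_smul, Ideal.mem_pointwise_smul_iff_inv_smul_mem,
        smul_sub, smul_pow', ← mul_smul, show k⁻¹ * (k * g * k⁻¹) = g * k⁻¹ by group, mul_smul]
      exact hF.2 _
    set x := Units.map (finExtend σ).toRingHom.toMonoidHom (piUnit v)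
    have hx : x = localUnit v' (compUnit v' x) := eq_localUnit_of_toPlace fun w hw => by
      show toPlace w (finExtend σ (piUnit v : FinAdele (quarticField ρ))) = 1
      rw [PlaceMatching.toPlace_finExtend (v := conjPlace hρ w) rfl, toPlace_piUnit_ne, map_one]
      exact fun e => hw (by rw [← conjPlace_conjPlace hρ w, e])
    have hval : Valued.v (compUnit v' x : v'.adicCompletion (quarticField ρ)) = exp (-1 : ℤ) := by
      show placeVal v' (finMap σ (piUnit v : FinAdele (quarticField ρ))) = _
      rw [placeVal_finMap]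
      show placeVal (conjPlace hρ v') _ = _
      rw [conjPlace_conjPlace, placeVal_piUnit_same]
    have hval' := psi_uniformiser hρ hξ h3' hA' hm hF' hval
    rw [← hx] at hval'
    rw [MonoidHom.comp_apply, MonoidHom.comp_apply, invMonoidHom_apply, hval', hψ, inv_inv, piUnit,
      psi_uniformiser hρ hξ h3 hA hg hF (valued_piLocal v)]
  have h' := DFunLike.congr_fun h u
  rw [MonoidHom.comp_apply, invMonoidHom_apply, inv_eq_iff_eq_inv] at h'
  exact h'

variable [NumberField (cubicField ρ)] {ξL : (FinAdele (cubicField ρ))ˣ →* ℂˣ}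
  (hξL : IsIdeleChar (cubicField ρ) (quadChar hρ) ξL)

include hξL

omit hξ [NumberField (quarticField ρ)] in
/-- At a place of `L` unramified in `M` the character at a uniformiser is `quadChar` at a
Frobenius. -/
theorem quad_uniformiser {v : FinPlace (cubicField ρ)} (hv : NoInertia v)
    {A : ValuationSubring Qbar} (hA : IsOver (cubicField ρ) v A) {g : GalQ}
    (hg : g ∈ (cubicField ρ).fixingSubgroup) (hF : IsFrobAt (cubicField ρ) v A g) :
    ξL (piUnit v) = quadChar hρ ⟨g, hg⟩ := by
  refine hξL.uniformiser v ?_ A hA g hg hF (piLocal v) (valued_piLocal v)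
  rintro A' ⟨⟨p, hp, hA'⟩, hv'⟩ τ hτ hτI
  exact quadChar_mem hρ (hv p A' hp hA' hv' τ hτI hτ)

/-- On the ideles of `L` the character is that of `M / L`. -/
theorem xi_restrict :
    ξM.comp (Units.map (finExtend (inclM ρ)).toRingHom.toMonoidHom) = ξL := by
  refine char_ext (hξ.hasModulus.comp_finExtend _) hξL.hasModulus
    (hξ.isGlobalTrivial.comp_finExtend _) hξL.isGlobalTrivial
    (finite_natCast_mem 3 (by norm_num)) fun v hv => ?_
  have h3 : (3 : 𝓞 (cubicField ρ)) ∉ v.asIdeal := fun h => hv (by simpa using h)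
  have hNI := noInertia_of_notMem hρ h3
  obtain ⟨p, A, w, hp, hA, hvA, hwA, hw⟩ := exists_above v
  have hov : IsOver (cubicField ρ) v A := ⟨⟨p, hp, hA⟩, hvA⟩
  obtain ⟨g, hg, hF⟩ := exists_isFrobAt hov
  rw [quad_uniformiser hρ hξL hNI hov hg hF, MonoidHom.comp_apply]
  set x := Units.map (finExtend (inclM ρ)).toRingHom.toMonoidHom (piUnit v)
  have hother : ∀ u : FinPlace (quarticField ρ), comapPlace (inclM ρ) u ≠ v →
      toPlace u (x : FinAdele (quarticField ρ)) = 1 := fun u hu => by
    show toPlace u (finExtend (inclM ρ) (piUnit v : FinAdele (cubicField ρ))) = 1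
    rw [PlaceMatching.toPlace_finExtend (v := comapPlace (inclM ρ) u) rfl, toPlace_piUnit_ne hu,
      map_one]
  obtain ⟨d, hd, hNd⟩ := exists_absNorm_eq_pow (inclM ρ) w
  rw [hw] at hNd
  have h1 := one_lt_absNorm v
  have hbound : ∀ {n : ℕ}, 1 < n → ∀ {s : GalQ}, s ∈ (quarticField ρ).fixingSubgroup →
      (∀ b : Zbar, s • b - b ^ n ∈ zbarIdeal A) → Ideal.absNorm w.asIdeal ≤ n :=
    fun hn _ hs h => hwA ▸ absNorm_le_of_pow hA hp hn hs h
  by_cases hgM : g ∈ (quarticField ρ).fixingSubgroup
  · rw [quadChar_mem hρ hgM]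
    have hN : Ideal.absNorm w.asIdeal = Ideal.absNorm v.asIdeal :=
      le_antisymm (hbound h1 hgM hF.2) (hNd ▸ Nat.le_self_pow hd.ne' _)
    have hne := conjPlace_ne hρ hNI hw hN
    set y := localUnit w (compUnit w x)
    set τy := Units.map (finMap (quartAut hρ : quarticField ρ →+* quarticField
      ρ)).toRingHom.toMonoidHom y
    have hxy : x = y * τy := units_ext fun u => by
      rw [Units.val_mul, map_mul]
      show _ = _ * toPlace u (finMap (quartAut hρ : quarticField ρ →+* quarticField ρ)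
        (y : FinAdele (quarticField ρ)))
      rw [PlaceMatching.toPlace_finMap (w' := conjPlace hρ u) rfl]
      rcases eq_or_ne u w with rfl | huw
      · rw [toPlace_localUnit_same, toPlace_localUnit_ne hne, map_one, mul_one]
        rfl
      rw [toPlace_localUnit_ne huw, one_mul]
      rcases eq_or_ne (conjPlace hρ u) w with huc | huc
      · have hfix : finMap (quartAut hρ : quarticField ρ →+* quarticField ρ)
            (x : FinAdele (quarticField ρ)) = x := by
          show finExtend (quartAut hρ : quarticField ρ →+* quarticField ρ)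
            (finExtend (inclM ρ) (piUnit v : FinAdele (cubicField ρ))) = _
          rw [PlaceMatching.finExtend_finExtend,
            show (quartAut hρ : quarticField ρ →+* quarticField ρ).comp (inclM ρ) = inclM ρ from
              RingHom.ext (quartAut_inclM hρ)]
          rfl
        conv_lhs => rw [← hfix, PlaceMatching.toPlace_finMap (w' := conjPlace hρ u) rfl]
        congr 1
        have : ∀ u' : FinPlace (quarticField ρ), u' = w →
            toPlace u' (x : FinAdele (quarticField ρ)) =
              toPlace u' (y : FinAdele (quarticField ρ)) := by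
          rintro u' rfl
          exact (toPlace_localUnit_same u' (compUnit u' x)).symm
        exact this _ huc
      · rw [toPlace_localUnit_ne huc, map_one]
        refine hother u fun hu => ?_
        rcases above_cases hρ (hu.trans hw.symm) with h | h
        · exact huw h
        · exact huc (by rw [h]; exact conjPlace_conjPlace hρ w)
    rw [hxy, map_mul, xi_finMap hρ hξ, mul_inv_cancel]
  · rw [quadChar_notMem hρ hgM]
    have hc : conjPlace hρ w = w := conjPlace_eq_of_decomposition hρ hwA hg hgM hF.1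
    have hx : x = localUnit w (compUnit w x) := eq_localUnit_of_toPlace fun u hu =>
      hother u fun hu' => by
        rcases above_cases hρ (hu'.trans hw.symm) with h | h
        · exact hu h
        · exact hu (h.trans hc)
    obtain ⟨hgg, hψ⟩ := psi_sq_of_notMem hρ hg hgM
    have hres : ∀ b : Zbar, (g * g) • b - b ^ (Ideal.absNorm v.asIdeal ^ 2) ∈ zbarIdeal A :=
      fun b => by
        rw [mul_smul, ← zbarResidue_eq_iff, zbarResidue_eq_iff.2 (hF.2 _), map_pow,
          zbarResidue_eq_iff.2 (hF.2 b), map_pow, map_pow, ← pow_mul, sq]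
    have hle := hbound (Nat.one_lt_pow two_ne_zero h1) hgg hres
    rw [hNd, Nat.pow_le_pow_iff_right h1] at hle
    have hd2 : d = 2 := by
      by_contra hne
      exact conjPlace_ne hρ hNI hw (by rw [hNd, show d = 1 by omega, pow_one]) hc
    subst hd2
    have h3w : (3 : 𝓞 (quarticField ρ)) ∉ w.asIdeal := fun h => h3 (by
      rw [← hw, mem_comapPlace, map_ofNat]; exact h)
    have hval : Valued.v (compUnit w x : w.adicCompletion (quarticField ρ)) = exp (-1 : ℤ) := by
      show placeVal w (finExtend (inclM ρ) (piUnit v : FinAdele (cubicField ρ))) = _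
      rw [placeVal_finExtend one_ne_zero fun a => by
          rw [pow_one, hw]; exact valuation_inclM_of_conjPlace_eq hρ hNI hw hc a,
        pow_one, hw, placeVal_piUnit_same]
    rw [hx, psi_uniformiser hρ hξ h3w ⟨⟨p, hp, hA⟩, hwA⟩ hgg
      ⟨mul_mem hF.1 hF.1, hNd ▸ hres⟩ hval]
    exact hψ

theorem xi_eta_inert (v : FinPlace (cubicField ρ)) (w : FinPlace (quarticField ρ))
    (hw : comapPlace (inclM ρ) w = v)
    (hlt : Ideal.absNorm v.asIdeal < Ideal.absNorm w.asIdeal) :
    ξM (Units.map (finExtend (inclM ρ)).toRingHom.toMonoidHom (piUnit v)) = -1 := by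
  obtain ⟨A, hA⟩ := exists_isOver w
  obtain ⟨⟨p, hp, hAp⟩, hwA⟩ := hA
  have hov : IsOver (cubicField ρ) v A :=
    ⟨⟨p, hp, hAp⟩, by rw [← comapPlace_eq_of_intIdeal hwA, hw]⟩
  obtain ⟨g, hg, hF⟩ := exists_isFrobAt hov
  rw [← MonoidHom.comp_apply ξM, xi_restrict hρ hξ hξL,
    quad_uniformiser hρ hξL (noInertia_of_lt hρ hw hlt) hov hg hF]
  refine quadChar_notMem hρ fun hgM => ?_
  have := absNorm_le_of_pow hAp hp (one_lt_absNorm v) hgM hF.2
  rw [hwA] at this
  omega

omit hξ hξL

/-- The idele character of `psi` and its properties. -/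
theorem nonempty_ideleCharData : Nonempty (IdeleCharData hρ) := by
  have := isTotallyComplex_cubicField hρ
  have := isTotallyComplex_quarticField hρ
  obtain ⟨ξM, hξ⟩ := exists_isIdeleChar (quarticField ρ) (psi hρ) (isLocallyConstant_psi hρ)
    (psi_pow_four hρ)
  obtain ⟨ξL, hξL⟩ := exists_isIdeleChar (cubicField ρ) (quadChar hρ)
    (isLocallyConstant_quadChar hρ) (quadChar_pow_four hρ)
  refine ⟨{
    ξ := ξM
    pow_four := xi_pow_four hρ hξ
    glob := hξ.map_global
    unit_trivial := xi_unit_trivial hρ hξ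
    frob := ?_
    conj_inv := xi_finMap hρ hξ
    eta_inert := fun v w hw _ hlt => xi_eta_inert hρ hξ hξL v w hw hlt
    unit_surj := ?_ }⟩
  · rintro w h3 - g ⟨p, f, A, σ, hp, hA, hσ, hAw, hN, hg⟩
    refine psi_uniformiser hρ hξ h3 ⟨⟨p, hp, hA⟩, hAw⟩ g.2 ⟨?_, fun b => ?_⟩ (valued_piLocal w)
    · obtain ⟨hσ', -⟩ := hσ
      rw [hg]
      exact pow_mem hσ' f
    · rw [hg, hN]
      exact pow_frobenius_sub_mem hA hp hσ f b
  · intro A hA w hw g hg
    obtain ⟨a, ha, he⟩ := hξ.surj_inertia w A ⟨⟨3, Nat.prime_three, hA⟩, hw⟩ g g.2 hg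
    exact ⟨localUnit w a, fun w' h' => toPlace_localUnit_ne h' a,
      by rw [placeVal, toPlace_localUnit_same]; exact ha, he⟩

end Fermat.Agent.LT.Reciprocity

end
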