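import Fermat.Agent.LT.Reciprocity.Inequalities
import Mathlib.Dynamics.PeriodicPts.Defs

/-!
# Covers by a finite abelian group, and lifting of split primes

A cocycle with values in an abelian group `A` gives a cover `X × A → X`; an unramified orbit on
which the Frobenius sum of the cocycle vanishes lifts to the cover.
-/

set_option autoImplicit false

noncomputable section

namespace Fermat.Agent.LT.Reciprocity

open Fermat.Agent.PoitouTate

variable {X : Type*} {A B : Type*} [AddCommGroup A] [AddCommGroup B]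
  {σ : GQ →* Equiv.Perm X} {d : GQ → X → A}

/-- The cocycle identity. -/
def IsAbCocycle (σ : GQ →* Equiv.Perm X) (d : GQ → X → A) : Prop :=
  ∀ g h x, d (g * h) x = d h ((σ g).symm x) + d g x

theorem isAbCocycle_of_isSetCocycle {N : ℕ} {c : GQ → X → ZMod N} (hc : IsSetCocycle σ c) :
    IsAbCocycle σ c := hc

/-- A cocycle vanishes at one. -/
theorem IsAbCocycle.map_one (hd : IsAbCocycle σ d) (x : X) : d 1 x = 0 := by
  have h := hd 1 1 x
  rw [mul_one, _root_.map_one σ, show (1 : Equiv.Perm X).symm x = x from rfl] at h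
  simpa using h

/-- The image of a cocycle under a homomorphism is a cocycle. -/
theorem IsAbCocycle.comp (hd : IsAbCocycle σ d) (f : A →+ B) :
    IsAbCocycle σ fun g x => f (d g x) := fun g h x => by
  show f (d (g * h) x) = f (d h ((σ g).symm x)) + f (d g x)
  rw [hd g h x, map_add]

/-- The cover attached to a cocycle. -/
def abPerm (hd : IsAbCocycle σ d) : GQ →* Equiv.Perm (X × A) where
  toFun g :=
    { toFun := fun z => (σ g z.1, z.2 + d g (σ g z.1))
      invFun := fun z => ((σ g).symm z.1, z.2 - d g z.1)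
      left_inv := fun z => by simp
      right_inv := fun z => by simp }
  map_one' := by
    ext z <;> simp [hd.map_one]
  map_mul' g h := by
    ext z <;> simp [hd g h, add_assoc]

/-- The action on the cover. -/
theorem abPerm_apply (hd : IsAbCocycle σ d) (g : GQ) (z : X × A) :
    abPerm hd g z = (σ g z.1, z.2 + d g (σ g z.1)) := rfl

/-- The inverse action on the cover. -/
theorem abPerm_symm_apply (hd : IsAbCocycle σ d) (g : GQ) (z : X × A) :
    (abPerm hd g).symm z = ((σ g).symm z.1, z.2 - d g z.1) := rfl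

/-- The projection of the cover is equivariant. -/
theorem isEquivMap_abFst (hd : IsAbCocycle σ d) : IsEquivMap (abPerm hd) σ Prod.fst :=
  fun _ _ => rfl

/-- The action commutes with translations in the fibre. -/
theorem abPerm_translate (hd : IsAbCocycle σ d) (g : GQ) (z : X × A) (a : A) :
    abPerm hd g (z.1, z.2 + a) = ((abPerm hd g z).1, (abPerm hd g z).2 + a) := by
  simp [abPerm_apply, add_right_comm]

/-- The cover by a locally constant cocycle is smooth. -/
theorem isSmoothSet_abPerm (hd : IsAbCocycle σ d) (hσ : IsSmoothSet allLevels σ)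
    (hlc : allLevels.IsLC₁ d) : IsSmoothSet allLevels (abPerm hd) := by
  obtain ⟨U, hU, hUd⟩ := hlc
  obtain ⟨V, hV, hVσ⟩ := hσ
  obtain ⟨W, hW, hWU, hWV⟩ := allLevels.inf hU hV
  refine ⟨W, hW, fun s hs => Equiv.ext fun z => ?_⟩
  have h := hUd 1 s (hWU hs)
  rw [one_mul] at h
  rw [abPerm_apply, h, hVσ s (hWV hs), Equiv.Perm.one_apply, hd.map_one, add_zero]
  rfl

/-- The cover is unramified at `q` if the base is and the cocycle kills inertia. -/
theorem isUnramifiedSet_abPerm (hd : IsAbCocycle σ d) {q : ℕ} (hu : IsUnramifiedSet q σ)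
    (hud : ∀ A : ValuationSubring QBar, A.LiesOverPrime q → ∀ g ∈ A.inertiaSubgroupIn ℚ,
      ∀ x, d g x = 0) : IsUnramifiedSet q (abPerm hd) := fun P hP g hg => Equiv.ext fun z => by
  rw [abPerm_apply, hu P hP g hg, Equiv.Perm.one_apply, hud P hP g hg, add_zero]
  rfl

/-- A cocycle kills the inertia groups of a prime unramified in its cover. -/
theorem eq_zero_of_unramified_cover {N : ℕ} {c : GQ → X → ZMod N} {hc : IsSetCocycle σ c}
    {q : ℕ} (hu : IsUnramifiedSet q (coverPerm σ c hc)) (A : ValuationSubring QBar)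
    (hA : A.LiesOverPrime q) (g : GQ) (hg : g ∈ A.inertiaSubgroupIn ℚ) (x : X) : c g x = 0 := by
  have h := congrArg (fun e : Equiv.Perm (X × ZMod N) => e ((σ g).symm x, 0)) (hu A hA g hg)
  simp only [coverPerm_apply, Equiv.apply_symm_apply, zero_add, Equiv.Perm.one_apply,
    Prod.mk.injEq] at h
  exact h.2

/-- The cover is transitive if the stabiliser of a point takes every value. -/
theorem isTransitive_abPerm (hd : IsAbCocycle σ d) (htr : IsTransitive σ) (x₀ : X)
    (h : ∀ a, ∃ g, σ g x₀ = x₀ ∧ d g x₀ = a) : IsTransitive (abPerm hd) := by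
  have hto : ∀ z, ∃ g, abPerm hd g (x₀, 0) = z := fun z => by
    obtain ⟨t, ht⟩ := htr.2 x₀ z.1
    obtain ⟨g, hg, hga⟩ := h (z.2 - d t z.1)
    refine ⟨t * g, ?_⟩
    rw [map_mul, Equiv.Perm.mul_apply, abPerm_apply, abPerm_apply, hg, hga, ht]
    simp
  refine ⟨⟨(x₀, 0)⟩, fun a b => ?_⟩
  obtain ⟨g, hg⟩ := hto a
  obtain ⟨g', hg'⟩ := hto b
  exact ⟨g' * g⁻¹, by rw [map_mul, map_inv, ← hg, Equiv.Perm.mul_apply, Equiv.Perm.inv_def,
    Equiv.symm_apply_apply, hg']⟩

/-- The cover is transitive if the stabiliser of a point takes every value. -/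
theorem isTransitive_coverPerm_of_surjective {N : ℕ} {c : GQ → X → ZMod N}
    {hc : IsSetCocycle σ c} (htr : IsTransitive σ) (x₀ : X)
    (h : ∀ a, ∃ g, σ g x₀ = x₀ ∧ c g x₀ = a) : IsTransitive (coverPerm σ c hc) :=
  isTransitive_abPerm (isAbCocycle_of_isSetCocycle hc) htr x₀ h

/-- In a transitive cover the stabiliser of a point takes every value. -/
theorem exists_stab_eq_of_transitive {N : ℕ} {c : GQ → X → ZMod N} {hc : IsSetCocycle σ c}
    (htr' : IsTransitive (coverPerm σ c hc)) (x₀ : X) (a : ZMod N) :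
    ∃ g, σ g x₀ = x₀ ∧ c g x₀ = a := by
  obtain ⟨g, hg⟩ := htr'.2 (x₀, 0) (x₀, a)
  rw [coverPerm_apply, Prod.mk.injEq] at hg
  exact ⟨g, hg.1, by simpa [hg.1] using hg.2⟩

/-! ### Primes -/

variable [Fintype X]

/-- The indicator divisor of an orbit. -/
def orbitDiv (q : Nat.Primes) (O : Places (q : ℕ) σ) : Nat.Primes → X → ℤ := by
  classical
  exact fun r x => if h : r = q then (if orbitOf (q : ℕ) σ x = O then 1 else 0) else 0

omit [Fintype X] in
/-- The orbit divisor at its own prime. -/
theorem orbitDiv_self (q : Nat.Primes) (O : Places (q : ℕ) σ) (x : X) :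
    orbitDiv q O q x = (letI := Classical.dec (orbitOf (q : ℕ) σ x = O);
      if orbitOf (q : ℕ) σ x = O then 1 else 0) := by
  classical
  simp only [orbitDiv, dif_pos]
  congr 1

omit [Fintype X] in
/-- The orbit divisor vanishes at the other primes. -/
theorem orbitDiv_of_ne {q r : Nat.Primes} (h : r ≠ q) (O : Places (q : ℕ) σ) :
    orbitDiv q O r = 0 := funext fun x => by simp [orbitDiv, h]

omit [Fintype X] in
/-- The orbit divisor is prime to `S`. -/
theorem orbitDiv_mem {S : Finset Nat.Primes} {q : Nat.Primes} (hq : q ∉ S)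
    (O : Places (q : ℕ) σ) : orbitDiv q O ∈ divS σ S := by
  classical
  refine ⟨(Set.finite_singleton q).subset fun r hr => by_contra fun h => hr (orbitDiv_of_ne h O),
    fun r hr => orbitDiv_of_ne (by rintro rfl; exact hq hr) O, fun r g x => ?_⟩
  by_cases h : r = q
  · subst h
    have h1 : orbitOf (r : ℕ) σ (localPerm (r : ℕ) σ g x) = orbitOf (r : ℕ) σ x := by
      conv_rhs => rw [← Equiv.symm_apply_apply (localPerm (r : ℕ) σ g) x, orbitOf_symm_apply]
    rw [orbitDiv_self, orbitDiv_self, h1]
  · rw [orbitDiv_of_ne h]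
    rfl

open scoped Classical in
/-- The symbol of an orbit is the sum of the Frobenius values on it. -/
theorem art_orbitDiv (c : GQ → X → A) (q : Nat.Primes) (O : Places (q : ℕ) σ) :
    art c (orbitDiv q O) = ∑ x with orbitOf (q : ℕ) σ x = O, c (frob q) x := by
  rw [art, finsum_eq_single _ q fun r hr => by simp [artAt, orbitDiv_of_ne hr], artAt,
    Finset.sum_filter]
  refine Finset.sum_congr rfl fun x _ => ?_
  rw [orbitDiv_self]
  split_ifs <;> simp

omit [Fintype X] in
/-- At an unramified prime the orbits are the cycles of Frobenius. -/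
theorem exists_frob_pow (hσ : IsSmoothSet allLevels σ) (q : Nat.Primes)
    (hu : IsUnramifiedSet (q : ℕ) σ) {x y : X}
    (h : orbitOf (q : ℕ) σ x = orbitOf (q : ℕ) σ y) :
    ∃ i : ℕ, (σ (frob q))^[i] x = y := by
  obtain ⟨g, hg⟩ := Quotient.exact (s := placeSetoid (q : ℕ) σ) h
  obtain ⟨i, hi⟩ := hu.exists_eq_pow hσ (frobLoc_isFrobeniusAt q) g
  refine ⟨i, ?_⟩
  rw [← Equiv.Perm.coe_pow]
  rw [hi] at hg
  exact hg

omit [Fintype X] in
theorem orbitOf_frob_iterate (q : Nat.Primes) (x : X) (i : ℕ) :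
    orbitOf (q : ℕ) σ ((σ (frob q))^[i] x) = orbitOf (q : ℕ) σ x :=
  (Quotient.sound (s := placeSetoid (q : ℕ) σ) ⟨frobLoc q ^ i, by
    rw [← Equiv.Perm.coe_pow, map_pow]
    rfl⟩).symm

open scoped Classical in
/-- An orbit with vanishing Frobenius sum lifts. -/
theorem exists_lift_orbitDiv [Fintype A] (hd : IsAbCocycle σ d) (hσ : IsSmoothSet allLevels σ)
    (hlc : allLevels.IsLC₁ d) {S : Finset Nat.Primes} {q : Nat.Primes} (hq : q ∉ S)
    (hu : IsUnramifiedSet (q : ℕ) (abPerm hd)) (O : Places (q : ℕ) σ)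
    (h0 : ∑ x with orbitOf (q : ℕ) σ x = O, d (frob q) x = 0) :
    ∃ E : ↥(divS (abPerm hd) S), (pushDiv (isEquivMap_abFst hd) E).1 = orbitDiv q O := by
  set P := abPerm hd
  have hbase : IsUnramifiedSet (q : ℕ) σ :=
    hu.of_equivMap (fun x => ⟨(x, 0), rfl⟩) (isEquivMap_abFst hd)
  have hsm := isSmoothSet_abPerm hd hσ hlc
  obtain ⟨x₀, hx₀⟩ := Quotient.exists_rep (s := placeSetoid (q : ℕ) σ) O
  set s : X → X := ⇑(σ (frob q))
  set z₀ : X × A := (x₀, 0)
  have hfst : ∀ i, ((P (frob q))^[i] z₀).1 = s^[i] x₀ := fun i => by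
    induction i with
    | zero => rfl
    | succ i ih =>
      rw [Function.iterate_succ_apply', Function.iterate_succ_apply', ← ih]
      rfl
  have hsnd : ∀ i, ((P (frob q))^[i] z₀).2 = ∑ t ∈ Finset.range i, d (frob q) (s^[t + 1] x₀) := by
    intro i
    induction i with
    | zero => rfl
    | succ i ih =>
      rw [Function.iterate_succ_apply', abPerm_apply, Finset.sum_range_succ, ← ih, hfst]
      simp only [s, Function.iterate_succ_apply']
  set f := Function.minimalPeriod s x₀
  have hper : ∃ m > 0, Function.IsPeriodicPt s m x₀ :=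
    ⟨orderOf (σ (frob q)), orderOf_pos _, by
      rw [Function.IsPeriodicPt, Function.IsFixedPt, ← Equiv.Perm.coe_pow, pow_orderOf_eq_one]
      rfl⟩
  obtain ⟨m, hm, hmper⟩ := hper
  have hfpos : 0 < f := hmper.minimalPeriod_pos hm
  have hperf : s^[f] x₀ = x₀ := Function.iterate_minimalPeriod
  -- the lift has the same period
  have hzf : (P (frob q))^[f] z₀ = z₀ := by
    refine Prod.ext (by rw [hfst, hperf]) ?_
    rw [hsnd]
    show _ = (0 : A)
    rw [← h0]
    refine Finset.sum_bij (fun t _ => s^[t + 1] x₀) (fun t _ => ?_) ?_ (fun x hx => ?_)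
      fun _ _ => rfl
    · refine Finset.mem_filter.2 ⟨Finset.mem_univ _, ?_⟩
      rw [orbitOf_frob_iterate]
      exact hx₀
    · intro t ht t' ht' e
      rw [Finset.mem_range] at ht ht'
      have e' := congrArg s^[f - 1] e
      rw [← Function.iterate_add_apply, ← Function.iterate_add_apply,
        show f - 1 + (t + 1) = t + f by omega, show f - 1 + (t' + 1) = t' + f by omega,
        Function.iterate_add_apply, Function.iterate_add_apply, hperf] at e'
      exact Function.iterate_injOn_Iio_minimalPeriod ht ht' e'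
    · obtain ⟨i, hi⟩ := exists_frob_pow hσ q hbase
        (show orbitOf (q : ℕ) σ x₀ = orbitOf (q : ℕ) σ x from
          hx₀.trans (Finset.mem_filter.1 hx).2.symm)
      refine ⟨(i + (f - 1)) % f, Finset.mem_range.2 (Nat.mod_lt _ hfpos), ?_⟩
      rw [Function.iterate_succ_apply', Function.iterate_mod_minimalPeriod_eq,
        ← Function.iterate_succ_apply' s, Nat.succ_eq_add_one,
        show i + (f - 1) + 1 = i + f by omega, Function.iterate_add_apply, hperf]
      exact hi
  refine ⟨⟨orbitDiv q (orbitOf (q : ℕ) P z₀), orbitDiv_mem hq _⟩, funext fun r => ?_⟩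
  rw [pushDiv_coe]
  by_cases hr : r = q
  swap
  · simp [orbitDiv_of_ne hr]
  subst hr
  funext x
  rw [push_apply, orbitDiv_self]
  simp only [orbitDiv_self]
  have hmem : ∀ z, orbitOf (r : ℕ) P z = orbitOf (r : ℕ) P z₀ → orbitOf (r : ℕ) σ z.1 = O :=
    fun z hz => by
      obtain ⟨i, hi⟩ := exists_frob_pow hsm r hu hz.symm
      rw [← hi, hfst, orbitOf_frob_iterate]
      exact hx₀
  split_ifs with hx
  · obtain ⟨i, hi⟩ := exists_frob_pow hσ r hbase (hx₀.trans hx.symm)
    refine (Finset.sum_eq_single ((P (frob r))^[i] z₀) (fun z hz1 hne => if_neg fun hz => hne ?_)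
      fun h => absurd (Finset.mem_filter.2 ⟨Finset.mem_univ _, by rw [hfst, hi]⟩) h).trans
      (if_pos (orbitOf_frob_iterate r z₀ i))
    · replace hz1 := (Finset.mem_filter.1 hz1).2
      obtain ⟨j, rfl⟩ := exists_frob_pow hsm r hu hz.symm
      rw [hfst, ← hi] at hz1
      rw [← Function.iterate_mod_minimalPeriod_eq (f := s) (x := x₀) (n := j),
        ← Function.iterate_mod_minimalPeriod_eq (f := s) (x := x₀) (n := i)] at hz1
      have hmod := Function.iterate_injOn_Iio_minimalPeriod (Nat.mod_lt _ hfpos)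
        (Nat.mod_lt _ hfpos) hz1
      have key : ∀ n, (P (frob r))^[n] z₀ = (P (frob r))^[n % f] z₀ := fun n =>
        (Function.IsPeriodicPt.iterate_mod_apply hzf n).symm
      rw [key j, key i]
      exact congrArg (fun n => (P (frob r))^[n] z₀) hmod
  · refine Finset.sum_eq_zero fun z hz1 => if_neg fun hz => hx ?_
    rw [← (Finset.mem_filter.1 hz1).2]
    exact hmem z hz

end Fermat.Agent.LT.Reciprocity

end
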