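import Mathlib.FieldTheory.Finite.Basic
import Mathlib.RingTheory.IntegralDomain
import Mathlib.GroupTheory.SpecificGroups.Cyclic
import Mathlib.Data.Fintype.EquivFin

/-!
# Auxiliary primes for Artin's crossing lemma

Primes `ℓ` at which given integers have large two-power orders, and an element of the product of
the unit groups independent of each of them modulo a power of two.
-/

set_option autoImplicit false

noncomputable section

namespace Fermat.Agent.LT.Reciprocity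

instance factPrimeAux (p : Nat.Primes) : Fact (p : ℕ).Prime := ⟨p.2⟩

/-- A prime at which `a` has order exactly `2 ^ (k + 2)`. -/
theorem exists_prime_orderOf_two_pow {a : ℕ} (ha : 2 ≤ a) (k : ℕ) :
    ∃ ℓ : Nat.Primes, orderOf (a : ZMod (ℓ : ℕ)) = 2 ^ (k + 2) ∧ 2 ^ (k + 2) < (ℓ : ℕ) ∧
      2 ^ (k + 2) ∣ (ℓ : ℕ) - 1 := by
  set b := a ^ 2 ^ k with hb
  have hb2 : 2 ≤ b := ha.trans (Nat.le_self_pow (pow_ne_zero _ two_ne_zero) a)
  obtain ⟨ℓ, hℓ, hℓd, hℓ2⟩ : ∃ ℓ : ℕ, ℓ.Prime ∧ ℓ ∣ b ^ 2 + 1 ∧ ℓ ≠ 2 := by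
    have h5 : 5 ≤ b ^ 2 + 1 := by nlinarith
    by_contra hcon
    push Not at hcon
    have hne : b ^ 2 + 1 ≠ 0 := by omega
    have hpow := Nat.eq_prime_pow_of_unique_prime_dvd hne fun {d} hd hdd => hcon d hd hdd
    set e := (b ^ 2 + 1).primeFactorsList.length
    have he : 2 ≤ e := by
      by_contra h
      interval_cases e <;> omega
    have h4 : 4 ∣ b ^ 2 + 1 := hpow ▸ pow_dvd_pow 2 he
    rcases Nat.even_or_odd b with ⟨c, hc⟩ | ⟨c, hc⟩ <;> rw [hc] at h4 <;>
      ring_nf at h4 <;> omega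
  have : Fact ℓ.Prime := ⟨hℓ⟩
  have hm1 : (a : ZMod ℓ) ^ 2 ^ (k + 1) = -1 := by
    rw [eq_neg_iff_add_eq_zero, pow_succ, pow_mul, ← Nat.cast_pow, ← hb, ← Nat.cast_pow,
      ← Nat.cast_one, ← Nat.cast_add, ZMod.natCast_eq_zero_iff]
    exact hℓd
  have hne1 : (a : ZMod ℓ) ^ 2 ^ (k + 1) ≠ 1 := by
    rw [hm1]
    intro h
    have : ((2 : ℕ) : ZMod ℓ) = 0 := by
      push_cast
      linear_combination -h
    rw [ZMod.natCast_eq_zero_iff] at this
    exact hℓ2 ((Nat.prime_dvd_prime_iff_eq hℓ Nat.prime_two).1 this)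
  have hord : orderOf (a : ZMod ℓ) = 2 ^ (k + 2) :=
    orderOf_eq_prime_pow (hp := Fact.mk Nat.prime_two) hne1
      (by rw [pow_succ 2 (k + 1), pow_mul, hm1]; norm_num)
  have hdvd : 2 ^ (k + 2) ∣ ℓ - 1 := by
    rw [← hord]
    refine ZMod.orderOf_dvd_card_sub_one fun h0 => ?_
    rw [h0, zero_pow (pow_ne_zero _ two_ne_zero)] at hm1
    exact neg_ne_zero.2 one_ne_zero hm1.symm
  refine ⟨⟨ℓ, hℓ⟩, hord, ?_, hdvd⟩
  have := Nat.le_of_dvd (Nat.sub_pos_of_lt hℓ.one_lt) hdvd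
  show 2 ^ (k + 2) < ℓ
  omega

/-- The auxiliary primes, the independent element and the independence. -/
theorem exists_aux_primes {ι : Type*} [Fintype ι] (k : ℕ) (a : ι → ℕ) (ha : ∀ i, 2 ≤ a i)
    (B : Finset ℕ) :
    ∃ ℓ : ι × Bool → Nat.Primes, Function.Injective ℓ ∧ (∀ j, (ℓ j : ℕ) ∉ B) ∧
      ∃ τ : ∀ j, Additive (ZMod (ℓ j : ℕ))ˣ, ∀ i, ∃ φ : ∀ j, Additive (ZMod (ℓ j : ℕ))ˣ,
        (∀ j, (((φ j).toMul : (ZMod (ℓ j : ℕ))ˣ) : ZMod (ℓ j : ℕ)) = a i) ∧
        ∀ s r : ℤ, s • τ + r • φ = 0 → (2 ^ k : ℤ) ∣ s ∧ (2 ^ k : ℤ) ∣ r := by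
  classical
  set m := Fintype.card ι
  set e := Fintype.equivFin ι
  set M := (Finset.univ.sup a) + B.sup id + k + 1
  -- integers indexed by naturals, and a rapidly increasing sequence of primes
  let a' : ℕ → ℕ := fun n => if h : n / 2 < m then a (e.symm ⟨n / 2, h⟩) else 2
  have ha' : ∀ n, 2 ≤ a' n := fun n => by
    simp only [a']
    split_ifs
    · exact ha _
    · exact le_rfl
  choose L hL hLlt hLdvd using fun (p : ℕ × ℕ) => exists_prime_orderOf_two_pow (ha' p.1) p.2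
  let g : ℕ → ℕ := fun n => Nat.rec M (fun i b => (L (i, b) : ℕ)) n
  have hg1 : ∀ n, 2 ^ (g n + 2) < g (n + 1) := fun n => hLlt (n, g n)
  have hg : StrictMono g := strictMono_nat_of_lt_succ fun n =>
    lt_of_le_of_lt ((Nat.le_add_right _ 2).trans (Nat.lt_two_pow_self).le) (hg1 n)
  have hgM : ∀ n, M ≤ g n := fun n => hg.monotone (Nat.zero_le n)
  let idx : ι × Bool → ℕ := fun j => 2 * (e j.1 : ℕ) + if j.2 then 1 else 0
  have hidx : Function.Injective idx := fun j j' h => by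
    obtain ⟨i, b⟩ := j
    obtain ⟨i', b'⟩ := j'
    simp only [idx] at h
    have : (e i : ℕ) = e i' ∧ b = b' := by cases b <;> cases b' <;> simp at h ⊢ <;> omega
    exact Prod.ext (e.injective (Fin.ext this.1)) this.2
  let ℓ : ι × Bool → Nat.Primes := fun j => L (idx j, g (idx j))
  have hval : ∀ j, (ℓ j : ℕ) = g (idx j + 1) := fun _ => rfl
  have ha'' : ∀ j, a' (idx j) = a j.1 := fun j => by
    have h2 : idx j / 2 = (e j.1 : ℕ) := by
      simp only [idx]; split_ifs <;> omega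
    simp only [a', h2]
    rw [dif_pos (e j.1).isLt, Fin.eta, Equiv.symm_apply_apply]
  have hord : ∀ j, orderOf (a j.1 : ZMod (ℓ j : ℕ)) = 2 ^ (g (idx j) + 2) := fun j => by
    rw [← ha'']; exact hL (idx j, g (idx j))
  have hgt : ∀ j, M < (ℓ j : ℕ) := fun j => by
    rw [hval]; exact (hgM 0).trans_lt (hg (Nat.succ_pos _))
  refine ⟨ℓ, fun j j' h => hidx ?_, fun j hj => ?_, ?_⟩
  · exact Nat.succ_injective (hg.injective (by rw [← hval, ← hval, h]))
  · exact absurd (hgt j) (not_lt.2 (le_trans (Finset.le_sup (f := id) hj) (by omega)))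
  have ht : ∀ j, ∃ t : (ZMod (ℓ j : ℕ))ˣ, orderOf t = 2 ^ k := fun j => by
    obtain ⟨u, hu⟩ := IsCyclic.exists_generator (α := (ZMod (ℓ j : ℕ))ˣ)
    have hcard : orderOf u = (ℓ j : ℕ) - 1 := by
      rw [orderOf_eq_card_of_forall_mem_zpowers hu, Nat.card_eq_fintype_card, ZMod.card_units]
    have hd : 2 ^ k ∣ (ℓ j : ℕ) - 1 :=
      (pow_dvd_pow 2 (by have := hgM (idx j); omega)).trans (hLdvd (idx j, g (idx j)))
    obtain ⟨c, hc⟩ := hd
    refine ⟨u ^ c, ?_⟩
    have hc0 : c ≠ 0 := by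
      rintro rfl
      have := (ℓ j).2.two_le
      omega
    rw [orderOf_pow' _ hc0, hcard, hc, mul_comm (2 ^ k) c, Nat.gcd_mul_right_left,
      Nat.mul_div_cancel_left _ (Nat.pos_of_ne_zero hc0)]
  choose t hto using ht
  refine ⟨fun j => if j.2 then 0 else Additive.ofMul (t j), fun i => ?_⟩
  have hunit : ∀ j, IsUnit (a i : ZMod (ℓ j : ℕ)) := fun j => by
    rw [isUnit_iff_ne_zero, Ne, ZMod.natCast_eq_zero_iff]
    intro h
    have h1 := Nat.le_of_dvd (by have := ha i; omega) h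
    have h2 : a i ≤ Finset.univ.sup a := Finset.le_sup (Finset.mem_univ i)
    have := hgt j
    omega
  refine ⟨fun j => Additive.ofMul (hunit j).unit, fun j => rfl, fun s r h => ?_⟩
  have hT := congrFun h (i, true)
  have hF := congrFun h (i, false)
  simp only [Pi.add_apply, Pi.smul_apply, if_true, smul_zero, zero_add, Pi.zero_apply,
    Bool.false_eq_true, if_false] at hT hF
  rw [← ofMul_zpow, ← ofMul_one, Additive.ofMul.injective.eq_iff,
    ← orderOf_dvd_iff_zpow_eq_one] at hT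
  have hoT : orderOf (hunit (i, true)).unit = 2 ^ (g (idx (i, true)) + 2) := by
    rw [← orderOf_units, IsUnit.unit_spec]; exact hord (i, true)
  have hoF : orderOf (hunit (i, false)).unit = 2 ^ (g (idx (i, false)) + 2) := by
    rw [← orderOf_units, IsUnit.unit_spec]; exact hord (i, false)
  have hidx' : idx (i, false) ≤ idx (i, true) := by
    show 2 * (e i : ℕ) + (if false then 1 else 0) ≤ 2 * (e i : ℕ) + (if true then 1 else 0)
    simp
  have hle : g (idx (i, false)) + 2 ≤ g (idx (i, true)) + 2 :=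
    Nat.add_le_add_right (hg.monotone hidx') 2
  have hr : (2 ^ (g (idx (i, false)) + 2) : ℤ) ∣ r := by
    refine (pow_dvd_pow (2 : ℤ) hle).trans ?_
    rw [hoT] at hT
    exact_mod_cast hT
  have hφ : r • Additive.ofMul (hunit (i, false)).unit = 0 := by
    rw [← ofMul_zpow, ← ofMul_one, Additive.ofMul.injective.eq_iff,
      ← orderOf_dvd_iff_zpow_eq_one, hoF]
    exact_mod_cast hr
  rw [hφ, add_zero, ← ofMul_zpow, ← ofMul_one, Additive.ofMul.injective.eq_iff,
    ← orderOf_dvd_iff_zpow_eq_one, hto] at hF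
  refine ⟨by exact_mod_cast hF, dvd_trans (pow_dvd_pow 2 ?_) hr⟩
  have := hgM (idx (i, false))
  omega

end Fermat.Agent.LT.Reciprocity

end
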