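import Fermat.Agent.LT.Adele
import Fermat.Agent.PoitouTate.Ideles

/-!
# Finite adeles seen through the embeddings into the completions

An embedding of `L` into `ℚ̄_q` evaluates finite adeles; these evaluations intertwine Galois.
-/

set_option autoImplicit false

noncomputable section

open scoped TensorProduct

namespace Fermat.Agent.LT.Reciprocity

open Fermat.Agent.PoitouTate

variable {L : Type*} [CommRing L]

/-- The component at `q` of `ℤ̂`, in the completion. -/
def zhatComp (q : Nat.Primes) : Zhat →+* PadicAlgCl (q : ℕ) :=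
  ((algebraMap ℚ_[(q : ℕ)] (PadicAlgCl (q : ℕ))).comp (PadicInt.Coe.ringHom (p := (q : ℕ)))).comp
    (Pi.evalRingHom (fun p : Nat.Primes => ℤ_[(p : ℕ)]) q)

theorem zhatComp_apply (q : Nat.Primes) (z : Zhat) :
    zhatComp q z = algebraMap ℚ_[(q : ℕ)] (PadicAlgCl (q : ℕ)) (z q : ℚ_[(q : ℕ)]) := rfl

/-- Evaluation of a finite adele at an embedding into the completion at `q`. -/
def evalHom (q : Nat.Primes) (e : L →+* PadicAlgCl (q : ℕ)) :
    FinAdele L →+* PadicAlgCl (q : ℕ) :=
  (Algebra.TensorProduct.lift e.toIntAlgHom (zhatComp q).toIntAlgHom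
    fun _ _ => Commute.all _ _).toRingHom

variable (q : Nat.Primes)

/-- Evaluation of a pure tensor. -/
@[simp] theorem evalHom_tmul (e : L →+* PadicAlgCl (q : ℕ)) (a : L) (z : Zhat) :
    evalHom q e (a ⊗ₜ z) = e a * zhatComp q z := rfl

/-- Components of `ℤ̂` are integral. -/
theorem norm_zhatComp_le (z : Zhat) : ‖zhatComp q z‖ ≤ 1 := by
  rw [zhatComp_apply, norm_algebraMap']
  exact (z q).2

/-- Galois acts on evaluations through the embedding. -/
theorem evalHom_galois (e : L →+* PadicAlgCl (q : ℕ)) (g : GQl (q : ℕ)) (u : FinAdele L) :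
    g (evalHom q e u) = evalHom q ((g : PadicAlgCl (q : ℕ) →+* PadicAlgCl (q : ℕ)).comp e) u := by
  induction u using TensorProduct.induction_on with
  | zero => simp
  | tmul a z =>
    rw [evalHom_tmul, evalHom_tmul, map_mul, zhatComp_apply, AlgEquiv.commutes]
    rfl
  | add u v hu hv => simp [hu, hv]

variable {F : Type*} [Field F]

/-- Evaluation of a principal adele is the embedding. -/
theorem evalHom_finIncl (e : F →+* PadicAlgCl (q : ℕ)) (a : F) :
    evalHom q e (finIncl F a) = e a := by
  show evalHom q e (a ⊗ₜ 1) = e a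
  rw [evalHom_tmul, map_one, mul_one]

/-- Evaluation commutes with maps of fields. -/
theorem evalHom_finMap (e : F →+* PadicAlgCl (q : ℕ)) (σ : F →+* F) (u : FinAdele F) :
    evalHom q e (finMap σ u) = evalHom q (e.comp σ) u := by
  induction u using TensorProduct.induction_on with
  | zero => simp
  | tmul a z => rw [finMap_tmul, evalHom_tmul, evalHom_tmul]; rfl
  | add u v hu hv => simp [hu, hv]

end Fermat.Agent.LT.Reciprocity

end
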