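import Fermat.Agent.LT.Places.Galois

/-!
# Idele class characters are determined by almost all uniformisers

A character of the ideles which is trivial near one and on `F^×` is trivial as soon as it kills
the uniformiser ideles outside a finite set of places.
-/

set_option autoImplicit false

noncomputable section

open IsDedekindDomain NumberField WithZero

namespace Fermat.Agent.LT.Reciprocity

open Places

variable {F K : Type*} [Field F] [NumberField F] [Field K] [NumberField K]

/-- Trivial on the unit ideles congruent to one modulo some positive integer. -/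
def HasModulus (ξ : (FinAdele F)ˣ →* ℂˣ) : Prop :=
  ∃ N : ℕ, 0 < N ∧ ∀ u : (FinAdele F)ˣ,
    (∃ a ∈ integralAdele F, (u : FinAdele F) = 1 + (N : FinAdele F) * a) →
    (∀ w, placeVal w (u : FinAdele F) = 1) → ξ u = 1

/-- Trivial on `F^×`. -/
def IsGlobalTrivial (ξ : (FinAdele F)ˣ →* ℂˣ) : Prop :=
  ∀ x : Fˣ, ξ (Units.map (finIncl F).toMonoidHom x) = 1

/-- Finitely many places contain a given positive integer. -/
theorem finite_natCast_mem (n : ℕ) (hn : 0 < n) :
    {v : FinPlace F | (n : 𝓞 F) ∈ v.asIdeal}.Finite := by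
  refine (finite_placeVal_units (isUnit_natCast (F := F) n hn).unit).subset fun v hv => ?_
  refine ne_of_lt ?_
  show placeVal v (n : FinAdele F) < 1
  rwa [← map_natCast (finIncl F), ← map_natCast (algebraMap (𝓞 F) F),
    ← RingOfIntegers.coe_eq_algebraMap, placeVal_finIncl_lt_one_iff]

/-- A modulus kills the units close to one at the places dividing it. -/
theorem apply_eq_one_of_near {ξ : (FinAdele F)ˣ →* ℂˣ} {N : ℕ} (hN : 0 < N)
    (hξ : ∀ u : (FinAdele F)ˣ,
      (∃ a ∈ integralAdele F, (u : FinAdele F) = 1 + (N : FinAdele F) * a) →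
      (∀ w, placeVal w (u : FinAdele F) = 1) → ξ u = 1)
    {u : (FinAdele F)ˣ} (hu : ∀ w, placeVal w (u : FinAdele F) = 1)
    (h : ∀ w, placeVal w ((u : FinAdele F) - 1) ≤ placeVal w (N : FinAdele F)) : ξ u = 1 := by
  obtain ⟨b, hb⟩ := (isUnit_natCast (F := F) N hN).exists_right_inv
  refine hξ u ⟨b * ((u : FinAdele F) - 1), mem_integralAdele_iff.2 fun w => ?_, ?_⟩ hu
  · rw [placeVal_mul]
    refine (mul_le_mul_right (h w) _).trans ?_
    rw [← placeVal_mul, mul_comm, hb, placeVal_one]
  · rw [← mul_assoc, hb, one_mul, add_sub_cancel]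

/-- The component of an idele. -/
def compUnit (w : FinPlace F) (u : (FinAdele F)ˣ) : (w.adicCompletion F)ˣ :=
  Units.mk0 (toPlace w (u : FinAdele F)) (toPlace_units_ne_zero w u)

theorem toPlace_prod_localUnit (S : Finset (FinPlace F))
    (a : ∀ w : FinPlace F, (w.adicCompletion F)ˣ) (v : FinPlace F) [Decidable (v ∈ S)] :
    toPlace v ((∏ w ∈ S, localUnit w (a w) : (FinAdele F)ˣ) : FinAdele F) =
      if v ∈ S then (a v : v.adicCompletion F) else 1 := by
  rw [Units.coe_prod, map_prod]
  split_ifs with h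
  · rw [Finset.prod_eq_single_of_mem v h fun w _ hw => toPlace_localUnit_ne hw.symm _,
      toPlace_localUnit_same]
  · exact Finset.prod_eq_one fun w hw =>
      toPlace_localUnit_ne (fun e : v = w => h (e ▸ hw)) _

/-- A character with a modulus kills a unit idele if it kills its components. -/
theorem apply_eq_one_of_local {ξ : (FinAdele F)ˣ →* ℂˣ} (hξ : HasModulus ξ)
    {u : (FinAdele F)ˣ} (hu : ∀ w, placeVal w (u : FinAdele F) = 1)
    (h : ∀ w, ξ (localUnit w (compUnit w u)) = 1) : ξ u = 1 := by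
  classical
  obtain ⟨N, hN, hN'⟩ := hξ
  set S := (finite_placeVal_units (isUnit_natCast (F := F) N hN).unit).toFinset
  set P := ∏ w ∈ S, localUnit w (compUnit w u)
  have hP : ξ P = 1 := by
    rw [map_prod]
    exact Finset.prod_eq_one fun w _ => h w
  have hc : ∀ v, toPlace v ((P⁻¹ * u : (FinAdele F)ˣ) : FinAdele F) =
      if v ∈ S then 1 else toPlace v (u : FinAdele F) := fun v => by
    rw [Units.val_mul, map_mul, toPlace_units_inv, toPlace_prod_localUnit S (fun w => compUnit w u)]
    split_ifs with hv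
    · exact inv_mul_cancel₀ (toPlace_units_ne_zero v u)
    · rw [inv_one, one_mul]
  have h1 : ξ (P⁻¹ * u) = 1 := by
    refine apply_eq_one_of_near hN hN' (fun w => ?_) fun w => ?_
    · rw [placeVal, hc]
      split_ifs
      · exact map_one _
      · exact hu w
    · rw [placeVal, map_sub, map_one, hc]
      split_ifs with hw
      · rw [sub_self, map_zero]
        exact zero_le
      · have hw' : placeVal w (N : FinAdele F) = 1 := by
          by_contra hne
          exact hw ((Set.Finite.mem_toFinset _).2 hne)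
        rw [hw', ← map_one (toPlace w), ← map_sub]
        exact (placeVal_sub_le w _ _).trans (max_le (hu w).le (placeVal_one w).le)
  rwa [map_mul, map_inv, hP, inv_one, one_mul] at h1

/-- A class character is trivial if it kills almost all uniformisers. -/
theorem char_eq_one {η : (FinAdele F)ˣ →* ℂˣ} (hη : HasModulus η) (hg : IsGlobalTrivial η)
    {T : Set (FinPlace F)} (hT : T.Finite) (h : ∀ v ∉ T, η (piUnit v) = 1) : η = 1 := by
  classical
  obtain ⟨N, hN, hN'⟩ := hη
  obtain ⟨m, hm⟩ := Ideal.exists_maximal (𝓞 F)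
  let v₀ : FinPlace F :=
    ⟨m, hm.isPrime, Ring.ne_bot_of_isMaximal_of_not_isField hm (RingOfIntegers.not_isField F)⟩
  set S : Finset (FinPlace F) :=
    insert v₀ (hT.toFinset ∪ (finite_placeVal_units (isUnit_natCast (F := F) N hN).unit).toFinset)
  refine MonoidHom.ext fun u => ?_
  choose Nf hNf hlt using fun w : FinPlace F =>
    exists_natCast_lt w (γ := (placeVal w (u : FinAdele F))⁻¹)
      (inv_ne_zero (placeVal_units_ne_zero w u))
  have hM : 0 < N * ∏ w ∈ S, Nf w := Nat.mul_pos hN (Finset.prod_pos fun w _ => hNf w)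
  obtain ⟨a, o, ho, he⟩ :=
    Reduction.exists_finIncl_add _ hM ((u⁻¹ : (FinAdele F)ˣ) : FinAdele F)
  have hprod : (u : FinAdele F) * finIncl F a =
      1 - (N : FinAdele F) * ((u : FinAdele F) * ((∏ w ∈ S, Nf w : ℕ) : FinAdele F) * o) := by
    have h1 : (u : FinAdele F) * ((u⁻¹ : (FinAdele F)ˣ) : FinAdele F) = 1 := Units.mul_inv u
    rw [he, Nat.cast_mul] at h1
    linear_combination h1
  have hsmall : ∀ w ∈ S, placeVal w ((u : FinAdele F) *
      ((∏ w ∈ S, Nf w : ℕ) : FinAdele F) * o) < 1 := fun w hw => by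
    rw [placeVal_mul, placeVal_mul, placeVal_natCast]
    refine lt_of_le_of_lt (mul_le_of_le_one_right' (placeVal_le_one w ho)) ?_
    rw [← Finset.mul_prod_erase S Nf hw, Nat.cast_mul, map_mul, ← mul_assoc]
    refine lt_of_le_of_lt (mul_le_of_le_one_right' (valuation_natCast_le_one w _)) ?_
    rw [mul_comm]
    calc _ < (placeVal w (u : FinAdele F))⁻¹ * placeVal w (u : FinAdele F) :=
          mul_lt_mul_of_pos_right (hlt w) (zero_lt_iff.2 (placeVal_units_ne_zero w u))
      _ = 1 := inv_mul_cancel₀ (placeVal_units_ne_zero w u)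
  have hNle : ∀ w, placeVal w (N : FinAdele F) ≤ 1 := fun w =>
    (placeVal_natCast w N).trans_le (valuation_natCast_le_one w N)
  have hxS : ∀ w ∈ S, placeVal w ((u : FinAdele F) * finIncl F a) = 1 ∧
      placeVal w ((u : FinAdele F) * finIncl F a - 1) ≤ placeVal w (N : FinAdele F) := by
    intro w hw
    refine ⟨?_, ?_⟩
    · rw [placeVal, hprod, map_sub, map_one]
      refine (Valuation.map_one_sub_of_lt (v := Valued.v) ?_)
      show placeVal w _ < 1
      rw [placeVal_mul]
      exact lt_of_le_of_lt (mul_le_of_le_one_left' (hNle w)) (hsmall w hw)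
    · rw [hprod, sub_sub_cancel_left, placeVal, map_neg, Valuation.map_neg]
      show placeVal w _ ≤ _
      rw [placeVal_mul]
      exact mul_le_of_le_one_right' (hsmall w hw).le
  have ha : a ≠ 0 := by
    rintro rfl
    have := (hxS v₀ (Finset.mem_insert_self _ _)).1
    rw [map_zero, mul_zero, placeVal, map_zero, map_zero] at this
    exact zero_ne_one this
  set x : (FinAdele F)ˣ := u * Units.map (finIncl F).toMonoidHom (Units.mk0 a ha)
  have hux : η u = η x := by rw [map_mul, hg, mul_one]
  have hordS : ∀ w ∈ S, ord w x = 1 := fun w hw => by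
    show Multiplicative.ofAdd (-log (placeVal w (x : FinAdele F))) = 1
    rw [show placeVal w (x : FinAdele F) = 1 from (hxS w hw).1, log_one, neg_zero]
    rfl
  have hnotS : ∀ v ∈ (finite_ord x).toFinset, v ∉ S := fun v hv hvS => by
    rw [Set.Finite.mem_toFinset] at hv
    exact hv (hordS v hvS)
  have hmemT : ∀ v, v ∉ S → v ∉ T := fun v hv hvT =>
    hv (Finset.mem_insert_of_mem (Finset.mem_union_left _ (hT.mem_toFinset.2 hvT)))
  have hηP : η (∏ v ∈ (finite_ord x).toFinset, piUnit v ^ (ord v x).toAdd) = 1 := by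
    rw [map_prod]
    exact Finset.prod_eq_one fun v hv => by rw [map_zpow, h v (hmemT v (hnotS v hv)), one_zpow]
  obtain ⟨u', hu', hxu⟩ := exists_prod_mul_unit x
  rw [MonoidHom.one_apply, hux, hxu, map_mul, hηP, one_mul]
  refine apply_eq_one_of_near hN hN' hu' fun w => ?_
  by_cases hw : placeVal w (N : FinAdele F) = 1
  · rw [hw]
    exact (placeVal_sub_le w _ _).trans (max_le (hu' w).le (placeVal_one w).le)
  have hwS : w ∈ S :=
    Finset.mem_insert_of_mem (Finset.mem_union_right _ ((Set.Finite.mem_toFinset _).2 hw))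
  have hP1 : toPlace w ((∏ v ∈ (finite_ord x).toFinset, piUnit v ^ (ord v x).toAdd :
      (FinAdele F)ˣ) : FinAdele F) = 1 := by
    rw [Units.coe_prod, map_prod]
    refine Finset.prod_eq_one fun v hv => ?_
    rw [piUnit, ← map_zpow (localUnit v)]
    exact toPlace_localUnit_ne (fun e : w = v => hnotS v hv (e ▸ hwS)) _
  have h2 : toPlace w (x : FinAdele F) = toPlace w (u' : FinAdele F) := by
    rw [congrArg (fun y : (FinAdele F)ˣ => toPlace w (y : FinAdele F)) hxu, Units.val_mul, map_mul,
      hP1, one_mul]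
  rw [placeVal, map_sub, ← h2, ← map_sub]
  exact (hxS w hwS).2

theorem HasModulus.mul_inv {ξ₁ ξ₂ : (FinAdele F)ˣ →* ℂˣ} (h₁ : HasModulus ξ₁)
    (h₂ : HasModulus ξ₂) : HasModulus (ξ₁ * ξ₂⁻¹) := by
  obtain ⟨N, hN, h₁⟩ := h₁
  obtain ⟨M, hM, h₂⟩ := h₂
  refine ⟨N * M, Nat.mul_pos hN hM, fun u ⟨a, ha, hu⟩ hv => ?_⟩
  rw [MonoidHom.mul_apply, MonoidHom.inv_apply,
    h₁ u ⟨(M : FinAdele F) * a, mul_mem (natCast_mem _ M) ha,
      by rw [hu, Nat.cast_mul, mul_assoc]⟩ hv,
    h₂ u ⟨(N : FinAdele F) * a, mul_mem (natCast_mem _ N) ha,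
      by rw [hu, Nat.cast_mul, mul_comm (N : FinAdele F), mul_assoc]⟩ hv, inv_one, one_mul]

/-- Two class characters agreeing at almost all uniformisers agree. -/
theorem char_ext {ξ₁ ξ₂ : (FinAdele F)ˣ →* ℂˣ} (h₁ : HasModulus ξ₁) (h₂ : HasModulus ξ₂)
    (g₁ : IsGlobalTrivial ξ₁) (g₂ : IsGlobalTrivial ξ₂) {T : Set (FinPlace F)} (hT : T.Finite)
    (h : ∀ v ∉ T, ξ₁ (piUnit v) = ξ₂ (piUnit v)) : ξ₁ = ξ₂ := by
  have := char_eq_one (h₁.mul_inv h₂)
    (fun x => by rw [MonoidHom.mul_apply, MonoidHom.inv_apply, g₁, g₂, inv_one, one_mul]) hT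
    fun v hv => by rw [MonoidHom.mul_apply, MonoidHom.inv_apply, h v hv, mul_inv_cancel]
  exact mul_inv_eq_one.mp this

/-- Having a modulus is preserved by pulling back along an extension of fields. -/
theorem HasModulus.comp_finExtend (f : F →+* K) {ξ : (FinAdele K)ˣ →* ℂˣ} (h : HasModulus ξ) :
    HasModulus (ξ.comp (Units.map (finExtend f).toRingHom.toMonoidHom)) := by
  obtain ⟨N, hN, h⟩ := h
  refine ⟨N, hN, fun u ⟨a, ha, hu⟩ hv => h _ ⟨finExtend f a, finExtend_mem_integralAdele f ha,
    ?_⟩ fun w => ?_⟩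
  · show finExtend f (u : FinAdele F) = _
    rw [hu, map_add, map_one, map_mul, map_natCast]
  · obtain ⟨e, he, hval⟩ := exists_pow_valuation f w
    show placeVal w (finExtend f (u : FinAdele F)) = 1
    rw [placeVal_finExtend he hval, hv, one_pow]

omit [NumberField F] [NumberField K] in
/-- Triviality on `F^×` is preserved by pulling back along an extension of fields. -/
theorem IsGlobalTrivial.comp_finExtend (f : F →+* K) {ξ : (FinAdele K)ˣ →* ℂˣ}
    (h : IsGlobalTrivial ξ) :
    IsGlobalTrivial (ξ.comp (Units.map (finExtend f).toRingHom.toMonoidHom)) := fun x => by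
  rw [MonoidHom.comp_apply]
  refine Eq.trans (congrArg ξ (Units.ext ?_)) (h (Units.map f.toMonoidHom x))
  exact finExtend_finIncl f (x : F)

/-- Having a modulus is preserved by composition with a homomorphism. -/
theorem HasModulus.comp_hom (φ : ℂˣ →* ℂˣ) {ξ : (FinAdele F)ˣ →* ℂˣ} (h : HasModulus ξ) :
    HasModulus (φ.comp ξ) := by
  obtain ⟨N, hN, h⟩ := h
  exact ⟨N, hN, fun u hu hv => by rw [MonoidHom.comp_apply, h u hu hv, map_one]⟩

omit [NumberField F] in
/-- Triviality on `F^×` is preserved by composition with a homomorphism. -/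
theorem IsGlobalTrivial.comp_hom (φ : ℂˣ →* ℂˣ) {ξ : (FinAdele F)ˣ →* ℂˣ}
    (h : IsGlobalTrivial ξ) : IsGlobalTrivial (φ.comp ξ) := fun x => by
  rw [MonoidHom.comp_apply, h, map_one]

end Fermat.Agent.LT.Reciprocity

end
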