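import Fermat.Agent.LT.Reciprocity.Bridge
import Fermat.Agent.PoitouTate.GlobalPlace
import Fermat.Agent.PoitouTate.LocalDecomp
import Fermat.Agent.LT.Places.Idele

/-!
# The components of a finite adele of a subfield of `ℚ̄` in the completions

For `g ∈ G_ℚ` the embedding `padicEmbedding q ∘ g` of `K` evaluates finite adeles; the value
depends only on the component at the place `placeAt K q g`, and the absolute values match.
-/

set_option autoImplicit false

noncomputable section

open NumberField WithZero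
open scoped Pointwise TensorProduct

namespace Fermat.Agent.LT.Reciprocity

open Fermat.Agent.PoitouTate Fermat.Agent.GaloisBasics Fermat.Agent.GlobalUnits

variable (K : IntermediateField ℚ QBar)

/-- The embedding of `K` through `g`. -/
def embAt (q : Nat.Primes) (g : GQ) : K →+* PadicAlgCl (q : ℕ) :=
  (padicEmbedding (q : ℕ)).toRingHom.comp ((g : QBar →+* QBar).comp K.val.toRingHom)

theorem embAt_apply (q : Nat.Primes) (g : GQ) (a : K) :
    embAt K q g a = padicEmbedding (q : ℕ) (g (a : QBar)) := rfl

/-- The component of a finite adele seen through `g` in the completion at `q`. -/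
def compAt (q : Nat.Primes) (g : GQ) : FinAdele K →+* PadicAlgCl (q : ℕ) :=
  evalHom q (embAt K q g)

variable {K} {q : Nat.Primes}

/-- The component of a principal adele is the embedding. -/
theorem compAt_finIncl (g : GQ) (a : K) :
    compAt K q g (finIncl K a) = padicEmbedding (q : ℕ) (g (a : QBar)) :=
  evalHom_finIncl q _ a

theorem embAt_congr {g g' : GQ} (h : g⁻¹ * g' ∈ K.fixingSubgroup) :
    embAt K q g = embAt K q g' := by
  ext a
  have h1 : (g⁻¹ * g') (a : QBar) = a :=
    (IntermediateField.mem_fixingSubgroup_iff K _).mp h _ a.2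
  rw [embAt_apply, embAt_apply]
  congr 1
  conv_lhs => rw [← h1]
  rw [← AlgEquiv.mul_apply, mul_inv_cancel_left]

/-- The component only depends on the coset of `g`. -/
theorem compAt_congr {g g' : GQ} (h : g⁻¹ * g' ∈ K.fixingSubgroup) :
    compAt K q g = compAt K q g' := by
  rw [compAt, compAt, embAt_congr h]

/-- The local Galois group moves the evaluation. -/
theorem compAt_galois (s : GQl (q : ℕ)) (g : GQ) (u : FinAdele K) :
    s (compAt K q g u) = compAt K q (localGaloisToGlobal (q : ℕ) s * g) u := by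
  rw [compAt, evalHom_galois, compAt]
  congr 2
  ext a
  exact (padicEmbedding_localGaloisToGlobal (q : ℕ) s (g (a : QBar))).symm

variable [FiniteDimensional ℚ K]

/-- The place `placeAt K q g` is the one of the absolute value of the embedding. -/
theorem valuation_placeAt_le_one_iff (g : GQ) (a : K) :
    (placeAt K q g).valuation K a ≤ 1 ↔ ‖embAt K q g a‖ ≤ 1 := by
  rw [placeAt, GlobalUnits.valuation_le_one_iff, mem_pullPlace_iff, ← NNReal.coe_le_coe,
    coe_nnnorm, NNReal.coe_one]
  rfl

theorem norm_embAt_le_one {g : GQ} {a : K} (h : (placeAt K q g).valuation K a ≤ 1) :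
    ‖embAt K q g a‖ ≤ 1 :=
  (valuation_placeAt_le_one_iff g a).1 h

theorem norm_embAt_eq_one {g : GQ} {a : K} (h : (placeAt K q g).valuation K a = 1) :
    ‖embAt K q g a‖ = 1 := by
  have ha : a ≠ 0 := by rintro rfl; simp at h
  refine le_antisymm (norm_embAt_le_one h.le) ?_
  have h1 := norm_embAt_le_one (q := q) (g := g) (a := a⁻¹) (by rw [map_inv₀, h, inv_one])
  rw [map_inv₀, norm_inv, inv_le_one₀ (by simpa using ha)] at h1
  exact h1

/-- The absolute value of a power of `q`. -/
theorem norm_natCast_pow (m : ℕ) :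
    ‖((((q : ℕ) ^ m : ℕ) : ℕ) : PadicAlgCl (q : ℕ))‖ = ((q : ℕ) : ℝ)⁻¹ ^ m := by
  rw [Nat.cast_pow, norm_pow,
    ← map_natCast (algebraMap ℚ_[(q : ℕ)] (PadicAlgCl (q : ℕ))), norm_algebraMap', Padic.norm_p]

theorem norm_embAt_le_pow {g : GQ} {a : K} {m : ℕ}
    (h : (placeAt K q g).valuation K a ≤ (placeAt K q g).valuation K (((q : ℕ) ^ m : ℕ) : K)) :
    ‖embAt K q g a‖ ≤ ((q : ℕ) : ℝ)⁻¹ ^ m := by
  have hpos : 0 < (q : ℕ) ^ m := pow_pos q.2.pos m
  have h0 : ((((q : ℕ) ^ m : ℕ) : ℕ) : K) ≠ 0 := Nat.cast_ne_zero.2 hpos.ne'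
  have h1 := norm_embAt_le_one (q := q) (g := g) (a := a / (((q : ℕ) ^ m : ℕ) : K))
    (by rw [map_div₀, div_le_one₀ (zero_lt_iff.2 (by simpa using h0))]; exact h)
  rwa [map_div₀, norm_div, map_natCast, norm_natCast_pow, div_le_one (by
    have := q.2.pos; positivity)] at h1

/-- Components of integral adeles are integral. -/
theorem norm_compAt_le_one_of_mem (g : GQ) {x : FinAdele K} (hx : x ∈ integralAdele K) :
    ‖compAt K q g x‖ ≤ 1 := by
  obtain ⟨y, rfl⟩ := hx
  induction y using TensorProduct.induction_on with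
  | zero => simp
  | tmul o z =>
    show ‖compAt K q g ((o : K) ⊗ₜ z)‖ ≤ 1
    rw [compAt, evalHom_tmul, norm_mul]
    exact mul_le_one₀ (norm_embAt_le_one ((placeAt K q g).valuation_le_one o)) (norm_nonneg _)
      (norm_zhatComp_le q z)
  | add a b ha hb =>
    rw [map_add, map_add]
    exact (IsUltrametricDist.norm_add_le_max _ _).trans (max_le ha hb)

/-- Global elements approximate an adele both at the place and in the completion. -/
theorem exists_embAt_near (g : GQ) (x : FinAdele K) (m : ℕ) :
    ∃ a : K, ‖compAt K q g x - embAt K q g a‖ ≤ ((q : ℕ) : ℝ)⁻¹ ^ m ∧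
      Places.placeVal (placeAt K q g) (x - finIncl K a) ≤
        (placeAt K q g).valuation K (((q : ℕ) ^ m : ℕ) : K) := by
  obtain ⟨a, y, hy, hxy⟩ := Reduction.exists_finIncl_add ((q : ℕ) ^ m) (pow_pos q.2.pos m) x
  refine ⟨a, ?_, ?_⟩
  · rw [show compAt K q g x - embAt K q g a =
      ((((q : ℕ) ^ m : ℕ) : ℕ) : PadicAlgCl (q : ℕ)) * compAt K q g y by
        rw [hxy, map_add, map_mul, map_natCast, compAt_finIncl, embAt_apply]; ring,
      norm_mul, norm_natCast_pow]
    exact mul_le_of_le_one_right (by positivity) (norm_compAt_le_one_of_mem g hy)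
  · rw [show x - finIncl K a = ((((q : ℕ) ^ m : ℕ) : ℕ) : FinAdele K) * y by rw [hxy]; ring,
      Places.placeVal_mul, Places.placeVal_natCast]
    exact mul_le_of_le_one_right' (Places.placeVal_le_one _ hy)

/-- `q` lies in the place `placeAt K q g`. -/
theorem valuation_prime_pow_lt_one (g : GQ) :
    (placeAt K q g).valuation K (((q : ℕ) ^ 1 : ℕ) : K) < 1 := by
  rw [pow_one, ← map_natCast (algebraMap (𝓞 K) K),
    IsDedekindDomain.HeightOneSpectrum.valuation_lt_one_iff_mem]
  exact natCast_mem_placeBelow K (liesOverPrime_pullPlace (q : ℕ) g) q.2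

/-- Components of units at the place are units. -/
theorem norm_compAt_eq_one {g : GQ} {x : FinAdele K}
    (h : Places.placeVal (placeAt K q g) x = 1) : ‖compAt K q g x‖ = 1 := by
  obtain ⟨a, ha, hv⟩ := exists_embAt_near (q := q) g x 1
  have hlt := hv.trans_lt (valuation_prime_pow_lt_one (q := q) g)
  have hva : (placeAt K q g).valuation K a = 1 := by
    rw [← Places.placeVal_finIncl, Places.placeVal, ← h, Places.placeVal]
    refine Valuation.map_eq_of_sub_lt _ ?_
    rw [show Valued.v (Places.toPlace (placeAt K q g) x) = 1 from h,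
      Valuation.map_sub_swap, ← map_sub]
    exact hlt
  have h1 := norm_embAt_eq_one hva
  have hq : ((q : ℕ) : ℝ)⁻¹ ^ 1 < 1 := by
    rw [pow_one]; exact inv_lt_one_of_one_lt₀ (by exact_mod_cast q.2.one_lt)
  rw [show compAt K q g x = embAt K q g a + (compAt K q g x - embAt K q g a) by ring,
    IsUltrametricDist.norm_add_eq_max_of_norm_ne_norm (by rw [h1]; exact (ha.trans_lt hq).ne'),
    h1, max_eq_left (ha.trans hq.le)]

theorem compAt_eq_zero {g : GQ} {x : FinAdele K}
    (h : Places.toPlace (placeAt K q g) x = 0) : compAt K q g x = 0 := by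
  refine norm_eq_zero.1 (le_antisymm ?_ (norm_nonneg _))
  refine ge_of_tendsto' (tendsto_pow_atTop_nhds_zero_of_lt_one (r := (((q : ℕ) : ℝ))⁻¹)
    (by positivity) (inv_lt_one_of_one_lt₀ (by exact_mod_cast q.2.one_lt))) fun m => ?_
  obtain ⟨a, ha, hv⟩ := exists_embAt_near (q := q) g x m
  have hva : (placeAt K q g).valuation K a ≤
      (placeAt K q g).valuation K (((q : ℕ) ^ m : ℕ) : K) := by
    rw [← Places.placeVal_finIncl, Places.placeVal]
    rw [Places.placeVal, map_sub, h, zero_sub, Valuation.map_neg] at hv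
    exact hv
  rw [show compAt K q g x = compAt K q g x - embAt K q g a + embAt K q g a by ring]
  exact (IsUltrametricDist.norm_add_le_max _ _).trans (max_le ha (norm_embAt_le_pow hva))

/-- The component only depends on the completion at the place. -/
theorem compAt_eq_of_toPlace_eq {g : GQ} {x y : FinAdele K}
    (h : Places.toPlace (placeAt K q g) x = Places.toPlace (placeAt K q g) y) :
    compAt K q g x = compAt K q g y :=
  sub_eq_zero.1 (by rw [← map_sub]; exact compAt_eq_zero (by rw [map_sub, h, sub_self]))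

/-- The normalised order in the completion is `ord / e`. -/
theorem neg_logb_norm_compAt (g : GQ) (u : (FinAdele K)ˣ) :
    -Real.logb (q : ℕ) ‖compAt K q g (u : FinAdele K)‖ * eAt K q g =
      ((Places.ord (placeAt K q g) u).toAdd : ℤ) := by
  set v := placeAt K q g with hv
  set n := (Places.ord v u).toAdd with hn
  obtain ⟨π, hπ⟩ := v.valuation_surjective K (exp (-n))
  have hπ0 : π ≠ 0 := by
    rintro rfl
    rw [map_zero] at hπ
    exact exp_ne_zero hπ.symm
  have hord : GlobalUnits.ord v (Additive.ofMul (Units.mk0 π hπ0)) = n := by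
    have := GlobalUnits.valuation_eq_exp_neg_ord v (Units.mk0 π hπ0)
    rw [Units.val_mk0, hπ, exp_inj, neg_inj] at this
    exact this.symm
  have hone : ‖compAt K q g ((u : FinAdele K) * finIncl K π⁻¹)‖ = 1 := norm_compAt_eq_one (by
    rw [← hv, Places.placeVal_mul, Places.placeVal_eq_exp_ord, ← hn, Places.placeVal_finIncl,
      map_inv₀, hπ, mul_inv_cancel₀ exp_ne_zero])
  rw [map_mul, norm_mul, compAt_finIncl, ← embAt_apply, map_inv₀, norm_inv,
    mul_inv_eq_one₀ (by simpa using hπ0)] at hone
  rw [hone, ← hord, ← ordQ_embUnits_mul K (q : ℕ) g (Units.mk0 π hπ0)]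
  rfl

/-- An idele at another place has trivial component. -/
theorem compAt_localUnit_of_ne {g : GQ} {w : Places.FinPlace K} (h : placeAt K q g ≠ w)
    (a : (w.adicCompletion K)ˣ) :
    compAt K q g (Places.localUnit w a : FinAdele K) = 1 := by
  rw [← map_one (compAt K q g)]
  exact compAt_eq_of_toPlace_eq (by rw [Places.toPlace_localUnit_ne h, map_one])

/-- The component of a principal idele at its place. -/
theorem compAt_localUnit_algebraMap {g : GQ} (x : K)
    (a : ((placeAt K q g).adicCompletion K)ˣ)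
    (ha : (a : (placeAt K q g).adicCompletion K) =
      algebraMap K ((placeAt K q g).adicCompletion K) x) :
    compAt K q g (Places.localUnit (placeAt K q g) a : FinAdele K) =
      padicEmbedding (q : ℕ) (g (x : QBar)) := by
  rw [← compAt_finIncl]
  exact compAt_eq_of_toPlace_eq (by
    rw [Places.toPlace_localUnit_same, Places.toPlace_finIncl, ha])

variable (K)

omit [FiniteDimensional ℚ K] in
/-- Every place is seen through some `g`. -/
theorem exists_placeAt_eq (v : Places.FinPlace K) :
    ∃ (q : Nat.Primes) (g : GQ), placeAt K q g = v := by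
  obtain ⟨q, A, hA, rfl⟩ := exists_placeBelow_eq K v
  obtain ⟨t, rfl⟩ := exists_smul_eq (PoitouTate.liesOverPrime_padicPlace (q : ℕ)) hA q.2
  refine ⟨q, t⁻¹, ?_⟩
  simp only [placeAt, pullPlace, inv_inv]

variable {K}

omit [FiniteDimensional ℚ K] in
/-- A place lies over one prime. -/
theorem prime_eq_of_placeAt_eq {q' : Nat.Primes} {g g' : GQ}
    (h : placeAt K q g = placeAt K q' g') : q = q' := by
  refine Subtype.ext ?_
  refine eq_of_natCast_mem_placeBelow K (liesOverPrime_pullPlace (q' : ℕ) g') q'.2 q.2 ?_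
  show ((q : ℕ) : 𝓞 K) ∈ (placeAt K q' g').asIdeal
  rw [← h]
  exact natCast_mem_placeBelow K (liesOverPrime_pullPlace (q : ℕ) g) q.2

omit [FiniteDimensional ℚ K] in
/-- The places seen through `g, g'` agree iff `g'` is in the double coset of `g`. -/
theorem placeAt_eq_iff {g g' : GQ} :
    placeAt K q g = placeAt K q g' ↔
      ∃ s : GQl (q : ℕ), g'⁻¹ * (localGaloisToGlobal (q : ℕ) s * g) ∈ K.fixingSubgroup := by
  constructor
  · intro h
    obtain ⟨τ, hτ, hτA⟩ := (placeBelow_eq_iff K _ _ _ _).1 h
    have hD : g' * τ * g⁻¹ ∈ (padicPlace (q : ℕ)).decompositionSubgroup ℚ := by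
      rw [MulAction.mem_stabilizer_iff, mul_smul, mul_smul]
      rw [pullPlace, pullPlace] at hτA
      rw [hτA, smul_inv_smul]
    rw [← range_localGaloisToGlobal] at hD
    obtain ⟨s, hs⟩ := hD
    refine ⟨s, ?_⟩
    rw [hs, inv_mul_cancel_right, inv_mul_cancel_left]
    exact hτ
  · rintro ⟨s, hs⟩
    refine (placeBelow_eq_iff K _ _ _ _).2 ⟨_, hs, ?_⟩
    have hD := localGaloisToGlobal_mem_decompositionSubgroup (q : ℕ) s
    rw [MulAction.mem_stabilizer_iff] at hD
    rw [pullPlace, pullPlace, mul_smul, mul_smul, smul_inv_smul, hD]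

end Fermat.Agent.LT.Reciprocity

end
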