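import Fermat.Agent.LT.Reciprocity.Divisor
import Fermat.Agent.LocalInertia.Cyclotomic
import Fermat.Prelude.Def_GaloisRep_ComplexConjugation

/-!
# Reciprocity for cyclotomic characters

An element of a totally complex field which is near one over `ℓ` has positive rational norm
congruent to one modulo `ℓ`, so the cyclotomic symbol of its divisor vanishes.
-/

set_option autoImplicit false

noncomputable section

namespace Fermat.Agent.LT.Reciprocity

open Fermat.Agent.PoitouTate Fermat.Agent.GaloisBasics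

instance factPrimeCycl (p : Nat.Primes) : Fact (p : ℕ).Prime := ⟨p.2⟩

variable (ℓ : Nat.Primes)

/-- The cyclotomic character modulo `ℓ`, additively. -/
def cyclAdd (g : GQ) : Additive (ZMod (ℓ : ℕ))ˣ :=
  Additive.ofMul (modularCyclotomicCharacter QBar
    (IsAlgClosed.card_rootsOfUnity_eq QBar (ℓ : ℕ)) (g : QBar ≃+* QBar))

/-- The cyclotomic character is a homomorphism. -/
theorem cyclAdd_mul (g h : GQ) : cyclAdd ℓ (g * h) = cyclAdd ℓ g + cyclAdd ℓ h := by
  rw [cyclAdd, cyclAdd, cyclAdd, ← ofMul_mul, ← map_mul]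
  rfl

/-- The cyclotomic character is the exponent on `μ_ℓ`. -/
theorem cyclAdd_val (g : GQ) (k : ℕ) (h : ∀ ζ : QBar, ζ ^ (ℓ : ℕ) = 1 → g ζ = ζ ^ k) :
    (((cyclAdd ℓ g).toMul : (ZMod (ℓ : ℕ))ˣ) : ZMod (ℓ : ℕ)) = k :=
  modularCyclotomicCharacter_eq_natCast _ _ k h

/-- The cyclotomic character at the Frobenius of `q ≠ ℓ` is `q`. -/
theorem cyclAdd_frob {q : Nat.Primes} (h : q ≠ ℓ) :
    (((cyclAdd ℓ (frob q)).toMul : (ZMod (ℓ : ℕ))ˣ) : ZMod (ℓ : ℕ)) = (q : ℕ) :=
  cyclAdd_val ℓ _ _ fun _ hζ => frobLoc_apply_root q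
    (fun hd => h (Subtype.ext ((Nat.prime_dvd_prime_iff_eq q.2 ℓ.2).1 hd))) hζ

/-- Inertia away from `ℓ` fixes the `ℓ`-th roots of unity. -/
theorem cyclAdd_inertia {q : ℕ} (hq : q.Prime) (h : q ≠ (ℓ : ℕ)) {A : ValuationSubring QBar}
    (hA : A.LiesOverPrime q) {g : GQ} (hg : g ∈ A.inertiaSubgroupIn ℚ) : cyclAdd ℓ g = 0 :=
  congrArg Additive.ofMul (modularCyclotomicCharacter_inertia hA hq _
    (fun hd => h ((Nat.prime_dvd_prime_iff_eq hq ℓ.2).1 hd)) hg)

/-- Every value is taken on inertia at a place over `ℓ`. -/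
theorem exists_inertia_cyclAdd {A : ValuationSubring QBar} (hA : A.LiesOverPrime (ℓ : ℕ))
    (u : Additive (ZMod (ℓ : ℕ))ˣ) : ∃ g ∈ A.inertiaSubgroupIn ℚ, cyclAdd ℓ g = u := by
  set v : ZMod (ℓ : ℕ) := ((u.toMul : (ZMod (ℓ : ℕ))ˣ) : ZMod (ℓ : ℕ))
  obtain ⟨g, hg, h⟩ := Fermat.Agent.LocalInertia.exists_inertia_pow_on_rootsOfUnity hA ℓ.2 1
    (a := v.val) (ZMod.val_coe_unit_coprime _)
  refine ⟨g, hg, Additive.toMul.injective (Units.ext ?_)⟩
  rw [cyclAdd_val ℓ g v.val fun ζ hζ => h ζ (by rwa [pow_one]), ZMod.natCast_zmod_val]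

/-- The cyclotomic character is trivial on an open subgroup. -/
theorem exists_level_cyclAdd :
    ∃ U, allLevels.mem U ∧ ∀ s ∈ U, cyclAdd ℓ s = 0 := by
  obtain ⟨ζ, hζ⟩ := HasEnoughRootsOfUnity.exists_primitiveRoot QBar (ℓ : ℕ)
  obtain ⟨U, hU, hfix⟩ := isSmoothField_galField ζ
  refine ⟨U, hU, fun s hs => Additive.toMul.injective (Units.ext ?_)⟩
  rw [cyclAdd_val ℓ s 1 fun z hz => ?_, Nat.cast_one]
  · rfl
  obtain ⟨i, -, rfl⟩ := hζ.eq_pow_of_pow_eq_one hz
  rw [map_pow, pow_one]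
  exact congrArg (· ^ i) (hfix s hs)

theorem finite_padicValNat {n : ℕ} (hn : n ≠ 0) :
    (Function.support fun q : Nat.Primes => padicValNat (q : ℕ) n • cyclAdd ℓ (frob q)).Finite := by
  refine ((Set.finite_Iic n).preimage (f := fun q : Nat.Primes => (q : ℕ))
    Subtype.val_injective.injOn).subset fun q hq => ?_
  have h : padicValNat (q : ℕ) n ≠ 0 := fun h => hq (by simp [h])
  exact Nat.le_of_dvd (Nat.pos_of_ne_zero hn) (dvd_of_one_le_padicValNat (Nat.pos_of_ne_zero h))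

/-- The symbols of the prime factors of a number prime to `ℓ` add up to its class. -/
theorem sum_padicValNat_cycl {n : ℕ} (hn : n ≠ 0) (h : ¬ (ℓ : ℕ) ∣ n) :
    (((∑ᶠ q : Nat.Primes, padicValNat (q : ℕ) n • cyclAdd ℓ (frob q)).toMul :
      (ZMod (ℓ : ℕ))ˣ) : ZMod (ℓ : ℕ)) = n := by
  induction n using induction_on_primes with
  | zero => exact absurd rfl hn
  | one => simp
  | prime_mul p a hp ih =>
    have : Fact p.Prime := ⟨hp⟩
    have ha : a ≠ 0 := right_ne_zero_of_mul hn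
    have hal : ¬ (ℓ : ℕ) ∣ a := fun hd => h (hd.mul_left p)
    have hpl : (⟨p, hp⟩ : Nat.Primes) ≠ ℓ := fun e => h (by rw [← e]; exact dvd_mul_right p a)
    have hsum : (∑ᶠ q : Nat.Primes, padicValNat (q : ℕ) (p * a) • cyclAdd ℓ (frob q)) =
        cyclAdd ℓ (frob ⟨p, hp⟩) +
          ∑ᶠ q : Nat.Primes, padicValNat (q : ℕ) a • cyclAdd ℓ (frob q) := by
      have h1 : (∑ᶠ q : Nat.Primes, padicValNat (q : ℕ) p • cyclAdd ℓ (frob q)) =
          cyclAdd ℓ (frob ⟨p, hp⟩) := by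
        rw [finsum_eq_single _ ⟨p, hp⟩ fun q hq => by
          rw [padicValNat.eq_zero_of_not_dvd fun hd => hq
            (Subtype.ext ((Nat.prime_dvd_prime_iff_eq q.2 hp).1 hd)), zero_smul]]
        show padicValNat p p • _ = _
        rw [padicValNat_self, one_smul]
      conv_rhs => rw [← h1]
      rw [← finsum_add_distrib (finite_padicValNat ℓ hp.ne_zero) (finite_padicValNat ℓ ha)]
      exact finsum_congr fun q => by rw [padicValNat.mul hp.ne_zero ha, add_smul]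
    rw [hsum, toMul_add, Units.val_mul, cyclAdd_frob ℓ hpl, ih ha hal, Nat.cast_mul]

theorem embUnits_val (q : ℕ) [Fact q.Prime] (N : Additive QBarˣ) :
    (((embUnits q N).toMul : (PadicAlgCl q)ˣ) : PadicAlgCl q) =
      padicEmbedding q ((N.toMul : QBarˣ) : QBar) := rfl

variable {X : Type*} [Fintype X] {σ : GQ →* Equiv.Perm X} {S : Finset Nat.Primes}

/-- The norm to `ℚ` of a global element. -/
theorem exists_rat_prod (a : GlobalStar σ) :
    ∃ r : ℚ, algebraMap ℚ QBar r = (((∑ x, a.1 x).toMul : QBarˣ) : QBar) := by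
  set v : QBar := (((∑ x, a.1 x).toMul : QBarˣ) : QBar)
  have hfix : ∀ g : GQ, g v = v := fun g => by
    have h := sumHom_intertwines σ globalUnits g a.1
    rw [MonoidHom.id_apply, a.2 g, sumHom_apply] at h
    exact (congrArg (fun u : Additive QBarˣ => ((u.toMul : QBarˣ) : QBar)) h).symm
  have hmem : v ∈ (⊥ : IntermediateField ℚ QBar) := by
    rw [← InfiniteGalois.fixedField_fixingSubgroup (⊥ : IntermediateField ℚ QBar),
      IntermediateField.mem_fixedField_iff]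
    exact fun g _ => hfix g
  exact IntermediateField.mem_bot.1 hmem

/-- The norm to `ℚ` of an element of a totally complex field is positive. -/
theorem pos_of_prod_eq (hC : ∀ x, σ complexConjugation x ≠ x) (a : GlobalStar σ) {r : ℚ}
    (hr : algebraMap ℚ QBar r = (((∑ x, a.1 x).toMul : QBarˣ) : QBar)) : 0 < r := by
  classical
  let f : X → ℂ := fun x => complexEmbedding (((a.1 x).toMul : QBarˣ) : QBar)
  set c := σ complexConjugation
  have hf : ∀ x, f (c x) = starRingEnd ℂ (f x) := fun x => by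
    have h := congrFun (a.2 complexConjugation) (c x)
    rw [permAct_apply, Equiv.symm_apply_apply] at h
    show complexEmbedding (((a.1 (c x)).toMul : QBarˣ) : QBar) = _
    rw [← h, ← complexEmbedding_complexConjugation]
    rfl
  have hinv : ∀ x, c (c x) = x := fun x => by
    have h : complexConjugation * complexConjugation = (1 : GQ) := AlgEquiv.ext fun y => by
      refine complexEmbedding.toRingHom.injective ?_
      show complexEmbedding (complexConjugation (complexConjugation y)) = _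
      rw [complexEmbedding_complexConjugation, complexEmbedding_complexConjugation,
        Complex.conj_conj]
      rfl
    rw [← Equiv.Perm.mul_apply, ← map_mul, h, map_one, Equiv.Perm.one_apply]
  let e := Fintype.equivFin X
  set s : Finset X := Finset.univ.filter fun x => e x < e (c x)
  have hunion : ∏ x, f x = (∏ x ∈ s, f x) * starRingEnd ℂ (∏ x ∈ s, f x) := by
    have hmap : s.map c.toEmbedding = sᶜ := by
      ext x
      simp only [Finset.mem_map_equiv, Finset.mem_compl, s, Finset.mem_filter, Finset.mem_univ,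
        true_and, Equiv.apply_symm_apply]
      rw [show c.symm x = c x from (Equiv.symm_apply_eq _).2 (hinv x).symm, not_lt]
      exact ⟨fun h => h.le, fun h => lt_of_le_of_ne h fun h' => hC x (e.injective h')⟩
    rw [map_prod, ← Finset.prod_mul_prod_compl s, ← hmap, Finset.prod_map]
    exact congrArg _ (Finset.prod_congr rfl fun x _ => hf x)
  have hr' : (r : ℂ) = ∏ x, f x := by
    rw [show (r : ℂ) = complexEmbedding (algebraMap ℚ QBar r) by
      rw [AlgHom.commutes, eq_ratCast], hr, toMul_sum, Units.coe_prod, map_prod]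
  have hne : ∏ x ∈ s, f x ≠ 0 :=
    Finset.prod_ne_zero_iff.2 fun x _ => (map_ne_zero _).2 (Units.ne_zero _)
  rw [hunion, Complex.mul_conj] at hr'
  have h : (r : ℝ) = Complex.normSq (∏ x ∈ s, f x) := by exact_mod_cast hr'
  exact_mod_cast h ▸ Complex.normSq_pos.2 hne

/-- The orders of the norm. -/
theorem sum_ordQ_eq (a : GlobalStar σ) {r : ℚ}
    (hr : algebraMap ℚ QBar r = (((∑ x, a.1 x).toMul : QBarˣ) : QBar)) (q : Nat.Primes) :
    ∑ x, ordQ (q : ℕ) ((toLocal (q : ℕ) σ a).1 x) = padicValRat (q : ℕ) r := by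
  have hr0 : r ≠ 0 := fun h => by
    rw [h, map_zero] at hr
    exact Units.ne_zero _ hr.symm
  rw [show ∑ x, ordQ (q : ℕ) ((toLocal (q : ℕ) σ a).1 x) =
      ordQ (q : ℕ) (embUnits (q : ℕ) (∑ x, a.1 x)) by rw [map_sum, map_sum]; rfl]
  show -Real.logb (q : ℕ) ‖padicEmbedding (q : ℕ) (((∑ x, a.1 x).toMul : QBarˣ) : QBar)‖ = _
  rw [← hr, AlgHom.commutes, eq_ratCast, ← map_ratCast (algebraMap ℚ_[(q : ℕ)] _),
    norm_algebraMap', Padic.eq_padicNorm, padicNorm.eq_zpow_of_nonzero hr0, Rat.cast_zpow,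
    Rat.cast_natCast, Real.logb, Real.log_zpow, mul_div_assoc,
    div_self (Real.log_pos (Nat.one_lt_cast.2 q.2.one_lt)).ne']
  simp

theorem dvd_num_sub_den {r : ℚ} (h : ‖(r : ℚ_[(ℓ : ℕ)]) - 1‖ < 1) :
    ((ℓ : ℕ) : ℤ) ∣ r.num - r.den := by
  rw [← Padic.norm_intCast_lt_one_iff]
  have hd : (r.den : ℚ_[(ℓ : ℕ)]) ≠ 0 := Nat.cast_ne_zero.2 r.den_nz
  have he : ((r.num - r.den : ℤ) : ℚ_[(ℓ : ℕ)]) = (r.den : ℚ_[(ℓ : ℕ)]) *
      ((r : ℚ_[(ℓ : ℕ)]) - 1) := by
    rw [Rat.cast_def]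
    field_simp
    push_cast
    ring
  rw [he, norm_mul]
  exact mul_lt_one_of_nonneg_of_lt_one_right (by
    simpa using Padic.norm_int_le_one (p := (ℓ : ℕ)) r.den) (norm_nonneg _) h

theorem not_dvd_of_congr {r : ℚ} (h : ((ℓ : ℕ) : ℤ) ∣ r.num - r.den) :
    ¬ (ℓ : ℕ) ∣ r.den ∧ ¬ (ℓ : ℕ) ∣ r.num.natAbs := by
  have key : ¬ ((ℓ : ℕ) ∣ r.den ∧ (ℓ : ℕ) ∣ r.num.natAbs) := fun ⟨h1, h2⟩ =>
    ℓ.2.one_lt.ne' (Nat.eq_one_of_dvd_coprimes r.reduced h2 h1)
  refine ⟨fun h1 => key ⟨h1, ?_⟩, fun h2 => key ⟨?_, h2⟩⟩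
  · rw [← Int.natCast_dvd]
    simpa using dvd_add h (Int.natCast_dvd_natCast.2 h1)
  · rw [← Int.natCast_dvd_natCast]
    simpa using dvd_sub (Int.natCast_dvd.2 h2) h

/-- An element near one over `ℓ` has a norm with trivial cyclotomic symbol. -/
theorem finsum_padicValRat_cycl (hC : ∀ x, σ complexConjugation x ≠ x) {δ : ℝ} (hδ : 0 < δ)
    (a : GlobalStar σ) (ha : ∀ x, (toLocal (ℓ : ℕ) σ a).1 x ∈ nearOne (ℓ : ℕ) δ) {r : ℚ}
    (hr : algebraMap ℚ QBar r = (((∑ x, a.1 x).toMul : QBarˣ) : QBar)) :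
    ∑ᶠ q : Nat.Primes, padicValRat (q : ℕ) r • cyclAdd ℓ (frob q) = 0 := by
  have hpos := pos_of_prod_eq hC a hr
  have hnum : (r.num.natAbs : ℤ) = r.num :=
    Int.natAbs_of_nonneg (Rat.num_pos.2 hpos).le
  have hn0 : r.num.natAbs ≠ 0 := Int.natAbs_ne_zero.2 (Rat.num_pos.2 hpos).ne'
  have hval : ∀ q : Nat.Primes, padicValRat (q : ℕ) r • cyclAdd ℓ (frob q) =
      padicValNat (q : ℕ) r.num.natAbs • cyclAdd ℓ (frob q) +
        -(padicValNat (q : ℕ) r.den • cyclAdd ℓ (frob q)) := fun q => by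
    rw [padicValRat, padicValInt, sub_smul, natCast_zsmul, natCast_zsmul, sub_eq_add_neg]
  rw [finsum_congr hval, finsum_add_distrib (finite_padicValNat ℓ hn0)
    ((finite_padicValNat ℓ r.den_nz).subset fun q hq => by simpa using hq),
    finsum_neg_distrib, ← sub_eq_add_neg, sub_eq_zero]
  have hclose : ‖(r : ℚ_[(ℓ : ℕ)]) - 1‖ < 1 := by
    have h : ∑ x, (toLocal (ℓ : ℕ) σ a).1 x ∈ nearOne (ℓ : ℕ) δ :=
      sum_mem fun x _ => ha x
    rw [show ∑ x, (toLocal (ℓ : ℕ) σ a).1 x = embUnits (ℓ : ℕ) (∑ x, a.1 x) from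
      (map_sum (embUnits (ℓ : ℕ)) a.1 Finset.univ).symm] at h
    have key : ∀ N : Additive QBarˣ, embUnits (ℓ : ℕ) N ∈ nearOne (ℓ : ℕ) δ →
        ‖padicEmbedding (ℓ : ℕ) ((N.toMul : QBarˣ) : QBar) - 1‖ < min δ 1 :=
      fun N hN => by rw [← embUnits_val]; exact norm_sub_one_lt_of_mem_nearOne hδ hN
    have h2 := key _ h
    rw [← hr, AlgHom.commutes, eq_ratCast, ← map_ratCast (algebraMap ℚ_[(ℓ : ℕ)] _),
      ← map_one (algebraMap ℚ_[(ℓ : ℕ)] (PadicAlgCl (ℓ : ℕ))), ← map_sub, norm_algebraMap'] at h2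
    exact h2.trans_le (min_le_right _ _)
  have hdvd := dvd_num_sub_den ℓ hclose
  obtain ⟨hden, hnumd⟩ := not_dvd_of_congr ℓ hdvd
  refine Additive.toMul.injective (Units.ext ?_)
  rw [sum_padicValNat_cycl ℓ hn0 hnumd, sum_padicValNat_cycl ℓ r.den_nz hden]
  have h := (ZMod.intCast_eq_intCast_iff_dvd_sub (r.den : ℤ) r.num (ℓ : ℕ)).2 hdvd
  rw [← hnum, Int.cast_natCast, Int.cast_natCast] at h
  exact h.symm

/-- The cyclotomic symbol of an element near one over `ℓ` vanishes. -/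
theorem art_cyclAdd_eq_zero (hσ : IsSmoothSet allLevels σ) (htr : IsTransitive σ)
    (hi : IsIntegralOff σ S) (hC : ∀ x, σ complexConjugation x ≠ x) (hℓ : ℓ ∈ S) {δ : ℝ}
    (hδ : 0 < δ) {a : GlobalStar σ} (ha : a ∈ nearS σ S δ) :
    art (fun g (_ : X) => cyclAdd ℓ g) (divOf hσ htr hi a).1 = 0 := by
  classical
  obtain ⟨r, hr⟩ := exists_rat_prod a
  rw [art, ← finsum_padicValRat_cycl ℓ hC hδ a (ha ℓ hℓ) hr]
  refine finsum_congr fun q => ?_
  rw [artAt, ← Finset.sum_smul]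
  congr 1
  have h : ((∑ x, (divOf hσ htr hi a).1 q x : ℤ) : ℝ) = (padicValRat (q : ℕ) r : ℝ) := by
    rw [← sum_ordQ_eq a hr q, Int.cast_sum]
    refine Finset.sum_congr rfl fun x _ => ?_
    rw [divOf_coe]
    by_cases hq : q ∈ S
    · simp only [divOfLocal, hq, if_true, Int.cast_zero]
      exact (ordQ_eq_zero_of_mem_nearOne (ha q hq x)).symm
    · simp only [divOfLocal, hq, if_false, cast_ordL hi hq]
  exact_mod_cast h

end Fermat.Agent.LT.Reciprocity

end
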