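import Fermat.Agent.LT.Reciprocity.OrderFour
import Fermat.Agent.LT.Reciprocity.Cyclotomic
import Fermat.Agent.LT.Reciprocity.AuxPrimes
import Fermat.Agent.Chebotarev.Basic
import Fermat.Agent.GaloisBasics.Unramified

/-!
# Artin's crossing lemma

A divisor with trivial symbol is a norm class: its primes are lifted to the fields crossing the
cover with cyclotomic fields, where the symbol is known to detect the norm classes.
-/

set_option autoImplicit false

noncomputable section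

universe u

open scoped Pointwise

namespace Fermat.Agent.LT.Reciprocity

open Fermat.Agent.PoitouTate Fermat.Agent.GaloisBasics

/-- The index bound for covers of degree `n`. -/
def IndexBound (n : ℕ) [NeZero n] : Prop :=
  ∀ {X : Type u} [Fintype X] {σ : GQ →* Equiv.Perm X} {S : Finset Nat.Primes}
    {c : GQ → X → ZMod n} {hc : IsSetCocycle σ c} (hσ : IsSmoothSet allLevels σ)
    (htr : IsTransitive σ) (hi : IsIntegralOff σ S), (∀ x, σ complexConjugation x ≠ x) →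
    allLevels.IsLC₁ c → IsTransitive (coverPerm σ c hc) →
    (⟨2, Nat.prime_two⟩ : Nat.Primes) ∈ S →
    (∀ q : Nat.Primes, q ∉ S → IsUnramifiedSet (q : ℕ) (coverPerm σ c hc)) →
    ∀ {δ : ℝ}, 0 < δ →
      (hSub hσ htr hi hc δ).index ≠ 0 ∧ (hSub hσ htr hi hc δ).index ≤ n

/-- The index bound for cocycles with values in `ℤ/2`. -/
theorem indexBound_two : IndexBound.{u} 2 := by
  intro X _ σ S c hc hσ htr hi hC hlc htr' h2S hu δ hδ
  exact index_hSub_le (hp := ⟨Nat.prime_two⟩) hσ htr (hasRoots_two σ) hC hlc htr' h2S hu hδ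

/-- The index bound for cocycles with values in `ℤ/4`. -/
theorem indexBound_four : IndexBound.{u} 4 := by
  intro X _ σ S c hc hσ htr hi hC hlc htr' h2S hu δ hδ
  exact index_hSub_four_le hσ htr hi hC hlc htr' h2S hu hδ

/-- A Frobenius generating the same cyclic group of permutations as a given element. -/
theorem exists_frob_eq_pow {Z : Type*} {P : GQ →* Equiv.Perm Z} (hP : IsSmoothSet allLevels P)
    (g₀ : GQ) (B : Finset Nat.Primes) :
    ∃ p : Nat.Primes, p ∉ B ∧ ∃ (g φ : GQ) (k a : ℕ), P φ = P g₀ ^ k ∧ P g₀ = P φ ^ a ∧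
      (IsUnramifiedSet (p : ℕ) P → P (frob p) = P g * P φ * (P g)⁻¹) := by
  classical
  obtain ⟨F, hF, -, hker, -⟩ := exists_galois_field hP
  obtain ⟨p, hp, hpB, -, A, hA, φ, hφ, m, k, a, -, -, -, hk, ha⟩ :=
    Fermat.Agent.Chebotarev.exists_isFrobeniusAt_pow F g₀ (B.image fun q : Nat.Primes => (q : ℕ))
  have : Fact p.Prime := ⟨hp⟩
  have htriv : ∀ σ : GQ, (∀ x ∈ F, σ x = x) → P σ = 1 := fun σ h =>
    MonoidHom.mem_ker.1 (hker ▸ (IntermediateField.mem_fixingSubgroup_iff F σ).2 h)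
  obtain ⟨g, hg⟩ := exists_smul_eq hA (padicPlace_liesOverPrime p) hp
  refine ⟨⟨p, hp⟩, fun h => hpB (Finset.mem_image_of_mem (fun q : Nat.Primes => (q : ℕ)) h),
    g, φ, k, a, ?_, ?_, fun hu => ?_⟩
  · rw [← map_pow]
    exact Fermat.Agent.Chebotarev.map_eq_of_eqOn htriv hk
  · rw [← map_pow]
    exact Fermat.Agent.Chebotarev.map_eq_of_eqOn htriv ha
  · have h := isFrobeniusAt_conj hA hp hφ g
    rw [hg] at h
    rw [← map_inv, ← map_mul, ← map_mul]
    exact map_frobenius_eq P (hu _ (padicPlace_liesOverPrime p))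
      (frobLoc_isFrobeniusAt ⟨p, hp⟩) h

variable {X : Type u} {σ : GQ →* Equiv.Perm X} {A : Type*} [AddCommGroup A]
  {d : GQ → X → A}

/-- Pulled back to its cover a cocycle is a coboundary. -/
theorem art_cover_eq_zero [Fintype X] [Fintype A] (hd : IsAbCocycle σ d)
    {S : Finset Nat.Primes} {D : Nat.Primes → X × A → ℤ} (hD : D ∈ divS (abPerm hd) S) :
    art (fun g z => d g z.1) D = 0 :=
  art_coboundary (k := Prod.snd) (fun g z => by rw [abPerm_symm_apply]; simp) hD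

/-- A finite intersection of levels. -/
theorem exists_level_finset {ι : Type*} (s : Finset ι) (P : ι → GQ → Prop)
    (h : ∀ i, ∃ U, allLevels.mem U ∧ ∀ g ∈ U, P i g) :
    ∃ U, allLevels.mem U ∧ ∀ i ∈ s, ∀ g ∈ U, P i g := by
  classical
  induction s using Finset.induction_on with
  | empty => exact ⟨_, allLevels.exists_mem.choose_spec, by simp⟩
  | insert i s _ ih =>
    obtain ⟨U, hU, hUs⟩ := ih
    obtain ⟨V, hV, hVi⟩ := h i
    obtain ⟨W, hW, hWU, hWV⟩ := allLevels.inf hU hV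
    refine ⟨W, hW, fun j hj g hg => ?_⟩
    rcases Finset.mem_insert.1 hj with rfl | hj
    · exact hVi g (hWV hg)
    · exact hUs j hj g (hWU hg)

section Setup

variable {J : Type} (ℓ : J → Nat.Primes)

/-- The cyclotomic characters at the auxiliary primes. -/
def kappa (g : GQ) : ∀ j, Additive (ZMod (ℓ j : ℕ))ˣ := fun j => cyclAdd (ℓ j) g

theorem kappa_mul (g h : GQ) : kappa ℓ (g * h) = kappa ℓ h + kappa ℓ g :=
  funext fun j => by
    show cyclAdd (ℓ j) (g * h) = cyclAdd (ℓ j) h + cyclAdd (ℓ j) g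
    rw [cyclAdd_mul, add_comm]

variable {n : ℕ}

/-- The cocycle crossing a cocycle with the cyclotomic characters. -/
def crossCocycle (c : GQ → X → ZMod n) (g : GQ) (x : X) :
    ZMod n × (∀ j, Additive (ZMod (ℓ j : ℕ))ˣ) := (c g x, kappa ℓ g)

theorem isAbCocycle_crossCocycle {c : GQ → X → ZMod n} (hc : IsSetCocycle σ c) :
    IsAbCocycle σ (crossCocycle ℓ c) := fun g h x => Prod.ext (hc g h x) (kappa_mul ℓ g h)

theorem isLC₁_crossCocycle [Fintype J] {c : GQ → X → ZMod n} (hlc : allLevels.IsLC₁ c) :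
    allLevels.IsLC₁ (crossCocycle ℓ c) := by
  obtain ⟨U, hU, hUc⟩ := hlc
  obtain ⟨V, hV, hVκ⟩ := exists_level_finset Finset.univ (fun j g => cyclAdd (ℓ j) g = 0)
    fun j => exists_level_cyclAdd (ℓ j)
  obtain ⟨W, hW, hWU, hWV⟩ := allLevels.inf hU hV
  refine ⟨W, hW, fun g s hs => funext fun x => Prod.ext
    (congrFun (hUc g s (hWU hs)) x) (funext fun j => ?_)⟩
  show cyclAdd (ℓ j) (g * s) = cyclAdd (ℓ j) g
  rw [cyclAdd_mul, hVκ j (Finset.mem_univ j) s (hWV hs), add_zero]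

theorem kappa_inertia {q : Nat.Primes} (hq : ∀ j, ℓ j ≠ q) {P : ValuationSubring QBar}
    (hP : P.LiesOverPrime (q : ℕ)) {g : GQ} (hg : g ∈ P.inertiaSubgroupIn ℚ) : kappa ℓ g = 0 :=
  funext fun j => cyclAdd_inertia (ℓ j) q.2 (fun e => hq j (Subtype.ext e.symm)) hP hg

/-- The crossed cover is transitive. -/
theorem isTransitive_cross [Fintype J] {S : Finset Nat.Primes} {c : GQ → X → ZMod n}
    {hc : IsSetCocycle σ c} (hinj : Function.Injective ℓ) (hℓS : ∀ j, ℓ j ∉ S)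
    (htr : IsTransitive σ) (htr' : IsTransitive (coverPerm σ c hc))
    (hu : ∀ q : Nat.Primes, q ∉ S → IsUnramifiedSet (q : ℕ) (coverPerm σ c hc)) :
    IsTransitive (abPerm (isAbCocycle_crossCocycle ℓ hc)) := by
  classical
  obtain ⟨x₀⟩ := htr.1
  have hκ : ∀ h : ∀ j, Additive (ZMod (ℓ j : ℕ))ˣ,
      ∃ g, σ g = 1 ∧ (∀ x, c g x = 0) ∧ kappa ℓ g = h := by
    intro h
    rw [← Finset.univ_sum_single h]
    refine Finset.sum_induction _
      (fun h => ∃ g, σ g = 1 ∧ (∀ x, c g x = 0) ∧ kappa ℓ g = h) ?_ ?_ fun j _ => ?_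
    · rintro a b ⟨g, hg, hgc, rfl⟩ ⟨g', hg', hgc', rfl⟩
      refine ⟨g * g', by rw [map_mul, hg, hg', mul_one], fun x => ?_, ?_⟩
      · rw [hc g g' x, hgc, hgc', add_zero]
      · rw [kappa_mul, add_comm]
    · refine ⟨1, map_one σ, hc.map_one, ?_⟩
      have := kappa_mul ℓ 1 1
      simpa using this
    · have hub : IsUnramifiedSet (ℓ j : ℕ) σ :=
        (hu _ (hℓS j)).of_equivMap (fun x => ⟨(x, 0), rfl⟩) (isEquivMap_fst hc)
      obtain ⟨g, hg, hgu⟩ := exists_inertia_cyclAdd (ℓ j) (padicPlace_liesOverPrime (ℓ j : ℕ)) (h j)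
      refine ⟨g, hub _ (padicPlace_liesOverPrime _) g hg, fun x =>
        eq_zero_of_unramified_cover (hu _ (hℓS j)) _ (padicPlace_liesOverPrime _) g hg x,
        funext fun j' => ?_⟩
      rcases eq_or_ne j' j with rfl | hj
      · rw [Pi.single_eq_same]; exact hgu
      · rw [Pi.single_eq_of_ne hj]
        exact cyclAdd_inertia (ℓ j') (ℓ j).2 (fun e => hj (hinj (Subtype.ext e.symm)))
          (padicPlace_liesOverPrime _) hg
  refine isTransitive_abPerm _ htr x₀ fun w => ?_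
  obtain ⟨g₁, hg₁, hg₁c⟩ := exists_stab_eq_of_transitive htr' x₀ w.1
  obtain ⟨g₂, hg₂, hg₂c, hg₂κ⟩ := hκ (w.2 - kappa ℓ g₁)
  refine ⟨g₁ * g₂, by rw [map_mul, hg₂, mul_one, hg₁], Prod.ext ?_ ?_⟩
  · show c (g₁ * g₂) x₀ = w.1
    rw [hc g₁ g₂ x₀, hg₂c, zero_add, hg₁c]
  · show kappa ℓ (g₁ * g₂) = w.2
    rw [kappa_mul, hg₂κ, sub_add_cancel]

end Setup

/-! ### The crossing fields -/

section Cross

variable [Fintype X] {n : ℕ} [NeZero n] {c : GQ → X → ZMod n} {hc : IsSetCocycle σ c}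
  {S : Finset Nat.Primes}

omit [NeZero n] [Fintype X] in
theorem isEquivMap_crossToCover {G : Type*} [AddCommGroup G]
    {d' : GQ → X → G} (hd' : IsAbCocycle σ d')
    (hc' : IsSetCocycle (abPerm hd') fun g (y : X × G) => c g y.1) :
    IsEquivMap (coverPerm (abPerm hd') _ hc') (coverPerm σ c hc)
      fun z => (z.1.1, z.2) := fun _ _ => rfl

/-- Divisors prime to a larger set, among those prime to a smaller one. -/
def inclDiv {S S' : Finset Nat.Primes} (h : S ⊆ S') : ↥(divS σ S') →+ ↥(divS σ S) :=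
  AddSubgroup.inclusion (divS_anti h)

omit [Fintype X] in
/-- `inclDiv` does not change the divisor. -/
theorem inclDiv_coe {S S' : Finset Nat.Primes} (h : S ⊆ S') (D : ↥(divS σ S')) :
    (inclDiv h D).1 = D.1 := rfl

omit [Fintype X] in
/-- Enlarging the set of primes does not change divisors of elements near one on it. -/
theorem inclDiv_divOf {S S' : Finset Nat.Primes} (h : S ⊆ S') (hσ : IsSmoothSet allLevels σ)
    (htr : IsTransitive σ) (hi : IsIntegralOff σ S) (hi' : IsIntegralOff σ S') {δ : ℝ}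
    {a : GlobalStar σ} (ha : a ∈ nearS σ S' δ) :
    inclDiv h (divOf hσ htr hi' a) = divOf hσ htr hi a := by
  refine Subtype.ext (funext fun q => funext fun x => ?_)
  rw [inclDiv_coe, divOf_coe, divOf_coe]
  simp only [divOfLocal]
  by_cases hq : q ∈ S'
  · rw [if_pos hq]
    split_ifs
    · rfl
    · rw [ordL, ordQ_eq_zero_of_mem_nearOne (ha q hq x), Int.floor_zero]
  · rw [if_neg hq, if_neg fun h' => hq (h h')]

variable (hσ : IsSmoothSet allLevels σ) (htr : IsTransitive σ) (hi : IsIntegralOff σ S)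
  (hC : ∀ x, σ complexConjugation x ≠ x) (hlc : allLevels.IsLC₁ c)
  (htr' : IsTransitive (coverPerm σ c hc))

include hσ htr hC hlc in
/-- On a crossing field the divisors with trivial symbol are norm classes; pushed down they
remain norm classes. -/
theorem mem_hSub_of_cross (hidx : IndexBound.{u} n) {J : Type} [Fintype J]
    (ℓ : J → Nat.Primes) (Q : AddSubgroup (ZMod n × (∀ j, Additive (ZMod (ℓ j : ℕ))ˣ)))
    {G : Type} [AddCommGroup G] [Fintype G]
    (f : ZMod n × (∀ j, Additive (ZMod (ℓ j : ℕ))ˣ) →+ G) (hf : Function.Surjective f)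
    (hQ : f.ker = Q) (hQ0 : ∀ u, (u, 0) ∈ Q → u = 0)
    (hQ1 : ∀ u : ZMod n, ∃ w ∈ Q, w.1 = u)
    {S' : Finset Nat.Primes} (hSS' : S ⊆ S') (h2S' : (⟨2, Nat.prime_two⟩ : Nat.Primes) ∈ S')
    (hℓS' : ∀ j, ℓ j ∈ S') (hu' : ∀ q : Nat.Primes, q ∉ S' →
      IsUnramifiedSet (q : ℕ) (abPerm (isAbCocycle_crossCocycle ℓ hc)))
    (htrZ : IsTransitive (abPerm (isAbCocycle_crossCocycle ℓ hc)))
    (E₁ : ↥(divS (abPerm ((isAbCocycle_crossCocycle ℓ hc).comp f)) S'))
    (h1 : art (fun g (y : X × G) => c g y.1) E₁.1 = 1)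
    (E : ↥(divS (abPerm ((isAbCocycle_crossCocycle ℓ hc).comp f)) S'))
    (hE : art (fun g (y : X × G) => c g y.1) E.1 = 0) {δ : ℝ} (hδ : 0 < δ) :
    inclDiv hSS' (pushDiv (isEquivMap_abFst _) E) ∈ hSub hσ htr hi hc δ := by
  classical
  have hd := isAbCocycle_crossCocycle ℓ hc
  let σY := abPerm (hd.comp f)
  let cY : GQ → X × G → ZMod n := fun g y => c g y.1
  have hcY : IsSetCocycle σY cY := fun g h y => hc g h y.1
  have hlcd := isLC₁_crossCocycle ℓ hlc
  have hσY : IsSmoothSet allLevels σY :=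
    isSmoothSet_abPerm _ hσ (hlcd.comp fun φ x => f (φ x))
  have hlcY : allLevels.IsLC₁ cY := hlc.comp fun φ (y : X × G) => φ y.1
  -- the map from the crossed cover
  let π : X × (ZMod n × (∀ j, Additive (ZMod (ℓ j : ℕ))ˣ)) → (X × G) × ZMod n :=
    fun z => ((z.1, f z.2), z.2.1)
  have hπ : IsEquivMap (abPerm hd) (coverPerm σY cY hcY) π := fun g z => by
    simp [π, σY, cY, abPerm_apply, coverPerm_apply, map_add, crossCocycle]
  have hπs : Function.Surjective π := fun y => by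
    obtain ⟨w, hw⟩ := hf y.1.2
    obtain ⟨v, hv, hv1⟩ := hQ1 (y.2 - w.1)
    refine ⟨(y.1.1, w + v), ?_⟩
    rw [← hQ] at hv
    simp [π, map_add, AddMonoidHom.mem_ker.1 hv, hw, hv1]
  have htrY' : IsTransitive (coverPerm σY cY hcY) := isTransitive_of_surjective hπ hπs htrZ
  have htrY : IsTransitive σY := isTransitive_of_surjective (isEquivMap_fst hcY)
    (fun y => ⟨(y, 0), rfl⟩) htrY'
  have huY : ∀ q : Nat.Primes, q ∉ S' → IsUnramifiedSet (q : ℕ) (coverPerm σY cY hcY) :=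
    fun q hq => (hu' q hq).of_equivMap hπs hπ
  have hiY : IsIntegralOff σY S' := isIntegralOff_of_unramified hσY fun q hq =>
    (huY q hq).of_equivMap (fun y => ⟨(y, 0), rfl⟩) (isEquivMap_fst hcY)
  have hi' : IsIntegralOff σ S' := fun q hq => hi q fun h => hq (hSS' h)
  have hCY : ∀ y, σY complexConjugation y ≠ y := fun y h => hC y.1 (congrArg Prod.fst h)
  obtain ⟨hI0, hI⟩ := hidx hσY htrY hiY hCY hlcY htrY' h2S' huY hδ
  set H := hSub hσY htrY hiY hcY δ
  set θ := artHom σY S' cY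
  -- the symbol kills the norm classes
  have hdiv : ∀ a ∈ nearS σY S' δ, art cY (divOf hσY htrY hiY a).1 = 0 := by
    intro a ha
    set D := divOf hσY htrY hiY a
    set dY : GQ → X × G → ZMod n × (∀ j, Additive (ZMod (ℓ j : ℕ))ˣ) :=
      fun g y => crossCocycle ℓ c g y.1
    have h0 : f (art dY D.1) = 0 := by
      rw [← art_map f dY D.2]
      exact art_cover_eq_zero (hd.comp f) D.2
    have h2 : (art dY D.1).2 = 0 := funext fun j => by
      show ((Pi.evalAddMonoidHom _ j).comp (AddMonoidHom.snd _ _)) (art dY D.1) = 0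
      rw [← art_map _ dY D.2]
      exact art_cyclAdd_eq_zero (ℓ j) hσY htrY hiY hCY (hℓS' j) hδ ha
    have h3 : art cY D.1 = (art dY D.1).1 := art_map (AddMonoidHom.fst _ _) dY D.2
    rw [h3]
    refine hQ0 _ ?_
    rw [← hQ, AddMonoidHom.mem_ker, show ((art dY D.1).1, (0 : ∀ j, Additive (ZMod (ℓ j : ℕ))ˣ)) =
      art dY D.1 from Prod.ext rfl h2.symm]
    exact h0
  have hle : H ≤ θ.ker := by
    intro F hF
    obtain ⟨a, ha, F', rfl⟩ := mem_hSub_iff.1 hF
    rw [AddMonoidHom.mem_ker, map_add]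
    show art cY (divOf hσY htrY hiY a).1 + art cY (pushDiv (isEquivMap_fst hcY) F').1 = 0
    rw [hdiv a ha, zero_add]
    show art cY (fun q => push Prod.fst (F'.1 q)) = 0
    rw [art_push]
    exact art_coboundary (k := Prod.snd) (fun g z => by rw [coverPerm_symm_apply]; simp) F'.2
  have hθ : Function.Surjective θ := fun u => ⟨u.val • E₁, by
    rw [map_nsmul, artHom_apply, h1, nsmul_one, ZMod.natCast_zmod_val]⟩
  have hker : θ.ker.index = n := by
    rw [AddSubgroup.index_ker, AddMonoidHom.range_eq_top.2 hθ, AddSubgroup.card_top,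
      Nat.card_zmod]
  have hEq : θ.ker ≤ H := by
    rw [← AddSubgroup.relIndex_eq_one]
    have h := AddSubgroup.relIndex_mul_index hle
    rw [hker] at h
    have h' : H.relIndex θ.ker * n ≤ n := h.trans_le hI
    have h'' : H.relIndex θ.ker ≠ 0 := fun e => hI0 (by rw [← h, e, zero_mul])
    exact le_antisymm (Nat.le_of_mul_le_mul_right (by simpa using h') (NeZero.pos n))
      (Nat.one_le_iff_ne_zero.2 h'')
  obtain ⟨a, ha, F, hF⟩ := mem_hSub_iff.1 (hEq (show E ∈ θ.ker from hE))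
  have hfst := isEquivMap_abFst (hd.comp f)
  have hna := normGlobal_mem_nearS hfst ha
  refine mem_hSub_iff.2 ⟨normGlobal hfst a, fun q hq x => hna q (hSS' hq) x,
    inclDiv hSS' (pushDiv (isEquivMap_crossToCover (hd.comp f) hcY) F), ?_⟩
  rw [← hF, map_add, map_add, ← divOf_norm hfst hσ htr hi' hσY htrY hiY a,
    inclDiv_divOf hSS' hσ htr hi hi' hna]
  refine congrArg _ (Subtype.ext (funext fun q => ?_))
  simp only [inclDiv_coe, pushDiv_coe, push_push]
  congr 1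

omit [NeZero n] [Fintype X] in
open scoped Classical in
theorem eq_sum_orbitDiv {T : Finset Nat.Primes} {D : Nat.Primes → X → ℤ} (hD : D ∈ divS σ S)
    (hT : ∀ q, q ∉ T → D q = 0) [∀ q : Nat.Primes, Fintype (Places (q : ℕ) σ)] :
    D = ∑ i : Σ q : ↥T, Places (q.1 : ℕ) σ, D i.1.1 i.2.out • orbitDiv i.1.1 i.2 := by
  funext r x
  rw [Finset.sum_apply, Finset.sum_apply]
  simp only [Pi.smul_apply, smul_eq_mul]
  by_cases hr : r ∈ T
  · rw [Finset.sum_eq_single (⟨⟨r, hr⟩, orbitOf (r : ℕ) σ x⟩ : Σ q : ↥T, Places (q.1 : ℕ) σ)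
      (fun i _ hne => ?_) (fun h => absurd (Finset.mem_univ _) h)]
    · rw [orbitDiv_self, if_pos rfl, mul_one]
      obtain ⟨g, hg⟩ := Quotient.exact (s := placeSetoid (r : ℕ) σ)
        (Quotient.out_eq (orbitOf (r : ℕ) σ x))
      exact (congrArg (D r) hg.symm).trans (hD.2.2 r g _)
    · obtain ⟨⟨q, hq⟩, O⟩ := i
      by_cases hqr : r = q
      · subst hqr
        rw [orbitDiv_self, if_neg fun h => hne (by rw [← show orbitOf (r : ℕ) σ x = O from h]),
          mul_zero]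
      · rw [orbitDiv_of_ne hqr]; simp
  · rw [hT r hr, Finset.sum_eq_zero fun i _ => by
      rw [orbitDiv_of_ne fun h : r = i.1.1 => hr (by rw [h]; exact i.1.2)]; simp]
    rfl

include hσ htr hC hlc in
open scoped Classical in
/-- An orbit, corrected by a multiple of the auxiliary one, is a norm class. -/
theorem mem_hSub_of_orbits (hidx : IndexBound.{u} n) {J : Type} [Fintype J]
    (ℓ : J → Nat.Primes) {G : Type} [AddCommGroup G] [Fintype G]
    (f : ZMod n × (∀ j, Additive (ZMod (ℓ j : ℕ))ˣ) →+ G) (hf : Function.Surjective f)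
    (hf0 : ∀ u, f (u, 0) = 0 → u = 0) (hf1 : ∀ u : ZMod n, ∃ w, f w = 0 ∧ w.1 = u)
    {S' : Finset Nat.Primes} (hSS' : S ⊆ S') (h2S' : (⟨2, Nat.prime_two⟩ : Nat.Primes) ∈ S')
    (hℓS' : ∀ j, ℓ j ∈ S') (hu' : ∀ q : Nat.Primes, q ∉ S' →
      IsUnramifiedSet (q : ℕ) (abPerm (isAbCocycle_crossCocycle ℓ hc)))
    (htrZ : IsTransitive (abPerm (isAbCocycle_crossCocycle ℓ hc)))
    {q p : Nat.Primes} (hq : q ∉ S') (hp : p ∉ S') (O : Places (q : ℕ) σ) (P : Places (p : ℕ) σ)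
    (a : ℕ) (hO : f (∑ x with orbitOf (q : ℕ) σ x = O, crossCocycle ℓ c (frob q) x) = 0)
    (hP : f (∑ x with orbitOf (p : ℕ) σ x = P, crossCocycle ℓ c (frob p) x) = 0)
    (ha : a • ∑ x with orbitOf (p : ℕ) σ x = P, c (frob p) x = 1) {δ : ℝ} (hδ : 0 < δ) :
    inclDiv hSS' ⟨_, orbitDiv_mem hq O⟩ -
      (∑ x with orbitOf (q : ℕ) σ x = O, c (frob q) x).val •
        inclDiv hSS' (a • ⟨_, orbitDiv_mem hp P⟩) ∈ hSub hσ htr hi hc δ := by
  have hd := isAbCocycle_crossCocycle ℓ hc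
  have hlcd := isLC₁_crossCocycle ℓ hlc
  have hmap : IsEquivMap (abPerm hd) (abPerm (hd.comp f)) fun z => (z.1, f z.2) :=
    fun g z => by simp [abPerm_apply, map_add]
  have hsurj : Function.Surjective fun z : X × (ZMod n × (∀ j, Additive (ZMod (ℓ j : ℕ))ˣ)) =>
      (z.1, f z.2) := fun z => by
    obtain ⟨w, hw⟩ := hf z.2
    exact ⟨(z.1, w), Prod.ext rfl hw⟩
  have hu : ∀ r : Nat.Primes, r ∉ S' → IsUnramifiedSet (r : ℕ) (abPerm (hd.comp f)) :=
    fun r hr => (hu' r hr).of_equivMap hsurj hmap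
  have hlcf : allLevels.IsLC₁ fun g x => f (crossCocycle ℓ c g x) :=
    hlcd.comp fun φ x => f (φ x)
  rw [map_sum] at hO hP
  obtain ⟨E₀, hE₀⟩ := exists_lift_orbitDiv (hd.comp f) hσ hlcf hq (hu q hq) O hO
  obtain ⟨E₁, hE₁⟩ := exists_lift_orbitDiv (hd.comp f) hσ hlcf hp (hu p hp) P hP
  set π := pushDiv (S := S') (isEquivMap_abFst (hd.comp f))
  have hθ : ∀ F : ↥(divS (abPerm (hd.comp f)) S'),
      art (fun g (z : X × G) => c g z.1) F.1 = artHom σ S' c (π F) :=
    fun F => (art_push _ c _).symm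
  have h0 : π E₀ = ⟨_, orbitDiv_mem hq O⟩ := Subtype.ext hE₀
  have h1 : π E₁ = ⟨_, orbitDiv_mem hp P⟩ := Subtype.ext hE₁
  set α := ∑ x with orbitOf (q : ℕ) σ x = O, c (frob q) x
  have hB : artHom σ S' c (a • π E₁) = 1 := by
    rw [map_nsmul, h1, artHom_apply, art_orbitDiv]
    exact ha
  have h := mem_hSub_of_cross (hc := hc) hσ htr hi hC hlc hidx ℓ f.ker f hf rfl hf0
    (fun u => by obtain ⟨w, hw, hw1⟩ := hf1 u; exact ⟨w, hw, hw1⟩) hSS' h2S' hℓS' hu' htrZ
    (a • E₁) (by rw [hθ, map_nsmul, hB])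
    (E₀ - α.val • a • E₁) (by
      rw [hθ, map_sub, map_nsmul, map_nsmul, map_sub, map_nsmul, hB, h0, artHom_apply,
        art_orbitDiv, nsmul_one, ZMod.natCast_zmod_val, sub_self]) hδ
  change inclDiv hSS' (π (E₀ - α.val • a • E₁)) ∈ _ at h
  rwa [map_sub, map_nsmul, map_nsmul, h0, h1, map_sub, map_nsmul] at h

/-- `n` times a divisor is a norm class. -/
theorem nsmul_mem_hSub (D : ↥(divS σ S)) {δ : ℝ} : n • D ∈ hSub hσ htr hi hc δ := by
  refine mem_hSub_iff.2 ⟨0, zero_mem _, pullDiv (isEquivMap_fst hc) D, ?_⟩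
  rw [map_zero, zero_add]
  refine Subtype.ext (funext fun q => funext fun x => ?_)
  rw [pushDiv_coe, push_fst_apply]
  simp only [pullDiv_coe, AddSubgroup.coe_nsmul, Pi.smul_apply]
  rw [Finset.sum_const, Finset.card_univ, ZMod.card]

include hσ hlc in
omit [NeZero n] [Fintype X] in
/-- An auxiliary prime with a point which is its own orbit and at which the crossed Frobenius is a
generator of the multiples of a given element. -/
theorem exists_aux_point {J : Type} [Fintype J] (ℓ : J → Nat.Primes) {S' B : Finset Nat.Primes}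
    (hB : S' ⊆ B)
    (hu' : ∀ q : Nat.Primes, q ∉ S' →
      IsUnramifiedSet (q : ℕ) (abPerm (isAbCocycle_crossCocycle ℓ hc)))
    (htrZ : IsTransitive (abPerm (isAbCocycle_crossCocycle ℓ hc))) (x₀ : X)
    (w : ZMod n × (∀ j, Additive (ZMod (ℓ j : ℕ))ˣ)) :
    ∃ p : Nat.Primes, p ∉ B ∧ ∃ (y : X) (k a : ℕ),
      (∀ x, orbitOf (p : ℕ) σ x = orbitOf (p : ℕ) σ y → x = y) ∧
      crossCocycle ℓ c (frob p) y = k • w ∧ a • k • w = w := by
  set hd := isAbCocycle_crossCocycle ℓ hc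
  have hlcd := isLC₁_crossCocycle ℓ hlc
  have hsmZ : IsSmoothSet allLevels (abPerm hd) := isSmoothSet_abPerm hd hσ hlcd
  obtain ⟨g₀, hg₀⟩ := htrZ.2 (x₀, 0) (x₀, w)
  obtain ⟨p, hpB, g, φ₀, k₀, a, hk₀, ha, hfrob⟩ := exists_frob_eq_pow hsmZ g₀ B
  have hp : p ∉ S' := fun h => hpB (hB h)
  replace hfrob := hfrob (hu' p hp)
  have htr0 : ∀ (h : GQ) (w : ZMod n × (∀ j, Additive (ZMod (ℓ j : ℕ))ˣ)),
      abPerm hd h (x₀, w) = ((abPerm hd h (x₀, 0)).1, (abPerm hd h (x₀, 0)).2 + w) := fun h w => by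
    simpa using abPerm_translate hd h (x₀, 0) w
  have htrans : ∀ (z : ℕ) (w : ZMod n × (∀ j, Additive (ZMod (ℓ j : ℕ))ˣ)) (h : GQ),
      abPerm hd h (x₀, 0) = (x₀, w) → (abPerm hd h ^ z) (x₀, 0) = (x₀, z • w) := by
    intro z w h hw
    induction z with
    | zero => simp
    | succ z ih =>
      rw [pow_succ', Equiv.Perm.mul_apply, ih, htr0, hw, succ_nsmul']
  set v : ZMod n × (∀ j, Additive (ZMod (ℓ j : ℕ))ˣ) := k₀ • w
  have hφ₀ : abPerm hd φ₀ (x₀, 0) = (x₀, v) := by rw [hk₀]; exact htrans _ _ _ hg₀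
  have hav : a • v = w := by
    have h := htrans a v φ₀ hφ₀
    rw [← ha, hg₀] at h
    exact (congrArg Prod.snd h).symm
  set y := σ g x₀
  obtain ⟨b, hb⟩ : ∃ b, abPerm hd g (x₀, 0) = (y, b) := ⟨_, Prod.ext rfl rfl⟩
  have hy : abPerm hd (frob p) (y, b) = (y, b + v) := by
    rw [hfrob, Equiv.Perm.mul_apply, Equiv.Perm.mul_apply]
    rw [show (abPerm hd g)⁻¹ (y, b) = (x₀, 0) by
      rw [← hb, Equiv.Perm.inv_def, Equiv.symm_apply_apply]]
    rw [hφ₀, htr0, hb]
  have hy1 : σ (frob p) y = y := congrArg Prod.fst hy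
  have hy2 : crossCocycle ℓ c (frob p) y = v := by
    have h := congrArg Prod.snd hy
    rw [abPerm_apply] at h
    simpa [hy1] using h
  refine ⟨p, hpB, y, k₀, a, fun x h => ?_, hy2, hav⟩
  have hbase : IsUnramifiedSet (p : ℕ) σ :=
    (hu' p hp).of_equivMap (fun x => ⟨(x, 0), rfl⟩) (isEquivMap_abFst hd)
  obtain ⟨i, hi'⟩ := exists_frob_pow hσ p hbase h.symm
  rw [← hi', Function.iterate_fixed hy1]

omit [NeZero n] in
open scoped Classical in
/-- The sum of the crossed cocycle over an orbit: the symbol of the orbit and the classes of the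
norm of its prime at the auxiliary primes. -/
theorem sum_crossCocycle_orbit {J : Type} (ℓ : J → Nat.Primes) (q : Nat.Primes)
    (O : Places (q : ℕ) σ) (hq : ∀ j, ℓ j ≠ q) (φ : ∀ j, Additive (ZMod (ℓ j : ℕ))ˣ)
    (hφ : ∀ j, (((φ j).toMul : (ZMod (ℓ j : ℕ))ˣ) : ZMod (ℓ j : ℕ)) =
      (((q : ℕ) ^ (Finset.univ.filter fun x => orbitOf (q : ℕ) σ x = O).card : ℕ) :
        ZMod (ℓ j : ℕ))) :
    ∑ x with orbitOf (q : ℕ) σ x = O, crossCocycle ℓ c (frob q) x =
      (∑ x with orbitOf (q : ℕ) σ x = O, c (frob q) x, φ) := by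
  refine Prod.ext (Prod.fst_sum) (funext fun j' => ?_)
  rw [Prod.snd_sum]
  show (∑ x with orbitOf (q : ℕ) σ x = O, kappa ℓ (frob q)) j' = φ j'
  rw [Finset.sum_const, Pi.smul_apply]
  refine Additive.toMul.injective (Units.ext ?_)
  rw [toMul_nsmul, Units.val_pow_eq_pow_val, hφ j']
  show (((cyclAdd (ℓ j') (frob q)).toMul : (ZMod (ℓ j' : ℕ))ˣ) : ZMod (ℓ j' : ℕ)) ^ _ = _
  rw [cyclAdd_frob (ℓ j') (fun e => hq j' e.symm), Nat.cast_pow]

include hσ htr hC hlc in
open scoped Classical in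
/-- An orbit whose crossed sum is independent of `(1, τ)`, corrected by the orbit of an auxiliary
point whose crossed Frobenius generates the multiples of `(1, τ)`, is a norm class. -/
theorem mem_hSub_of_independent (hidx : IndexBound.{u} n) {J : Type} [Fintype J]
    (ℓ : J → Nat.Primes) {S' : Finset Nat.Primes} (hSS' : S ⊆ S')
    (h2S' : (⟨2, Nat.prime_two⟩ : Nat.Primes) ∈ S') (hℓS' : ∀ j, ℓ j ∈ S')
    (hu' : ∀ q : Nat.Primes, q ∉ S' →
      IsUnramifiedSet (q : ℕ) (abPerm (isAbCocycle_crossCocycle ℓ hc)))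
    (htrZ : IsTransitive (abPerm (isAbCocycle_crossCocycle ℓ hc)))
    {τ φ : ∀ j, Additive (ZMod (ℓ j : ℕ))ˣ}
    (hind : ∀ s r : ℤ, s • τ + r • φ = 0 → (n : ℤ) ∣ s ∧ (n : ℤ) ∣ r)
    {q p : Nat.Primes} (hq : q ∉ S') (hp : p ∉ S') (O : Places (q : ℕ) σ)
    (hO : ∑ x with orbitOf (q : ℕ) σ x = O, crossCocycle ℓ c (frob q) x =
      (∑ x with orbitOf (q : ℕ) σ x = O, c (frob q) x, φ))
    {y : X} (hy : ∀ x, orbitOf (p : ℕ) σ x = orbitOf (p : ℕ) σ y → x = y) {k a : ℕ}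
    (hk : crossCocycle ℓ c (frob p) y = k • ((1 : ZMod n), τ))
    (ha : a • k • ((1 : ZMod n), τ) = ((1 : ZMod n), τ)) {δ : ℝ} (hδ : 0 < δ) :
    inclDiv hSS' ⟨_, orbitDiv_mem hq O⟩ -
      (∑ x with orbitOf (q : ℕ) σ x = O, c (frob q) x).val •
        inclDiv hSS' (a • ⟨_, orbitDiv_mem hp (orbitOf (p : ℕ) σ y)⟩) ∈ hSub hσ htr hi hc δ := by
  have hsumy : ∀ {M : Type _} [AddCommMonoid M] (F : X → M),
      ∑ x with orbitOf (p : ℕ) σ x = orbitOf (p : ℕ) σ y, F x = F y := fun F =>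
    Finset.sum_eq_single_of_mem y (Finset.mem_filter.2 ⟨Finset.mem_univ _, rfl⟩)
      fun x hx hne => absurd (hy x (Finset.mem_filter.1 hx).2) hne
  set α := ∑ x with orbitOf (q : ℕ) σ x = O, c (frob q) x
  set Q := AddSubgroup.closure {((1 : ZMod n), τ), (α, φ)}
  let _ := Fintype.ofFinite ((ZMod n × (∀ j, Additive (ZMod (ℓ j : ℕ))ˣ)) ⧸ Q)
  have hmk : ∀ w ∈ Q, QuotientAddGroup.mk' Q w = 0 := fun w hw =>
    (QuotientAddGroup.eq_zero_iff _).2 hw
  refine mem_hSub_of_orbits (hc := hc) hσ htr hi hC hlc hidx ℓ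
    (G := (ZMod n × (∀ j, Additive (ZMod (ℓ j : ℕ))ˣ)) ⧸ Q) (QuotientAddGroup.mk' Q)
    (QuotientAddGroup.mk'_surjective Q) (fun u hu0 => ?_) (fun u => ?_) hSS' h2S' hℓS'
    hu' htrZ hq hp O (orbitOf (p : ℕ) σ y) a ?_ ?_ ?_ hδ
  · obtain ⟨s, r, hsr⟩ := AddSubgroup.mem_closure_pair.1 ((QuotientAddGroup.eq_zero_iff _).1 hu0)
    obtain ⟨hs, hr⟩ := hind s r (congrArg Prod.snd hsr)
    have hu1 : s • (1 : ZMod n) + r • α = u := congrArg Prod.fst hsr
    rw [← hu1, zsmul_eq_mul, zsmul_eq_mul, (ZMod.intCast_zmod_eq_zero_iff_dvd s n).2 hs,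
      (ZMod.intCast_zmod_eq_zero_iff_dvd r n).2 hr, zero_mul, zero_mul, add_zero]
  · exact ⟨u.val • ((1 : ZMod n), τ),
      hmk _ (nsmul_mem (AddSubgroup.subset_closure (by simp)) _), by simp⟩
  · rw [hO]
    exact hmk _ (AddSubgroup.subset_closure (by simp))
  · rw [hsumy, hk]
    exact hmk _ (nsmul_mem (AddSubgroup.subset_closure (by simp)) _)
  · rw [hsumy, show c (frob p) y = (k • ((1 : ZMod n), τ)).1 from congrArg Prod.fst hk]
    exact congrArg Prod.fst ha

/-- A combination is in a subgroup if each term is congruent to a multiple of an element of order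
dividing `n` modulo it and the multiples add up to zero modulo `n`. -/
theorem sum_zsmul_mem_of_congr {M : Type*} [AddCommGroup M] {H : AddSubgroup M} {ι : Type*}
    [Fintype ι] (m : ι → ℤ) (E : ι → M) (α : ι → ZMod n) {B : M} (hB : n • B ∈ H)
    (hE : ∀ i, E i - (α i).val • B ∈ H) (hα : ∑ i, (m i : ZMod n) * α i = 0) :
    ∑ i, m i • E i ∈ H := by
  set N : ℤ := ∑ i, m i * (α i).val
  have hN : (n : ℤ) ∣ N := by
    rw [← ZMod.intCast_zmod_eq_zero_iff_dvd, Int.cast_sum, ← hα]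
    refine Finset.sum_congr rfl fun i _ => ?_
    rw [Int.cast_mul, Int.cast_natCast, ZMod.natCast_zmod_val]
  have hkey : ∑ i, m i • E i - N • B ∈ H := by
    rw [Finset.sum_smul, ← Finset.sum_sub_distrib]
    refine sum_mem fun i _ => ?_
    rw [mul_smul, ← smul_sub, natCast_zsmul]
    exact zsmul_mem (hE i) _
  obtain ⟨t, ht⟩ := hN
  have hNB : N • B ∈ H := by
    rw [ht, mul_comm, mul_smul, natCast_zsmul]
    exact zsmul_mem hB t
  have := add_mem hkey hNB
  rwa [sub_add_cancel] at this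

include hσ htr hC hlc htr' in
open scoped Classical in
/-- **Artin's lemma**: a divisor with trivial symbol is a norm class. -/
theorem mem_hSub_of_art_eq_zero (hidx : IndexBound.{u} n) {k : ℕ} (hn : n = 2 ^ k)
    (h2S : (⟨2, Nat.prime_two⟩ : Nat.Primes) ∈ S)
    (hu : ∀ q : Nat.Primes, q ∉ S → IsUnramifiedSet (q : ℕ) (coverPerm σ c hc))
    {δ : ℝ} (hδ : 0 < δ) (D : ↥(divS σ S)) (hD : art c D.1 = 0) :
    D ∈ hSub hσ htr hi hc δ := by
  obtain ⟨x₀⟩ := htr.1
  have hub : ∀ q : Nat.Primes, q ∉ S → IsUnramifiedSet (q : ℕ) σ := fun q hq =>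
    (hu q hq).of_equivMap (fun x => ⟨(x, 0), rfl⟩) (isEquivMap_fst hc)
  set T := D.2.1.toFinset
  have hT : ∀ q, q ∉ T → D.1 q = 0 := fun q hq => by_contra fun h => hq (D.2.1.mem_toFinset.2 h)
  have hTS : ∀ q ∈ T, q ∉ S := fun q hq hS => D.2.1.mem_toFinset.1 hq (D.2.2.1 q hS)
  let _ : ∀ q : Nat.Primes, Fintype (Places (q : ℕ) σ) := fun q => Fintype.ofFinite _
  let ι := Σ q : ↥T, Places (q.1 : ℕ) σ
  -- an index type in `Type` for the primes
  let eι := Fintype.equivFin ι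
  let orbNorm : ι → ℕ := fun i => (i.1.1 : ℕ) ^
    (Finset.univ.filter fun x => orbitOf (i.1.1 : ℕ) σ x = i.2).card
  let num : Fin (Fintype.card ι) → ℕ := fun i => orbNorm (eι.symm i)
  have hnum : ∀ i, 2 ≤ num i := fun i => by
    refine (eι.symm i).1.1.2.two_le.trans (Nat.le_self_pow ?_ _)
    refine Finset.card_ne_zero.2 ⟨(eι.symm i).2.out, Finset.mem_filter.2 ⟨Finset.mem_univ _, ?_⟩⟩
    exact Quotient.out_eq _
  obtain ⟨ℓ, hinj, hℓB, τ, hτ⟩ := exists_aux_primes k num hnum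
    ((S ∪ T).image fun q : Nat.Primes => (q : ℕ))
  choose φ hφval hind using hτ
  have hℓS : ∀ j, ℓ j ∉ S := fun j h =>
    hℓB j (Finset.mem_image_of_mem (fun q : Nat.Primes => (q : ℕ)) (Finset.mem_union_left _ h))
  have hℓT : ∀ j, ℓ j ∉ T := fun j h =>
    hℓB j (Finset.mem_image_of_mem (fun q : Nat.Primes => (q : ℕ)) (Finset.mem_union_right _ h))
  set S' := S ∪ Finset.univ.image ℓ
  have hSS' : S ⊆ S' := Finset.subset_union_left
  have hℓS' : ∀ j, ℓ j ∈ S' := fun j =>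
    Finset.mem_union_right _ (Finset.mem_image_of_mem ℓ (Finset.mem_univ j))
  have hTS' : ∀ q ∈ T, q ∉ S' := fun q hq h => by
    rcases Finset.mem_union.1 h with h | h
    · exact hTS q hq h
    · obtain ⟨j, -, rfl⟩ := Finset.mem_image.1 h
      exact hℓT j hq
  set hd := isAbCocycle_crossCocycle ℓ hc
  have huZ : ∀ q : Nat.Primes, q ∉ S' → IsUnramifiedSet (q : ℕ) (abPerm hd) := fun q hq =>
    isUnramifiedSet_abPerm hd (hub q fun h => hq (hSS' h)) fun P hP g hg x => Prod.ext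
      (eq_zero_of_unramified_cover (hu q fun h => hq (hSS' h)) P hP g hg x)
      (kappa_inertia ℓ (fun j e => hq (by rw [← e]; exact hℓS' j)) hP hg)
  have htrZ := isTransitive_cross ℓ hinj hℓS htr htr' hu
  obtain ⟨p, hpB, y, m, a, hy, hm, ha⟩ := exists_aux_point (hc := hc) (B := S' ∪ T) hσ hlc ℓ
    Finset.subset_union_left huZ htrZ x₀ ((1 : ZMod n), τ)
  have hp : p ∉ S' := fun h => hpB (Finset.mem_union_left _ h)
  -- each orbit of the support, corrected by the auxiliary divisor, is a norm class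
  have hone : ∀ i : ι, inclDiv hSS' ⟨_, orbitDiv_mem (hTS' _ i.1.2) i.2⟩ -
      (art c (orbitDiv i.1.1 i.2)).val •
        inclDiv hSS' (a • ⟨_, orbitDiv_mem hp (orbitOf (p : ℕ) σ y)⟩) ∈ hSub hσ htr hi hc δ := by
    intro i
    have hsum := sum_crossCocycle_orbit (c := c) ℓ i.1.1 i.2
      (fun j e => hℓT j (by rw [e]; exact i.1.2)) (φ (eι i))
      (fun j => (hφval (eι i) j).trans
        (congrArg Nat.cast (congrArg orbNorm (eι.symm_apply_apply i))))
    rw [art_orbitDiv]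
    exact mem_hSub_of_independent hσ htr hi hC hlc hidx ℓ hSS' (hSS' h2S) hℓS' huZ htrZ
      (fun s r h => by rw [hn]; exact_mod_cast hind (eι i) s r h)
      (hTS' _ i.1.2) hp i.2 hsum hy hm ha hδ
  have hdec : D = ∑ i : ι, D.1 i.1.1 i.2.out • inclDiv hSS'
      ⟨_, orbitDiv_mem (hTS' _ i.1.2) i.2⟩ := by
    refine Subtype.ext ?_
    rw [AddSubgroup.val_finsetSum]
    exact eq_sum_orbitDiv D.2 hT
  rw [hdec]
  refine sum_zsmul_mem_of_congr _ _ _ (nsmul_mem_hSub hσ htr hi _) hone ?_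
  rw [← hD, show art c D.1 = artHom σ S c D from rfl]
  conv_rhs => rw [hdec, map_sum]
  refine Finset.sum_congr rfl fun i _ => ?_
  rw [map_zsmul, artHom_apply, inclDiv_coe, zsmul_eq_mul]

end Cross

end Fermat.Agent.LT.Reciprocity

end
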