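import Fermat.Agent.PoitouTate.LocalFrobenius
import Fermat.Agent.PoitouTate.Inequalities
import Mathlib.Algebra.BigOperators.Finprod

/-!
# Divisors prime to `S` on a `G_ℚ`-set, and the Artin symbol of a cocycle

A divisor is an integer function on primes outside `S` and points, constant on the local orbits.
Its symbol under a cocycle `c` is the sum of the values of `c` at a Frobenius, weighted by it.
-/

set_option autoImplicit false

noncomputable section

namespace Fermat.Agent.LT.Reciprocity

open Fermat.Agent.PoitouTate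

/-- A Frobenius in the local Galois group at `q`. -/
def frobLoc (q : Nat.Primes) : GQl (q : ℕ) := (exists_local_frobenius (q := (q : ℕ))).choose

/-- The chosen element is a Frobenius at the chosen place. -/
theorem frobLoc_isFrobeniusAt (q : Nat.Primes) :
    (padicPlace (q : ℕ)).IsFrobeniusAt (localGaloisToGlobal (q : ℕ) (frobLoc q)) (q : ℕ) :=
  (exists_local_frobenius (q := (q : ℕ))).choose_spec.1

/-- The chosen Frobenius raises roots of unity of order prime to `q` to the `q`-th power. -/
theorem frobLoc_apply_root (q : Nat.Primes) {m : ℕ} (hm : ¬ (q : ℕ) ∣ m) {ζ : QBar}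
    (hζ : ζ ^ m = 1) : localGaloisToGlobal (q : ℕ) (frobLoc q) ζ = ζ ^ (q : ℕ) :=
  (exists_local_frobenius (q := (q : ℕ))).choose_spec.2 m hm ζ hζ

/-- The Frobenius at `q` in `G_ℚ`. -/
abbrev frob (q : Nat.Primes) : GQ := localGaloisToGlobal (q : ℕ) (frobLoc q)

variable {X Y : Type*}

/-- Divisors prime to `S`. -/
def divS (σ : GQ →* Equiv.Perm X) (S : Finset Nat.Primes) : AddSubgroup (Nat.Primes → X → ℤ) where
  carrier := {D | {q | D q ≠ 0}.Finite ∧ (∀ q ∈ S, D q = 0) ∧
    ∀ (q : Nat.Primes) (g : GQl (q : ℕ)) x, D q (localPerm (q : ℕ) σ g x) = D q x}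
  add_mem' := fun {D E} hD hE => ⟨(hD.1.union hE.1).subset fun q hq => by
      by_contra h
      simp only [Set.mem_union, Set.mem_ofPred_eq, not_or, not_not] at h
      exact hq (show D q + E q = 0 by rw [h.1, h.2, add_zero]),
    fun q hq => show D q + E q = 0 by rw [hD.2.1 q hq, hE.2.1 q hq, add_zero],
    fun q g x => by
      show D q (localPerm (q : ℕ) σ g x) + E q (localPerm (q : ℕ) σ g x) = D q x + E q x
      rw [hD.2.2 q g x, hE.2.2 q g x]⟩
  zero_mem' := ⟨by simp, fun _ _ => rfl, fun _ _ _ => rfl⟩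
  neg_mem' := fun {D} hD => ⟨by simpa using hD.1,
    fun q hq => show - D q = 0 by rw [hD.2.1 q hq, neg_zero],
    fun q g x => by
      show - D q (localPerm (q : ℕ) σ g x) = - D q x
      rw [hD.2.2 q g x]⟩

variable {σ : GQ →* Equiv.Perm X} {τ : GQ →* Equiv.Perm Y} {S S' : Finset Nat.Primes}

/-- Divisors prime to a larger set are prime to a smaller one. -/
theorem divS_anti (h : S ⊆ S') : divS σ S' ≤ divS σ S :=
  fun _ hD => ⟨hD.1, fun q hq => hD.2.1 q (h hq), hD.2.2⟩

/-- Divisors are invariant under Frobenius. -/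
theorem apply_frob_symm {D : Nat.Primes → X → ℤ} (hD : D ∈ divS σ S) (q : Nat.Primes) (x : X) :
    D q ((σ (frob q)).symm x) = D q x := by
  conv_rhs => rw [← Equiv.apply_symm_apply (σ (frob q)) x]
  exact (hD.2.2 q (frobLoc q) _).symm

section Art

variable [Fintype X] {A B : Type*} [AddCommGroup A] [AddCommGroup B]

/-- The part at `q` of the symbol. -/
def artAt (c : GQ → X → A) (D : Nat.Primes → X → ℤ) (q : Nat.Primes) : A :=
  ∑ x, D q x • c (frob q) x

/-- The Artin symbol of a divisor under a cocycle. -/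
def art (c : GQ → X → A) (D : Nat.Primes → X → ℤ) : A := ∑ᶠ q, artAt c D q

theorem support_artAt_subset (c : GQ → X → A) (D : Nat.Primes → X → ℤ) :
    (Function.support fun q => artAt c D q) ⊆ {q | D q ≠ 0} := fun q hq h0 => hq (by
  simp [artAt, h0])

/-- Almost all local symbols of a divisor vanish. -/
theorem finite_support_artAt (c : GQ → X → A) {D : Nat.Primes → X → ℤ}
    (hD : D ∈ divS σ S) : (Function.support fun q => artAt c D q).Finite :=
  hD.1.subset (support_artAt_subset c D)

/-- The symbol is additive in the divisor. -/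
theorem art_add (c : GQ → X → A) {D E : Nat.Primes → X → ℤ} (hD : D ∈ divS σ S)
    (hE : E ∈ divS σ S) : art c (D + E) = art c D + art c E := by
  rw [art, art, art, ← finsum_add_distrib (finite_support_artAt c hD) (finite_support_artAt c hE)]
  exact finsum_congr fun q => by simp [artAt, add_smul, Finset.sum_add_distrib]

variable (σ S) in
/-- The symbol as a homomorphism. -/
def artHom (c : GQ → X → A) : ↥(divS σ S) →+ A :=
  AddMonoidHom.mk' (fun D => art c D.1) fun D E => art_add c D.2 E.2

/-- `artHom` is the symbol. -/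
@[simp] theorem artHom_apply (c : GQ → X → A) (D : ↥(divS σ S)) :
    artHom σ S c D = art c D.1 := rfl

/-- The symbol commutes with homomorphisms of the values. -/
theorem art_map (f : A →+ B) (c : GQ → X → A) {D : Nat.Primes → X → ℤ} (hD : D ∈ divS σ S) :
    art (fun g x => f (c g x)) D = f (art c D) := by
  rw [art, art, f.map_finsum (finite_support_artAt c hD)]
  exact finsum_congr fun q => by simp [artAt, map_sum, map_zsmul]

/-- The symbol is additive in the cocycle. -/
theorem art_add_cocycle (c c' : GQ → X → A) {D : Nat.Primes → X → ℤ} (hD : D ∈ divS σ S) :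
    art (c + c') D = art c D + art c' D := by
  rw [art, art, art, ← finsum_add_distrib (finite_support_artAt c hD) (finite_support_artAt c' hD)]
  exact finsum_congr fun q => by simp [artAt, smul_add, Finset.sum_add_distrib]

/-- Coboundaries have trivial symbol. -/
theorem art_coboundary {c : GQ → X → A} {k : X → A}
    (hc : ∀ g x, c g x = k x - k ((σ g).symm x)) {D : Nat.Primes → X → ℤ} (hD : D ∈ divS σ S) :
    art c D = 0 := by
  refine finsum_eq_zero_of_forall_eq_zero fun q => ?_
  simp only [artAt, hc, smul_sub, Finset.sum_sub_distrib, sub_eq_zero]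
  refine (Fintype.sum_equiv (σ (frob q)).symm _ _ fun x => ?_).symm
  rw [apply_frob_symm hD]

/-- Symbols of cohomologous cocycles agree. -/
theorem art_congr {c c' : GQ → X → A} {k : X → A}
    (hc : ∀ g x, c g x = c' g x + (k x - k ((σ g).symm x))) {D : Nat.Primes → X → ℤ}
    (hD : D ∈ divS σ S) : art c D = art c' D := by
  rw [show c = c' + fun g x => k x - k ((σ g).symm x) from funext fun g => funext (hc g),
    art_add_cocycle c' _ hD, art_coboundary (fun _ _ => rfl) hD, add_zero]

end Art

section Push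

variable [Fintype Y] {π : Y → X}

open scoped Classical in
/-- The image of a divisor along a map of sets. -/
theorem push_mem_divS (h : IsEquivMap τ σ π) {D : Nat.Primes → Y → ℤ} (hD : D ∈ divS τ S) :
    (fun q => push π (D q)) ∈ divS σ S := by
  refine ⟨hD.1.subset fun q hq h0 => hq (by simp [h0]), fun q hq => by simp [hD.2.1 q hq],
    fun q g x => ?_⟩
  show push π (D q) _ = push π (D q) x
  rw [push_apply, push_apply]
  refine (Finset.sum_equiv (localPerm (q : ℕ) τ g) (fun y => ?_) fun y _ => (hD.2.2 q g y).symm).symm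
  simp only [Finset.mem_filter, Finset.mem_univ, true_and]
  rw [show π (localPerm (q : ℕ) τ g y) = localPerm (q : ℕ) σ g (π y) from h _ y,
    (localPerm (q : ℕ) σ g).injective.eq_iff]

/-- Push forward of divisors. -/
def pushDiv (h : IsEquivMap τ σ π) : ↥(divS τ S) →+ ↥(divS σ S) :=
  AddMonoidHom.mk' (fun D => ⟨fun q => push π (D.1 q), push_mem_divS h D.2⟩)
    fun _ _ => Subtype.ext (funext fun _ => map_add (push π) _ _)

/-- The pushforward of a divisor is computed prime by prime. -/
theorem pushDiv_coe (h : IsEquivMap τ σ π) (D : ↥(divS τ S)) (q : Nat.Primes) :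
    (pushDiv h D).1 q = push π (D.1 q) := rfl

/-- The symbol of an image is the symbol of the pulled back cocycle. -/
theorem art_push [Fintype X] {A : Type*} [AddCommGroup A] (π : Y → X) (c : GQ → X → A)
    (D : Nat.Primes → Y → ℤ) :
    art c (fun q => push π (D q)) = art (fun g y => c g (π y)) D := by
  classical
  refine finsum_congr fun q => ?_
  simp only [artAt, push_apply, Finset.sum_smul]
  rw [← Finset.sum_fiberwise Finset.univ π]
  refine Finset.sum_congr rfl fun x _ => Finset.sum_congr rfl fun y hy => ?_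
  rw [(Finset.mem_filter.1 hy).2]

end Push

/-- Pull back of divisors. -/
theorem pull_mem_divS {π : Y → X} (h : IsEquivMap τ σ π) {D : Nat.Primes → X → ℤ}
    (hD : D ∈ divS σ S) : (fun q y => D q (π y)) ∈ divS τ S :=
  ⟨hD.1.subset fun q hq h0 => hq (funext fun y => congrFun h0 (π y)),
    fun q hq => funext fun y => congrFun (hD.2.1 q hq) (π y),
    fun q g y => by
      show D q (π (localPerm (q : ℕ) τ g y)) = D q (π y)
      rw [show π (localPerm (q : ℕ) τ g y) = localPerm (q : ℕ) σ g (π y) from h _ y, hD.2.2 q g]⟩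

/-- Pull back along an equivariant map. -/
def pullDiv {π : Y → X} (h : IsEquivMap τ σ π) : ↥(divS σ S) →+ ↥(divS τ S) :=
  AddMonoidHom.mk' (fun D => ⟨fun q y => D.1 q (π y), pull_mem_divS h D.2⟩) fun _ _ => rfl

/-- The pullback of a divisor is computed pointwise. -/
theorem pullDiv_coe {π : Y → X} (h : IsEquivMap τ σ π) (D : ↥(divS σ S)) (q : Nat.Primes)
    (y : Y) : (pullDiv h D).1 q y = D.1 q (π y) := rfl

/-! ### Orders -/

/-- The integral order of a semilocal element. -/
def ordL (q : Nat.Primes) (f : LocalStar (q : ℕ) σ) (x : X) : ℤ := ⌊ordQ (q : ℕ) (f.1 x)⌋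

theorem ordL_invariant (q : Nat.Primes) (f : LocalStar (q : ℕ) σ) (g : GQl (q : ℕ)) (x : X) :
    ordL q f (localPerm (q : ℕ) σ g x) = ordL q f x := by
  have h := congrFun (f.2 g) (localPerm (q : ℕ) σ g x)
  rw [permAct_apply, Equiv.symm_apply_apply] at h
  rw [ordL, ordL, ← h, ordQ_smul]

/-- All orders are integral outside `S`. -/
def IsIntegralOff (σ : GQ →* Equiv.Perm X) (S : Finset Nat.Primes) : Prop :=
  ∀ q : Nat.Primes, q ∉ S → ∀ (f : LocalStar (q : ℕ) σ) (x : X),
    ∃ k : ℤ, ordQ (q : ℕ) (f.1 x) = k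

/-- Orders are integral outside the ramified primes. -/
theorem isIntegralOff_of_unramified (hσ : IsSmoothSet allLevels σ)
    (hS : ∀ q : Nat.Primes, q ∉ S → IsUnramifiedSet (q : ℕ) σ) : IsIntegralOff σ S :=
  fun q hq => (hS q hq).exists_ordQ_eq_intCast hσ

/-- The integral order is the order. -/
theorem cast_ordL (hi : IsIntegralOff σ S) {q : Nat.Primes} (hq : q ∉ S)
    (f : LocalStar (q : ℕ) σ) (x : X) : (ordL q f x : ℝ) = ordQ (q : ℕ) (f.1 x) := by
  obtain ⟨k, hk⟩ := hi q hq f x
  rw [ordL, hk, Int.floor_intCast]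

theorem ordL_add (hi : IsIntegralOff σ S) {q : Nat.Primes} (hq : q ∉ S)
    (f f' : LocalStar (q : ℕ) σ) (x : X) : ordL q (f + f') x = ordL q f x + ordL q f' x := by
  have h : (ordL q (f + f') x : ℝ) = ((ordL q f x + ordL q f' x : ℤ) : ℝ) := by
    rw [Int.cast_add, cast_ordL hi hq, cast_ordL hi hq, cast_ordL hi hq, AddSubgroup.coe_add,
      Pi.add_apply, map_add]
  exact_mod_cast h

/-- The divisor outside `S` of a family of semilocal elements. -/
def divOfLocal (S : Finset Nat.Primes) (f : ∀ q : Nat.Primes, LocalStar (q : ℕ) σ) :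
    Nat.Primes → X → ℤ := fun q x => if q ∈ S then 0 else ordL q (f q) x

/-- The divisor of a family is additive. -/
theorem divOfLocal_add (hi : IsIntegralOff σ S) (f f' : ∀ q : Nat.Primes, LocalStar (q : ℕ) σ) :
    divOfLocal S (f + f') = divOfLocal S f + divOfLocal S f' := by
  funext q x
  simp only [divOfLocal, Pi.add_apply]
  by_cases hq : q ∈ S
  · simp [hq]
  · simp [hq, ordL_add hi hq]

/-- The divisor of a family with almost all orders zero is prime to `S`. -/
theorem divOfLocal_mem {f : ∀ q : Nat.Primes, LocalStar (q : ℕ) σ}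
    (hf : {q : Nat.Primes | ∃ x, ordQ (q : ℕ) ((f q).1 x) ≠ 0}.Finite) :
    divOfLocal S f ∈ divS σ S := by
  refine ⟨hf.subset fun q hq => ?_, fun q hq => funext fun x => if_pos hq, fun q g x => ?_⟩
  · obtain ⟨x, hx⟩ := Function.ne_iff.1 hq
    refine ⟨x, fun h => hx ?_⟩
    simp [divOfLocal, ordL, h]
  · exact congrArg (fun k => if q ∈ S then 0 else k) (ordL_invariant q (f q) g x)

variable [Finite X]

/-- The divisor of a global element outside `S`. -/
def divOf (hσ : IsSmoothSet allLevels σ) (htr : IsTransitive σ) (hi : IsIntegralOff σ S) :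
    GlobalStar σ →+ ↥(divS σ S) :=
  AddMonoidHom.mk' (fun a => ⟨divOfLocal S fun q => toLocal (q : ℕ) σ a,
    divOfLocal_mem ((finite_ordAt_ne_zero htr hσ a).subset fun q ⟨x, hx⟩ h0 => hx (congrFun h0 x))⟩)
    fun a b => Subtype.ext (by
      show divOfLocal S (fun q => toLocal (q : ℕ) σ (a + b)) = _
      simp only [map_add]
      exact divOfLocal_add hi _ _)

omit [Finite X] in
/-- The divisor of a global element is that of its localisations. -/
theorem divOf_coe (hσ : IsSmoothSet allLevels σ) (htr : IsTransitive σ) (hi : IsIntegralOff σ S)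
    (a : GlobalStar σ) :
    (divOf hσ htr hi a).1 = divOfLocal S fun q => toLocal (q : ℕ) σ a := rfl

omit [Finite X] in
/-- Norms commute with orders. -/
theorem divOfLocal_norm [Fintype Y] {π : Y → X} (h : IsEquivMap τ σ π) (hi : IsIntegralOff σ S)
    (hi' : IsIntegralOff τ S) (f : ∀ q : Nat.Primes, LocalStar (q : ℕ) τ) (q : Nat.Primes) :
    divOfLocal S (fun q => normLocal (q : ℕ) h (f q)) q = push π (divOfLocal S f q) := by
  classical
  funext x
  by_cases hq : q ∈ S
  · simp [divOfLocal, hq, push_apply]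
  simp only [divOfLocal, hq, if_false, push_apply]
  have h1 : ((ordL q (normLocal (q : ℕ) h (f q)) x : ℤ) : ℝ) =
      ((∑ y with π y = x, ordL q (f q) y : ℤ) : ℝ) := by
    rw [cast_ordL hi hq, Int.cast_sum]
    show ordQ (q : ℕ) (push π (f q).1 x) = _
    rw [push_apply, map_sum]
    exact Finset.sum_congr rfl fun y _ => (cast_ordL hi' hq _ y).symm
  exact_mod_cast h1

omit [Finite X] in
/-- Localisation commutes with norms. -/
theorem toLocal_normGlobal [Fintype Y] {π : Y → X} (h : IsEquivMap τ σ π) (q : ℕ)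
    [Fact q.Prime] (a : GlobalStar τ) :
    toLocal q σ (normGlobal h a) = normLocal q h (toLocal q τ a) := by
  classical
  refine Subtype.ext (funext fun x => ?_)
  show embUnits q (push π a.1 x) = push π (fun y => embUnits q (a.1 y)) x
  rw [push_apply, push_apply, map_sum]

omit [Finite X] in
/-- The divisor of a norm is the image of the divisor. -/
theorem divOf_norm [Fintype Y] {π : Y → X} (h : IsEquivMap τ σ π) (hσ : IsSmoothSet allLevels σ)
    (htr : IsTransitive σ) (hi : IsIntegralOff σ S) (hτ : IsSmoothSet allLevels τ)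
    (htr' : IsTransitive τ) (hi' : IsIntegralOff τ S) (a : GlobalStar τ) :
    divOf hσ htr hi (normGlobal h a) = pushDiv h (divOf hτ htr' hi' a) := by
  refine Subtype.ext (funext fun q => ?_)
  rw [pushDiv_coe, divOf_coe, divOf_coe]
  simp only [toLocal_normGlobal h]
  exact divOfLocal_norm h hi hi' _ q

/-! ### Elements near one -/

/-- Units of `ℚ̄_q` near one, at distance less than `min δ 1`. -/
def nearOne (q : ℕ) [Fact q.Prime] (δ : ℝ) : AddSubgroup (Additive (PadicAlgCl q)ˣ) where
  carrier := {u | u = 0 ∨ ‖((u.toMul : (PadicAlgCl q)ˣ) : PadicAlgCl q) - 1‖ < min δ 1}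
  zero_mem' := Or.inl rfl
  add_mem' := by
    rintro u v (rfl | hu) hv
    · simpa using hv
    rcases hv with rfl | hv
    · exact Or.inr (by simpa using hu)
    refine Or.inr ?_
    rw [toMul_add, Units.val_mul, show ((u.toMul : (PadicAlgCl q)ˣ) : PadicAlgCl q) *
      (v.toMul : (PadicAlgCl q)ˣ) - 1 = ((u.toMul : (PadicAlgCl q)ˣ) : PadicAlgCl q) *
      (((v.toMul : (PadicAlgCl q)ˣ) : PadicAlgCl q) - 1) +
        (((u.toMul : (PadicAlgCl q)ˣ) : PadicAlgCl q) - 1) by ring]
    refine lt_of_le_of_lt (IsUltrametricDist.norm_add_le_max _ _) (max_lt ?_ hu)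
    rw [norm_mul, norm_eq_one_of_sub_one (hu.trans_le (min_le_right _ _)), one_mul]
    exact hv
  neg_mem' := by
    rintro u (rfl | hu)
    · exact Or.inl neg_zero
    refine Or.inr ?_
    rw [toMul_neg, Units.val_inv_eq_inv_val]
    set a : PadicAlgCl q := ((u.toMul : (PadicAlgCl q)ˣ) : PadicAlgCl q)
    have ha : a ≠ 0 := Units.ne_zero _
    rw [show a⁻¹ - 1 = -(a - 1) * a⁻¹ by field_simp; ring, norm_mul, norm_inv, norm_neg,
      norm_eq_one_of_sub_one (hu.trans_le (min_le_right _ _)), inv_one, mul_one]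
    exact hu

/-- An element within `min δ 1` of one is near one. -/
theorem mem_nearOne_of_norm_lt {q : ℕ} [Fact q.Prime] {δ : ℝ} {u : Additive (PadicAlgCl q)ˣ}
    (h : ‖((u.toMul : (PadicAlgCl q)ˣ) : PadicAlgCl q) - 1‖ < min δ 1) : u ∈ nearOne q δ :=
  Or.inr h

/-- Nearness to one is monotone in the radius. -/
theorem nearOne_mono {q : ℕ} [Fact q.Prime] {δ δ' : ℝ} (h : δ ≤ δ') :
    nearOne q δ ≤ nearOne q δ' := by
  rintro u (rfl | hu)
  · exact zero_mem _
  · exact Or.inr (hu.trans_le (min_le_min_right _ h))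

/-- An element near one is within `min δ 1` of one. -/
theorem norm_sub_one_lt_of_mem_nearOne {q : ℕ} [Fact q.Prime] {δ : ℝ} (hδ : 0 < δ)
    {u : Additive (PadicAlgCl q)ˣ} (h : u ∈ nearOne q δ) :
    ‖((u.toMul : (PadicAlgCl q)ˣ) : PadicAlgCl q) - 1‖ < min δ 1 := by
  rcases h with rfl | h
  · simp [hδ]
  · exact h

/-- Elements near one have order zero. -/
theorem ordQ_eq_zero_of_mem_nearOne {q : ℕ} [Fact q.Prime] {δ : ℝ}
    {u : Additive (PadicAlgCl q)ˣ} (h : u ∈ nearOne q δ) : ordQ q u = 0 := by
  rcases h with rfl | h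
  · exact map_zero _
  · show -Real.logb q ‖_‖ = 0
    rw [norm_eq_one_of_sub_one (h.trans_le (min_le_right _ _)), Real.logb_one, neg_zero]

variable (σ S) in
/-- Global elements near one at every point over `S`. -/
def nearS (δ : ℝ) : AddSubgroup (GlobalStar σ) where
  carrier := {a | ∀ q ∈ S, ∀ x, (toLocal (q : ℕ) σ a).1 x ∈ nearOne (q : ℕ) δ}
  zero_mem' := fun q _ x => by simp
  add_mem' := fun {a b} ha hb q hq x => by
    rw [map_add, AddSubgroup.coe_add, Pi.add_apply]
    exact add_mem (ha q hq x) (hb q hq x)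
  neg_mem' := fun {a} ha q hq x => by
    rw [map_neg, AddSubgroup.coe_neg, Pi.neg_apply]
    exact neg_mem (ha q hq x)

omit [Finite X] in
/-- Nearness to one over `S` is monotone in the radius. -/
theorem nearS_mono {δ δ' : ℝ} (h : δ ≤ δ') : nearS σ S δ ≤ nearS σ S δ' :=
  fun _ ha q hq x => nearOne_mono h (ha q hq x)

omit [Finite X] in
/-- Norms of elements near one are near one. -/
theorem normGlobal_mem_nearS [Fintype Y] {π : Y → X} (h : IsEquivMap τ σ π) {δ : ℝ}
    {a : GlobalStar τ} (ha : a ∈ nearS τ S δ) : normGlobal h a ∈ nearS σ S δ := by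
  classical
  intro q hq x
  rw [toLocal_normGlobal h]
  show push π (fun y => (toLocal (q : ℕ) τ a).1 y) x ∈ _
  rw [push_apply]
  exact sum_mem fun y _ => ha q hq y

end Fermat.Agent.LT.Reciprocity

end
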