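import Fermat.Agent.LT.Reciprocity.Bridge
import Fermat.Agent.PoitouTate.Hasse
import Mathlib.FieldTheory.Normal.Closure

/-!
# The cubic Hasse norm theorem in adelic form

An element of a number field which is the norm of a finite adele for an automorphism of order
three is the norm of an element.
-/

set_option autoImplicit false

noncomputable section

namespace Fermat.Agent.LT.Reciprocity

open Fermat.Agent.PoitouTate

local instance : Fact (Nat.Prime 3) := ⟨Nat.prime_three⟩

variable {L : Type*} [Field L] [NumberField L]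

omit [NumberField L] in
theorem pow_val_add_apply {s : L ≃+* L} (hs : s ^ 3 = 1) (i j : ZMod 3) (x : L) :
    (s ^ (i + j).val) x = (s ^ i.val) ((s ^ j.val) x) := by
  show (s ^ (i + j).val) x = (s ^ i.val * s ^ j.val) x
  rw [← pow_add, ZMod.val_add, ← pow_eq_pow_mod _ hs]

omit [NumberField L] in
/-- The powers of an automorphism of order three are distinguished by an embedding. -/
theorem eq_of_forall_embedding_pow_eq {s : L ≃+* L} (hs : s ^ 3 = 1) (hs1 : s ≠ 1)
    (ι : L →+* QBar) {i j : ZMod 3} (h : ∀ x, ι ((s ^ i.val) x) = ι ((s ^ j.val) x)) : i = j := by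
  have hord : orderOf s = 3 := orderOf_eq_prime hs hs1
  refine ZMod.val_injective 3 (pow_injOn_Iio_orderOf (x := s) ?_ ?_ ?_)
  · rw [Set.mem_Iio, hord]; exact ZMod.val_lt i
  · rw [Set.mem_Iio, hord]; exact ZMod.val_lt j
  · exact RingEquiv.ext fun x => ι.injective (h x)

/-- The Galois elements acting on an embedded `L` by powers of an automorphism `s` of order three
form a subgroup containing an open one, and the exponent is a surjective homomorphism on it. -/
theorem exists_exponent_hom {s : L ≃+* L} (hs : s ^ 3 = 1) (hs1 : s ≠ 1) (ι₀ : L →ₐ[ℚ] QBar) :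
    ∃ (W : Subgroup GQ) (φ : ↥W →* Multiplicative (ZMod 3)) (U : Subgroup GQ),
      allLevels.mem U ∧ U ≤ W ∧ U.subgroupOf W ≤ φ.ker ∧ Function.Surjective φ ∧
      (∀ g : GQ, (∀ x, g (ι₀ x) = ι₀ x) → g ∈ W) ∧
      ∀ (g : ↥W) x, (g : GQ) (ι₀ x) = ι₀ ((s ^ (φ g).toAdd.val) x) := by
  set ι : L →+* QBar := ι₀.toRingHom with hι
  have huniq : ∀ i j : ZMod 3, (∀ x, ι ((s ^ i.val) x) = ι ((s ^ j.val) x)) → i = j :=
    fun _ _ => eq_of_forall_embedding_pow_eq hs hs1 ι
  let W : Subgroup GQ :=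
    { carrier := {g | ∃ i : ZMod 3, ∀ x, g (ι x) = ι ((s ^ i.val) x)}
      one_mem' := ⟨0, fun x => by simp⟩
      mul_mem' := fun {g h} ⟨i, hi⟩ ⟨j, hj⟩ => ⟨i + j, fun x => by
        rw [AlgEquiv.mul_apply, hj, hi, pow_val_add_apply hs]⟩
      inv_mem' := fun {g} ⟨i, hi⟩ => ⟨-i, fun x => by
        apply g.injective
        rw [AlgEquiv.aut_inv, AlgEquiv.apply_symm_apply, hi, ← pow_val_add_apply hs, add_neg_cancel]
        simp⟩ }
  have hmemW : ∀ g, g ∈ W → ∃ i : ZMod 3, ∀ x, g (ι x) = ι ((s ^ i.val) x) := fun _ h => h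
  choose ph hph using hmemW
  let φ : ↥W →* Multiplicative (ZMod 3) :=
    MonoidHom.mk' (fun g => Multiplicative.ofAdd (ph g.1 g.2)) fun g h => by
      rw [← ofAdd_add]
      refine congrArg Multiplicative.ofAdd (huniq _ _ fun x => ?_)
      rw [← hph, pow_val_add_apply hs, Subgroup.coe_mul, AlgEquiv.mul_apply, hph, hph]
  have hfixW : ∀ g : GQ, (∀ x, g (ι x) = ι x) → g ∈ W := fun g hg => ⟨0, fun x => by simp [hg]⟩
  -- a level inside the kernel
  set L' : IntermediateField ℚ QBar := ι₀.fieldRange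
  set F := IntermediateField.normalClosure ℚ L' QBar
  have : Normal ℚ F := normalClosure.normal ℚ L' QBar
  have : FiniteDimensional ℚ L' := Module.Finite.equiv
    (AlgEquiv.ofInjectiveField ι₀).toLinearEquiv
  have : FiniteDimensional ℚ F := normalClosure.is_finiteDimensional ℚ L' QBar
  have hfixU : ∀ g ∈ F.fixingSubgroup, ∀ x, g (ι x) = ι x := fun g hg x =>
    (IntermediateField.mem_fixingSubgroup_iff F g).1 hg _
      (L'.le_normalClosure ⟨x, rfl⟩)
  have hUφ : F.fixingSubgroup.subgroupOf W ≤ φ.ker := fun g hg => by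
    show Multiplicative.ofAdd (ph g.1 g.2) = 1
    rw [huniq (ph g.1 g.2) 0 fun x =>
      (hph g.1 g.2 x).symm.trans ((hfixU _ hg x).trans (by simp))]
    rfl
  have hsurj : Function.Surjective φ := by
    let e : L ≃ₐ[ℚ] L := AlgEquiv.ofRingEquiv (f := s) fun r => by
      rw [eq_ratCast, map_ratCast]
    let eq : L ≃ₐ[ℚ] L' := AlgEquiv.ofInjectiveField ι₀
    let h₁ : GQ := (eq.symm.trans (e.trans eq)).liftNormal QBar
    have h₁e : ∀ x, h₁ (ι x) = ι ((s ^ (1 : ZMod 3).val) x) := fun x => by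
      have := AlgEquiv.liftNormal_commutes (eq.symm.trans (e.trans eq)) QBar (eq x)
      refine this.trans ?_
      rw [show (1 : ZMod 3).val = 1 from rfl, pow_one]
      show ((eq (e (eq.symm (eq x)))) : QBar) = _
      rw [AlgEquiv.symm_apply_apply]
      rfl
    intro i
    refine ⟨⟨h₁ ^ i.toAdd.val, pow_mem (⟨1, h₁e⟩ : h₁ ∈ W) _⟩,
      congrArg Multiplicative.ofAdd (huniq _ _ fun x => ?_)⟩
    rw [← hph]
    have : ∀ n : ℕ, (h₁ ^ n) (ι x) = ι ((s ^ n) x) := fun n => by
      induction n with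
      | zero => rfl
      | succ n ih =>
        rw [pow_succ', AlgEquiv.mul_apply, ih, h₁e, show (1 : ZMod 3).val = 1 from rfl, pow_one,
          pow_succ']
        rfl
    exact this _
  exact ⟨W, φ, F.fixingSubgroup, ⟨fixingSubgroup_normal F, F, inferInstance, trivial, rfl⟩,
    fun g hg => hfixW g (hfixU g hg), hUφ, hsurj, hfixW, fun g => hph g.1 g.2⟩

section Descent

variable (s : L ≃+* L) (ι₀ : L →ₐ[ℚ] QBar) {W : Subgroup GQ} [Fintype (GQ ⧸ W)]
  (φ : ↥W →* Multiplicative (ZMod 3))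

/-- A finite adele of norm `a` gives local norms for the semilocal family of `a`. -/
theorem exists_localNorm_of_adelic (hs : s ^ 3 = 1)
    (hφ : ∀ (g : ↥W) x, (g : GQ) (ι₀ x) = ι₀ ((s ^ (φ g).toAdd.val) x))
    {a : L} (ha0 : a ≠ 0) (w : FinAdele L)
    (hw : ∏ i ∈ Finset.range 3, finMap ((s ^ i : L ≃+* L) : L →+* L) w = finIncl L a)
    (b : GlobalStar (cosetPerm W))
    (hb : ∀ x : GQ ⧸ W, (((b.1 x).toMul : QBarˣ) : QBar) = x.out (ι₀ a)) (q : Nat.Primes) :
    ∃ v, normLocal (q : ℕ) (isEquivMap_fst (isSetCocycle_cocycleOfHom φ)) v =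
      toLocal (q : ℕ) (cosetPerm W) b := by
  classical
  set ι : L →+* QBar := ι₀.toRingHom with hι
  have hc := isSetCocycle_cocycleOfHom φ
  have hιa : ι a ≠ 0 := by simpa using ha0
  let emb : QBar →+* PadicAlgCl (q : ℕ) := (padicEmbedding (q : ℕ)).toRingHom
  let E : (GQ ⧸ W) × ZMod 3 → (L →+* PadicAlgCl (q : ℕ)) := fun z =>
    emb.comp (((z.1.out : GQ) : QBar →+* QBar).comp
      (ι.comp ((s ^ z.2.val : L ≃+* L) : L →+* L)))
  have hprod : ∀ x, ∏ i : ZMod 3, evalHom q (E (x, i)) w = emb (x.out (ι a)) := fun x => by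
    have h := congrArg (evalHom q (emb.comp (((x.out : GQ) : QBar →+* QBar).comp ι))) hw
    rw [map_prod, evalHom_finIncl] at h
    refine Eq.trans ?_ h
    rw [show (Finset.univ : Finset (ZMod 3)) = {0, 1, 2} by decide,
      Finset.prod_insert (by decide), Finset.prod_insert (by decide), Finset.prod_singleton]
    simp [Finset.prod_range_succ, E, evalHom_finMap, RingHom.comp_assoc,
      show (1 : ZMod 3).val = 1 from rfl, show (2 : ZMod 3).val = 2 from rfl, mul_assoc]
  have hne : ∀ z, evalHom q (E z) w ≠ 0 := fun z h0 => by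
    have h := hprod z.1
    rw [Finset.prod_eq_zero (Finset.mem_univ z.2) h0] at h
    exact hιa ((map_eq_zero z.1.out).1 ((map_eq_zero emb).1 h.symm))
  refine ⟨⟨fun z => Additive.ofMul (Units.mk0 _ (hne z)), fun g => funext fun z => ?_⟩,
    Subtype.ext (funext fun x => ?_)⟩
  · refine Additive.toMul.injective (Units.ext ?_)
    show g (evalHom q (E ((localPerm (q : ℕ) (coverPerm (cosetPerm W) _ hc) g).symm z)) w) =
      evalHom q (E z) w
    rw [evalHom_galois]
    congr 1
    refine congrArg (evalHom q) (RingHom.ext fun y => ?_)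
    show g (padicEmbedding (q : ℕ) _) = padicEmbedding (q : ℕ) _
    rw [← padicEmbedding_localGaloisToGlobal]
    refine congrArg (padicEmbedding (q : ℕ)) ?_
    set g' := localGaloisToGlobal (q : ℕ) g
    show g' (((cosetPerm W g').symm z.1).out
        (ι ((s ^ (z.2 - cocycleOfHom φ g' z.1).val) y))) = z.1.out (ι ((s ^ z.2.val) y))
    have h : z.1.out.symm (g' (((cosetPerm W g').symm z.1).out
        (ι ((s ^ (z.2 - cocycleOfHom φ g' z.1).val) y)))) =
        ι ((s ^ (cocycleOfHom φ g' z.1).val) ((s ^ (z.2 - cocycleOfHom φ g' z.1).val) y)) :=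
      hφ ⟨_, out_inv_mul_mem W g' z.1⟩ _
    rw [(AlgEquiv.symm_apply_eq _).1 h, ← pow_val_add_apply hs, add_sub_cancel]
  · refine Eq.trans (push_fst_apply _ x) (Additive.toMul.injective (Units.ext ?_))
    rw [toMul_sum, Units.coe_prod]
    refine (hprod x).trans ?_
    show emb (x.out (ι a)) = emb (((b.1 x).toMul : QBarˣ) : QBar)
    rw [hb]
    rfl

/-- A global norm from the cover gives an element of `L` whose norm for `s` is `a`. -/
theorem exists_pow_prod_eq_of_norm (hs : s ^ 3 = 1) (hs1 : s ≠ 1) (hsurj : Function.Surjective φ)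
    (hW : ∀ g : GQ, (∀ x, g (ι₀ x) = ι₀ x) → g ∈ W)
    (hφ : ∀ (g : ↥W) x, (g : GQ) (ι₀ x) = ι₀ ((s ^ (φ g).toAdd.val) x))
    {a : L} {b : GlobalStar (cosetPerm W)}
    (hb : ∀ x : GQ ⧸ W, (((b.1 x).toMul : QBarˣ) : QBar) = x.out (ι₀ a))
    (A : GlobalStar (coverPerm (cosetPerm W) _ (isSetCocycle_cocycleOfHom φ)))
    (hA : normGlobal (isEquivMap_fst (isSetCocycle_cocycleOfHom φ)) A = b) :
    ∃ c : L, ∏ i ∈ Finset.range 3, (s ^ i) c = a := by
  set ι : L →+* QBar := ι₀.toRingHom with hι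
  set L' : IntermediateField ℚ QBar := ι₀.fieldRange
  set x₀ : GQ ⧸ W := ((1 : GQ) : GQ ⧸ W)
  set o : GQ := x₀.out
  have ho : o ∈ W := by
    have h : ((1 : GQ) : GQ ⧸ W) = (o : GQ ⧸ W) := (QuotientGroup.out_eq' x₀).symm
    rw [QuotientGroup.eq] at h
    simpa using h
  set v : ZMod 3 → QBar := fun i => (((A.1 (x₀, i)).toMul : QBarˣ) : QBar)
  have hout : ∀ h ∈ W, (cosetPerm W (o * h * o⁻¹)).symm x₀ = x₀ := fun h hh => by
    rw [Equiv.symm_apply_eq]
    show x₀ = (((o * h * o⁻¹) * 1 : GQ) : GQ ⧸ W)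
    rw [mul_one, QuotientGroup.eq, inv_one, one_mul]
    exact mul_mem (mul_mem ho hh) (inv_mem ho)
  have hcoc : ∀ h : ↥W, cocycleOfHom φ (o * h.1 * o⁻¹) x₀ = (φ h).toAdd := fun h => by
    show Multiplicative.toAdd (φ ⟨_, out_inv_mul_mem W (o * h.1 * o⁻¹) x₀⟩) = _
    exact congrArg (fun g : ↥W => Multiplicative.toAdd (φ g))
      (Subtype.ext ((congrArg (fun y => x₀.out⁻¹ * (o * h.1 * o⁻¹ * Quotient.out y))
        (hout h.1 h.2)).trans (show o⁻¹ * (o * h.1 * o⁻¹ * o) = h.1 by group)) : _ = h)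
  have hA' : ∀ (h : ↥W) i, (o * h.1 * o⁻¹) (v (i - (φ h).toAdd)) = v i := fun h i => by
    have h1 := congrFun (A.2 (o * h.1 * o⁻¹)) (x₀, i)
    rw [permAct_apply, coverPerm_symm_apply, hout h.1 h.2, hcoc h] at h1
    exact congrArg (fun u : Additive QBarˣ => ((u.toMul : QBarˣ) : QBar)) h1
  -- the value at `0` lies in the image of `L`
  have hmem : o.symm (v 0) ∈ L' := by
    rw [← InfiniteGalois.fixedField_fixingSubgroup L', IntermediateField.mem_fixedField_iff]
    intro h hh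
    have hfix : ∀ x, h (ι x) = ι x := fun x =>
      (IntermediateField.mem_fixingSubgroup_iff L' h).1 hh _ ⟨x, rfl⟩
    have h1 := hA' ⟨h, hW h hfix⟩ 0
    rw [eq_of_forall_embedding_pow_eq hs hs1 ι (i := (φ ⟨h, hW h hfix⟩).toAdd) (j := 0)
      fun x => (hφ ⟨h, hW h hfix⟩ x).symm.trans ((hfix x).trans (by simp)), sub_zero,
      AlgEquiv.mul_apply, AlgEquiv.mul_apply, AlgEquiv.aut_inv] at h1
    exact (AlgEquiv.eq_symm_apply _).2 h1
  obtain ⟨c, hc⟩ := hmem
  have hc' : v 0 = o (ι c) := by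
    rw [show ι c = o.symm (v 0) from hc, AlgEquiv.apply_symm_apply]
  -- all values are conjugates
  have hv : ∀ i, v i = o (ι ((s ^ i.val) c)) := fun i => by
    obtain ⟨h, hh⟩ := hsurj (Multiplicative.ofAdd i)
    have hi : (φ h).toAdd = i := by rw [hh, toAdd_ofAdd]
    have h1 := hA' h (φ h).toAdd
    rw [sub_self, hc', AlgEquiv.mul_apply, AlgEquiv.mul_apply, AlgEquiv.aut_inv,
      AlgEquiv.symm_apply_apply, show (h : GQ) (ι c) = ι ((s ^ (φ h).toAdd.val) c) from hφ h c,
      hi] at h1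
    exact h1.symm
  refine ⟨c, ι.injective (o.injective ?_)⟩
  have hnorm : ∏ i : ZMod 3, v i = o (ι a) := by
    have h := congrArg (fun f : GlobalStar (cosetPerm W) =>
      (((Subtype.val f x₀).toMul : QBarˣ) : QBar)) hA
    refine Eq.trans ?_ (h.trans (hb x₀))
    show _ = (((push Prod.fst A.1 x₀).toMul : QBarˣ) : QBar)
    rw [push_fst_apply, toMul_sum, Units.coe_prod]
  rw [← hnorm, show (Finset.univ : Finset (ZMod 3)) = {0, 1, 2} by decide,
    Finset.prod_insert (by decide), Finset.prod_insert (by decide), Finset.prod_singleton]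
  simp [Finset.prod_range_succ, hv, show (1 : ZMod 3).val = 1 from rfl,
    show (2 : ZMod 3).val = 2 from rfl, mul_assoc]

end Descent

/-- A norm at every finite place, for an automorphism of order three, is a global norm. -/
theorem exists_norm_of_adelic (s : L ≃+* L) (hs : s ^ 3 = 1) (hs1 : s ≠ 1) (a : L)
    (ha : s a = a) (w : FinAdele L)
    (hw : ∏ i ∈ Finset.range 3, finMap ((s ^ i : L ≃+* L) : L →+* L) w = finIncl L a) :
    ∃ b : L, ∏ i ∈ Finset.range 3, (s ^ i) b = a := by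
  classical
  rcases eq_or_ne a 0 with rfl | ha0
  · exact ⟨0, by simp⟩
  obtain ⟨ι₀⟩ : Nonempty (L →ₐ[ℚ] QBar) := ⟨IsAlgClosed.lift⟩
  obtain ⟨W, φ, U, hU, hUW, hUφ, hsurj, hW, hφ⟩ := exists_exponent_hom hs hs1 ι₀
  have : Finite (GQ ⧸ W) := finite_coset hU hUW
  let _ := Fintype.ofFinite (GQ ⧸ W)
  have hfix : ∀ n : ℕ, (s ^ n) a = a := fun n => by
    induction n with
    | zero => rfl
    | succ n ih => rw [pow_succ, RingAut.mul_apply, ha, ih]
  have hιa : ι₀ a ≠ 0 := by simpa using ha0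
  let b : GlobalStar (cosetPerm W) :=
    ⟨fun x => Additive.ofMul (Units.mk0 (x.out (ι₀ a)) (by simpa using hιa)),
      fun g => funext fun x => by
        refine Additive.toMul.injective (Units.ext ?_)
        show g (((cosetPerm W g).symm x).out (ι₀ a)) = x.out (ι₀ a)
        have h : _ = ι₀ a :=
          (hφ ⟨_, out_inv_mul_mem W g x⟩ a).trans (congrArg ι₀ (hfix _))
        rw [AlgEquiv.mul_apply, AlgEquiv.mul_apply, AlgEquiv.aut_inv] at h
        exact (AlgEquiv.symm_apply_eq _).1 h⟩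
  obtain ⟨A, hA⟩ := exists_normGlobal_eq (isSmoothSet_cosetPerm hU hUW)
    (isTransitive_cosetPerm W) (by norm_num) (isSetCocycle_cocycleOfHom φ)
    (isLC₁_cocycleOfHom φ hU hUW hUφ) b
    (exists_localNorm_of_adelic s ι₀ φ hs hφ ha0 w hw b fun _ => rfl)
  exact exists_pow_prod_eq_of_norm s ι₀ φ hs hs1 hsurj hW hφ (fun _ => rfl) A hA

end Fermat.Agent.LT.Reciprocity

end
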