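import Fermat.Agent.LT.Reciprocity.OrderFour

/-!
# Norms near one are norms of elements near one

For a quadratic cover: an element near one over `S` which is a norm is the norm of an element
near one over `S`.
-/

set_option autoImplicit false

noncomputable section

namespace Fermat.Agent.LT.Reciprocity

open Fermat.Agent.PoitouTate

local instance factTwoNear : Fact (Nat.Prime 2) := ⟨Nat.prime_two⟩

theorem half_le_norm_two (q : Nat.Primes) : (1 / 2 : ℝ) ≤ ‖(2 : PadicAlgCl (q : ℕ))‖ := by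
  rw [show (2 : PadicAlgCl (q : ℕ)) =
    algebraMap ℚ_[(q : ℕ)] (PadicAlgCl (q : ℕ)) ((2 : ℕ) : ℚ_[(q : ℕ)]) by
      rw [Nat.cast_ofNat, map_ofNat], norm_algebraMap']
  by_cases h : (q : ℕ) = 2
  · obtain ⟨q, hq⟩ := q
    simp only at h ⊢
    subst h
    rw [Padic.norm_p]
    norm_num
  · have h1 : ‖((2 : ℕ) : ℚ_[(q : ℕ)])‖ = 1 := Padic.norm_natCast_eq_one_iff.2
      ((Nat.coprime_primes q.2 Nat.prime_two).2 h)
    rw [h1]
    norm_num

theorem norm_two_le_one (q : ℕ) [Fact q.Prime] : ‖(2 : PadicAlgCl q)‖ ≤ 1 := by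
  rw [show (2 : PadicAlgCl q) = algebraMap ℚ_[q] (PadicAlgCl q) ((2 : ℕ) : ℚ_[q]) by
    rw [Nat.cast_ofNat, map_ofNat], norm_algebraMap']
  simpa using Padic.norm_int_le_one (p := q) (2 : ℤ)

/-- The choice between the two test elements makes the denominator large. -/
theorem denom_bound {q : ℕ} [Fact q.Prime] {A B Y : PadicAlgCl q}
    (h1 : ‖(2 : PadicAlgCl q)‖ ≤ ‖1 + Y‖ → ‖B - A‖ < ‖(2 : PadicAlgCl q)‖ * ‖A‖)
    (h2 : ‖1 + Y‖ < ‖(2 : PadicAlgCl q)‖ → ‖B + A‖ < ‖(2 : PadicAlgCl q)‖ * ‖A‖) :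
    ‖(2 : PadicAlgCl q)‖ * ‖A‖ ≤ ‖A + Y * B‖ := by
  have key : ∀ u v : PadicAlgCl q, ‖v‖ < ‖u‖ → ‖u + v‖ = ‖u‖ := fun u v h => by
    rw [IsUltrametricDist.norm_add_eq_max_of_norm_ne_norm h.ne', max_eq_left h.le]
  rcases le_or_gt ‖(2 : PadicAlgCl q)‖ ‖1 + Y‖ with h | h
  · have hB := h1 h
    have hlt : ‖Y * (B - A)‖ < ‖A * (1 + Y)‖ := by
      rw [norm_mul, norm_mul]
      rcases le_or_gt ‖Y‖ 1 with hY | hY
      · calc ‖Y‖ * ‖B - A‖ ≤ 1 * ‖B - A‖ := mul_le_mul_of_nonneg_right hY (norm_nonneg _)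
          _ < ‖(2 : PadicAlgCl q)‖ * ‖A‖ := by rw [one_mul]; exact hB
          _ ≤ ‖A‖ * ‖1 + Y‖ := by
            rw [mul_comm ‖A‖]; exact mul_le_mul_of_nonneg_right h (norm_nonneg _)
      · rw [show ‖1 + Y‖ = ‖Y‖ by rw [add_comm]; exact key Y 1 (by rwa [norm_one]), mul_comm ‖A‖]
        refine mul_lt_mul_of_pos_left (hB.trans_le ?_) (zero_lt_one.trans hY)
        exact mul_le_of_le_one_left (norm_nonneg _) (norm_two_le_one q)
    rw [show A + Y * B = A * (1 + Y) + Y * (B - A) by ring, key _ _ hlt, norm_mul,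
      mul_comm _ ‖A‖]
    exact mul_le_mul_of_nonneg_left h (norm_nonneg _)
  · have hB := h2 h
    have hY : ‖Y‖ = 1 := by
      have h3 : ‖1 + Y‖ < ‖(-1 : PadicAlgCl q)‖ := by
        rw [norm_neg, norm_one]; exact h.trans_le (norm_two_le_one q)
      rw [show Y = -1 + (1 + Y) by ring, key _ _ h3, norm_neg, norm_one]
    have h1Y : ‖1 - Y‖ = ‖(2 : PadicAlgCl q)‖ := by
      rw [show 1 - Y = 2 + -(1 + Y) by ring, key _ _ (by rwa [norm_neg])]
    have hlt : ‖Y * (B + A)‖ < ‖A * (1 - Y)‖ := by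
      rw [norm_mul, norm_mul, hY, one_mul, h1Y, mul_comm ‖A‖]; exact hB
    rw [show A + Y * B = A * (1 - Y) + Y * (B + A) by ring, key _ _ hlt, norm_mul, h1Y, mul_comm]

/-- A sum over `ℤ/2` has two terms. -/
theorem sum_zmod_two {M : Type*} [AddCommMonoid M] (f : ZMod 2 → M) (i : ZMod 2) :
    ∑ j, f j = f i + f (i + 1) := by
  have hu : (Finset.univ : Finset (ZMod 2)) = {i, i + 1} := by
    ext j
    simp only [Finset.mem_univ, Finset.mem_insert, Finset.mem_singleton, true_iff]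
    revert i j
    decide
  rw [hu, Finset.sum_pair (by revert i; decide)]

theorem nearOne_smul {q : ℕ} [Fact q.Prime] {δ : ℝ} {u : Additive (PadicAlgCl q)ˣ}
    (h : u ∈ nearOne q δ) (g : GQl q) : localUnits q g u ∈ nearOne q δ := by
  rcases h with rfl | h
  · rw [map_zero]; exact zero_mem _
  refine mem_nearOne_of_norm_lt ?_
  show ‖g ((u.toMul : (PadicAlgCl q)ˣ) : PadicAlgCl q) - 1‖ < _
  rw [← map_one g, ← map_sub, ← coe_nnnorm, nnnorm_padicAlgCl_algEquiv, coe_nnnorm]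
  exact h

variable {X : Type*} [Fintype X] {σ : GQ →* Equiv.Perm X} {S : Finset Nat.Primes}
  {c : GQ → X → ZMod 2}

/-- The value at `z` of a global element, in the algebraic closure of `ℚ_q`. -/
def locVal {Z : Type*} {τ : GQ →* Equiv.Perm Z} (q : Nat.Primes) (u : GlobalStar τ) (z : Z) :
    PadicAlgCl (q : ℕ) :=
  padicEmbedding (q : ℕ) (((u.1 z).toMul : QBarˣ) : QBar)

theorem locVal_ne_zero {Z : Type*} {τ : GQ →* Equiv.Perm Z} (q : Nat.Primes) (u : GlobalStar τ)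
    (z : Z) : locVal q u z ≠ 0 :=
  Units.ne_zero ((toLocal (q : ℕ) τ u).1 z).toMul

/-- In a quadratic cover there is an element which, at the representative of each place over `S`,
makes the denominator of Hilbert's Theorem 90 for `y` large. -/
theorem exists_test_element (hc : IsSetCocycle σ c) (hσ : IsSmoothSet allLevels σ)
    (htr : IsTransitive σ) (hlc : allLevels.IsLC₁ c) (htr' : IsTransitive (coverPerm σ c hc))
    {δ : ℝ} (hδ : 0 < δ) (hδ1 : δ ≤ 1) (y : GlobalStar (coverPerm σ c hc)) :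
    ∃ f : GlobalStar (coverPerm σ c hc), ∀ q ∈ S, ∀ O : Places (q : ℕ) σ,
      ‖(2 : PadicAlgCl (q : ℕ))‖ * ‖locVal q f (O.out, 0)‖ ≤
        ‖locVal q f (O.out, 0) + locVal q y (O.out, 0) * locVal q f (O.out, 1)‖ := by
  classical
  obtain ⟨K⟩ := exists_kummer (hasRoots_two σ) htr hc hlc
  let τ := coverPerm σ c hc
  have hzeta : ∀ x, (((K.zeta.1 x).toMul : QBarˣ) : QBar) = -1 := fun x => by
    have h2 : ((((K.zeta.1 x).toMul : QBarˣ) : QBar)) ^ 2 = 1 := by
      rw [← Units.val_pow_eq_pow_val, ← toMul_nsmul, K.nsmul_zeta]; rfl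
    refine (sq_eq_one_iff.1 h2).resolve_left fun h => ?_
    have h0 : K.zeta.1 x = 0 := Additive.toMul.injective (Units.ext h)
    have := K.addOrder_zeta x
    rw [h0, addOrderOf_zero] at this
    norm_num at this
  let P : ∀ q : Nat.Primes, X → Prop := fun q x =>
    ‖1 + locVal q y ((orbitOf (q : ℕ) σ x).out, 0)‖ < ‖(2 : PadicAlgCl (q : ℕ))‖
  let u : ∀ q : Nat.Primes, LocalStar (q : ℕ) τ := fun q =>
    ⟨fun z => if P q z.1 then (toLocal (q : ℕ) τ (K.root (hc := hc))).1 z else 0, fun g =>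
      funext fun z => by
        have h : orbitOf (q : ℕ) σ ((localPerm (q : ℕ) τ g).symm z).1 = orbitOf (q : ℕ) σ z.1 :=
          orbitOf_symm_apply _ g z.1
        rw [permAct_apply]
        simp only [P, h]
        split_ifs
        · exact congrFun ((toLocal (q : ℕ) τ (K.root (hc := hc))).2 g) z
        · exact map_zero _⟩
  obtain ⟨f, hf⟩ := exists_close (isSmoothSet_coverPerm hc hσ hlc) htr' u S (half_pos hδ)
  refine ⟨f, fun q hq O => ?_⟩
  set x₁ := O.out
  have hP : P q x₁ ↔ ‖1 + locVal q y (x₁, 0)‖ < ‖(2 : PadicAlgCl (q : ℕ))‖ := by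
    simp only [P, x₁]
    rw [show orbitOf (q : ℕ) σ O.out = O from Quotient.out_eq _]
  have hε : ∀ z, ∃ e : PadicAlgCl (q : ℕ), ‖e‖ < δ / 2 ∧
      locVal q f z = ((((u q).1 z).toMul : (PadicAlgCl (q : ℕ))ˣ) : PadicAlgCl (q : ℕ)) * (1 + e) :=
    fun z => by
      have h := norm_sub_one_lt_of_mem_nearOne (half_pos hδ) (hf q hq z)
      refine ⟨_, h.trans_le (min_le_left _ _), ?_⟩
      rw [AddSubgroup.coe_sub, Pi.sub_apply, toMul_sub, Units.val_div_eq_div_val,
        add_sub_cancel, mul_div_cancel₀ _ (Units.ne_zero _)]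
      rfl
  obtain ⟨e₀, he₀, hA⟩ := hε (x₁, 0)
  obtain ⟨e₁, he₁, hB⟩ := hε (x₁, 1)
  have hlt1 : ∀ e : PadicAlgCl (q : ℕ), ‖e‖ < δ / 2 → ‖1 + e‖ = 1 := fun e he => by
    refine norm_eq_one_of_sub_one (lt_of_lt_of_le ?_ (le_refl 1))
    rw [add_sub_cancel_left]; linarith
  have hee : ‖e₁ - e₀‖ < ‖(2 : PadicAlgCl (q : ℕ))‖ := by
    rw [sub_eq_add_neg]
    refine lt_of_le_of_lt (IsUltrametricDist.norm_add_le_max _ _) ?_
    rw [norm_neg]
    exact (max_lt he₁ he₀).trans_le (le_trans (by linarith) (half_le_norm_two q))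
  refine denom_bound (fun h => ?_) fun h => ?_
  · have hn : ¬ P q x₁ := fun h' => absurd (hP.1 h') (not_lt.2 h)
    rw [hA, hB]
    simp only [u, hn, if_false, toMul_zero, Units.val_one, one_mul]
    rw [add_sub_add_left_eq_sub, hlt1 e₀ he₀, mul_one]
    exact hee
  · rw [hA, hB]
    have hr : ((((toLocal (q : ℕ) τ (K.root (hc := hc))).1 (x₁, 1)).toMul :
        (PadicAlgCl (q : ℕ))ˣ) : PadicAlgCl (q : ℕ)) =
        -((((toLocal (q : ℕ) τ (K.root (hc := hc))).1 (x₁, 0)).toMul :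
        (PadicAlgCl (q : ℕ))ˣ) : PadicAlgCl (q : ℕ)) := by
      show padicEmbedding (q : ℕ) ((((K.root (hc := hc)).1 (x₁, 1)).toMul : QBarˣ) : QBar) =
        -padicEmbedding (q : ℕ) ((((K.root (hc := hc)).1 (x₁, 0)).toMul : QBarˣ) : QBar)
      rw [Kummer.root_coe, Kummer.root_coe, toMul_add, toMul_add, Units.val_mul, Units.val_mul,
        toMul_nsmul, toMul_nsmul, ZMod.val_one, ZMod.val_zero, pow_one, pow_zero, Units.val_one,
        mul_one, hzeta, mul_neg_one, map_neg]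
    simp only [u, hP.2 h, if_true]
    rw [hr]
    set β : PadicAlgCl (q : ℕ) := ((((toLocal (q : ℕ) τ (K.root (hc := hc))).1 (x₁, 0)).toMul :
        (PadicAlgCl (q : ℕ))ˣ) : PadicAlgCl (q : ℕ))
    have hβ : 0 < ‖β‖ := norm_pos_iff.2 (Units.ne_zero _)
    rw [show -β * (1 + e₁) + β * (1 + e₀) = -(β * (e₁ - e₀)) by ring, norm_neg, norm_mul,
      norm_mul, hlt1 e₀ he₀, mul_one, mul_comm ‖(2 : PadicAlgCl (q : ℕ))‖]
    exact mul_lt_mul_of_pos_left hee hβ

omit [Fintype X] in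
/-- If `f z + y z * f (shift z)` is non-zero at one point, it is a global element. -/
theorem exists_hilbert90_element (hc : IsSetCocycle σ c)
    (htr' : IsTransitive (coverPerm σ c hc)) (y f : GlobalStar (coverPerm σ c hc)) {q : Nat.Primes}
    {z₀ : X × ZMod 2}
    (h₀ : locVal q f z₀ + locVal q y z₀ * locVal q f (shift z₀) ≠ 0) :
    ∃ w : GlobalStar (coverPerm σ c hc), ∀ (r : Nat.Primes) z,
      locVal r w z = locVal r f z + locVal r y z * locVal r f (shift z) := by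
  let τ := coverPerm σ c hc
  let val : GlobalStar τ → X × ZMod 2 → QBar := fun u z => (((u.1 z).toMul : QBarˣ) : QBar)
  let zv : X × ZMod 2 → QBar := fun z => val f z + val y z * val f (shift z)
  have hgal : ∀ (u : GlobalStar τ) (g : GQ) z, g (val u ((τ g).symm z)) = val u z :=
    fun u g z => congrArg (fun v : Additive QBarˣ => ((v.toMul : QBarˣ) : QBar))
      (congrFun (u.2 g) z)
  have hzv : ∀ (g : GQ) z, g (zv ((τ g).symm z)) = zv z := fun g z => by
    simp only [zv, map_add, map_mul, hgal,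
      show shift ((τ g).symm z) = (τ g).symm (shift z) from (isEquivMap_shift hc).symm_apply g z]
  have hne : ∀ z, zv z ≠ 0 := fun z h0 => by
    obtain ⟨g, hg⟩ := htr'.2 z z₀
    refine h₀ ?_
    show padicEmbedding (q : ℕ) (val f z₀) + padicEmbedding (q : ℕ) (val y z₀) *
      padicEmbedding (q : ℕ) (val f (shift z₀)) = 0
    rw [← map_mul, ← map_add, show val f z₀ + val y z₀ * val f (shift z₀) = zv z₀ from rfl,
      ← hzv g, ← hg, Equiv.symm_apply_apply, h0, map_zero, map_zero]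
  refine ⟨⟨fun z => Additive.ofMul (Units.mk0 _ (hne z)), fun g => funext fun z =>
    Additive.toMul.injective (Units.ext (hzv g z))⟩, fun r z => ?_⟩
  show padicEmbedding (r : ℕ) (zv z) = _
  simp only [zv, map_add, map_mul]
  rfl

/-- The estimate for the element corrected by Hilbert's Theorem 90. -/
theorem norm_correct_sub_one_lt {q : Nat.Primes} {A B Y Y' : PadicAlgCl (q : ℕ)} {δ : ℝ}
    (hA : A ≠ 0) (hb : ‖(2 : PadicAlgCl (q : ℕ))‖ * ‖A‖ ≤ ‖A + Y * B‖)
    (hY : ‖Y * Y' - 1‖ < δ / 2) :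
    ‖Y * ((B + Y' * A) / (A + Y * B)) - 1‖ < δ := by
  have hD : A + Y * B ≠ 0 := fun h => by
    rw [h, norm_zero] at hb
    exact absurd hb (not_le.2 (mul_pos (norm_pos_iff.2 two_ne_zero) (norm_pos_iff.2 hA)))
  have hquot : ‖A‖ / ‖A + Y * B‖ ≤ 2 := by
    rw [div_le_iff₀ (norm_pos_iff.2 hD)]
    nlinarith [half_le_norm_two q, hb, norm_pos_iff.2 hA]
  rw [show Y * ((B + Y' * A) / (A + Y * B)) - 1 = (Y * Y' - 1) * (A / (A + Y * B)) by
    field_simp; ring, norm_mul, norm_div]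
  calc _ ≤ ‖Y * Y' - 1‖ * 2 := mul_le_mul_of_nonneg_left hquot (norm_nonneg _)
    _ < δ := by linarith

/-- An element whose norm is near one and which is near one at one point over each place is near
one. -/
theorem mem_nearS_of_norm_of_rep (hc : IsSetCocycle σ c) {δ : ℝ} (hδ : 0 < δ)
    (y : GlobalStar (coverPerm σ c hc))
    (ha : normGlobal (isEquivMap_fst hc) y ∈ nearS σ S (δ / 2))
    (hrep : ∀ q ∈ S, ∀ O : Places (q : ℕ) σ,
      (toLocal (q : ℕ) (coverPerm σ c hc) y).1 (O.out, 0) ∈ nearOne (q : ℕ) δ) :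
    y ∈ nearS (coverPerm σ c hc) S δ := by
  intro q hq z
  let τ := coverPerm σ c hc
  set x₁ := (orbitOf (q : ℕ) σ z.1).out
  obtain ⟨g, hg⟩ := Quotient.exact (s := placeSetoid (q : ℕ) σ)
    (Quotient.out_eq (orbitOf (q : ℕ) σ z.1))
  have hgx : (localPerm (q : ℕ) τ g (x₁, 0)).1 = z.1 := hg
  have hmoved : (toLocal (q : ℕ) τ y).1 (localPerm (q : ℕ) τ g (x₁, 0)) ∈ nearOne (q : ℕ) δ := by
    have h := congrFun ((toLocal (q : ℕ) τ y).2 g) (localPerm (q : ℕ) τ g (x₁, 0))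
    rw [permAct_apply, Equiv.symm_apply_apply] at h
    rw [← h]
    exact nearOne_smul (hrep q hq (orbitOf (q : ℕ) σ z.1)) g
  obtain ⟨i, hi⟩ : ∃ i, localPerm (q : ℕ) τ g (x₁, 0) = (z.1, i) :=
    ⟨(localPerm (q : ℕ) τ g (x₁, 0)).2, Prod.ext hgx rfl⟩
  rw [hi] at hmoved
  by_cases hiz : i = z.2
  · rwa [hiz] at hmoved
  have hz2 : z.2 = i + 1 :=
    (by decide : ∀ i j : ZMod 2, i ≠ j → j = i + 1) i z.2 hiz
  have hsum : (toLocal (q : ℕ) σ (normGlobal (isEquivMap_fst hc) y)).1 z.1 =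
      (toLocal (q : ℕ) τ y).1 (z.1, i) + (toLocal (q : ℕ) τ y).1 z := by
    rw [toLocal_normGlobal]
    show push Prod.fst (toLocal (q : ℕ) τ y).1 z.1 = _
    rw [push_fst_apply, sum_zmod_two _ i]
    exact congrArg (fun j => _ + (toLocal (q : ℕ) τ y).1 j) (Prod.ext rfl hz2.symm)
  have h := sub_mem (nearOne_mono (by linarith) (ha q hq z.1)) hmoved
  rwa [hsum, add_sub_cancel_left] at h

/-- A norm near one is the norm of an element near one. -/
theorem exists_near_preimage (hc : IsSetCocycle σ c) (hσ : IsSmoothSet allLevels σ)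
    (htr : IsTransitive σ) (hlc : allLevels.IsLC₁ c)
    (htr' : IsTransitive (coverPerm σ c hc)) (hS : S.Nonempty) {δ : ℝ} (hδ : 0 < δ) (hδ1 : δ ≤ 1)
    (y : GlobalStar (coverPerm σ c hc))
    (ha : normGlobal (isEquivMap_fst hc) y ∈ nearS σ S (δ / 2)) :
    ∃ y' ∈ nearS (coverPerm σ c hc) S δ,
      normGlobal (isEquivMap_fst hc) y' = normGlobal (isEquivMap_fst hc) y := by
  classical
  obtain ⟨f, hf⟩ := exists_test_element (S := S) hc hσ htr hlc htr' hδ hδ1 y
  obtain ⟨q₀, hq₀⟩ := hS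
  obtain ⟨x₀⟩ := htr.1
  obtain ⟨w, hw⟩ := exists_hilbert90_element hc htr' y f (q := q₀)
    (z₀ := ((orbitOf (q₀ : ℕ) σ x₀).out, 0)) fun h0 => by
      have h1 := hf q₀ hq₀ (orbitOf (q₀ : ℕ) σ x₀)
      simp only [shift, zero_add] at h0
      rw [h0, norm_zero] at h1
      exact absurd h1 (not_le.2 (mul_pos (norm_pos_iff.2 two_ne_zero)
        (norm_pos_iff.2 (locVal_ne_zero _ _ _))))
  let τ := coverPerm σ c hc
  let ws : GlobalStar τ := Inv.map' (pull shift)
    (pull_intertwines (isEquivMap_shift hc) globalUnits) w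
  set y' := y + (ws - w)
  have hnorm : normGlobal (isEquivMap_fst hc) y' = normGlobal (isEquivMap_fst hc) y := by
    refine Subtype.ext ?_
    show push Prod.fst (y.1 + ((fun z => w.1 (shift z)) - w.1)) = push Prod.fst y.1
    rw [map_add, map_sub, push_fst_shift, sub_self, add_zero]
  refine ⟨y', mem_nearS_of_norm_of_rep hc hδ y' (hnorm ▸ ha) fun q hq O => ?_, hnorm⟩
  refine mem_nearOne_of_norm_lt ?_
  rw [min_eq_left hδ1]
  have hval : ((((toLocal (q : ℕ) τ y').1 (O.out, 0)).toMul : (PadicAlgCl (q : ℕ))ˣ) :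
      PadicAlgCl (q : ℕ)) = locVal q y (O.out, 0) * ((locVal q f (O.out, 1) +
        locVal q y (O.out, 1) * locVal q f (O.out, 0)) /
        (locVal q f (O.out, 0) + locVal q y (O.out, 0) * locVal q f (O.out, 1))) := by
    show padicEmbedding (q : ℕ) ((((y.1 (O.out, 0)) + (w.1 (shift (O.out, 0)) -
      w.1 (O.out, 0))).toMul : QBarˣ) : QBar) = _
    rw [toMul_add, toMul_sub, Units.val_mul, Units.val_div_eq_div_val, map_mul, map_div₀]
    show locVal q y (O.out, 0) * (locVal q w (shift (O.out, 0)) / locVal q w (O.out, 0)) = _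
    rw [hw, hw]
    simp only [shift, zero_add, show (1 : ZMod 2) + 1 = 0 from rfl]
  have hab : ((((toLocal (q : ℕ) σ (normGlobal (isEquivMap_fst hc) y)).1 O.out).toMul :
      (PadicAlgCl (q : ℕ))ˣ) : PadicAlgCl (q : ℕ)) =
      locVal q y (O.out, 0) * locVal q y (O.out, 1) := by
    show padicEmbedding (q : ℕ) (((push Prod.fst y.1 O.out).toMul : QBarˣ) : QBar) = _
    rw [push_fst_apply, sum_zmod_two (fun i => y.1 (O.out, i)) 0, zero_add, toMul_add,
      Units.val_mul, map_mul]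
    rfl
  rw [hval]
  refine norm_correct_sub_one_lt (locVal_ne_zero _ _ _) (hf q hq O) ?_
  rw [← hab]
  exact (norm_sub_one_lt_of_mem_nearOne (half_pos hδ) (ha q hq O.out)).trans_le (min_le_left _ _)

end Fermat.Agent.LT.Reciprocity

end
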