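import Fermat.Agent.LT.Reciprocity.Crossing
import Fermat.Agent.LT.Reciprocity.NearNorm

/-!
# The reciprocity law for characters of order two and four

The symbol of the divisor of an element near enough to one at the exceptional primes vanishes.
-/

set_option autoImplicit false

noncomputable section

universe u

namespace Fermat.Agent.LT.Reciprocity

open Fermat.Agent.PoitouTate

local instance factTwoKill : Fact (Nat.Prime 2) := ⟨Nat.prime_two⟩

variable {X : Type u} [Fintype X] {σ : GQ →* Equiv.Perm X} {S : Finset Nat.Primes}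
  (hσ : IsSmoothSet allLevels σ) (htr : IsTransitive σ) (hi : IsIntegralOff σ S)
  (hC : ∀ x, σ complexConjugation x ≠ x) (h2S : (⟨2, Nat.prime_two⟩ : Nat.Primes) ∈ S)

section Two

variable {c : GQ → X → ZMod 2} {hc : IsSetCocycle σ c} (hlc : allLevels.IsLC₁ c)
  (htr' : IsTransitive (coverPerm σ c hc))
  (hu : ∀ q : Nat.Primes, q ∉ S → IsUnramifiedSet (q : ℕ) (coverPerm σ c hc))

include hσ htr hC h2S hlc htr' hu in
/-- Some divisor has nontrivial symbol. -/
theorem exists_art_eq_one : ∃ D : ↥(divS σ S), art c D.1 = 1 := by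
  by_contra hcon
  push Not at hcon
  obtain ⟨δ₀, hδ₀, hne⟩ := exists_hSub_ne_top hσ htr (hasRoots_two σ) hC hlc htr' h2S hu
  refine hne δ₀ le_rfl (eq_top_iff.2 fun D _ => ?_)
  exact mem_hSub_of_art_eq_zero hσ htr _ hC hlc htr' indexBound_two (k := 1) rfl h2S hu hδ₀ D
    ((by decide : ∀ t : ZMod 2, t ≠ 1 → t = 0) _ (hcon D))

include hσ htr hC h2S hlc htr' hu in
/-- The symbol of order two kills divisors of elements near one. -/
theorem art_divOf_eq_zero_two :
    ∃ δ₀ > 0, ∀ a ∈ nearS σ S δ₀, art c (divOf hσ htr hi a).1 = 0 := by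
  obtain ⟨δ₀, hδ₀, hne⟩ := exists_hSub_ne_top hσ htr (hasRoots_two σ) hC hlc htr' h2S hu
  refine ⟨δ₀, hδ₀, fun a ha => ?_⟩
  by_contra hne0
  set H := hSub hσ htr (integral_base hσ hu) hc δ₀
  have haH : divOf hσ htr hi a ∈ H := mem_hSub_iff.2 ⟨a, ha, 0, by rw [map_zero, add_zero]⟩
  refine hne δ₀ le_rfl (eq_top_iff.2 fun D _ => ?_)
  have hker : ∀ E : ↥(divS σ S), art c E.1 = 0 → E ∈ H := fun E hE =>
    mem_hSub_of_art_eq_zero hσ htr _ hC hlc htr' indexBound_two (k := 1) rfl h2S hu hδ₀ E hE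
  by_cases hD : art c D.1 = 0
  · exact hker D hD
  have h := add_mem (hker (D - divOf hσ htr hi a) (by
    show artHom σ S c (D - divOf hσ htr hi a) = 0
    rw [map_sub, artHom_apply, artHom_apply,
      (by decide : ∀ t : ZMod 2, t ≠ 0 → t = 1) _ hD,
      (by decide : ∀ t : ZMod 2, t ≠ 0 → t = 1) _ hne0, sub_self])) haH
  rwa [sub_add_cancel] at h

end Two

section Four

variable {c : GQ → X → ZMod 4} {hc : IsSetCocycle σ c} (hlc : allLevels.IsLC₁ c)
  (htr' : IsTransitive (coverPerm σ c hc))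
  (hu : ∀ q : Nat.Primes, q ∉ S → IsUnramifiedSet (q : ℕ) (coverPerm σ c hc))

omit [Fintype X] in
/-- Multiplication by two, as a homomorphism. -/
def dblHom : ZMod 2 →+ ZMod 4 := AddMonoidHom.mk' dbl2 dbl2_add

theorem art_eq_dbl_art_half (hc : IsSetCocycle σ c)
    {E : Nat.Primes → X × ZMod 2 → ℤ}
    (hE : E ∈ divS (coverPerm σ (redCocycle c) (isSetCocycle_redCocycle hc)) S) :
    art c (fun q => push Prod.fst (E q)) = dbl2 (art (halfCocycle c) E) := by
  rw [art_push, show dbl2 (art (halfCocycle c) E) = dblHom (art (halfCocycle c) E) from rfl,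
    ← art_map dblHom _ hE]
  refine art_congr (k := fun z => sec2 z.2) (fun g z => ?_) hE
  show c g z.1 = dbl2 (halfCocycle c g z) + _
  rw [dbl2_halfCocycle, coverPerm_symm_apply]
  abel

omit [Fintype X] in
theorem halfCocycle_shift (g : GQ) (x : X) :
    halfCocycle c g (x, 1) - halfCocycle c g (x, 0) = redCocycle c g x := by
  simp only [halfCocycle, redCocycle]
  generalize c g x = t
  revert t
  decide

/-- A divisor with trivial image has trivial symbol under the halved cocycle. -/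
theorem art_halfCocycle_eq_zero_of_push (hc : IsSetCocycle σ c)
    {F : Nat.Primes → X × ZMod 2 → ℤ}
    (hF : F ∈ divS (coverPerm σ (redCocycle c) (isSetCocycle_redCocycle hc)) S)
    (h0 : ∀ q x, F q (x, 0) + F q (x, 1) = 0) : art (halfCocycle c) F = 0 := by
  refine finsum_eq_zero_of_forall_eq_zero fun q => ?_
  set e : X → ZMod 2 := fun x => if F q (x, 0) < 0 then 1 else 0
  have hinv : ∀ x, F q ((σ (frob q)).symm x, 0 - redCocycle c (frob q) x) = F q (x, 0) := fun x =>
    apply_frob_symm hF q (x, 0)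
  have hneg : ∀ x, F q (x, 1) = - F q (x, 0) := fun x => by linarith [h0 q x]
  have hterm : ∀ x, F q (x, 0) • halfCocycle c (frob q) (x, 0) +
      F q (x, 1) • halfCocycle c (frob q) (x, 1) =
      F q (x, 0) • e x - F q ((σ (frob q)).symm x, 0) • e ((σ (frob q)).symm x) := by
    intro x
    rw [hneg, neg_smul, ← sub_eq_add_neg, ← smul_sub, ← neg_sub (halfCocycle c _ (x, 1)),
      halfCocycle_shift, ZMod.neg_eq_self_mod_two]
    have h := hinv x
    rw [show ∀ t : ZMod 2, 0 - t = t by decide] at h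
    revert h
    generalize redCocycle c (frob q) x = r
    intro h
    rcases (by decide : ∀ t : ZMod 2, t = 0 ∨ t = 1) r with hr | hr <;> rw [hr] at h ⊢
    · simp only [e, h, smul_zero, sub_self]
    · rw [hneg] at h
      simp only [e]
      rw [show F q ((σ (frob q)).symm x, 0) = - F q (x, 0) by linarith, neg_smul, sub_neg_eq_add,
        ← smul_add]
      rcases lt_trichotomy (F q (x, 0)) 0 with h1 | h1 | h1
      · rw [if_pos h1, if_neg (by linarith), add_zero]
      · rw [h1, zero_smul, zero_smul]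
      · rw [if_neg (by linarith), if_pos (by linarith), zero_add]
  rw [artAt, Fintype.sum_prod_type]
  simp only [sum_zmod_two (fun i => F q (_, i) • halfCocycle c (frob q) (_, i)) 0, zero_add, hterm,
    Finset.sum_sub_distrib, sub_eq_zero]
  exact (Fintype.sum_equiv (σ (frob q)).symm _ _ fun x => rfl).symm

include hσ htr hC h2S hlc htr' hu in
/-- The symbol of order four kills divisors of elements near one. -/
theorem art_divOf_eq_zero_four :
    ∃ δ₀ > 0, ∀ a ∈ nearS σ S δ₀, art c (divOf hσ htr hi a).1 = 0 := by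
  classical
  set c₂ := redCocycle c
  have hc₂ : IsSetCocycle σ c₂ := isSetCocycle_redCocycle hc
  have hlc₂ := isLC₁_redCocycle hlc
  let σ₂ := coverPerm σ c₂ hc₂
  set c' := halfCocycle c
  have hc' : IsSetCocycle σ₂ c' := isSetCocycle_halfCocycle hc
  have hσ₂ : IsSmoothSet allLevels σ₂ := isSmoothSet_coverPerm hc₂ hσ hlc₂
  have hred := isEquivMap_redFst hc
  obtain ⟨htr₂, htr₄, hu₂, hu₄⟩ := transitive_unramified_twoStep hc htr' hu
  have hC₂ : ∀ z, σ₂ complexConjugation z ≠ z := fun z h => hC z.1 (congrArg Prod.fst h)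
  have hi₂ : IsIntegralOff σ₂ S := isIntegralOff_of_unramified hσ₂ hu₂
  obtain ⟨δA, hδA, hA⟩ := art_divOf_eq_zero_two hσ htr hi hC h2S hlc₂ htr₂ hu₂
  obtain ⟨δB, hδB, hB⟩ := art_divOf_eq_zero_two hσ₂ htr₂ hi₂ hC₂ h2S (isLC₁_halfCocycle hlc) htr₄
    hu₄
  obtain ⟨δP, hδP, hP⟩ := exists_radius_pow 2 hσ S
  obtain ⟨E₁, hE₁⟩ := exists_art_eq_one hσ₂ htr₂ hC₂ h2S (isLC₁_halfCocycle hlc) htr₄ hu₄
  set η := min δB 1
  have hη : 0 < η := lt_min hδB one_pos
  set δ₀ := min (min δA δP) (η / 2)
  have hδ₀ : 0 < δ₀ := lt_min (lt_min hδA hδP) (half_pos hη)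
  refine ⟨δ₀, hδ₀, fun a ha => ?_⟩
  by_contra hne
  set D := divOf hσ htr hi a
  have hred0 : red2 (art c D.1) = 0 := by
    rw [← art_map red2 c D.2]
    exact hA a (nearS_mono ((min_le_left _ _).trans (min_le_left _ _)) ha)
  have h2 : art c D.1 = dbl2 1 :=
    (by decide : ∀ t : ZMod 4, red2 t = 0 → t ≠ 0 → t = dbl2 1) _ hred0 hne
  -- the divisor is an image from the intermediate cover
  set π := pushDiv (S := S) (isEquivMap_fst hc₂)
  have hπart : ∀ E, art c (π E).1 = dbl2 (art c' E.1) := fun E =>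
    art_eq_dbl_art_half hc E.2
  have hH : D - π E₁ ∈ hSub hσ htr hi hc δ₀ :=
    mem_hSub_of_art_eq_zero hσ htr hi hC hlc htr' indexBound_four (k := 2) rfl h2S hu hδ₀ _ (by
      show artHom σ S c (D - π E₁) = 0
      rw [map_sub, artHom_apply, artHom_apply, hπart, hE₁, h2, sub_self])
  obtain ⟨b, hb, F, hF⟩ := mem_hSub_iff.1 hH
  set E := E₁ + pushDiv hred F
  have hEπ : π E = divOf hσ htr hi (a - b) := by
    have hpp : π (pushDiv hred F) = pushDiv (isEquivMap_fst hc) F := by
      refine Subtype.ext (funext fun q => ?_)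
      simp only [π, pushDiv_coe, push_push]
      congr 1
    rw [map_sub, map_add, hpp]
    linear_combination (norm := abel) hF
  have hEart : art c' E.1 = 1 := by
    show artHom σ₂ S c' (E₁ + pushDiv hred F) = 1
    rw [map_add, artHom_apply, artHom_apply, hE₁, add_eq_left]
    refine dbl2_injective ?_
    rw [← hπart, show π (pushDiv hred F) = pushDiv (isEquivMap_fst hc) F from
      Subtype.ext (funext fun q => by simp only [π, pushDiv_coe, push_push]; congr 1)]
    show art c (fun q => push Prod.fst (F.1 q)) = _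
    rw [art_push]
    exact art_coboundary (k := Prod.snd) (fun g z => by rw [coverPerm_symm_apply]; simp) F.2
  have hab : a - b ∈ nearS σ S δ₀ := sub_mem ha hb
  -- it is a norm at every place
  have hloc : ∀ q : Nat.Primes, ∃ v, normLocal (q : ℕ) (isEquivMap_fst hc₂) v =
      toLocal (q : ℕ) σ (a - b) := by
    intro q
    by_cases hq : q ∈ S
    · obtain ⟨w, hw⟩ := hP q hq (toLocal (q : ℕ) σ (a - b)) fun x =>
        nearS_mono ((min_le_left _ _).trans (min_le_right _ _)) hab q hq x
      refine ⟨⟨fun z => w.1 z.1, fun g => funext fun z => congrFun (w.2 g) z.1⟩, ?_⟩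
      rw [← hw]
      refine Subtype.ext (funext fun x => ?_)
      show push Prod.fst (fun z : X × ZMod 2 => w.1 z.1) x = _
      rw [push_fst_apply, AddSubmonoidClass.coe_nsmul, Pi.smul_apply]
      show ∑ _i : ZMod 2, w.1 x = _
      rw [Finset.sum_const, Finset.card_univ, ZMod.card]
    · refine exists_norm_of_ord hc₂ hσ hlc₂ q (hu₂ q hq) _ (E.1 q) (E.2.2.2 q) fun x => ?_
      have h := congrArg (fun G : ↥(divS σ S) => G.1 q x) hEπ
      simp only [π, pushDiv_coe, push_fst_apply, divOf_coe, divOfLocal, hq, if_false] at h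
      rw [← cast_ordL hi hq, ← h, Int.cast_sum]
  obtain ⟨y, hy⟩ := hasse_norm_of_complex hσ htr (hasRoots_two σ) hC hc₂ hlc₂ htr₂ (a - b) hloc
  have hy0 : normGlobal (isEquivMap_fst hc₂) y ∈ nearS σ S (η / 2) := by
    rw [hy]; exact nearS_mono (min_le_right _ _) hab
  obtain ⟨y', hy', hyn⟩ := exists_near_preimage hc₂ hσ htr hlc₂ htr₂ ⟨_, h2S⟩ hη (min_le_right _ _)
    y hy0
  have hzero := hB y' (nearS_mono (min_le_left _ _) hy')
  have hdiff : π (divOf hσ₂ htr₂ hi₂ y' - E) = 0 := by
    rw [map_sub, hEπ, ← divOf_norm (isEquivMap_fst hc₂) hσ htr hi hσ₂ htr₂ hi₂, hyn, hy, sub_self]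
  have h := art_halfCocycle_eq_zero_of_push hc (divOf hσ₂ htr₂ hi₂ y' - E).2 fun q x => by
    have h := congrArg (fun G : ↥(divS σ S) => G.1 q x) hdiff
    simp only [π, pushDiv_coe, push_fst_apply, sum_zmod_two _ (0 : ZMod 2), zero_add] at h
    exact h
  change artHom σ₂ S c' (divOf hσ₂ htr₂ hi₂ y' - E) = 0 at h
  rw [map_sub, artHom_apply, artHom_apply, hzero, hEart] at h
  exact absurd h (by decide)

end Four

end Fermat.Agent.LT.Reciprocity

end
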