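import Fermat.Agent.LT.Reciprocity.Ideles
import Fermat.Agent.LT.Reciprocity.Kill
import Fermat.Agent.PoitouTate.Chain

/-!
# Characters of open subgroups as reciprocal cocycles

A homomorphism on an open subgroup `H` gives a cocycle on `G_ℚ ⧸ H`; for values in `ℤ/4` and a
totally complex fixed field it is reciprocal.
-/

set_option autoImplicit false

noncomputable section

namespace Fermat.Agent.LT.Reciprocity

open Fermat.Agent.PoitouTate

variable {H H' : Subgroup GQ} {A B : Type*} [AddCommGroup A] [AddCommGroup B]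

/-- The base point. -/
abbrev baseCoset (H : Subgroup GQ) : GQ ⧸ H := ((1 : GQ) : GQ ⧸ H)

/-- The cocycle of a homomorphism. -/
def homCocycle (φ : ↥H →* Multiplicative A) (g : GQ) (x : GQ ⧸ H) : A :=
  (φ ⟨_, out_inv_mul_mem H g x⟩).toAdd

/-- The cocycle of a homomorphism is a cocycle. -/
theorem isAbCocycle_homCocycle (φ : ↥H →* Multiplicative A) :
    IsAbCocycle (cosetPerm H) (homCocycle φ) := by
  intro g h x
  simp only [homCocycle, ← toAdd_mul]
  rw [mul_comm, ← map_mul]
  have e : (cosetPerm H (g * h)).symm x = (cosetPerm H h).symm ((cosetPerm H g).symm x) := by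
    rw [map_mul]; rfl
  congr 2
  apply Subtype.ext
  simp only [e, Subgroup.coe_mul]
  group

theorem cosetPerm_symm_base {g : GQ} (hg : g ∈ H) :
    (cosetPerm H g).symm (baseCoset H) = baseCoset H :=
  (Equiv.symm_apply_eq _).2 (cosetPerm_eq_one_iff.2 hg).symm

/-- At the base coset the cocycle is the homomorphism. -/
theorem homCocycle_base (φ : ↥H →* Multiplicative A) (h : ↥H) :
    homCocycle φ h (baseCoset H) = (φ h).toAdd := by
  have ho : (baseCoset H).out ∈ H := by
    have h1 : ((1 : GQ) : GQ ⧸ H) = ((baseCoset H).out : GQ ⧸ H) :=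
      (QuotientGroup.out_eq' (baseCoset H)).symm
    rw [QuotientGroup.eq] at h1
    simpa using h1
  have e : (⟨_, out_inv_mul_mem H (h : GQ) (baseCoset H)⟩ : ↥H) =
      (⟨_, ho⟩ : ↥H)⁻¹ * (h * ⟨_, ho⟩) := Subtype.ext (by
    show (baseCoset H).out⁻¹ * ((h : GQ) * ((cosetPerm H (h : GQ)).symm (baseCoset H)).out) = _
    rw [cosetPerm_symm_base h.2]
    rfl)
  rw [homCocycle, e, φ.map_mul, φ.map_mul, φ.map_inv, toAdd_mul, toAdd_inv, toAdd_mul]
  abel

theorem cosetPerm_out (x : GQ ⧸ H) : cosetPerm H x.out (baseCoset H) = x := by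
  rw [cosetPerm_mk, mul_one, QuotientGroup.out_eq']

/-- A cocycle on `G ⧸ H` is the cocycle of its restriction to `H` up to a coboundary. -/
theorem exists_eq_homCocycle {d : GQ → GQ ⧸ H → A} (hd : IsAbCocycle (cosetPerm H) d)
    (φ : ↥H →* Multiplicative A) (hφ : ∀ h : ↥H, d h (baseCoset H) = (φ h).toAdd) :
    ∃ k : GQ ⧸ H → A, ∀ g x, d g x = homCocycle φ g x + (k x - k ((cosetPerm H g).symm x)) := by
  refine ⟨fun x => d x.out x, fun g x => ?_⟩
  set y := (cosetPerm H g).symm x
  set h : ↥H := ⟨_, out_inv_mul_mem H g x⟩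
  have h1 := hd g y.out x
  have hx : (cosetPerm H x.out).symm x = baseCoset H :=
    (Equiv.symm_apply_eq _).2 (cosetPerm_out x).symm
  have h2 := hd x.out (h : GQ) x
  rw [hx, hφ, show x.out * (h : GQ) = g * y.out by simp [h, y, mul_inv_cancel_left]] at h2
  rw [h1] at h2
  show d g x = (φ h).toAdd + (d x.out x - d y.out y)
  exact eq_add_of_sub_eq' (by linear_combination (norm := abel) h2)

theorem homCocycle_comp (f : A →+ B) (φ : ↥H →* Multiplicative A) (g : GQ) (x : GQ ⧸ H) :
    homCocycle ((AddMonoidHom.toMultiplicative f).comp φ) g x = f (homCocycle φ g x) := rfl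

/-- The trivial homomorphism gives the zero cocycle. -/
theorem homCocycle_one : homCocycle (1 : ↥H →* Multiplicative A) = 0 := rfl

/-- The cocycle of a homomorphism which is trivial on an open subgroup is locally constant. -/
theorem isLC₁_homCocycle {U : Subgroup GQ} (hU : allLevels.mem U) (hUH : U ≤ H)
    (φ : ↥H →* Multiplicative A) (hφ : U.subgroupOf H ≤ φ.ker) :
    allLevels.IsLC₁ (homCocycle φ) := by
  refine ⟨U, hU, fun g s hs => funext fun x => ?_⟩
  have e1 : (cosetPerm H (g * s)).symm x = (cosetPerm H g).symm x := by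
    obtain ⟨U', hU', h'⟩ := isSmoothSet_cosetPerm (L := allLevels) hU hUH
    have hs1 : cosetPerm H s = 1 := by
      refine Equiv.ext fun y => ?_
      induction y using QuotientGroup.induction_on with
      | H w =>
        show ((s * w : GQ) : GQ ⧸ H) = (w : GQ ⧸ H)
        obtain ⟨t, ht, e⟩ := allLevels.mul_left_mem hU (g := w) hs
        rw [e, QuotientGroup.mk_mul_of_mem _ (hUH ht)]
    rw [map_mul, hs1, mul_one]
  obtain ⟨t, ht, e⟩ := allLevels.mul_left_mem hU (g := ((cosetPerm H g).symm x).out) hs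
  simp only [homCocycle]
  congr 1
  have e2 : (⟨_, out_inv_mul_mem H g x⟩ : ↥H) * ⟨t, hUH ht⟩ = ⟨_, out_inv_mul_mem H (g * s) x⟩ :=
    Subtype.ext <| by
      show x.out⁻¹ * (g * ((cosetPerm H g).symm x).out) * t =
        x.out⁻¹ * (g * s * ((cosetPerm H (g * s)).symm x).out)
      rw [e1, mul_assoc g s _, e]
      group
  rw [← e2, map_mul, show φ ⟨t, hUH ht⟩ = 1 from hφ (x := ⟨t, hUH ht⟩) ht, mul_one]

variable {S : Finset Nat.Primes}

/-- An open subgroup of finite index. -/
def IsLevelSubgroup (H : Subgroup GQ) : Prop := ∃ U, allLevels.mem U ∧ U ≤ H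

/-- The cosets of a level subgroup form a smooth set. -/
theorem IsLevelSubgroup.smooth (h : IsLevelSubgroup H) :
    IsSmoothSet allLevels (cosetPerm H) := by
  obtain ⟨U, hU, hUH⟩ := h
  exact isSmoothSet_cosetPerm hU hUH

variable [Fintype (GQ ⧸ H)]

omit [Fintype (GQ ⧸ H)] in
theorem isTransitive_cover_hom {n : ℕ} {φ : ↥H →* Multiplicative (ZMod n)}
    (hφ : Function.Surjective φ) :
    IsTransitive (coverPerm (cosetPerm H) (homCocycle φ) (isAbCocycle_homCocycle φ)) :=
  isTransitive_coverPerm_of_surjective (isTransitive_cosetPerm H) (baseCoset H) fun a => by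
    obtain ⟨h, hh⟩ := hφ (Multiplicative.ofAdd a)
    exact ⟨h, cosetPerm_eq_one_iff.2 h.2, by rw [homCocycle_base, hh]; rfl⟩

omit [Fintype (GQ ⧸ H)] in
/-- A homomorphism to `ℤ/4` is surjective or lands in the subgroup of order two. -/
theorem subgroup_zmod_four (φ : ↥H →* Multiplicative (ZMod 4)) :
    Function.Surjective φ ∨ ∀ h, red2 (φ h).toAdd = 0 := by
  by_cases hs : ∀ h, red2 (φ h).toAdd = 0
  · exact Or.inr hs
  refine Or.inl fun a => ?_
  push Not at hs
  obtain ⟨h, hh⟩ := hs
  obtain ⟨k, hk⟩ : ∃ k : ℕ, k • (φ h).toAdd = a.toAdd :=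
    (by decide : ∀ t s : ZMod 4, red2 t ≠ 0 → ∃ k : Fin 4, (k : ℕ) • t = s) _ a.toAdd hh |>.elim
      fun k hk => ⟨k, hk⟩
  exact ⟨h ^ k, Multiplicative.toAdd.injective (by rw [map_pow, toAdd_pow, hk])⟩

/-- Homomorphisms to `ℤ/4` are reciprocal for all large enough `S`. -/
theorem exists_isRecip_four (hH : IsLevelSubgroup H)
    (hC : ∀ x, cosetPerm H complexConjugation x ≠ x) (φ : ↥H →* Multiplicative (ZMod 4))
    {U : Subgroup GQ} (hU : allLevels.mem U) (hUH : U ≤ H) (hUφ : U.subgroupOf H ≤ φ.ker) :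
    ∃ S₀ : Finset Nat.Primes, ∀ S : Finset Nat.Primes, S₀ ⊆ S →
      ∀ hi : IsIntegralOff (cosetPerm H) S,
        IsRecip hH.smooth (isTransitive_cosetPerm H) hi (homCocycle φ) := by
  classical
  have hlc := isLC₁_homCocycle hU hUH φ hUφ
  rcases subgroup_zmod_four φ with hs | hs
  · obtain ⟨T, hT⟩ := exists_finset_isUnramifiedSet
      (isSmoothSet_coverPerm (isAbCocycle_homCocycle φ) hH.smooth hlc)
    refine ⟨insert ⟨2, Nat.prime_two⟩ T, fun S hS hi => ?_⟩
    exact art_divOf_eq_zero_four hH.smooth (isTransitive_cosetPerm H) hi hC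
      (hS (Finset.mem_insert_self _ _)) hlc (isTransitive_cover_hom hs)
      fun q hq => hT q fun h => hq (hS (Finset.mem_insert_of_mem h))
  · let φ₂ : ↥H →* Multiplicative (ZMod 2) :=
      MonoidHom.mk' (fun h => Multiplicative.ofAdd (half4 (φ h).toAdd)) fun a b => by
        rw [← ofAdd_add]
        refine congrArg Multiplicative.ofAdd (dbl2_injective ?_)
        rw [dbl2_add, dbl2_half4 _ (hs _), dbl2_half4 _ (hs _), dbl2_half4 _ (hs _), map_mul,
          toAdd_mul]
    have hφ₂ : φ = (AddMonoidHom.toMultiplicative dblHom).comp φ₂ :=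
      MonoidHom.ext fun h => Multiplicative.toAdd.injective (dbl2_half4 _ (hs h)).symm
    have hker : U.subgroupOf H ≤ φ₂.ker := fun g hg => by
      show Multiplicative.ofAdd (half4 (φ g).toAdd) = 1
      rw [show φ g = 1 from hUφ hg]
      rfl
    have hlc₂ := isLC₁_homCocycle hU hUH φ₂ hker
    obtain ⟨T, hT⟩ := exists_finset_isUnramifiedSet
      (isSmoothSet_coverPerm (isAbCocycle_homCocycle φ₂) hH.smooth hlc₂)
    refine ⟨insert ⟨2, Nat.prime_two⟩ T, fun S hS hi => ?_⟩
    have hrec : IsRecip hH.smooth (isTransitive_cosetPerm H) hi (homCocycle φ₂) := by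
      by_cases h1 : Function.Surjective φ₂
      · exact art_divOf_eq_zero_two hH.smooth (isTransitive_cosetPerm H) hi hC
          (hS (Finset.mem_insert_self _ _)) hlc₂ (isTransitive_cover_hom h1)
          fun q hq => hT q fun h => hq (hS (Finset.mem_insert_of_mem h))
      · have hzero : φ₂ = 1 := MonoidHom.ext fun h => by
          by_contra hne
          refine h1 fun a => ?_
          rcases (by decide : ∀ t : ZMod 2, t = 0 ∨ t = 1) a.toAdd with ha | ha
          · exact ⟨1, Multiplicative.toAdd.injective (by rw [map_one]; exact ha.symm)⟩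
          · refine ⟨h, Multiplicative.toAdd.injective (Eq.trans ?_ ha.symm)⟩
            exact (by decide : ∀ t : ZMod 2, t ≠ 0 → t = 1) _
              fun h0 => hne (Multiplicative.toAdd.injective h0)
        refine ⟨1, one_pos, fun a _ => ?_⟩
        rw [hzero, homCocycle_one]
        exact art_coboundary (k := fun _ => 0) (fun g x => by simp) (divOf _ _ hi a).2
    have h := hrec.comp dblHom
    rwa [show (fun g x => dblHom (homCocycle φ₂ g x)) = homCocycle φ from
      funext fun g => funext fun x => by rw [← homCocycle_comp, ← hφ₂]] at h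

end Fermat.Agent.LT.Reciprocity

end
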