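import Fermat.Agent.LT.Reciprocity.Divisor
import Fermat.Agent.PoitouTate.LocalUnitNorm

/-!
# Semilocal norms prescribed by divisors; weak approximation near one

In an unramified cyclic cover of prime degree a semilocal element whose orders are those of a norm
divisor is a norm (`exists_norm_of_ord`). Semilocal elements over finitely many primes are
approximated by global elements (`exists_close`), and those near enough to one are `p`-th powers
(`exists_radius_pow`).
-/

set_option autoImplicit false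

noncomputable section

namespace Fermat.Agent.LT.Reciprocity

open Fermat.Agent.PoitouTate

variable {X : Type*} [Fintype X] {σ : GQ →* Equiv.Perm X} {S : Finset Nat.Primes}
  {p : ℕ} [hp : Fact p.Prime]

local instance neZeroPrimeNorms : NeZero p := ⟨hp.out.ne_zero⟩

omit [Fintype X] in
/-- A semilocal element with prescribed invariant orders. -/
theorem exists_local_ord (q : Nat.Primes) (k : X → ℤ)
    (hk : ∀ (g : GQl (q : ℕ)) x, k (localPerm (q : ℕ) σ g x) = k x) :
    ∃ f : LocalStar (q : ℕ) σ, (k = 0 → f = 0) ∧ ∀ x, ordQ (q : ℕ) (f.1 x) = k x := by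
  classical
  by_cases h : k = 0
  · exact ⟨0, fun _ => rfl, fun x => by simp [h]⟩
  · obtain ⟨f, hf⟩ := exists_lstar_ordQ_eq (τ := localPerm (q : ℕ) σ) k hk
    exact ⟨f, fun h' => absurd h' h, hf⟩

/-- A semilocal element with the orders of a divisor of an unramified cover is a norm. -/
theorem exists_norm_of_ord {c : GQ → X → ZMod p} (hc : IsSetCocycle σ c)
    (hσ : IsSmoothSet allLevels σ) (hlc : allLevels.IsLC₁ c) (q : Nat.Primes)
    (hu : IsUnramifiedSet (q : ℕ) (coverPerm σ c hc)) (b : LocalStar (q : ℕ) σ)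
    (k : X × ZMod p → ℤ)
    (hk : ∀ (g : GQl (q : ℕ)) z, k (localPerm (q : ℕ) (coverPerm σ c hc) g z) = k z)
    (hb : ∀ x, ordQ (q : ℕ) (b.1 x) = ∑ i : ZMod p, (k (x, i) : ℝ)) :
    ∃ v, normLocal (q : ℕ) (isEquivMap_fst hc) v = b := by
  obtain ⟨w, -, hw⟩ := exists_local_ord q k hk
  obtain ⟨v, -, hv⟩ := unit_norm (q := (q : ℕ)) hc hσ hlc hu
    (b - normLocal (q : ℕ) (isEquivMap_fst hc) w) fun x => by
      rw [AddSubgroup.coe_sub, Pi.sub_apply, map_sub, hb, sub_eq_zero]
      show _ = ordQ (q : ℕ) (push Prod.fst w.1 x)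
      rw [push_fst_apply, map_sum]
      exact Finset.sum_congr rfl fun i _ => (hw _).symm
  exact ⟨v + w, by rw [map_add, hv, sub_add_cancel]⟩

omit hp [Fintype X] in
/-- Approximation of semilocal elements over `S` by a global element. -/
theorem exists_close (hσ : IsSmoothSet allLevels σ) (htr : IsTransitive σ)
    (u : ∀ q : Nat.Primes, LocalStar (q : ℕ) σ) (S : Finset Nat.Primes) {δ : ℝ} (hδ : 0 < δ) :
    ∃ f : GlobalStar σ, ∀ q ∈ S, ∀ x,
      (toLocal (q : ℕ) σ f - u q).1 x ∈ nearOne (q : ℕ) δ := by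
  obtain ⟨f, hf⟩ := exists_toLocal_close hσ htr S (fun q => u q) (lt_min hδ one_pos)
  exact ⟨f, fun q hq x => mem_nearOne_of_norm_lt (hf ⟨q, hq⟩ x)⟩

/-- Near one, semilocal elements over `S` are `p`-th powers. -/
theorem exists_radius_pow (p : ℕ) [Fact p.Prime] (hσ : IsSmoothSet allLevels σ)
    (S : Finset Nat.Primes) :
    ∃ δ > 0, ∀ q ∈ S, ∀ f : LocalStar (q : ℕ) σ, (∀ x, f.1 x ∈ nearOne (q : ℕ) δ) →
      ∃ w, p • w = f := by
  classical
  obtain ⟨U, hU, h⟩ := hσ
  have hne : ∀ q : Nat.Primes, ∃ ε > 0, ∀ f : LocalStar (q : ℕ) σ,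
      (∀ x, ‖((f.1 x).toMul : PadicAlgCl (q : ℕ)) - 1‖ < ε) → ∃ w, p • w = f := fun q =>
    exists_nsmul_of_near_one (τ := localPerm (q : ℕ) σ) p
      ⟨_, ⟨U, hU, rfl⟩, fun s hs => h _ hs⟩
  choose ε hε hpow using hne
  rcases S.eq_empty_or_nonempty with rfl | hS
  · exact ⟨1, one_pos, by simp⟩
  obtain ⟨q₀, hq₀, hmin⟩ := Finset.exists_min_image S ε hS
  refine ⟨ε q₀, hε _, fun q hq f hf => hpow q f fun x => ?_⟩
  exact (norm_sub_one_lt_of_mem_nearOne (hε q₀) (hf x)).trans_le
    ((min_le_left _ _).trans (hmin q hq))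

end Fermat.Agent.LT.Reciprocity

end
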