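import Fermat.Agent.LT.Reciprocity.Cyclotomic
import Fermat.Agent.LT.Reciprocity.Norms
import Fermat.Agent.LT.Reciprocity.Crossing

/-!
# The idele class character of a reciprocal cocycle

A cocycle is reciprocal if its symbol kills divisors of elements near one over `S`. It then defines
a character of semilocal families with almost all orders zero, trivial on global elements and
independent of `S`; for a cyclotomic cocycle it is the order times the class of the prime.
-/

set_option autoImplicit false

noncomputable section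

namespace Fermat.Agent.LT.Reciprocity

open Fermat.Agent.PoitouTate

variable {X Y : Type*} [Fintype X] {σ : GQ →* Equiv.Perm X} {τ : GQ →* Equiv.Perm Y}
  {S S' : Finset Nat.Primes} {A B : Type*} [AddCommGroup A] [AddCommGroup B]
  {d d' : GQ → X → A}
  {hσ : IsSmoothSet allLevels σ} {htr : IsTransitive σ} {hi : IsIntegralOff σ S}

/-- The symbol kills the divisors of the elements near one over `S`. -/
def IsRecip (hσ : IsSmoothSet allLevels σ) (htr : IsTransitive σ) (hi : IsIntegralOff σ S)
    (d : GQ → X → A) : Prop :=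
  ∃ δ > 0, ∀ a ∈ nearS σ S δ, art d (divOf hσ htr hi a).1 = 0

/-- A sum of reciprocal cocycles is reciprocal. -/
theorem IsRecip.add (h : IsRecip hσ htr hi d) (h' : IsRecip hσ htr hi d') :
    IsRecip hσ htr hi (d + d') := by
  obtain ⟨δ, hδ, hd⟩ := h
  obtain ⟨δ', hδ', hd'⟩ := h'
  refine ⟨min δ δ', lt_min hδ hδ', fun a ha => ?_⟩
  rw [art_add_cocycle d d' (divOf hσ htr hi a).2, hd a (nearS_mono (min_le_left _ _) ha),
    hd' a (nearS_mono (min_le_right _ _) ha), add_zero]

/-- The image of a reciprocal cocycle under a homomorphism is reciprocal. -/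
theorem IsRecip.comp (h : IsRecip hσ htr hi d) (f : A →+ B) :
    IsRecip hσ htr hi fun g x => f (d g x) := by
  obtain ⟨δ, hδ, hd⟩ := h
  exact ⟨δ, hδ, fun a ha => by rw [art_map f d (divOf hσ htr hi a).2, hd a ha, map_zero]⟩

/-- A cocycle cohomologous to a reciprocal one is reciprocal. -/
theorem IsRecip.congr {k : X → A} (hk : ∀ g x, d' g x = d g x + (k x - k ((σ g).symm x)))
    (h : IsRecip hσ htr hi d) : IsRecip hσ htr hi d' := by
  obtain ⟨δ, hδ, hd⟩ := h
  exact ⟨δ, hδ, fun a ha => by rw [art_congr hk (divOf hσ htr hi a).2, hd a ha]⟩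

/-- A reciprocal cocycle stays reciprocal for a larger set of primes. -/
theorem IsRecip.mono (hSS' : S ⊆ S') (hi' : IsIntegralOff σ S') (h : IsRecip hσ htr hi d) :
    IsRecip hσ htr hi' d := by
  obtain ⟨δ, hδ, hd⟩ := h
  refine ⟨δ, hδ, fun a ha => ?_⟩
  rw [← inclDiv_coe hSS', inclDiv_divOf hSS' hσ htr hi hi' ha]
  exact hd a fun q hq => ha q (hSS' hq)

/-- The cyclotomic cocycles are reciprocal. -/
theorem isRecip_cyclAdd (ℓ : Nat.Primes) (hC : ∀ x, σ complexConjugation x ≠ x) (hℓ : ℓ ∈ S) :
    IsRecip hσ htr hi fun g (_ : X) => cyclAdd ℓ g :=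
  ⟨1, one_pos, fun _ ha => art_cyclAdd_eq_zero ℓ hσ htr hi hC hℓ one_pos ha⟩

/-! ### Semilocal families -/

variable (σ) in
/-- Semilocal families with almost all orders zero. -/
def IdeleX : AddSubgroup (∀ q : Nat.Primes, LocalStar (q : ℕ) σ) where
  carrier := {f | {q : Nat.Primes | ∃ x, ordQ (q : ℕ) ((f q).1 x) ≠ 0}.Finite}
  zero_mem' := by simp
  add_mem' := fun {f g} hf hg => (hf.union hg).subset fun q ⟨x, hx⟩ => by
    by_contra hcon
    simp only [Set.mem_union, Set.mem_ofPred_eq, not_or, not_exists, not_not] at hcon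
    exact hx (by rw [Pi.add_apply, AddSubgroup.coe_add, Pi.add_apply, map_add, hcon.1 x, hcon.2 x,
      add_zero])
  neg_mem' := fun {f} hf => hf.subset fun q ⟨x, hx⟩ => ⟨x, fun h => hx (by
    rw [Pi.neg_apply, AddSubgroup.coe_neg, Pi.neg_apply, map_neg, h, neg_zero])⟩

/-- The family of a global element. -/
def diagIdele (hσ : IsSmoothSet allLevels σ) (htr : IsTransitive σ) :
    GlobalStar σ →+ IdeleX σ :=
  AddMonoidHom.mk' (fun a => ⟨fun q => toLocal (q : ℕ) σ a,
    (finite_ordAt_ne_zero htr hσ a).subset fun _ ⟨x, hx⟩ h0 => hx (congrFun h0 x)⟩)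
    fun a b => Subtype.ext (funext fun _ => map_add _ a b)

theorem single_mem_ideleX (q : Nat.Primes) (u : LocalStar (q : ℕ) σ) :
    AddMonoidHom.single (fun r : Nat.Primes => LocalStar (r : ℕ) σ) q u ∈ IdeleX σ := by
  refine (Set.finite_singleton q).subset fun r ⟨x, hx⟩ => by_contra fun h => hx ?_
  rw [AddMonoidHom.single_apply, Pi.single_eq_of_ne h]
  simp

/-- The family supported at one prime. -/
def singleIdele (q : Nat.Primes) : LocalStar (q : ℕ) σ →+ IdeleX σ :=
  (AddMonoidHom.single (fun r : Nat.Primes => LocalStar (r : ℕ) σ) q).codRestrict (IdeleX σ)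
    (single_mem_ideleX q)

theorem singleIdele_coe (q : Nat.Primes) (u : LocalStar (q : ℕ) σ) :
    (singleIdele q u).1 = AddMonoidHom.single (fun r : Nat.Primes => LocalStar (r : ℕ) σ) q u :=
  rfl

/-- A family at one prime, at that prime. -/
theorem singleIdele_same (q : Nat.Primes) (u : LocalStar (q : ℕ) σ) :
    (singleIdele q u).1 q = u := by
  rw [singleIdele_coe, AddMonoidHom.single_apply, Pi.single_eq_same]

/-- A family at one prime, at another prime. -/
theorem singleIdele_ne {q r : Nat.Primes} (h : r ≠ q) (u : LocalStar (q : ℕ) σ) :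
    (singleIdele q u).1 r = 0 := by
  rw [singleIdele_coe, AddMonoidHom.single_apply, Pi.single_eq_of_ne h]

/-- The divisor of a family corrected by a global element. -/
def corrDiv (hσ : IsSmoothSet allLevels σ) (htr : IsTransitive σ) (S : Finset Nat.Primes)
    (f : IdeleX σ) (a : GlobalStar σ) : ↥(divS σ S) :=
  ⟨divOfLocal S (f - diagIdele hσ htr a).1, divOfLocal_mem (f - diagIdele hσ htr a).2⟩

theorem corrDiv_add (hi : IsIntegralOff σ S) (f g : IdeleX σ) (a b : GlobalStar σ) :
    corrDiv hσ htr S (f + g) (a + b) = corrDiv hσ htr S f a + corrDiv hσ htr S g b :=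
  Subtype.ext (by
    show divOfLocal S (f + g - diagIdele hσ htr (a + b)).1 = _
    rw [map_add, add_sub_add_comm]
    exact divOfLocal_add hi _ _)

theorem corrDiv_eq (hi : IsIntegralOff σ S) (f : IdeleX σ) (a b : GlobalStar σ) :
    corrDiv hσ htr S f a = corrDiv hσ htr S f b + divOf hσ htr hi (b - a) := by
  refine Subtype.ext ?_
  rw [AddSubgroup.coe_add, divOf_coe]
  show divOfLocal S (f - diagIdele hσ htr a).1 =
    divOfLocal S (f - diagIdele hσ htr b).1 + divOfLocal S (diagIdele hσ htr (b - a)).1
  rw [← divOfLocal_add hi, ← AddSubgroup.coe_add, map_sub, sub_add_sub_cancel]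

section Char

variable (h : IsRecip hσ htr hi d)

/-- The radius of a reciprocal cocycle. -/
def recipRadius (h : IsRecip hσ htr hi d) : ℝ := h.choose

theorem recipRadius_pos : 0 < recipRadius h := h.choose_spec.1

/-- The global element used for a family. -/
def recipApprox (h : IsRecip hσ htr hi d) (f : IdeleX σ) : GlobalStar σ :=
  (exists_close hσ htr f.1 S (recipRadius_pos h)).choose

theorem recipApprox_spec (f : IdeleX σ) : ∀ q ∈ S, ∀ x,
    (toLocal (q : ℕ) σ (recipApprox h f) - f.1 q).1 x ∈ nearOne (q : ℕ) (recipRadius h) :=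
  (exists_close hσ htr f.1 S (recipRadius_pos h)).choose_spec

theorem art_corrDiv_eq (f : IdeleX σ) (a b : GlobalStar σ)
    (ha : ∀ q ∈ S, ∀ x, (toLocal (q : ℕ) σ a - f.1 q).1 x ∈ nearOne (q : ℕ) (recipRadius h))
    (hb : ∀ q ∈ S, ∀ x, (toLocal (q : ℕ) σ b - f.1 q).1 x ∈ nearOne (q : ℕ) (recipRadius h)) :
    art d (corrDiv hσ htr S f a).1 = art d (corrDiv hσ htr S f b).1 := by
  rw [corrDiv_eq hi f a b]
  show artHom σ S d (corrDiv hσ htr S f b + divOf hσ htr hi (b - a)) = _
  rw [map_add, artHom_apply, artHom_apply, h.choose_spec.2 (b - a) fun q hq x => ?_, add_zero]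
  show _ ∈ nearOne (q : ℕ) (recipRadius h)
  have := sub_mem (hb q hq x) (ha q hq x)
  rw [map_sub]
  simpa [sub_sub_sub_cancel_right] using this

/-- The character of a reciprocal cocycle. -/
def xiX : IdeleX σ →+ A :=
  AddMonoidHom.mk' (fun f => art d (corrDiv hσ htr S f (recipApprox h f)).1) fun f g => by
    rw [art_corrDiv_eq h (f + g) _ (recipApprox h f + recipApprox h g) (recipApprox_spec h _)
      fun q hq x => ?_, corrDiv_add hi]
    · exact art_add d (corrDiv hσ htr S f _).2 (corrDiv hσ htr S g _).2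
    · have := add_mem (recipApprox_spec h f q hq x) (recipApprox_spec h g q hq x)
      rw [map_add, AddSubgroup.coe_add, Pi.add_apply, add_sub_add_comm, AddSubgroup.coe_add,
        Pi.add_apply]
      exact this

/-- The character may be computed with any good approximation. -/
theorem xiX_eq {f : IdeleX σ} {a : GlobalStar σ}
    (ha : ∀ q ∈ S, ∀ x, (toLocal (q : ℕ) σ a - f.1 q).1 x ∈ nearOne (q : ℕ) (recipRadius h)) :
    xiX h f = art d (corrDiv hσ htr S f a).1 :=
  art_corrDiv_eq h f _ a (recipApprox_spec h f) ha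

/-- A family is near one with trivial orders. -/
def IsNearTrivial (S : Finset Nat.Primes) (δ : ℝ) (f : IdeleX σ) : Prop :=
  (∀ q ∈ S, ∀ x, (f.1 q).1 x ∈ nearOne (q : ℕ) δ) ∧
    ∀ q ∉ S, ∀ x, ordQ (q : ℕ) ((f.1 q).1 x) = 0

/-- The character kills the families near one at `S` with trivial orders elsewhere. -/
theorem xiX_eq_zero_of_near : ∃ δ > 0, ∀ f, IsNearTrivial S δ f → xiX h f = 0 := by
  refine ⟨recipRadius h, recipRadius_pos h, fun f hf => ?_⟩
  rw [xiX_eq h (a := 0) fun q hq x => by
    rw [map_zero, zero_sub, AddSubgroup.coe_neg, Pi.neg_apply]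
    exact neg_mem (hf.1 q hq x)]
  have h0 : (corrDiv hσ htr S f 0).1 = 0 := funext fun q => funext fun x => by
    show divOfLocal S (f - diagIdele hσ htr 0).1 q x = 0
    rw [map_zero, sub_zero, divOfLocal]
    split_ifs with hq
    · rfl
    · rw [ordL, hf.2 q hq x, Int.floor_zero]
  rw [h0]
  exact map_zero (artHom σ S d)

/-- The character kills the global elements. -/
@[simp] theorem xiX_diag (a : GlobalStar σ) : xiX h (diagIdele hσ htr a) = 0 := by
  rw [xiX_eq h (a := a) fun q _ x => by
    rw [show toLocal (q : ℕ) σ a - (diagIdele hσ htr a).1 q = 0 from sub_self _]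
    exact zero_mem _]
  have h0 : (corrDiv hσ htr S (diagIdele hσ htr a) a).1 = 0 := funext fun q => funext fun x => by
    show divOfLocal S (diagIdele hσ htr a - diagIdele hσ htr a).1 q x = 0
    simp [divOfLocal, ordL]
  rw [h0]
  exact map_zero (artHom σ S d)

/-- Cohomologous cocycles give the same character. -/
theorem xiX_congr (h' : IsRecip hσ htr hi d') {k : X → A}
    (hk : ∀ g x, d' g x = d g x + (k x - k ((σ g).symm x))) (f : IdeleX σ) :
    xiX h' f = xiX h f := by
  obtain ⟨a, ha⟩ := exists_close hσ htr f.1 S (lt_min (recipRadius_pos h) (recipRadius_pos h'))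
  rw [xiX_eq h' fun q hq x => nearOne_mono (min_le_right _ _) (ha q hq x),
    xiX_eq h fun q hq x => nearOne_mono (min_le_left _ _) (ha q hq x)]
  exact art_congr hk (corrDiv hσ htr S f a).2

/-- The character is additive in the cocycle. -/
theorem xiX_add (h' : IsRecip hσ htr hi d') (f : IdeleX σ) :
    xiX (h.add h') f = xiX h f + xiX h' f := by
  obtain ⟨a, ha⟩ := exists_close hσ htr f.1 S
    (lt_min (recipRadius_pos (h.add h')) (lt_min (recipRadius_pos h) (recipRadius_pos h')))
  rw [xiX_eq (h.add h') fun q hq x => nearOne_mono (min_le_left _ _) (ha q hq x),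
    xiX_eq h fun q hq x => nearOne_mono ((min_le_right _ _).trans (min_le_left _ _)) (ha q hq x),
    xiX_eq h' fun q hq x => nearOne_mono ((min_le_right _ _).trans (min_le_right _ _)) (ha q hq x)]
  exact art_add_cocycle d d' (corrDiv hσ htr S f a).2

/-- The character commutes with homomorphisms of the values. -/
theorem xiX_comp (φ : A →+ B) (f : IdeleX σ) : xiX (h.comp φ) f = φ (xiX h f) := by
  obtain ⟨a, ha⟩ := exists_close hσ htr f.1 S
    (lt_min (recipRadius_pos (h.comp φ)) (recipRadius_pos h))
  rw [xiX_eq (h.comp φ) fun q hq x => nearOne_mono (min_le_left _ _) (ha q hq x),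
    xiX_eq h fun q hq x => nearOne_mono (min_le_right _ _) (ha q hq x)]
  exact art_map φ d (corrDiv hσ htr S f a).2

/-- The character does not depend on the set of primes. -/
theorem xiX_mono (hSS' : S ⊆ S') (hi' : IsIntegralOff σ S') (h' : IsRecip hσ htr hi' d)
    (f : IdeleX σ) : xiX h' f = xiX h f := by
  obtain ⟨a, ha⟩ := exists_close hσ htr f.1 S' (lt_min (recipRadius_pos h) (recipRadius_pos h'))
  rw [xiX_eq h' fun q hq x => nearOne_mono (min_le_right _ _) (ha q hq x),
    xiX_eq h fun q hq x => nearOne_mono (min_le_left _ _) (ha q (hSS' hq) x)]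
  congr 1
  funext q x
  show divOfLocal S' (f - diagIdele hσ htr a).1 q x = divOfLocal S (f - diagIdele hσ htr a).1 q x
  simp only [divOfLocal]
  by_cases hq' : q ∈ S'
  · rw [if_pos hq']
    split_ifs with hq
    · rfl
    · rw [ordL, show (f - diagIdele hσ htr a).1 q = -(toLocal (q : ℕ) σ a - f.1 q) from
        (neg_sub _ _).symm, AddSubgroup.coe_neg, Pi.neg_apply, map_neg,
        ordQ_eq_zero_of_mem_nearOne (ha q hq' x), neg_zero, Int.floor_zero]
  · rw [if_neg hq', if_neg fun hq => hq' (hSS' hq)]

end Char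

/-! ### Functoriality -/

section Map

variable [Fintype Y] {π : Y → X} (hπ : IsEquivMap τ σ π)

/-- The norm of families. -/
def normIdele : IdeleX τ →+ IdeleX σ :=
  AddMonoidHom.mk' (fun f => ⟨fun q => normLocal (q : ℕ) hπ (f.1 q), f.2.subset fun q ⟨x, hx⟩ => by
      by_contra hcon
      simp only [Set.mem_ofPred_eq, not_exists, not_not] at hcon
      refine hx ?_
      show ordQ (q : ℕ) (push π (fun y => (f.1 q).1 y) x) = 0
      rw [push_apply, map_sum]
      exact Finset.sum_eq_zero fun y _ => hcon y⟩)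
    fun f g => Subtype.ext (funext fun _ => map_add _ _ _)

variable {hτ : IsSmoothSet allLevels τ} {htr' : IsTransitive τ} {hi' : IsIntegralOff τ S}

include hπ in
/-- The character of a norm is the character of the pulled back cocycle. -/
theorem xiX_norm (h : IsRecip hσ htr hi d)
    (h' : IsRecip hτ htr' hi' fun g y => d g (π y)) (f : IdeleX τ) :
    xiX h (normIdele hπ f) = xiX h' f := by
  classical
  obtain ⟨a, ha⟩ := exists_close hτ htr' f.1 S (lt_min (recipRadius_pos h) (recipRadius_pos h'))
  rw [xiX_eq h' fun q hq y => nearOne_mono (min_le_right _ _) (ha q hq y),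
    xiX_eq h (a := normGlobal hπ a) fun q hq x => ?_]
  · rw [← art_push π d]
    congr 1
    funext q
    rw [show push π ((corrDiv hτ htr' S f a).1 q) =
      push π (divOfLocal S (f - diagIdele hτ htr' a).1 q) from rfl,
      ← divOfLocal_norm hπ hi hi' _ q]
    show divOfLocal S (normIdele hπ f - diagIdele hσ htr (normGlobal hπ a)).1 q = _
    have he : (normIdele hπ f - diagIdele hσ htr (normGlobal hπ a)).1 =
        fun r : Nat.Primes => normLocal (r : ℕ) hπ ((f - diagIdele hτ htr' a).1 r) :=
      funext fun r => by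
      show normLocal (r : ℕ) hπ (f.1 r) - toLocal (r : ℕ) σ (normGlobal hπ a) = _
      rw [toLocal_normGlobal hπ, ← map_sub]
      rfl
    rw [he]
  · rw [show toLocal (q : ℕ) σ (normGlobal hπ a) - (normIdele hπ f).1 q =
      normLocal (q : ℕ) hπ (toLocal (q : ℕ) τ a - f.1 q) by
        rw [map_sub, toLocal_normGlobal hπ]; rfl]
    show push π (fun y => (toLocal (q : ℕ) τ a - f.1 q).1 y) x ∈ _
    rw [push_apply]
    exact sum_mem fun y _ => nearOne_mono (min_le_left _ _) (ha q hq y)

end Map

/-! ### The cyclotomic value -/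

/-- The value of the cyclotomic character on a family supported at one prime. -/
theorem xiX_cycl (ℓ : Nat.Primes) (hC : ∀ x, σ complexConjugation x ≠ x) (hℓ : ℓ ∈ S)
    (h : IsRecip hσ htr hi fun g (_ : X) => cyclAdd ℓ g) (q : Nat.Primes) (hq : q ≠ ℓ)
    (u : LocalStar (q : ℕ) σ) {F : ℤ} (hF : ∑ x, ordQ (q : ℕ) (u.1 x) = F) :
    xiX h (singleIdele q u) = F • cyclAdd ℓ (frob q) := by
  classical
  set δ := min (recipRadius h) 1
  obtain ⟨a, ha⟩ := exists_close hσ htr (singleIdele q u).1 (insert q S)
    (lt_min (recipRadius_pos h) one_pos : 0 < δ)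
  rw [xiX_eq h fun r hr x => nearOne_mono (min_le_left _ _) (ha r (Finset.mem_insert_of_mem hr) x)]
  obtain ⟨r, hr⟩ := exists_rat_prod a
  have hℓ1 : ∀ x, (toLocal (ℓ : ℕ) σ a).1 x ∈ nearOne (ℓ : ℕ) δ := fun x => by
    have h1 := ha ℓ (Finset.mem_insert_of_mem hℓ) x
    rwa [singleIdele_ne hq.symm, sub_zero] at h1
  have h0 := finsum_padicValRat_cycl ℓ hC (lt_min (recipRadius_pos h) one_pos) a hℓ1 hr
  have hord : ∀ p ∈ insert q S, (padicValRat (p : ℕ) r : ℝ) = if p = q then (F : ℝ) else 0 := by
    intro p hp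
    rw [← sum_ordQ_eq a hr p]
    have hsum : ∀ x, ordQ (p : ℕ) ((toLocal (p : ℕ) σ a).1 x) =
        ordQ (p : ℕ) (((singleIdele q u).1 p).1 x) := fun x => by
      have h1 := ordQ_eq_zero_of_mem_nearOne (ha p hp x)
      rwa [AddSubgroup.coe_sub, Pi.sub_apply, map_sub, sub_eq_zero] at h1
    simp only [hsum]
    split_ifs with hpq
    · subst hpq
      rw [singleIdele_same, hF]
    · rw [singleIdele_ne hpq]
      simp
  have hterm : ∀ p, artAt (fun g (_ : X) => cyclAdd ℓ g)
      (corrDiv hσ htr S (singleIdele q u) a).1 p =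
      (if p = q then F • cyclAdd ℓ (frob q) else 0) -
        padicValRat (p : ℕ) r • cyclAdd ℓ (frob p) := by
    intro p
    have hs : (((∑ x, (corrDiv hσ htr S (singleIdele q u) a).1 p x : ℤ)) : ℝ) =
        (((if p = q then F else 0) - padicValRat (p : ℕ) r : ℤ) : ℝ) := by
      by_cases hpS : p ∈ S
      · have h1 := hord p (Finset.mem_insert_of_mem hpS)
        rw [show ∑ x, (corrDiv hσ htr S (singleIdele q u) a).1 p x = 0 from
          Finset.sum_eq_zero fun x _ => if_pos hpS]
        split_ifs at h1 ⊢ with hpq <;> push_cast <;> rw [h1] <;> ring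
      · rw [Int.cast_sum, Int.cast_sub, ← sum_ordQ_eq a hr p]
        have hterm : ∀ x, (((corrDiv hσ htr S (singleIdele q u) a).1 p x : ℤ) : ℝ) =
            ordQ (p : ℕ) (((singleIdele q u).1 p).1 x) -
              ordQ (p : ℕ) ((toLocal (p : ℕ) σ a).1 x) := fun x => by
          show ((divOfLocal S (singleIdele q u - diagIdele hσ htr a).1 p x : ℤ) : ℝ) = _
          rw [divOfLocal, if_neg hpS, cast_ordL hi hpS, ← map_sub]
          rfl
        simp only [hterm, Finset.sum_sub_distrib]
        congr 1
        split_ifs with hpq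
        · subst hpq
          rw [singleIdele_same, hF]
        · rw [singleIdele_ne hpq]
          simp
    rw [artAt, ← Finset.sum_smul, Int.cast_inj.1 hs, sub_smul, ite_smul, zero_smul]
    split_ifs with hpq
    · rw [hpq]
    · rfl
  have hfin1 : (Function.support fun p : Nat.Primes =>
      if p = q then F • cyclAdd ℓ (frob q) else 0).Finite :=
    (Set.finite_singleton q).subset fun p hp => by_contra fun h' => hp (if_neg h')
  have hfin2 : (Function.support fun p : Nat.Primes =>
      padicValRat (p : ℕ) r • cyclAdd ℓ (frob p)).Finite := by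
    refine (finite_support_artAt (S := S) (fun g (_ : X) => cyclAdd ℓ g)
      (corrDiv hσ htr S (singleIdele q u) a).2).union (Set.finite_singleton q) |>.subset
      fun p hp => ?_
    by_contra hcon
    simp only [Set.mem_union, Function.mem_support, Set.mem_singleton_iff, not_or, not_not] at hcon
    rw [hterm, if_neg hcon.2, zero_sub, neg_eq_zero] at hcon
    exact hp hcon.1
  rw [art, finsum_congr hterm, finsum_sub_distrib hfin1 hfin2, h0, sub_zero,
    finsum_eq_single _ q fun p hp => if_neg hp, if_pos rfl]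

end Fermat.Agent.LT.Reciprocity

end
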