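import Fermat.Agent.LT.Reciprocity.Norms

/-!
# The two inequalities for divisor classes

For a cyclic cover of prime degree `p` of a totally complex field with `μ_p`, the divisors prime
to `S` modulo those of elements near one at `S` and norms have at most `p` classes, and more
than one if the elements are near enough.
-/

set_option autoImplicit false

noncomputable section

namespace Fermat.Agent.LT.Reciprocity

open Fermat.Agent.PoitouTate IneqCore

variable {X : Type*} [Fintype X] {σ : GQ →* Equiv.Perm X} {S : Finset Nat.Primes}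
  {n : ℕ} [NeZero n] {c : GQ → X → ZMod n}

/-- The norm-and-congruence subgroup. -/
def hSub (hσ : IsSmoothSet allLevels σ) (htr : IsTransitive σ) (hi : IsIntegralOff σ S)
    (hc : IsSetCocycle σ c) (δ : ℝ) : AddSubgroup ↥(divS σ S) :=
  (nearS σ S δ).map (divOf hσ htr hi) ⊔ (pushDiv (S := S) (isEquivMap_fst hc)).range

/-- Membership in the norm-and-congruence subgroup. -/
theorem mem_hSub_iff {hσ : IsSmoothSet allLevels σ} {htr : IsTransitive σ}
    {hi : IsIntegralOff σ S} {hc : IsSetCocycle σ c} {δ : ℝ} {D : ↥(divS σ S)} :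
    D ∈ hSub hσ htr hi hc δ ↔ ∃ a ∈ nearS σ S δ, ∃ E,
      divOf hσ htr hi a + pushDiv (isEquivMap_fst hc) E = D := by
  constructor
  · intro h
    obtain ⟨_, ⟨a, ha, rfl⟩, _, ⟨E, rfl⟩, e⟩ := AddSubgroup.mem_sup.1 h
    exact ⟨a, ha, E, e⟩
  · rintro ⟨a, ha, E, rfl⟩
    exact AddSubgroup.mem_sup.2 ⟨_, ⟨a, ha, rfl⟩, _, ⟨E, rfl⟩, rfl⟩

section Prime

variable {p : ℕ} [hp : Fact p.Prime] {d : GQ → X → ZMod p} {hd : IsSetCocycle σ d}
  (hσ : IsSmoothSet allLevels σ) (htr : IsTransitive σ) (hr : HasRoots p σ)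
  (hC : ∀ x, σ complexConjugation x ≠ x) (hlc : allLevels.IsLC₁ d)
  (htr' : IsTransitive (coverPerm σ d hd)) (hpS : (⟨p, hp.out⟩ : Nat.Primes) ∈ S)
  (hu : ∀ q : Nat.Primes, q ∉ S → IsUnramifiedSet (q : ℕ) (coverPerm σ d hd))

local instance neZeroPrimeIneq : NeZero p := ⟨hp.out.ne_zero⟩

include hu in
omit [Fintype X] in
theorem unramified_base (q : Nat.Primes) (hq : q ∉ S) : IsUnramifiedSet (q : ℕ) σ :=
  (hu q hq).of_equivMap (fun x => ⟨(x, 0), rfl⟩) (isEquivMap_fst hd)

include hu hσ in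
omit [Fintype X] in
/-- Orders on the base are integral outside the ramified primes of the cover. -/
theorem integral_base : IsIntegralOff σ S :=
  isIntegralOff_of_unramified hσ (unramified_base hu)

include hu hσ hlc in
omit hp [Fintype X] in
theorem integral_cover : IsIntegralOff (coverPerm σ d hd) S :=
  isIntegralOff_of_unramified (isSmoothSet_coverPerm hd hσ hlc) hu

open scoped Classical in
/-- The semilocal family with given components at a finite set of places. -/
def extT (T : Finset (FinPlace σ)) :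
    Additive (∀ v : T, LocMul σ v) →+ ∀ q : Nat.Primes, LocalStar (q : ℕ) σ where
  toFun y q := (exists_orbitPart_eq (q := (q : ℕ)) (σ := σ) fun O =>
    if h : (⟨q, O⟩ : FinPlace σ) ∈ T then (y.toMul ⟨_, h⟩).toAdd else 0).choose
  map_zero' := funext fun q => eq_of_orbitPart_eq fun O => by
    rw [(exists_orbitPart_eq _).choose_spec O]
    split_ifs <;> simp
  map_add' y y' := funext fun q => eq_of_orbitPart_eq fun O => by
    rw [(exists_orbitPart_eq _).choose_spec O, Pi.add_apply, map_add (orbitPart (q : ℕ) O),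
      (exists_orbitPart_eq _).choose_spec O, (exists_orbitPart_eq _).choose_spec O]
    split_ifs <;> simp

open scoped Classical in
omit [Fintype X] hp in
theorem orbitPart_extT (T : Finset (FinPlace σ)) (y : Additive (∀ v : T, LocMul σ v))
    (q : Nat.Primes) (O : Places (q : ℕ) σ) :
    orbitPart (q : ℕ) O (extT T y q) =
      if h : (⟨q, O⟩ : FinPlace σ) ∈ T then (y.toMul ⟨_, h⟩).toAdd else 0 :=
  (exists_orbitPart_eq _).choose_spec O

/-- `D` represents the class of the local data `y` at `T`: it is the divisor of the family of `y`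
corrected by a global element which is near that family over `S`. -/
def IsClassDiv (T : Finset (FinPlace σ)) (δ : ℝ) (y : Additive (∀ v : T, LocMul σ v))
    (D : ↥(divS σ S)) : Prop :=
  ∃ a : GlobalStar σ,
    (∀ q ∈ S, ∀ x, (toLocal (q : ℕ) σ a - extT T y q).1 x ∈ nearOne (q : ℕ) δ) ∧
    ∀ q, q ∉ S → ∀ x, ordQ (q : ℕ) ((extT T y q - toLocal (q : ℕ) σ a).1 x) = D.1 q x

section ClassMap

variable {δ : ℝ} {T : Finset (FinPlace σ)}

omit hp in
include hσ htr in
/-- Local data at finitely many places have a representing divisor. -/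
theorem exists_isClassDiv (hi : IsIntegralOff σ S) (hδ : 0 < δ)
    (y : Additive (∀ v : T, LocMul σ v)) : ∃ D : ↥(divS σ S), IsClassDiv T δ y D := by
  classical
  obtain ⟨a, ha⟩ := exists_close hσ htr (extT T y) S hδ
  have hfin : {q : Nat.Primes |
      ∃ x, ordQ (q : ℕ) ((extT T y q - toLocal (q : ℕ) σ a).1 x) ≠ 0}.Finite := by
    refine ((T.image Sigma.fst).finite_toSet.union
      (finite_ordAt_ne_zero htr hσ a)).subset fun q ⟨x, hx⟩ => ?_
    by_contra hcon
    simp only [Set.mem_union, Finset.mem_coe, Finset.mem_image, not_or, Set.mem_ofPred_eq,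
      not_not] at hcon
    refine hx ?_
    have h0 : extT T y q = 0 := eq_of_orbitPart_eq fun O => by
      rw [orbitPart_extT, dif_neg (fun h => hcon.1 ⟨_, h, rfl⟩), map_zero]
    rw [h0, zero_sub, AddSubgroup.coe_neg, Pi.neg_apply, map_neg, neg_eq_zero]
    exact congrFun hcon.2 x
  exact ⟨⟨_, divOfLocal_mem hfin⟩, a, ha, fun q hq x => by
    simp only [divOfLocal, hq, if_false, cast_ordL hi hq]⟩

omit [Fintype X] hp in
/-- Representing divisors are additive. -/
theorem IsClassDiv.add {y y' : Additive (∀ v : T, LocMul σ v)} {D D' : ↥(divS σ S)}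
    (h : IsClassDiv T δ y D) (h' : IsClassDiv T δ y' D') :
    IsClassDiv T δ (y + y') (D + D') := by
  obtain ⟨a, ha, hD⟩ := h
  obtain ⟨a', ha', hD'⟩ := h'
  refine ⟨a + a', fun q hq x => ?_, fun q hq x => ?_⟩
  · rw [map_add (toLocal (q : ℕ) σ), map_add (extT T), Pi.add_apply, add_sub_add_comm,
      AddSubgroup.coe_add, Pi.add_apply]
    exact add_mem (ha q hq x) (ha' q hq x)
  · rw [map_add (toLocal (q : ℕ) σ), map_add (extT T), Pi.add_apply, add_sub_add_comm,
      AddSubgroup.coe_add, Pi.add_apply, map_add, hD q hq x, hD' q hq x]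
    simp

/-- Two divisors representing the same data differ by the divisor of an element near one. -/
theorem IsClassDiv.neg_add_mem {y : Additive (∀ v : T, LocMul σ v)} {D D' : ↥(divS σ S)}
    (hi : IsIntegralOff σ S) (h : IsClassDiv T δ y D) (h' : IsClassDiv T δ y D') :
    -D + D' ∈ hSub hσ htr hi hd δ := by
  obtain ⟨a, ha, hD⟩ := h
  obtain ⟨a', ha', hD'⟩ := h'
  refine mem_hSub_iff.2 ⟨a - a', fun q hq x => ?_, 0, ?_⟩
  · have h := sub_mem (ha q hq x) (ha' q hq x)
    rw [map_sub]
    simpa [sub_sub_sub_cancel_right] using h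
  · rw [map_zero, add_zero]
    refine Subtype.ext (funext fun q => funext fun x => ?_)
    by_cases hq : q ∈ S
    · rw [((divOf hσ htr hi _).2).2.1 q hq, ((-D + D').2).2.1 q hq]
    have h1 : ((((divOf hσ htr hi (a - a')).1 q x : ℤ)) : ℝ) =
        ((((-D + D').1 q x : ℤ)) : ℝ) := by
      rw [AddSubgroup.coe_add, AddSubgroup.coe_neg]
      simp only [divOf_coe, divOfLocal, hq, if_false, Pi.add_apply, Pi.neg_apply, Int.cast_add,
        Int.cast_neg, ← hD q hq x, ← hD' q hq x, AddSubgroup.coe_sub, Pi.sub_apply, map_sub]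
      simp only [Int.cast_sub, cast_ordL hi hq]
      ring
    exact_mod_cast h1

/-- The class map from local data at `T` to divisor classes. -/
theorem exists_classMap (hi : IsIntegralOff σ S) (hδ : 0 < δ) :
    ∃ Φ : Additive (∀ v : T, LocMul σ v) →+ ↥(divS σ S) ⧸ hSub hσ htr hi hd δ,
      ∀ y D, IsClassDiv T δ y D → Φ y = QuotientAddGroup.mk D := by
  choose val hval using exists_isClassDiv hσ htr (T := T) hi hδ
  refine ⟨AddMonoidHom.mk' (fun y => QuotientAddGroup.mk (val y)) fun y y' =>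
    QuotientAddGroup.eq.2 ((hval (y + y')).neg_add_mem hσ htr hi ((hval y).add (hval y'))),
    fun y D h => QuotientAddGroup.eq.2 ((hval y).neg_add_mem hσ htr hi h)⟩

include hσ hlc htr' hu in
/-- Local data which are norms are represented by norms of divisors. -/
theorem exists_isClassDiv_norm (hδ : 0 < δ) {y : ∀ v : T, LocMul σ v}
    (hy : y ∈ piT T (normLocalGroup hd)) :
    ∃ E, IsClassDiv T δ (Additive.ofMul y) (pushDiv (S := S) (isEquivMap_fst hd) E) := by
  classical
  set τ := coverPerm σ d hd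
  have hi := integral_base hσ hu
  have hi' := integral_cover hσ hlc hu
  have hsm : IsSmoothSet allLevels τ := isSmoothSet_coverPerm hd hσ hlc
  set z := Additive.ofMul y
  have hnorm : ∀ q : Nat.Primes, ∃ w, localCoverNorm hd (q : ℕ) w = extT T z q ∧
      (q ∉ T.image Sigma.fst → w = 0) := fun q => by
    by_cases hq : q ∈ T.image Sigma.fst
    · obtain ⟨w, hw⟩ := exists_norm_of_orbits hd (extT T z q) fun O => by
        rw [orbitPart_extT]
        split_ifs with h
        · exact hy ⟨_, h⟩ (Set.mem_univ _)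
        · exact zero_mem _
      exact ⟨w, hw, fun h => absurd hq h⟩
    · refine ⟨0, ?_, fun _ => rfl⟩
      rw [map_zero]
      exact (eq_of_orbitPart_eq fun O => by
        rw [orbitPart_extT, dif_neg fun h => hq (Finset.mem_image.2 ⟨_, h, rfl⟩), map_zero]).symm
  choose w hw hw0 using hnorm
  obtain ⟨b, hb⟩ := exists_close hsm htr' w S hδ
  have hfin : {q : Nat.Primes | ∃ z, ordQ (q : ℕ)
      ((w q - toLocal (q : ℕ) τ b).1 z) ≠ 0}.Finite := by
    refine ((T.image Sigma.fst).finite_toSet.union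
      (finite_ordAt_ne_zero htr' hsm b)).subset fun q ⟨z, hz⟩ => ?_
    by_contra hcon
    simp only [Set.mem_union, Finset.mem_coe, not_or, Set.mem_ofPred_eq, not_not] at hcon
    refine hz ?_
    rw [hw0 q hcon.1, zero_sub, AddSubgroup.coe_neg, Pi.neg_apply, map_neg, neg_eq_zero]
    exact congrFun hcon.2 z
  set E : ↥(divS τ S) := ⟨_, divOfLocal_mem (S := S) hfin⟩
  have hnb : ∀ q : Nat.Primes, extT T z q -
      toLocal (q : ℕ) σ (normGlobal (isEquivMap_fst hd) b) =
        normLocal (q : ℕ) (isEquivMap_fst hd) (w q - toLocal (q : ℕ) τ b) := fun q => by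
    rw [map_sub, ← toLocal_normGlobal, ← hw q]
    rfl
  refine ⟨E, normGlobal (isEquivMap_fst hd) b, fun q hq x => ?_, fun q hq x => ?_⟩
  · rw [← neg_sub, hnb q, AddSubgroup.coe_neg, Pi.neg_apply]
    refine neg_mem ?_
    show push Prod.fst (fun y => (w q - toLocal (q : ℕ) τ b).1 y) x ∈ _
    rw [push_apply]
    refine sum_mem fun y _ => ?_
    rw [← neg_sub, AddSubgroup.coe_neg, Pi.neg_apply]
    exact neg_mem (hb q hq y)
  · rw [hnb q, ← cast_ordL hi hq]
    congr 1
    have h := congrFun (divOfLocal_norm (isEquivMap_fst hd) hi hi'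
      (fun q => w q - toLocal (q : ℕ) τ b) q) x
    simpa [divOfLocal, hq, E, pushDiv_coe] using h

omit hp in
/-- The local data of a `T`-unit are represented by zero. -/
theorem isClassDiv_sUnit (hT : ∀ q ∈ S, ∀ O : Places (q : ℕ) σ, (⟨q, O⟩ : FinPlace σ) ∈ T)
    {e : Multiplicative (GlobalStar σ)} (he : e ∈ (placeSys p σ S).sUnits T) :
    IsClassDiv T δ (Additive.ofMul ((placeSys p σ S).locT T e)) (0 : ↥(divS σ S)) := by
  classical
  set z := Additive.ofMul ((placeSys p σ S).locT T e)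
  have hz : ∀ (q : Nat.Primes) (O : Places (q : ℕ) σ), orbitPart (q : ℕ) O
      (extT T z q - toLocal (q : ℕ) σ e.toAdd) =
      if (⟨q, O⟩ : FinPlace σ) ∈ T then 0 else -locHom ⟨q, O⟩ e.toAdd := fun q O => by
    rw [map_sub, orbitPart_extT]
    split_ifs with h
    · exact sub_self _
    · exact zero_sub _
  refine ⟨e.toAdd, fun q hq x => ?_, fun q hq x => ?_⟩
  · have h0 : extT T z q - toLocal (q : ℕ) σ e.toAdd = 0 := eq_of_orbitPart_eq fun O => by
      rw [hz, if_pos (hT q hq O), map_zero]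
    rw [← neg_sub, h0]
    simp
  · have h := hz q (orbitOf (q : ℕ) σ x)
    rw [← orbitPart_apply (O := orbitOf (q : ℕ) σ x) _ rfl, h]
    simp only [AddSubgroup.coe_zero, Pi.zero_apply, Int.cast_zero]
    split_ifs with h'
    · simp
    · have hu0 := loc_mem_unit_iff.1 (he _ h') x rfl
      simp only [AddSubgroup.coe_neg, Pi.neg_apply, map_neg, neg_eq_zero, locHom,
        AddMonoidHom.comp_apply]
      rw [orbitPart_apply _ rfl]
      exact hu0

omit hp in
/-- If the classes outside `T` are trivial, every divisor represents some local data at `T`. -/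
theorem exists_isClassDiv_of_noClass
    (hT : ∀ q ∈ S, ∀ O : Places (q : ℕ) σ, (⟨q, O⟩ : FinPlace σ) ∈ T)
    (hcl : (placeSys p σ S).NoClass T) (D : ↥(divS σ S)) : ∃ y, IsClassDiv T δ y D := by
  classical
  choose u hu0 hu using fun q => exists_local_ord q (D.1 q) (D.2.2.2 q)
  set T'' := T ∪ placesAbove σ D.2.1.toFinset
  obtain ⟨e, he, hev⟩ := exists_sUnit_ord hcl
    (Finset.subset_union_left (s₂ := placesAbove σ D.2.1.toFinset)) fun v => D.1 v.1 v.2.out
  let y : Additive (∀ v : T, LocMul σ v) := Additive.ofMul fun v =>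
    Multiplicative.ofAdd (orbitPart ((v : FinPlace σ).1 : ℕ) (v : FinPlace σ).2
      (u (v : FinPlace σ).1 - toLocal ((v : FinPlace σ).1 : ℕ) σ e.toAdd))
  have hz : ∀ (q : Nat.Primes) (O : Places (q : ℕ) σ), orbitPart (q : ℕ) O
      (extT T y q - toLocal (q : ℕ) σ (-e.toAdd)) =
      if (⟨q, O⟩ : FinPlace σ) ∈ T then orbitPart (q : ℕ) O (u q)
      else locHom ⟨q, O⟩ e.toAdd := fun q O => by
    rw [map_sub, map_neg, map_neg, sub_neg_eq_add, orbitPart_extT]
    split_ifs with h
    · simp [y, map_sub]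
    · exact zero_add _
  refine ⟨y, -e.toAdd, fun q hq x => ?_, fun q hq x => ?_⟩
  · have h0 : extT T y q - toLocal (q : ℕ) σ (-e.toAdd) = 0 := eq_of_orbitPart_eq fun O => by
      rw [hz, if_pos (hT q hq O), hu0 q (D.2.2.1 q hq), map_zero]
    rw [← neg_sub, h0]
    simp
  · have h := hz q (orbitOf (q : ℕ) σ x)
    rw [← orbitPart_apply (O := orbitOf (q : ℕ) σ x) _ rfl, h]
    split_ifs with h'
    · rw [orbitPart_apply _ rfl, hu]
    · rw [locHom, AddMonoidHom.comp_apply, orbitPart_apply _ rfl, toLocal_coe, ← ordAt_apply]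
      by_cases h'' : (⟨q, orbitOf (q : ℕ) σ x⟩ : FinPlace σ) ∈ T''
      · rw [hev _ h'' h' x rfl]
        obtain ⟨g, hg⟩ := Quotient.exact (s := placeSetoid (q : ℕ) σ)
          (Quotient.out_eq (orbitOf (q : ℕ) σ x))
        exact congrArg (fun k : ℤ => (k : ℝ))
          ((D.2.2.2 q g _).symm.trans (congrArg (D.1 q) hg))
      · rw [loc_mem_unit_iff.1 (he _ h'') x rfl]
        have h0 : D.1 q = 0 := by
          by_contra hne
          exact h'' (Finset.mem_union_right _ (mem_placesAbove.2 (D.2.1.mem_toFinset.2 hne)))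
        simp [h0]

end ClassMap

include hσ htr hr hC hlc htr' hpS hu in
/-- There is a finite set of places containing those above `S`, outside which the classes are
trivial and at which norms and units have index at most `p`. -/
theorem exists_places_normUnits_index_le :
    ∃ T : Finset (FinPlace σ), (∀ q ∈ S, ∀ O : Places (q : ℕ) σ, (⟨q, O⟩ : FinPlace σ) ∈ T) ∧
      (placeSys p σ S).NoClass T ∧
      (normUnits (placeSys p σ S) T (normLocalGroup hd)).index ≠ 0 ∧
      (normUnits (placeSys p σ S) T (normLocalGroup hd)).index ≤ p := by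
  classical
  have hS := unramified_base hu
  obtain ⟨K⟩ := exists_kummer hr htr hd hlc
  have hD := isArith_placeSys (S₀ := S) hσ htr hr hC hpS hS
  have hN := isNormData_placeSys hσ htr hr hC hpS hS hlc htr' K
  obtain ⟨Tb, hTb⟩ := hD.finite_supp (Multiplicative.ofAdd K.radicand)
  obtain ⟨T, hsub, hbig, hcl⟩ := hD.exists_noClass Tb
  have hs : 1 ≤ T.card + Nat.card X / 2 := by
    obtain ⟨x₀⟩ := htr.1
    have h : (⟨⟨p, hp.out⟩, orbitOf p σ x₀⟩ : FinPlace σ) ∈ T :=
      hD.base_le_of_big T hbig (mem_placesAbove.2 hpS)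
    have := Finset.card_pos.2 ⟨_, h⟩
    omega
  obtain ⟨T', hTT', -, hidx0, hidx⟩ := hN.exists_index_le hD (K.radicand_not_mem_pw htr htr')
    (separates_placeSys hσ htr hr hC hpS hS hlc htr' K)
    (exists_isNormData hσ htr hr hC hpS hS) hbig (PlaceSys.sUnits_mono _ hsub hTb) hcl hs
  exact ⟨T', fun q hq O => hTT' (hD.base_le_of_big T hbig (mem_placesAbove.2 hq)), hcl.mono hTT',
    hidx0, hidx⟩

include hσ htr hr hC hlc htr' hpS hu in
/-- The second inequality. -/
theorem index_hSub_le {δ : ℝ} (hδ : 0 < δ) :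
    (hSub hσ htr (integral_base hσ hu) hd δ).index ≠ 0 ∧
      (hSub hσ htr (integral_base hσ hu) hd δ).index ≤ p := by
  classical
  obtain ⟨T, hT, hcl, hidx0, hidx⟩ :=
    exists_places_normUnits_index_le hσ htr hr hC hlc htr' hpS hu
  obtain ⟨Φ, hΦ⟩ := exists_classMap (hd := hd) hσ htr (T := T) (integral_base hσ hu) hδ
  set J := normUnits (placeSys p σ S) T (normLocalGroup hd)
  have hker : Subgroup.toAddSubgroup J ≤ Φ.ker := by
    intro y hy
    obtain ⟨y₁, hy₁, _, ⟨e, he, rfl⟩, hy₂⟩ := Subgroup.mem_sup.1 (show y.toMul ∈ J from hy)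
    obtain ⟨E, hE⟩ := exists_isClassDiv_norm hσ hlc htr' hu hδ hy₁
    rw [AddMonoidHom.mem_ker, show y = Additive.ofMul y₁ + Additive.ofMul
      ((placeSys p σ S).locT T e) from Additive.toMul.injective hy₂.symm, map_add, hΦ _ _ hE,
      hΦ _ _ (isClassDiv_sUnit hT he), QuotientAddGroup.mk_zero, add_zero]
    exact (QuotientAddGroup.eq_zero_iff _).2 (mem_hSub_iff.2 ⟨0, zero_mem _, E, by simp⟩)
  have hsurj : Function.Surjective Φ := by
    intro cl
    induction cl using QuotientAddGroup.induction_on with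
    | H D => exact (exists_isClassDiv_of_noClass hT hcl D).imp fun y hy => hΦ y D hy
  have hJ : (Subgroup.toAddSubgroup J).index = J.index := rfl
  have : Finite (Additive (∀ v : T, LocMul σ v) ⧸ Subgroup.toAddSubgroup J) :=
    Nat.finite_of_card_ne_zero (hJ.trans_ne hidx0)
  have hf := QuotientAddGroup.lift_surjective_of_surjective _ Φ hsurj hker
  have : Finite (↥(divS σ S) ⧸ hSub hσ htr (integral_base hσ hu) hd δ) :=
    Finite.of_surjective _ hf
  exact ⟨Nat.card_pos.ne', (Nat.card_le_card_of_surjective _ hf).trans (hJ.trans_le hidx)⟩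

include hσ htr hr hC hlc htr' hpS hu in
/-- The first inequality: near enough to one, not every divisor is a norm class. -/
theorem exists_hSub_ne_top :
    ∃ δ₀ > 0, ∀ δ ≤ δ₀, hSub hσ htr (integral_base hσ hu) hd δ ≠ ⊤ := by
  classical
  set hi := integral_base hσ hu
  set τ := coverPerm σ d hd
  have hsm : IsSmoothSet allLevels τ := isSmoothSet_coverPerm hd hσ hlc
  have hi' := integral_cover hσ hlc hu
  have hS := unramified_base hu
  obtain ⟨K⟩ := exists_kummer hr htr hd hlc
  have hD := isArith_placeSys (S₀ := S) hσ htr hr hC hpS hS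
  have hN := isNormData_placeSys hσ htr hr hC hpS hS hlc htr' K
  obtain ⟨δ₀, hδ₀, hpow⟩ := exists_radius_pow p hσ S
  refine ⟨δ₀, hδ₀, fun δ hδ htop => ?_⟩
  obtain ⟨Tb, hTb⟩ := hD.finite_supp (Multiplicative.ofAdd K.radicand)
  obtain ⟨T, hsub, hbig, hcl⟩ := hD.exists_noClass Tb
  obtain ⟨T₀, hST₀, rfl⟩ := hbig
  set Q := piT (placesAbove σ T₀) fun v => pw p (LocMul σ v)
  have : Finite ((∀ v : placesAbove σ T₀, LocMul σ v) ⧸ Q) :=
    Nat.finite_of_card_ne_zero (hD.loc_index_ne_zero _ ⟨T₀, hST₀, rfl⟩)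
  let _ := Fintype.ofFinite ((∀ v : placesAbove σ T₀, LocMul σ v) ⧸ Q)
  -- each local class is a norm class times a global element of small support outside `T₀`
  have key : ∀ cl : (∀ v : placesAbove σ T₀, LocMul σ v) ⧸ Q, ∃ e : GlobalStar σ,
      ∀ y, QuotientGroup.mk y = cl → ∀ v : FinPlace σ,
        if hv : v ∈ placesAbove σ T₀
        then y ⟨v, hv⟩ * ((placeSys p σ S).loc v (Multiplicative.ofAdd e))⁻¹ ∈ normLocalGroup hd v
        else (placeSys p σ S).loc v (Multiplicative.ofAdd e) ∈ normLocalGroup hd v := by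
    intro cl
    induction cl using QuotientGroup.induction_on with
    | H y₀ =>
    obtain ⟨a, ha⟩ := hD.approx (placesAbove σ T₀) fun v =>
      if hv : v ∈ placesAbove σ T₀ then y₀ ⟨v, hv⟩ else 1
    let D : ↥(divS σ S) := ⟨fun q => if q ∈ T₀ then 0 else (divOf hσ htr hi a.toAdd).1 q,
      (divOf hσ htr hi a.toAdd).2.1.subset fun q hq h0 => hq (by simp [h0]),
      fun q hq => if_pos (hST₀ hq), fun q g x => by
        by_cases hq : q ∈ T₀
        · simp [hq]
        · simp only [hq, if_false]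
          exact (divOf hσ htr hi a.toAdd).2.2.2 q g x⟩
    obtain ⟨x, hx, E, hxE⟩ := mem_hSub_iff.1
      (show D ∈ hSub hσ htr hi hd δ by rw [htop]; exact AddSubgroup.mem_top _)
    have hnorm : ∀ q : Nat.Primes, q ∉ S → ∀ b : LocalStar (q : ℕ) σ,
        (∀ z, ordQ (q : ℕ) (b.1 z) = ((pushDiv (isEquivMap_fst hd) E).1 q z : ℝ)) →
        ∀ O, orbitPart (q : ℕ) O b ∈ orbitNorms hd O := fun q hq b hb O => by
      obtain ⟨v, hv⟩ := exists_norm_of_ord hd hσ hlc q (hu q hq) b (E.1 q) (E.2.2.2 q) fun z => by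
        rw [hb z, pushDiv_coe, push_fst_apply, Int.cast_sum]
      rw [← hv]
      exact orbitPart_norm_mem hd v
    have hdiv : ∀ q, q ∉ S → ∀ z, (D.1 q z : ℝ) = ordQ (q : ℕ) ((toLocal (q : ℕ) σ x).1 z) +
        ((pushDiv (isEquivMap_fst hd) E).1 q z : ℝ) := fun q hq z => by
      rw [← hxE, AddSubgroup.coe_add, Pi.add_apply, Pi.add_apply, Int.cast_add, divOf_coe]
      simp [divOfLocal, hq, cast_ordL hi hq]
    refine ⟨a.toAdd - x, fun y hy v => ?_⟩
    split_ifs with hv
    · have hyy : y₀ ⟨v, hv⟩ * (y ⟨v, hv⟩)⁻¹ ∈ pw p (LocMul σ v) := by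
        have h := QuotientGroup.eq.1 hy ⟨v, hv⟩ (Set.mem_univ _)
        simpa [mul_comm] using h
      have hya := ha v hv
      rw [dif_pos hv] at hya
      have hxN : (placeSys p σ S).loc v (Multiplicative.ofAdd x) ∈ normLocalGroup hd v := by
        show locHom v x ∈ orbitNorms hd v.2
        by_cases hq : v.1 ∈ S
        · obtain ⟨w, hw⟩ := hpow v.1 hq (toLocal (v.1 : ℕ) σ x) fun z =>
            nearOne_mono hδ (hx v.1 hq z)
          rw [locHom, AddMonoidHom.comp_apply, ← hw, map_nsmul]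
          exact nsmul_mem_orbitNorms hd _
        · rw [← neg_neg (locHom v x)]
          refine neg_mem ?_
          rw [locHom, AddMonoidHom.comp_apply, ← map_neg]
          refine hnorm v.1 hq _ (fun z => ?_) v.2
          have h := hdiv v.1 hq z
          simp only [D, mem_placesAbove.1 hv, if_true, Pi.zero_apply, Int.cast_zero] at h
          rw [AddSubgroup.coe_neg, Pi.neg_apply, map_neg]
          linarith
      have h1 := mul_mem (mul_mem (hN.pow_le v (inv_mem hyy)) (hN.pow_le v hya)) hxN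
      have hab : ∀ Y Y₀ A B : LocMul σ v, Y * (A / B)⁻¹ = (Y₀ * Y⁻¹)⁻¹ * (Y₀ * A⁻¹) * B :=
        fun Y Y₀ A B => by
          rw [inv_div, mul_inv_rev, inv_inv, mul_assoc Y, inv_mul_cancel_left, div_eq_mul_inv,
            mul_assoc, mul_comm B]
      rw [ofAdd_sub, map_div, ofAdd_toAdd, hab _ (y₀ ⟨v, hv⟩)]
      exact h1
    · show locHom v (a.toAdd - x) ∈ orbitNorms hd v.2
      have hq : v.1 ∉ T₀ := fun h => hv (mem_placesAbove.2 h)
      rw [locHom, AddMonoidHom.comp_apply]
      refine hnorm v.1 (fun h => hq (hST₀ h)) _ (fun z => ?_) v.2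
      have h := hdiv v.1 (fun h => hq (hST₀ h)) z
      simp only [D, hq, if_false] at h
      rw [divOf_coe] at h
      simp only [divOfLocal, if_neg fun h => hq (hST₀ h), cast_ordL hi fun h => hq (hST₀ h)] at h
      rw [map_sub, AddSubgroup.coe_sub, Pi.sub_apply, map_sub]
      linarith
  choose rep hrep using key
  choose supp hsupp using fun cl => hD.finite_supp (Multiplicative.ofAdd (rep cl))
  obtain ⟨T₂, hT₂, hbig₂⟩ := hD.exists_big (placesAbove σ T₀ ∪ Finset.univ.biUnion supp)
  have hTT₂ : placesAbove σ T₀ ⊆ T₂ := Finset.subset_union_left.trans hT₂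
  have hb₂ : Multiplicative.ofAdd K.radicand ∈ (placeSys p σ S).sUnits T₂ :=
    PlaceSys.sUnits_mono _ (hsub.trans hTT₂) hTb
  have hge := hN.le_index hbig₂ hb₂ (hcl.mono hTT₂)
  suffices htop' : normUnits (placeSys p σ S) T₂ (normLocalGroup hd) = ⊤ by
    rw [htop', Subgroup.index_top] at hge
    exact absurd hge (by simpa using hp.out.one_lt)
  refine eq_top_iff.2 fun z _ => ?_
  obtain ⟨f, hf, hfz⟩ := hcl T₂ hTT₂ fun v => if hv : v ∈ T₂ then z ⟨v, hv⟩ else 1
  let y : ∀ v : placesAbove σ T₀, LocMul σ v := fun v =>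
    z ⟨v, hTT₂ v.2⟩ * ((placeSys p σ S).loc v f)⁻¹
  set e := rep (QuotientGroup.mk y)
  have he : Multiplicative.ofAdd e ∈ (placeSys p σ S).sUnits T₂ := PlaceSys.sUnits_mono _
    (((Finset.subset_biUnion_of_mem supp (Finset.mem_univ _)).trans
      Finset.subset_union_right).trans hT₂) (hsupp _)
  rw [show z = (z * ((placeSys p σ S).locT T₂ (f * Multiplicative.ofAdd e))⁻¹) *
    (placeSys p σ S).locT T₂ (f * Multiplicative.ofAdd e) from (inv_mul_cancel_right _ _).symm]
  refine Subgroup.mul_mem_sup (fun v _ => ?_) ⟨_, mul_mem hf he, rfl⟩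
  have h := hrep (QuotientGroup.mk y) y rfl (v : FinPlace σ)
  simp only [PlaceSys.locT_apply, Pi.mul_apply, Pi.inv_apply, map_mul, mul_inv_rev]
  split_ifs at h with hv
  · have hab : ∀ Z F E : LocMul σ (v : FinPlace σ), Z * (E⁻¹ * F⁻¹) = Z * F⁻¹ * E⁻¹ :=
      fun Z F E => by rw [mul_comm E⁻¹, ← mul_assoc]
    rw [hab]
    exact h
  · have hunit := hfz v v.2 hv
    rw [dif_pos v.2] at hunit
    have hvS : (v : FinPlace σ).1 ∉ S := fun h => hv (mem_placesAbove.2 (hST₀ h))
    have hUN : z v * ((placeSys p σ S).loc v f)⁻¹ ∈ normLocalGroup hd v := by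
      obtain ⟨w, hw⟩ := exists_norm_of_ord hd hσ hlc (v : FinPlace σ).1 (hu _ hvS)
        (z v * ((placeSys p σ S).loc v f)⁻¹).toAdd.1 0 (fun _ _ => rfl) fun x => by
          simpa using hunit x
      show (z v * ((placeSys p σ S).loc v f)⁻¹).toAdd ∈ orbitNorms hd (v : FinPlace σ).2
      exact ⟨w, hw⟩
    have hab : ∀ Z F E : LocMul σ (v : FinPlace σ), Z * (E⁻¹ * F⁻¹) = Z * F⁻¹ * E⁻¹ :=
      fun Z F E => by rw [mul_comm E⁻¹, ← mul_assoc]
    rw [hab]
    exact mul_mem hUN (inv_mem h)

end Prime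

end Fermat.Agent.LT.Reciprocity

end
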