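import Fermat.Agent.LT.Places.Idele
import Fermat.Agent.GaloisBasics.Finite

/-!
# The properties of the idele character of a Galois character

`IsIdeleChar K χ ξ`: `ξ` is an idele class character of `K` whose local component at a place `v`
is the one attached to `χ` on the decomposition groups at the places of `ℚ̄` over `v`.
-/

set_option autoImplicit false

noncomputable section

open NumberField WithZero
open Fermat.Agent.GaloisBasics

namespace Fermat.Agent.LT.Reciprocity

variable (K : IntermediateField ℚ Qbar) [NumberField K]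

/-- `A` is a place of `ℚ̄` over the place `v` of `K`. -/
def IsOver (v : Places.FinPlace K) (A : ValuationSubring Qbar) : Prop :=
  (∃ p : ℕ, p.Prime ∧ A.LiesOverPrime p) ∧ intIdeal K A = v.asIdeal

/-- `g` fixes `K` and the place `A`, and acts on its residue field as the Frobenius of `v`. -/
def IsFrobAt (v : Places.FinPlace K) (A : ValuationSubring Qbar) (g : GalQ) : Prop :=
  g ∈ A.decompositionSubgroup ℚ ∧
    ∀ b : Zbar, g • b - b ^ Ideal.absNorm v.asIdeal ∈ zbarIdeal A

/-- The local and global properties of the idele character of `χ`. -/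
structure IsIdeleChar (χ : K.fixingSubgroup →* ℂˣ) (ξ : (FinAdele K)ˣ →* ℂˣ) : Prop where
  /-- trivial near one -/
  exists_modulus : ∃ N : ℕ, 0 < N ∧ ∀ u : (FinAdele K)ˣ,
    (∃ a ∈ integralAdele K, (u : FinAdele K) = 1 + (N : FinAdele K) * a) →
    (∀ w, Places.placeVal w (u : FinAdele K) = 1) → ξ u = 1
  /-- trivial on `K^×` -/
  map_global : ∀ x : Kˣ, ξ (Units.map (finIncl K).toMonoidHom x) = 1
  /-- unramified places: units go to one -/
  unit_eq_one : ∀ (v : Places.FinPlace K),
    (∀ A, IsOver K v A → ∀ g (hg : g ∈ K.fixingSubgroup),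
      g ∈ A.inertiaSubgroupIn ℚ → χ ⟨g, hg⟩ = 1) →
    ∀ a : (v.adicCompletion K)ˣ, Valued.v (a : v.adicCompletion K) = 1 →
      ξ (Places.localUnit v a) = 1
  /-- split places: the component is trivial -/
  split_eq_one : ∀ (v : Places.FinPlace K),
    (∀ A, IsOver K v A → ∀ g (hg : g ∈ K.fixingSubgroup),
      g ∈ A.decompositionSubgroup ℚ → χ ⟨g, hg⟩ = 1) →
    ∀ a : (v.adicCompletion K)ˣ, ξ (Places.localUnit v a) = 1
  /-- unramified places: uniformisers go to the Frobenius value -/
  uniformiser : ∀ (v : Places.FinPlace K),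
    (∀ A, IsOver K v A → ∀ g (hg : g ∈ K.fixingSubgroup),
      g ∈ A.inertiaSubgroupIn ℚ → χ ⟨g, hg⟩ = 1) →
    ∀ A, IsOver K v A → ∀ g (hg : g ∈ K.fixingSubgroup), IsFrobAt K v A g →
      ∀ a : (v.adicCompletion K)ˣ, Valued.v (a : v.adicCompletion K) = exp (-1 : ℤ) →
        ξ (Places.localUnit v a) = χ ⟨g, hg⟩
  /-- units reach the inertia values -/
  surj_inertia : ∀ (v : Places.FinPlace K) (A), IsOver K v A →
    ∀ g (hg : g ∈ K.fixingSubgroup), g ∈ A.inertiaSubgroupIn ℚ →
      ∃ a : (v.adicCompletion K)ˣ, Valued.v (a : v.adicCompletion K) = 1 ∧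
        ξ (Places.localUnit v a) = χ ⟨g, hg⟩
  /-- the component reaches the decomposition values -/
  surj_decomposition : ∀ (v : Places.FinPlace K) (A), IsOver K v A →
    ∀ g (hg : g ∈ K.fixingSubgroup), g ∈ A.decompositionSubgroup ℚ →
      ∃ a : (v.adicCompletion K)ˣ, ξ (Places.localUnit v a) = χ ⟨g, hg⟩
  /-- tame places: depth zero -/
  tame : ∀ (v : Places.FinPlace K), (2 : 𝓞 K) ∉ v.asIdeal →
    ∀ a : (v.adicCompletion K)ˣ, Valued.v ((a : v.adicCompletion K) - 1) < 1 →
      ξ (Places.localUnit v a) = 1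

end Fermat.Agent.LT.Reciprocity

end
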