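import Fermat.Agent.LT.Reciprocity.LocalPlace
import Fermat.Agent.GaloisBasics.Roots

/-!
# Frobenius elements of a place

`ResActs A h N` says that `h` raises residues at `A` to the `N`-th power. The decomposition group
of a place of the field of `H` is generated by inertia and one element acting as the residue
cardinality.
-/

set_option autoImplicit false

noncomputable section

open scoped NumberField Pointwise
open IsDedekindDomain NumberField

namespace Fermat.Agent.LT.Reciprocity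

open Fermat.Agent.PoitouTate Fermat.Agent.GaloisBasics Fermat.Agent.GlobalUnits

/-- `h` raises residues at `A` to the `N`-th power. -/
def ResActs (A : ValuationSubring QBar) (h : GQ) (N : ℕ) : Prop :=
  ∀ b : Zbar, zbarResidue A (h • b) = zbarResidue A b ^ N

variable {A : ValuationSubring QBar} {p : ℕ} {h h' : GQ} {N N' n : ℕ}

/-- Composition multiplies the exponents on residues. -/
theorem ResActs.mul (hh : ResActs A h N) (hh' : ResActs A h' N') : ResActs A (h * h') (N * N') :=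
  fun b => by rw [mul_smul, hh, hh', ← pow_mul, mul_comm]

theorem resActs_one : ResActs A 1 1 := fun b => by rw [one_smul, pow_one]

theorem ResActs.pow (hh : ResActs A h N) : ∀ n, ResActs A (h ^ n) (N ^ n)
  | 0 => by simpa using resActs_one
  | n + 1 => by rw [pow_succ, pow_succ]; exact (ResActs.pow hh n).mul hh

/-- Inertia acts trivially on residues. -/
theorem resActs_of_inertia (hh : h ∈ A.inertiaSubgroupIn ℚ) : ResActs A h 1 := fun b => by
  rw [pow_one]
  exact zbarResidue_eq_iff.2 (smul_sub_mem_zbarIdeal_of_mem_inertia hh b)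

/-- The action on residues as congruences in the integers of `ℚ̄`. -/
theorem resActs_iff : ResActs A h N ↔ ∀ b : Zbar, h • b - b ^ N ∈ zbarIdeal A :=
  forall_congr' fun b => by rw [← zbarResidue_eq_iff, map_pow]

theorem resActs_of_isFrobeniusAt (hA : A.LiesOverPrime p) (hp : p.Prime)
    (hh : A.IsFrobeniusAt h p) : ResActs A h p :=
  resActs_iff.2 ((isFrobeniusAt_iff_zbar hA hp).1 hh)

/-- Two elements acting by the same power differ by inertia. -/
theorem ResActs.inv_mul_mem (hA : A.LiesOverPrime p) (hp : p.Prime) (hh : ResActs A h (p ^ n))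
    (hh' : ResActs A h' (p ^ n)) : h⁻¹ * h' ∈ A.inertiaSubgroupIn ℚ := by
  have := residueField_charP hA hp
  have : Fact p.Prime := ⟨hp⟩
  rw [mem_inertiaSubgroupIn_iff_zbar hA hp]
  intro b
  rw [← zbarResidue_eq_iff, ← sub_eq_zero]
  have he := hh ((h⁻¹ * h') • b)
  rw [← mul_smul, mul_inv_cancel_left, hh' b] at he
  rw [← pow_eq_zero_iff (pow_ne_zero n hp.ne_zero), sub_pow_char_pow, he, sub_self]

variable {H H' : Subgroup GQ} {q : Nat.Primes} {g : GQ}

/-- The residue of an integer fixed by `H`. -/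
theorem exists_intIncl_of_fixed (hH : IsLevelSubgroup H) {b : Zbar}
    (hb : ∀ k ∈ H, k • b = b) : ∃ a : 𝓞 (coreField H), intIncl (coreField H) a = b :=
  (fixed_iff_mem_range_intIncl _ b).1 (by rw [hH.fixingSubgroup_core]; exact hb)

theorem intIncl_fixed (hH : IsLevelSubgroup H) (a : 𝓞 (coreField H)) {k : GQ} (hk : k ∈ H) :
    k • intIncl (coreField H) a = intIncl (coreField H) a :=
  (fixed_iff_mem_range_intIncl _ _).2 ⟨a, rfl⟩ k (by rw [hH.fixingSubgroup_core]; exact hk)

section Field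

variable [FiniteDimensional ℚ (coreField H)]

/-- Residues of integers fixed by `H` lie in the residue field of the place. -/
theorem residue_pow_resCard (hH : IsLevelSubgroup H) {b : Zbar} (hb : ∀ k ∈ H, k • b = b) :
    zbarResidue (pullPlace (q : ℕ) g) b ^ resCard H q g =
      zbarResidue (pullPlace (q : ℕ) g) b := by
  obtain ⟨a, rfl⟩ := exists_intIncl_of_fixed hH hb
  have := (placeH H q g).isPrime.isMaximal (placeH H q g).ne_bot
  let := Ideal.Quotient.field (placeH H q g).asIdeal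
  have : Finite (𝓞 (coreField H) ⧸ (placeH H q g).asIdeal) :=
    (Ideal.absNorm_ne_zero_iff _).1 (by
      rw [← resCard, resCard_eq_pow]; exact pow_ne_zero _ q.2.ne_zero)
  have := Fintype.ofFinite (𝓞 (coreField H) ⧸ (placeH H q g).asIdeal)
  have h := FiniteField.pow_card (Ideal.Quotient.mk (placeH H q g).asIdeal a)
  rw [Fintype.card_eq_nat_card, show Nat.card (𝓞 (coreField H) ⧸ (placeH H q g).asIdeal) =
    resCard H q g from rfl, ← map_pow, Ideal.Quotient.eq] at h
  rw [← map_pow, zbarResidue_eq_iff, ← map_pow, ← map_sub]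
  exact h

/-- The residue degree divides the exponent of an automorphism fixing these residues. -/
theorem resDeg_dvd {n : ℕ} (hH : IsLevelSubgroup H)
    (hn : ∀ b : Zbar, (∀ k ∈ H, k • b = b) →
      zbarResidue (pullPlace (q : ℕ) g) b ^ (q : ℕ) ^ n = zbarResidue (pullPlace (q : ℕ) g) b) :
    resDeg H q g ∣ n := by
  classical
  set f := resDeg H q g
  have := (placeH H q g).isPrime.isMaximal (placeH H q g).ne_bot
  set Q := 𝓞 (coreField H) ⧸ (placeH H q g).asIdeal
  let : Field Q := Ideal.Quotient.field (placeH H q g).asIdeal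
  have : Finite Q := (Ideal.absNorm_ne_zero_iff _).1 (by
    rw [← resCard, resCard_eq_pow]; exact pow_ne_zero _ q.2.ne_zero)
  have := Fintype.ofFinite Q
  have hcard : Fintype.card Q = (q : ℕ) ^ f := by
    rw [Fintype.card_eq_nat_card]
    exact resCard_eq_pow
  have hall : ∀ x : Q, x ^ (q : ℕ) ^ n = x := fun x => by
    obtain ⟨a, rfl⟩ := Ideal.Quotient.mk_surjective x
    have h := hn (intIncl (coreField H) a) fun k hk => intIncl_fixed hH a hk
    rw [← map_pow, zbarResidue_eq_iff, ← map_pow, ← map_sub] at h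
    rw [← map_pow, Ideal.Quotient.eq]
    exact h
  have hper : ∀ (k : ℕ) (x : Q), x ^ (q : ℕ) ^ (f * k) = x := fun k => by
    induction k with
    | zero => simp
    | succ k ih =>
      intro x
      rw [mul_add, mul_one, pow_add, pow_mul, ih, ← hcard, FiniteField.pow_card]
  obtain ⟨u, hu⟩ := IsCyclic.exists_generator (α := Qˣ)
  have hord : orderOf u = (q : ℕ) ^ f - 1 := by
    rw [orderOf_eq_card_of_forall_mem_zpowers hu, Nat.card_units, Nat.card_eq_fintype_card, hcard]
  rw [Nat.dvd_iff_mod_eq_zero]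
  by_contra hr
  have h1 := hall (u : Q)
  rw [← Nat.div_add_mod n f, pow_add, pow_mul, hper] at h1
  have hpos : 1 ≤ (q : ℕ) ^ (n % f) := Nat.one_le_pow _ _ q.2.pos
  have h2 : u ^ ((q : ℕ) ^ (n % f) - 1) = 1 := by
    refine mul_right_cancel (b := u) ?_
    rw [one_mul, ← pow_succ, Nat.sub_add_cancel hpos]
    exact Units.ext (by rw [Units.val_pow_eq_pow_val]; exact h1)
  have h3 := Nat.le_of_dvd (Nat.sub_pos_of_lt (Nat.one_lt_pow hr q.2.one_lt))
    (hord ▸ orderOf_dvd_of_pow_eq_one h2)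
  have h4 : (q : ℕ) ^ (n % f) < (q : ℕ) ^ f :=
    Nat.pow_lt_pow_right q.2.one_lt (Nat.mod_lt _ resDeg_pos)
  omega

/-- A Frobenius of the place exists inside `H`. -/
theorem exists_resFrob (hH : IsLevelSubgroup H) :
    ∃ h ∈ H, ResActs (pullPlace (q : ℕ) g) h (resCard H q g) := by
  have hA := liesOverPrime_pullPlace (q : ℕ) g
  obtain ⟨φ, hφ⟩ := exists_isFrobeniusAt hA q.2
  have hφn := (resActs_of_isFrobeniusAt hA q.2 hφ).pow (resDeg H q g)
  rw [← resCard_eq_pow] at hφn
  obtain ⟨τ, hτ, hτI⟩ := exists_mem_inertia_lift hA q.2 (coreField H).fixingSubgroup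
    (InfiniteGalois.fixingSubgroup_isClosed _) (φ ^ resDeg H q g) fun b hb => by
      rw [← zbarResidue_eq_iff, hφn]
      exact residue_pow_resCard hH fun k hk => hb k (by rw [hH.fixingSubgroup_core]; exact hk)
  rw [hH.fixingSubgroup_core] at hτ
  refine ⟨τ⁻¹, inv_mem hτ, ?_⟩
  rw [show τ⁻¹ = (φ ^ resDeg H q g * τ)⁻¹ * φ ^ resDeg H q g by group]
  have h := (resActs_of_inertia (inv_mem hτI)).mul hφn
  rwa [one_mul] at h

/-- A homomorphism trivial on inertia and on a Frobenius of the place is trivial on the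
decomposition group. -/
theorem hom_eq_one_of_frob (hH : IsLevelSubgroup H) {M : Type*} [Group M] (ψ : ↥H →* M)
    {U : Subgroup GQ} (hU : allLevels.mem U) (hUH : U ≤ H) (hUψ : U.subgroupOf H ≤ ψ.ker)
    (hI : ∀ k (hk : k ∈ H), k ∈ (pullPlace (q : ℕ) g).inertiaSubgroupIn ℚ → ψ ⟨k, hk⟩ = 1)
    {g₀ : GQ} (hg₀ : g₀ ∈ H) (hg₀F : ResActs (pullPlace (q : ℕ) g) g₀ (resCard H q g))
    (h1 : ψ ⟨g₀, hg₀⟩ = 1) {k : GQ} (hk : k ∈ H)
    (hkD : k ∈ (pullPlace (q : ℕ) g).decompositionSubgroup ℚ) : ψ ⟨k, hk⟩ = 1 := by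
  have hA := liesOverPrime_pullPlace (q : ℕ) g
  obtain ⟨hn, F, hF, -, rfl⟩ := hU
  have : IsGalois ℚ F := (InfiniteGalois.normal_iff_isGalois F).1 hn
  obtain ⟨φ, hφ⟩ := exists_isFrobeniusAt hA q.2
  obtain ⟨n, τ, hτ, hι⟩ := exists_frobenius_pow_mul_inertia hA q.2 F hφ hkD
  have hkτ : ResActs (pullPlace (q : ℕ) g) (k * τ) ((q : ℕ) ^ n) := by
    rw [show k * τ = φ ^ n * ((φ ^ n)⁻¹ * k * τ) by group, ← mul_one ((q : ℕ) ^ n)]
    exact ((resActs_of_isFrobeniusAt hA q.2 hφ).pow n).mul (resActs_of_inertia hι)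
  have hmem : k * τ ∈ H := mul_mem hk (hUH hτ)
  obtain ⟨i, rfl⟩ : resDeg H q g ∣ n := resDeg_dvd hH fun b hb => by
    rw [← hkτ b, hb _ hmem]
  rw [resCard_eq_pow] at hg₀F
  have hgi := hg₀F.pow i
  rw [← pow_mul] at hgi
  have h2 := hI _ (mul_mem (inv_mem (pow_mem hg₀ i)) hmem) (hgi.inv_mul_mem hA q.2 hkτ)
  have hsplit : (⟨k, hk⟩ : ↥H) = (⟨g₀, hg₀⟩ : ↥H) ^ i *
      ⟨(g₀ ^ i)⁻¹ * (k * τ), mul_mem (inv_mem (pow_mem hg₀ i)) hmem⟩ * (⟨τ, hUH hτ⟩ : ↥H)⁻¹ :=
    Subtype.ext (by simp only [Subgroup.coe_mul, SubmonoidClass.coe_pow, InvMemClass.coe_inv]; group)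
  rw [hsplit, map_mul, map_mul, map_pow, map_inv, h1, h2,
    show ψ ⟨τ, hUH hτ⟩ = 1 from hUψ (x := ⟨τ, hUH hτ⟩) hτ]
  simp

/-- The residue degree does not grow if a Frobenius lies in the smaller group. -/
theorem resDeg_eq_of_le [FiniteDimensional ℚ (coreField H')] (hH : IsLevelSubgroup H)
    (hH' : IsLevelSubgroup H') (hle : H' ≤ H) {g₀ : GQ} (hg₀ : g₀ ∈ H')
    (hg₀F : ResActs (pullPlace (q : ℕ) g) g₀ (resCard H q g)) :
    resDeg H' q g = resDeg H q g := by
  refine Nat.dvd_antisymm (resDeg_dvd hH' fun b hb => ?_) (resDeg_dvd hH fun b hb => ?_)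
  · rw [← resCard_eq_pow, ← hg₀F b, hb _ hg₀]
  · rw [← resCard_eq_pow, residue_pow_resCard hH' fun k hk => hb k (hle hk)]

end Field

/-- The cyclotomic value of an element acting on residues by a power of the prime. -/
theorem cyclAdd_of_resActs {ℓ : Nat.Primes} (hq : q ≠ ℓ) {k : GQ} {f : ℕ}
    (hk : ResActs (pullPlace (q : ℕ) g) k ((q : ℕ) ^ f)) :
    cyclAdd ℓ k = f • cyclAdd ℓ (frob q) := by
  have hA := liesOverPrime_pullPlace (q : ℕ) g
  have hnd : ¬ (q : ℕ) ∣ (ℓ : ℕ) := fun hd =>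
    hq (Subtype.ext ((Nat.prime_dvd_prime_iff_eq q.2 ℓ.2).1 hd))
  refine Additive.toMul.injective (Units.ext ?_)
  rw [toMul_nsmul, Units.val_pow_eq_pow_val, cyclAdd_frob ℓ hq,
    cyclAdd_val ℓ k ((q : ℕ) ^ f) fun ζ hζ => ?_, Nat.cast_pow]
  refine eq_of_pow_eq_one_of_sub_mem_nonunits hA q.2 hnd
    (by rw [← pow_mul, mul_comm, pow_mul, hζ, one_pow]) (by rw [← map_pow, hζ, map_one]) ?_
  exact mem_zbarIdeal.1
    (resActs_iff.1 hk ⟨ζ, IsIntegral.of_pow ℓ.2.pos (hζ ▸ isIntegral_one)⟩)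

end Fermat.Agent.LT.Reciprocity

end
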