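import Fermat.Agent.LT.Reciprocity.XiHom
import Fermat.Agent.LT.Reciprocity.LocalFrob
import Fermat.Agent.LT.Reciprocity.AuxPrimes

/-!
# The local components of the idele character

At a place where the homomorphism is trivial on the decomposition group every element is a norm,
so the component vanishes. Twisting by a cyclotomic homomorphism of suitable order reduces the
unramified value and the surjectivity to this case.
-/

set_option autoImplicit false

noncomputable section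

open scoped Pointwise Classical

namespace Fermat.Agent.LT.Reciprocity

open Fermat.Agent.PoitouTate Fermat.Agent.GaloisBasics

variable {H H' : Subgroup GQ} {q : Nat.Primes} {g : GQ}

/-- Pull back of semilocal elements. -/
def pullLocal (q : Nat.Primes) (hle : H' ≤ H) :
    LocalStar (q : ℕ) (cosetPerm H) →+ LocalStar (q : ℕ) (cosetPerm H') :=
  Inv.map' (pull (cosetMap hle))
    (pull_intertwines (fun s x => isEquivMap_cosetMap hle (localGaloisToGlobal (q : ℕ) s) x)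
      (localUnits (q : ℕ)))

theorem inOrbit_cosetMap (hle : H' ≤ H) {y : GQ ⧸ H'} (h : InOrbit H' q g y) :
    InOrbit H q g (cosetMap hle y) := by
  obtain ⟨s, rfl⟩ := h
  exact ⟨s, (isEquivMap_cosetMap hle (localGaloisToGlobal (q : ℕ) s) (g : GQ ⧸ H')).symm⟩

variable [Fintype (GQ ⧸ H)] [Fintype (GQ ⧸ H')]

omit [Fintype (GQ ⧸ H)] in
theorem isSuppAt_normLocal (hle : H' ≤ H) {v : LocalStar (q : ℕ) (cosetPerm H')}
    (hv : IsSuppAt q g v) : IsSuppAt q g (normLocal (q : ℕ) (isEquivMap_cosetMap hle) v) :=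
  fun x hx => by
    show push (cosetMap hle) (fun y => v.1 y) x = 0
    rw [push_apply]
    refine Finset.sum_eq_zero fun y hy => hv y fun h => hx ?_
    have hy' : cosetMap hle y = x := by simpa using hy
    exact hy' ▸ inOrbit_cosetMap hle h

omit [Fintype (GQ ⧸ H)] [Fintype (GQ ⧸ H')] in
/-- Where the subgroup contains the decomposition group, every element is a norm. -/
theorem exists_norm_of_dec_le [Fintype (GQ ⧸ H')] (hle : H' ≤ H)
    (hdec : ∀ k ∈ H, k ∈ (pullPlace (q : ℕ) g).decompositionSubgroup ℚ → k ∈ H')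
    {u : LocalStar (q : ℕ) (cosetPerm H)} (hu : IsSuppAt q g u) :
    ∃ v, normLocal (q : ℕ) (isEquivMap_cosetMap hle) v = u := by
  refine ⟨cutAt H' q g (pullLocal q hle u), Subtype.ext (funext fun x => ?_)⟩
  show push (cosetMap hle) (fun y => (cutAt H' q g (pullLocal q hle u)).1 y) x = u.1 x
  rw [push_apply]
  by_cases hx : InOrbit H q g x
  · obtain ⟨s, rfl⟩ := hx
    set y₀ := localPerm (q : ℕ) (cosetPerm H') s (g : GQ ⧸ H')
    have hy₀ : cosetMap hle y₀ = localPerm (q : ℕ) (cosetPerm H) s (g : GQ ⧸ H) :=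
      isEquivMap_cosetMap hle _ _
    rw [Finset.sum_eq_single_of_mem y₀ (by simpa using hy₀) fun y hy hne =>
      isSuppAt_cutAt (H := H') _ y fun hy' => hne ?_]
    · rw [cutAt_apply_of_mem _ ⟨s, rfl⟩]
      exact congrArg u.1 hy₀
    · obtain ⟨t, rfl⟩ := hy'
      have hy2 : cosetMap hle (localPerm (q : ℕ) (cosetPerm H') t (g : GQ ⧸ H')) =
          localPerm (q : ℕ) (cosetPerm H) s (g : GQ ⧸ H) := by simpa using hy
      have h := (isEquivMap_cosetMap hle (localGaloisToGlobal (q : ℕ) t) (g : GQ ⧸ H')).symm.trans hy2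
      change ((localGaloisToGlobal (q : ℕ) t * g : GQ) : GQ ⧸ H) =
        ((localGaloisToGlobal (q : ℕ) s * g : GQ) : GQ ⧸ H) at h
      show ((localGaloisToGlobal (q : ℕ) t * g : GQ) : GQ ⧸ H') =
        ((localGaloisToGlobal (q : ℕ) s * g : GQ) : GQ ⧸ H')
      rw [QuotientGroup.eq] at h ⊢
      refine hdec _ h ?_
      have hD : (localGaloisToGlobal (q : ℕ) t)⁻¹ * localGaloisToGlobal (q : ℕ) s ∈
          (padicPlace (q : ℕ)).decompositionSubgroup ℚ :=
        mul_mem (inv_mem (localGaloisToGlobal_mem_decompositionSubgroup (q : ℕ) t))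
          (localGaloisToGlobal_mem_decompositionSubgroup (q : ℕ) s)
      have h2 := (decompositionSubgroup_smul_iff (A := padicPlace (q : ℕ)) _ g⁻¹).2 hD
      rw [show (localGaloisToGlobal (q : ℕ) t * g)⁻¹ * (localGaloisToGlobal (q : ℕ) s * g) =
        g⁻¹ * ((localGaloisToGlobal (q : ℕ) t)⁻¹ * localGaloisToGlobal (q : ℕ) s) * g⁻¹⁻¹ by group]
      exact h2
  · rw [hu x hx]
    refine Finset.sum_eq_zero fun y hy => isSuppAt_cutAt (H := H') _ y fun h => hx ?_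
    have hy2 : cosetMap hle y = x := by simpa using hy
    exact hy2 ▸ inOrbit_cosetMap hle h

theorem normIdele_single (hle : H' ≤ H) (v : LocalStar (q : ℕ) (cosetPerm H')) :
    normIdele (isEquivMap_cosetMap hle) (singleIdele q v) =
      singleIdele q (normLocal (q : ℕ) (isEquivMap_cosetMap hle) v) := by
  refine Subtype.ext (funext fun r => ?_)
  show normLocal (r : ℕ) (isEquivMap_cosetMap hle) ((singleIdele q v).1 r) = _
  rcases eq_or_ne r q with rfl | h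
  · rw [singleIdele_same, singleIdele_same]
  · rw [singleIdele_ne h, singleIdele_ne h, map_zero]

omit [Fintype (GQ ⧸ H')]

variable {A : Type*} [AddCommGroup A] {hH : IsLevelSubgroup H} {φ ψ : ↥H →* Multiplicative A}

/-- The local component. -/
def locHom (h : IsRecipHom hH φ) (q : Nat.Primes) : LocalStar (q : ℕ) (cosetPerm H) →+ A :=
  (xiHom h).comp (singleIdele q)

/-- The component is the character on families at one prime. -/
theorem locHom_apply (h : IsRecipHom hH φ) (u : LocalStar (q : ℕ) (cosetPerm H)) :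
    locHom h q u = xiHom h (singleIdele q u) := rfl

/-- Norms from the kernel die. -/
theorem locHom_norm_eq_zero [Fintype (GQ ⧸ H')] (hH' : IsLevelSubgroup H') (hle : H' ≤ H)
    (h : IsRecipHom hH φ) (h1 : φ.comp (Subgroup.inclusion hle) = 1)
    (v : LocalStar (q : ℕ) (cosetPerm H')) :
    locHom h q (normLocal (q : ℕ) (isEquivMap_cosetMap hle) v) = 0 := by
  have h' : IsRecipHom hH' (φ.comp (Subgroup.inclusion hle)) := by
    rw [h1]; exact isRecipHom_one hH'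
  rw [locHom_apply, ← normIdele_single, xiHom_norm hle h h', xiHom_eq_zero_of_eq_one h1]

/-- Split places have trivial component. -/
theorem locHom_eq_zero_of_split (h : IsRecipHom hH φ) (hlc : IsLCHom φ)
    (hdec : ∀ k (hk : k ∈ H), k ∈ (pullPlace (q : ℕ) g).decompositionSubgroup ℚ → φ ⟨k, hk⟩ = 1)
    {u : LocalStar (q : ℕ) (cosetPerm H)} (hu : IsSuppAt q g u) : locHom h q u = 0 := by
  have := hlc.isLevel_kerSub.finite_coset
  have := Fintype.ofFinite (GQ ⧸ kerSub φ)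
  obtain ⟨v, rfl⟩ := exists_norm_of_dec_le (kerSub_le φ)
    (fun k hk hkD => mem_kerSub.2 ⟨hk, hdec k hk hkD⟩) hu
  exact locHom_norm_eq_zero hlc.isLevel_kerSub _ h (comp_inclusion_kerSub φ) v

section Twist

/-- A prime at which `f` times the Frobenius at `q` has order four. -/
theorem exists_twist (q : Nat.Primes) {f : ℕ} (hf : 0 < f) :
    ∃ ℓ : Nat.Primes, q ≠ ℓ ∧ ∃ emb : ZMod 4 →+ Additive (ZMod (ℓ : ℕ))ˣ,
      Function.Injective emb ∧ ∀ n : ℕ, emb n = n • f • cyclAdd ℓ (frob q) := by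
  obtain ⟨a, o, ho, rfl⟩ := Nat.exists_eq_two_pow_mul_odd hf.ne'
  obtain ⟨ℓ, hord, -, -⟩ := exists_prime_orderOf_two_pow q.2.two_le a
  have : Fact (ℓ : ℕ).Prime := ⟨ℓ.2⟩
  have hq : q ≠ ℓ := by
    rintro rfl
    rw [ZMod.natCast_self, orderOf_zero] at hord
    exact (pow_ne_zero _ two_ne_zero) hord.symm
  set c := cyclAdd ℓ (frob q)
  have hc : addOrderOf c = 2 ^ (a + 2) := by
    rw [← hord, ← cyclAdd_frob ℓ hq, orderOf_units]
    exact addOrderOf_ofMul_eq_orderOf c.toMul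
  have hγ : addOrderOf ((2 ^ a * o) • c) = 4 := by
    rw [addOrderOf_nsmul' _ hf.ne', hc, pow_add, Nat.gcd_mul_left,
      (Nat.Coprime.pow_left 2 ho.coprime_two_left : Nat.Coprime (2 ^ 2) o).gcd_eq_one, mul_one,
      Nat.mul_div_cancel_left _ (pow_pos two_pos a)]
    rfl
  let emb : ZMod 4 →+ Additive (ZMod (ℓ : ℕ))ˣ :=
    ZMod.lift 4 ⟨zmultiplesHom _ ((2 ^ a * o) • c), by
      rw [zmultiplesHom_apply, natCast_zsmul, ← hγ, addOrderOf_nsmul_eq_zero]⟩
  have hemb : ∀ n : ℕ, emb n = n • (2 ^ a * o) • c := fun n => by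
    rw [← Int.cast_natCast, ZMod.lift_coe]
    exact natCast_zsmul _ _
  refine ⟨ℓ, hq, emb, (injective_iff_map_eq_zero _).2 fun x hx => ?_, hemb⟩
  rw [← ZMod.natCast_zmod_val x, hemb] at hx
  have h := addOrderOf_dvd_of_nsmul_eq_zero hx
  rw [hγ] at h
  rw [← ZMod.natCast_zmod_val x, (ZMod.natCast_eq_zero_iff _ _).2 h]

variable {φ : ↥H →* Multiplicative (ZMod 4)} [FiniteDimensional ℚ (coreField H)]
  {ℓ : Nat.Primes}

/-- The twist of `φ` by a multiple of a cyclotomic homomorphism. -/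
def twistHom (φ : ↥H →* Multiplicative (ZMod 4)) (emb : ZMod 4 →+ Additive (ZMod (ℓ : ℕ))ˣ)
    (t : ℤ) : ↥H →* Multiplicative (Additive (ZMod (ℓ : ℕ))ˣ) :=
  (AddMonoidHom.toMultiplicative emb).comp φ *
    (AddMonoidHom.toMultiplicative (zsmulAddGroupHom t)).comp (cyclHom H ℓ)

omit [Fintype (GQ ⧸ H)] [FiniteDimensional ℚ (coreField H)] in
theorem twistHom_apply (emb : ZMod 4 →+ Additive (ZMod (ℓ : ℕ))ˣ) (t : ℤ) (k : ↥H) :
    (twistHom φ emb t k).toAdd = emb (φ k).toAdd + t • cyclAdd ℓ (k : GQ) := rfl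

omit [Fintype (GQ ⧸ H)] [FiniteDimensional ℚ (coreField H)] in
theorem isLCHom_twistHom (hlc : IsLCHom φ) (emb : ZMod 4 →+ Additive (ZMod (ℓ : ℕ))ˣ) (t : ℤ) :
    IsLCHom (twistHom φ emb t) :=
  (hlc.comp emb).mul ((isLCHom_cyclHom hlc.isLevel ℓ).comp _)

/-- The component of the twist. -/
theorem locHom_twist (hC : ∀ x, cosetPerm H complexConjugation x ≠ x) (h : IsRecipHom hH φ)
    (hq : q ≠ ℓ) (emb : ZMod 4 →+ Additive (ZMod (ℓ : ℕ))ˣ) (t : ℤ)
    (h' : IsRecipHom hH (twistHom φ emb t))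
    {u : LocalStar (q : ℕ) (cosetPerm H)} (hu : IsSuppAt q g u) {m : ℤ}
    (hm : ordQ (q : ℕ) (u.1 (g : GQ ⧸ H)) * eAt (coreField H) (q : ℕ) g = m) :
    locHom h' q u = emb (locHom h q u) + (t * m) • resDeg H q g • cyclAdd ℓ (frob q) := by
  have hc := isRecipHom_cycl hH hC ℓ
  rw [show locHom h' q u = xiHom ((h.comp emb).add (hc.comp (zsmulAddGroupHom t)))
    (singleIdele q u) from rfl, xiHom_add (h.comp emb) (hc.comp (zsmulAddGroupHom t)),
    xiHom_comp h emb, xiHom_comp hc (zsmulAddGroupHom t), ← locHom_apply,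
    xiHom_cycl hC hc hq u (sum_ordQ_eq_resDeg_mul hH hu hm)]
  congr 1
  show t • ((resDeg H q g : ℤ) * m) • cyclAdd ℓ (frob q) = _
  rw [← mul_smul, ← natCast_zsmul (cyclAdd ℓ (frob q)) (resDeg H q g), ← mul_smul]
  congr 1
  ring

/-- At unramified places the component is the order times the value at the Frobenius. -/
theorem locHom_unramified (hC : ∀ x, cosetPerm H complexConjugation x ≠ x)
    (h : IsRecipHom hH φ) (hlc : IsLCHom φ)
    (hI : ∀ k (hk : k ∈ H), k ∈ (pullPlace (q : ℕ) g).inertiaSubgroupIn ℚ → φ ⟨k, hk⟩ = 1)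
    {g₀ : GQ} (hg₀ : g₀ ∈ H) (hg₀F : ResActs (pullPlace (q : ℕ) g) g₀ (resCard H q g))
    {u : LocalStar (q : ℕ) (cosetPerm H)} (hu : IsSuppAt q g u) {m : ℤ}
    (hm : ordQ (q : ℕ) (u.1 (g : GQ ⧸ H)) * eAt (coreField H) (q : ℕ) g = m) :
    locHom h q u = m • (φ ⟨g₀, hg₀⟩).toAdd := by
  obtain ⟨ℓ, hq, emb, hinj, hemb⟩ := exists_twist q (resDeg_pos (H := H) (q := q) (g := g))
  set j := (φ ⟨g₀, hg₀⟩).toAdd.val
  have hg₀F' : ResActs (pullPlace (q : ℕ) g) g₀ ((q : ℕ) ^ resDeg H q g) := by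
    rw [← resCard_eq_pow]; exact hg₀F
  have h' : IsRecipHom hH (twistHom φ emb (-(j : ℤ))) :=
    (h.comp emb).add ((isRecipHom_cycl hH hC ℓ).comp _)
  have hlc' := isLCHom_twistHom hlc emb (-(j : ℤ))
  have hA := liesOverPrime_pullPlace (q : ℕ) g
  have hI' : ∀ k (hk : k ∈ H), k ∈ (pullPlace (q : ℕ) g).inertiaSubgroupIn ℚ →
      twistHom φ emb (-(j : ℤ)) ⟨k, hk⟩ = 1 := fun k hk hkI => Multiplicative.toAdd.injective (by
    rw [twistHom_apply, hI k hk hkI, cyclAdd_inertia ℓ q.2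
      (fun e => hq (Subtype.ext e)) hA hkI]
    simp)
  have hg' : twistHom φ emb (-(j : ℤ)) ⟨g₀, hg₀⟩ = 1 := Multiplicative.toAdd.injective (by
    rw [twistHom_apply, show (φ ⟨g₀, hg₀⟩).toAdd = (j : ZMod 4) from
      (ZMod.natCast_zmod_val _).symm, hemb,
      cyclAdd_of_resActs hq hg₀F',
      neg_smul, natCast_zsmul, add_neg_cancel]
    rfl)
  obtain ⟨U, hU, hUH, hUψ⟩ := id hlc'
  have h0 := locHom_eq_zero_of_split h' hlc'
    (fun k hk hkD => hom_eq_one_of_frob hH _ hU hUH hUψ hI' hg₀ hg₀F hg' hk hkD) hu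
  rw [locHom_twist hC h hq emb _ h' hu hm, add_eq_zero_iff_eq_neg] at h0
  refine hinj ?_
  rw [h0, map_zsmul, show (φ ⟨g₀, hg₀⟩).toAdd = (j : ZMod 4) from
    (ZMod.natCast_zmod_val _).symm, hemb, neg_mul, neg_smul, neg_neg, mul_comm, mul_smul,
    natCast_zsmul]

end Twist

section Surj

variable {φ : ↥H →* Multiplicative (ZMod 4)} [FiniteDimensional ℚ (coreField H)]

/-- A subgroup containing a Frobenius of the place gives uniformisers which are norms. -/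
theorem exists_norm_uniformiser [Fintype (GQ ⧸ H')] (hH : IsLevelSubgroup H)
    (hH' : IsLevelSubgroup H') (hle : H' ≤ H) {g₀ : GQ} (hg₀ : g₀ ∈ H')
    (hg₀F : ResActs (pullPlace (q : ℕ) g) g₀ (resCard H q g)) :
    ∃ v : LocalStar (q : ℕ) (cosetPerm H'),
      IsSuppAt q g (normLocal (q : ℕ) (isEquivMap_cosetMap hle) v) ∧
      ordQ (q : ℕ) ((normLocal (q : ℕ) (isEquivMap_cosetMap hle) v).1 (g : GQ ⧸ H)) *
        eAt (coreField H) (q : ℕ) g = 1 := by
  have := hH'.finiteDimensional_core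
  obtain ⟨-, v, hv, hv1⟩ := orbitCard_eq (q := q) (g := g) hH'
  refine ⟨v, isSuppAt_normLocal hle hv, ?_⟩
  set u := normLocal (q : ℕ) (isEquivMap_cosetMap hle) v
  obtain ⟨m, hm⟩ := exists_int_ord (g := g) hH u
  have h1 := sum_ordQ_eq_resDeg_mul hH (isSuppAt_normLocal hle hv) hm
  have h2 := sum_ordQ_eq_resDeg_mul hH' hv (m := 1) (by rw [hv1, Int.cast_one])
  have h3 : ∑ x, ordQ (q : ℕ) (u.1 x) = ∑ y, ordQ (q : ℕ) (v.1 y) := by
    rw [← map_sum, ← map_sum, show ∑ x, u.1 x = ∑ y, v.1 y from sumHom_push (cosetMap hle) v.1]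
  rw [h3, h2, resDeg_eq_of_le hH hH' hle hg₀ hg₀F, Int.cast_inj] at h1
  have hf : (resDeg H q g : ℤ) ≠ 0 := by exact_mod_cast resDeg_pos.ne'
  rw [hm, ← mul_left_cancel₀ hf h1, Int.cast_one]

/-- A homomorphism of order two nontrivial on inertia is nontrivial on units. -/
theorem exists_unit_two (hC : ∀ x, cosetPerm H complexConjugation x ≠ x)
    (h : IsRecipHom hH φ) (hlc : IsLCHom φ) (h2 : ∀ k, (φ k).toAdd + (φ k).toAdd = 0)
    {k₁ : GQ} (hk₁ : k₁ ∈ H) (hk₁I : k₁ ∈ (pullPlace (q : ℕ) g).inertiaSubgroupIn ℚ)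
    (hne : (φ ⟨k₁, hk₁⟩).toAdd ≠ 0) :
    ∃ u : LocalStar (q : ℕ) (cosetPerm H), IsSuppAt q g u ∧
      ordQ (q : ℕ) (u.1 (g : GQ ⧸ H)) = 0 ∧ locHom h q u = 2 := by
  have htwo : ∀ x : ZMod 4, x + x = 0 → x ≠ 0 → x = 2 := by decide
  have hA := liesOverPrime_pullPlace (q : ℕ) g
  have hk₁2 : (φ ⟨k₁, hk₁⟩).toAdd = 2 := htwo _ (h2 _) hne
  obtain ⟨g₀, hg₀, hg₀0, hg₀F⟩ : ∃ g₀, ∃ hg₀ : g₀ ∈ H, (φ ⟨g₀, hg₀⟩).toAdd = 0 ∧
      ResActs (pullPlace (q : ℕ) g) g₀ (resCard H q g) := by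
    obtain ⟨g₁, hg₁, hg₁F⟩ := exists_resFrob (q := q) (g := g) hH
    by_cases h0 : (φ ⟨g₁, hg₁⟩).toAdd = 0
    · exact ⟨g₁, hg₁, h0, hg₁F⟩
    · refine ⟨g₁ * k₁, mul_mem hg₁ hk₁, ?_, ?_⟩
      · rw [show (⟨g₁ * k₁, mul_mem hg₁ hk₁⟩ : ↥H) = ⟨g₁, hg₁⟩ * ⟨k₁, hk₁⟩ from rfl,
          φ.map_mul, toAdd_mul, htwo _ (h2 _) h0, hk₁2]
        rfl
      · simpa using hg₁F.mul (resActs_of_inertia hk₁I)
  obtain ⟨ℓ, hq, emb, hinj, hemb⟩ := exists_twist q (resDeg_pos (H := H) (q := q) (g := g))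
  have h' : IsRecipHom hH (twistHom φ emb 2) :=
    (h.comp emb).add ((isRecipHom_cycl hH hC ℓ).comp _)
  have hlc' := isLCHom_twistHom hlc emb 2
  have hg₀F' : ResActs (pullPlace (q : ℕ) g) g₀ ((q : ℕ) ^ resDeg H q g) := by
    rw [← resCard_eq_pow]; exact hg₀F
  -- a uniformiser killed by `φ`
  have := hlc.isLevel_kerSub.finite_coset
  have := Fintype.ofFinite (GQ ⧸ kerSub φ)
  obtain ⟨v₁, hv₁, hv₁o⟩ := exists_norm_uniformiser hH hlc.isLevel_kerSub (kerSub_le φ)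
    (mem_kerSub.2 ⟨hg₀, Multiplicative.toAdd.injective hg₀0⟩) hg₀F
  have hz₁ := locHom_norm_eq_zero hlc.isLevel_kerSub (kerSub_le φ) h (comp_inclusion_kerSub φ) v₁
  -- a uniformiser killed by the twist
  have hmem : g₀ * k₁ ∈ kerSub (twistHom φ emb 2) := mem_kerSub.2 ⟨mul_mem hg₀ hk₁,
    Multiplicative.toAdd.injective (by
      rw [twistHom_apply, show (⟨g₀ * k₁, mul_mem hg₀ hk₁⟩ : ↥H) = ⟨g₀, hg₀⟩ * ⟨k₁, hk₁⟩ from rfl,
        φ.map_mul, toAdd_mul, hg₀0, hk₁2, zero_add, Subgroup.coe_mul, cyclAdd_mul,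
        cyclAdd_inertia ℓ q.2 (fun e => hq (Subtype.ext e)) hA hk₁I, add_zero,
        cyclAdd_of_resActs hq hg₀F',
        show ((2 : ℤ)) = ((2 : ℕ) : ℤ) from rfl, natCast_zsmul, ← hemb,
        ← map_add, show (2 : ZMod 4) + ((2 : ℕ) : ZMod 4) = 0 from by decide, map_zero]
      rfl)⟩
  have := hlc'.isLevel_kerSub.finite_coset
  have := Fintype.ofFinite (GQ ⧸ kerSub (twistHom φ emb 2))
  obtain ⟨v₂, hv₂, hv₂o⟩ := exists_norm_uniformiser hH hlc'.isLevel_kerSub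
    (kerSub_le (twistHom φ emb 2)) hmem
    (by simpa using hg₀F.mul (resActs_of_inertia hk₁I))
  have hz₂ := locHom_norm_eq_zero hlc'.isLevel_kerSub (kerSub_le (twistHom φ emb 2)) h'
    (comp_inclusion_kerSub _) v₂
  rw [locHom_twist hC h hq emb 2 h' hv₂ (m := 1) (by rw [hv₂o, Int.cast_one]),
    mul_one] at hz₂
  replace hz₂ : emb (locHom h q (normLocal (q : ℕ)
      (isEquivMap_cosetMap (kerSub_le (twistHom φ emb 2))) v₂) + ((2 : ℕ) : ZMod 4)) = emb 0 := by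
    rw [map_add, map_zero, hemb, ← natCast_zsmul]
    exact hz₂
  refine ⟨normLocal (q : ℕ) (isEquivMap_cosetMap (kerSub_le (twistHom φ emb 2))) v₂ -
    normLocal (q : ℕ) (isEquivMap_cosetMap (kerSub_le φ)) v₁, fun x hx => ?_, ?_, ?_⟩
  · rw [AddSubgroup.coe_sub, Pi.sub_apply, hv₂ x hx, hv₁ x hx, sub_zero]
  · have he : (eAt (coreField H) (q : ℕ) g : ℝ) ≠ 0 := fun h0 => by simp [h0] at hv₁o
    rw [AddSubgroup.coe_sub, Pi.sub_apply, map_sub, sub_eq_zero]
    exact mul_right_cancel₀ he (hv₂o.trans hv₁o.symm)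
  · rw [map_sub, hz₁, sub_zero]
    exact (by decide : ∀ x : ZMod 4, x + ((2 : ℕ) : ZMod 4) = 0 → x = 2) _ (hinj hz₂)

/-- A homomorphism of order two nontrivial on the decomposition group has nontrivial component. -/
theorem exists_two (hC : ∀ x, cosetPerm H complexConjugation x ≠ x)
    (h : IsRecipHom hH φ) (hlc : IsLCHom φ) (h2 : ∀ k, (φ k).toAdd + (φ k).toAdd = 0)
    {k : GQ} (hk : k ∈ H) (hkD : k ∈ (pullPlace (q : ℕ) g).decompositionSubgroup ℚ)
    (hne : (φ ⟨k, hk⟩).toAdd ≠ 0) :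
    ∃ u : LocalStar (q : ℕ) (cosetPerm H), IsSuppAt q g u ∧ locHom h q u = 2 := by
  by_cases hI : ∀ k (hk : k ∈ H), k ∈ (pullPlace (q : ℕ) g).inertiaSubgroupIn ℚ → φ ⟨k, hk⟩ = 1
  · obtain ⟨g₀, hg₀, hg₀F⟩ := exists_resFrob (q := q) (g := g) hH
    obtain ⟨-, u, hu, hu1⟩ := orbitCard_eq (q := q) (g := g) hH
    refine ⟨u, hu, ?_⟩
    rw [locHom_unramified hC h hlc hI hg₀ hg₀F hu (m := 1) (by rw [hu1, Int.cast_one]), one_smul]
    refine (by decide : ∀ x : ZMod 4, x + x = 0 → x ≠ 0 → x = 2) _ (h2 _) fun h0 => hne ?_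
    obtain ⟨U, hU, hUH, hUψ⟩ := id hlc
    rw [hom_eq_one_of_frob hH φ hU hUH hUψ hI hg₀ hg₀F (Multiplicative.toAdd.injective h0) hk hkD]
    rfl
  · push Not at hI
    obtain ⟨k₁, hk₁, hk₁I, hk₁ne⟩ := hI
    obtain ⟨u, hu, -, hu2⟩ := exists_unit_two hC h hlc h2 hk₁ hk₁I
      fun h0 => hk₁ne (Multiplicative.toAdd.injective h0)
    exact ⟨u, hu, hu2⟩

/-- Twice a homomorphism. -/
def sqHom (φ : ↥H →* Multiplicative (ZMod 4)) : ↥H →* Multiplicative (ZMod 4) :=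
  (AddMonoidHom.toMultiplicative (nsmulAddMonoidHom 2)).comp φ

omit [Fintype (GQ ⧸ H)] [FiniteDimensional ℚ (coreField H)] in
theorem isLevel_kerSub_sqHom (hlc : IsLCHom φ) : IsLevelSubgroup (kerSub (sqHom φ)) :=
  (hlc.comp (nsmulAddMonoidHom 2)).isLevel_kerSub

/-- A value `φ k` is a value of the component, given the cases of order two. -/
theorem exists_mult_aux (hC : ∀ x, cosetPerm H complexConjugation x ≠ x)
    (h : IsRecipHom hH φ) (hlc : IsLCHom φ) {k : GQ} (hk : k ∈ H) (P : Prop)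
    (hodd : 2 • (φ ⟨k, hk⟩).toAdd ≠ 0 → ∃ u : LocalStar (q : ℕ) (cosetPerm H), IsSuppAt q g u ∧
      (P → ordQ (q : ℕ) (u.1 (g : GQ ⧸ H)) = 0) ∧ 2 • locHom h q u = 2)
    (heven : ∀ (hle : kerSub (sqHom φ) ≤ H) [Fintype (GQ ⧸ kerSub (sqHom φ))]
      [FiniteDimensional ℚ (coreField (kerSub (sqHom φ)))] (_hk' : k ∈ kerSub (sqHom φ))
      (hH' : IsLevelSubgroup (kerSub (sqHom φ)))
      (h' : IsRecipHom hH' (φ.comp (Subgroup.inclusion hle))),
      (φ ⟨k, hk⟩).toAdd ≠ 0 → ∃ v : LocalStar (q : ℕ) (cosetPerm (kerSub (sqHom φ))),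
        IsSuppAt q g v ∧ (P → ordQ (q : ℕ) (v.1 (g : GQ ⧸ kerSub (sqHom φ))) = 0) ∧
        locHom h' q v = 2) :
    ∃ u : LocalStar (q : ℕ) (cosetPerm H), IsSuppAt q g u ∧
      (P → ordQ (q : ℕ) (u.1 (g : GQ ⧸ H)) = 0) ∧ locHom h q u = (φ ⟨k, hk⟩).toAdd := by
  by_cases h0 : (φ ⟨k, hk⟩).toAdd = 0
  · exact ⟨0, fun _ _ => rfl, fun _ => by simp, by rw [map_zero, h0]⟩
  by_cases h2 : 2 • (φ ⟨k, hk⟩).toAdd = 0
  · have := (isLevel_kerSub_sqHom hlc).finite_coset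
    have := Fintype.ofFinite (GQ ⧸ kerSub (sqHom φ))
    have hH' : IsLevelSubgroup (kerSub (sqHom φ)) := isLevel_kerSub_sqHom hlc
    have := hH'.finiteDimensional_core
    have h' : IsRecipHom hH' (φ.comp (Subgroup.inclusion (kerSub_le (sqHom φ)))) :=
      isRecipHom_four hH' (complexConjugation_fixedFree_of_le hC (kerSub_le _))
        (hlc.restrict hH' _)
    obtain ⟨v, hv, hvo, hv2⟩ := heven (kerSub_le _)
      (mem_kerSub.2 ⟨hk, Multiplicative.toAdd.injective h2⟩) hH' h' h0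
    refine ⟨normLocal (q : ℕ) (isEquivMap_cosetMap (kerSub_le (sqHom φ))) v,
      isSuppAt_normLocal _ hv, fun hP => ?_, ?_⟩
    · obtain ⟨m, hm⟩ := exists_int_ord (g := g) hH
        (normLocal (q : ℕ) (isEquivMap_cosetMap (kerSub_le (sqHom φ))) v)
      have h1 := sum_ordQ_eq_resDeg_mul hH (isSuppAt_normLocal _ hv) hm
      have h3 : ∑ x, ordQ (q : ℕ)
          ((normLocal (q : ℕ) (isEquivMap_cosetMap (kerSub_le (sqHom φ))) v).1 x) = 0 := by
        rw [← map_sum, show ∑ x, (normLocal (q : ℕ)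
          (isEquivMap_cosetMap (kerSub_le (sqHom φ))) v).1 x = ∑ y, v.1 y from
            sumHom_push _ v.1, map_sum, sum_ordQ_of_isSuppAt hv, hvo hP, mul_zero]
      rw [h3, eq_comm, Int.cast_eq_zero, mul_eq_zero] at h1
      rw [h1.resolve_left (by exact_mod_cast resDeg_pos.ne'), Int.cast_zero, mul_eq_zero] at hm
      exact hm.resolve_right (by exact_mod_cast
        (zero_lt_one.trans_le (one_le_eAt (coreField H) (q : ℕ) g)).ne')
    · rw [locHom_apply, ← normIdele_single, xiHom_norm _ h h', ← locHom_apply, hv2]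
      exact ((by decide : ∀ x : ZMod 4, x ≠ 0 → 2 • x = 0 → x = 2) _ h0 h2).symm
  · obtain ⟨u, hu, huo, hu2⟩ := hodd h2
    obtain ⟨n, hn⟩ := (by decide : ∀ a b : ZMod 4, 2 • a = 2 → 2 • b ≠ 0 →
      ∃ n : Fin 4, (n : ℕ) • a = b) _ _ hu2 h2
    refine ⟨(n : ℕ) • u, fun x hx => ?_, fun hP => ?_, by rw [map_nsmul, hn]⟩
    · rw [AddSubmonoidClass.coe_nsmul, Pi.smul_apply, hu x hx, smul_zero]
    · rw [AddSubmonoidClass.coe_nsmul, Pi.smul_apply, map_nsmul, huo hP, smul_zero]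

omit [FiniteDimensional ℚ (coreField H)] in
theorem locHom_sqHom (h : IsRecipHom hH φ) (u : LocalStar (q : ℕ) (cosetPerm H)) :
    locHom (h.comp (nsmulAddMonoidHom 2)) q u = 2 • locHom h q u :=
  xiHom_comp h _ _

omit [Fintype (GQ ⧸ H)] [FiniteDimensional ℚ (coreField H)] in
theorem add_self_kerSub_sqHom (φ : ↥H →* Multiplicative (ZMod 4)) (hle : kerSub (sqHom φ) ≤ H)
    (x : ↥(kerSub (sqHom φ))) :
    (φ (Subgroup.inclusion hle x)).toAdd + (φ (Subgroup.inclusion hle x)).toAdd = 0 := by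
  rw [← two_smul ℕ]
  exact congrArg Multiplicative.toAdd (mem_kerSub.1 x.2).2

/-- Inertia values are values at units. -/
theorem exists_unit_eq (hC : ∀ x, cosetPerm H complexConjugation x ≠ x)
    (h : IsRecipHom hH φ) (hlc : IsLCHom φ) {k : GQ} (hk : k ∈ H)
    (hkI : k ∈ (pullPlace (q : ℕ) g).inertiaSubgroupIn ℚ) :
    ∃ u : LocalStar (q : ℕ) (cosetPerm H), IsSuppAt q g u ∧
      ordQ (q : ℕ) (u.1 (g : GQ ⧸ H)) = 0 ∧ locHom h q u = (φ ⟨k, hk⟩).toAdd := by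
  obtain ⟨u, hu, huo, huv⟩ := exists_mult_aux (q := q) (g := g) hC h hlc hk True
    (fun hne => by
      obtain ⟨u, hu, huo, hu2⟩ := exists_unit_two hC (h.comp (nsmulAddMonoidHom 2)) (hlc.comp _)
        (fun x => (by decide : ∀ a : ZMod 4, 2 • a + 2 • a = 0) _) hk hkI hne
      exact ⟨u, hu, fun _ => huo, (locHom_sqHom h u).symm.trans hu2⟩)
    (fun hle _ _ hk' hH' h' hne => by
      obtain ⟨u, hu, huo, hu2⟩ := exists_unit_two (complexConjugation_fixedFree_of_le hC hle) h'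
        (hlc.restrict hH' hle) (add_self_kerSub_sqHom φ hle) hk' hkI hne
      exact ⟨u, hu, fun _ => huo, hu2⟩)
  exact ⟨u, hu, huo trivial, huv⟩

/-- Decomposition values are values of the component. -/
theorem exists_eq (hC : ∀ x, cosetPerm H complexConjugation x ≠ x)
    (h : IsRecipHom hH φ) (hlc : IsLCHom φ) {k : GQ} (hk : k ∈ H)
    (hkD : k ∈ (pullPlace (q : ℕ) g).decompositionSubgroup ℚ) :
    ∃ u : LocalStar (q : ℕ) (cosetPerm H), IsSuppAt q g u ∧
      locHom h q u = (φ ⟨k, hk⟩).toAdd := by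
  obtain ⟨u, hu, -, huv⟩ := exists_mult_aux (q := q) (g := g) hC h hlc hk False
    (fun hne => by
      obtain ⟨u, hu, hu2⟩ := exists_two hC (h.comp (nsmulAddMonoidHom 2)) (hlc.comp _)
        (fun x => (by decide : ∀ a : ZMod 4, 2 • a + 2 • a = 0) _) hk hkD hne
      exact ⟨u, hu, False.elim, (locHom_sqHom h u).symm.trans hu2⟩)
    (fun hle _ _ hk' hH' h' hne => by
      obtain ⟨u, hu, hu2⟩ := exists_two (complexConjugation_fixedFree_of_le hC hle) h'
        (hlc.restrict hH' hle) (add_self_kerSub_sqHom φ hle) hk' hkD hne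
      exact ⟨u, hu, False.elim, hu2⟩)
  exact ⟨u, hu, huv⟩

end Surj

end Fermat.Agent.LT.Reciprocity

end
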