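import Fermat.Agent.LT.Reciprocity.HomChar
import Fermat.Agent.LT.Reciprocity.Components
import Mathlib.RingTheory.Norm.Transitivity
import Mathlib.NumberTheory.RamificationInertia.Inertia

/-!
# The orbit of a place

A place over `q` of the field of an open subgroup `H` is an orbit of `G_{ℚ_q}` on `G_ℚ ⧸ H`. The
total order of a semilocal element supported on it is the residue degree times its order.
-/

set_option autoImplicit false

noncomputable section

open scoped NumberField Classical
open IsDedekindDomain NumberField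

namespace Fermat.Agent.LT.Reciprocity

open Fermat.Agent.PoitouTate Fermat.Agent.GaloisBasics Fermat.Agent.GlobalUnits

variable {H H' : Subgroup GQ}

/-- The field of an open subgroup. -/
abbrev coreField (H : Subgroup GQ) : IntermediateField ℚ QBar :=
  fieldAt (cosetPerm H) (baseCoset H)

/-- The stabiliser of the base coset is `H`. -/
theorem stab_baseCoset (H : Subgroup GQ) : stab (cosetPerm H) (baseCoset H) = H := by
  ext g
  exact cosetPerm_eq_one_iff

/-- A level subgroup fixes exactly its core field. -/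
theorem IsLevelSubgroup.fixingSubgroup_core (hH : IsLevelSubgroup H) :
    (coreField H).fixingSubgroup = H := by
  rw [fixingSubgroup_fieldAt hH.smooth, stab_baseCoset]

/-- The core field of a level subgroup is a number field. -/
theorem IsLevelSubgroup.finiteDimensional_core (hH : IsLevelSubgroup H) :
    FiniteDimensional ℚ (coreField H) :=
  finiteDimensional_fieldAt hH.smooth _

/-- A level subgroup has finite index. -/
theorem IsLevelSubgroup.finite_coset (hH : IsLevelSubgroup H) : Finite (GQ ⧸ H) := by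
  obtain ⟨U, hU, hUH⟩ := hH
  exact PoitouTate.finite_coset hU hUH

/-- `g` moves the base coset to `g H`. -/
theorem cosetPerm_base (g : GQ) : cosetPerm H g (baseCoset H) = (g : GQ ⧸ H) := by
  rw [cosetPerm_mk, mul_one]

/-- The points over a place. -/
def InOrbit (H : Subgroup GQ) (q : Nat.Primes) (g : GQ) (x : GQ ⧸ H) : Prop :=
  ∃ s : GQl (q : ℕ), localPerm (q : ℕ) (cosetPerm H) s (g : GQ ⧸ H) = x

variable {q : Nat.Primes} {g : GQ}

theorem inOrbit_self : InOrbit H q g (g : GQ ⧸ H) := ⟨1, by simp⟩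

/-- Membership in the local orbit of `g` as a double coset condition. -/
theorem inOrbit_iff {g' : GQ} :
    InOrbit H q g (g' : GQ ⧸ H) ↔
      ∃ s : GQl (q : ℕ), g'⁻¹ * (localGaloisToGlobal (q : ℕ) s * g) ∈ H := by
  refine exists_congr fun s => ?_
  show cosetPerm H (localGaloisToGlobal (q : ℕ) s) (g : GQ ⧸ H) = _ ↔ _
  rw [cosetPerm_mk, eq_comm, QuotientGroup.eq]

theorem inOrbit_apply_iff (s : GQl (q : ℕ)) (x : GQ ⧸ H) :
    InOrbit H q g (localPerm (q : ℕ) (cosetPerm H) s x) ↔ InOrbit H q g x := by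
  constructor
  · rintro ⟨t, ht⟩
    refine ⟨s⁻¹ * t, ?_⟩
    rw [map_mul, Equiv.Perm.mul_apply, ht, map_inv]
    exact Equiv.symm_apply_apply _ _
  · rintro ⟨t, ht⟩
    exact ⟨s * t, by rw [map_mul, Equiv.Perm.mul_apply, ht]⟩

theorem inOrbit_symm_iff (s : GQl (q : ℕ)) (x : GQ ⧸ H) :
    InOrbit H q g ((localPerm (q : ℕ) (cosetPerm H) s).symm x) ↔ InOrbit H q g x := by
  conv_rhs => rw [← Equiv.apply_symm_apply (localPerm (q : ℕ) (cosetPerm H) s) x]
  exact (inOrbit_apply_iff s _).symm

/-- A semilocal element lives on the points over the place. -/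
def IsSuppAt (q : Nat.Primes) (g : GQ) (u : LocalStar (q : ℕ) (cosetPerm H)) : Prop :=
  ∀ x, ¬ InOrbit H q g x → u.1 x = 0

/-- The part on the points over the place. -/
def cutAt (H : Subgroup GQ) (q : Nat.Primes) (g : GQ) :
    LocalStar (q : ℕ) (cosetPerm H) →+ LocalStar (q : ℕ) (cosetPerm H) :=
  AddMonoidHom.mk' (fun u => ⟨fun x => if InOrbit H q g x then u.1 x else 0, fun s => funext
    fun x => by
      have h := congrFun (u.2 s) x
      rw [permAct_apply] at h ⊢
      simp only [inOrbit_symm_iff]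
      split_ifs with hx
      · exact h
      · exact map_zero _⟩)
    fun u v => Subtype.ext (funext fun x => by
      show (if InOrbit H q g x then (u + v).1 x else 0) = _
      simp only [AddSubgroup.coe_add, Pi.add_apply]
      split_ifs <;> simp)

theorem cutAt_apply_self (u : LocalStar (q : ℕ) (cosetPerm H)) :
    (cutAt H q g u).1 (g : GQ ⧸ H) = u.1 (g : GQ ⧸ H) := if_pos inOrbit_self

/-- On the orbit the cut is the element. -/
theorem cutAt_apply_of_mem (u : LocalStar (q : ℕ) (cosetPerm H)) {x : GQ ⧸ H}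
    (hx : InOrbit H q g x) : (cutAt H q g u).1 x = u.1 x := if_pos hx

/-- The cut is supported on the orbit. -/
theorem isSuppAt_cutAt (u : LocalStar (q : ℕ) (cosetPerm H)) : IsSuppAt q g (cutAt H q g u) :=
  fun _ hx => if_neg hx

theorem ordQ_orbit (u : LocalStar (q : ℕ) (cosetPerm H)) {x : GQ ⧸ H} (hx : InOrbit H q g x) :
    ordQ (q : ℕ) (u.1 x) = ordQ (q : ℕ) (u.1 (g : GQ ⧸ H)) := by
  obtain ⟨s, rfl⟩ := hx
  exact ordQ_lstar_apply u s _

variable [Fintype (GQ ⧸ H)]

/-- The number of points over the place. -/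
def orbitCard (H : Subgroup GQ) [Fintype (GQ ⧸ H)] (q : Nat.Primes) (g : GQ) : ℕ :=
  (Finset.univ.filter fun x => InOrbit H q g x).card

/-- The total order of an element supported on an orbit. -/
theorem sum_ordQ_of_isSuppAt {u : LocalStar (q : ℕ) (cosetPerm H)} (hu : IsSuppAt q g u) :
    ∑ x, ordQ (q : ℕ) (u.1 x) = (orbitCard H q g : ℝ) * ordQ (q : ℕ) (u.1 (g : GQ ⧸ H)) := by
  rw [← Finset.sum_filter_add_sum_filter_not Finset.univ (fun x => InOrbit H q g x),
    Finset.sum_eq_zero (s := Finset.univ.filter fun x => ¬ InOrbit H q g x) fun x hx => by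
      rw [hu x (Finset.mem_filter.1 hx).2, map_zero],
    add_zero, Finset.sum_congr rfl fun x hx => ordQ_orbit u (Finset.mem_filter.1 hx).2,
    Finset.sum_const, nsmul_eq_mul, orbitCard]

section Field

variable [FiniteDimensional ℚ (coreField H)]

/-- The place of the field of `H`. -/
abbrev placeH (H : Subgroup GQ) [FiniteDimensional ℚ (coreField H)] (q : Nat.Primes) (g : GQ) :=
  placeAt (coreField H) (q : ℕ) g

/-- The cardinality of the residue field. -/
def resCard (H : Subgroup GQ) [FiniteDimensional ℚ (coreField H)] (q : Nat.Primes) (g : GQ) : ℕ :=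
  Ideal.absNorm (placeH H q g).asIdeal

/-- The residue degree. -/
def resDeg (H : Subgroup GQ) [FiniteDimensional ℚ (coreField H)] (q : Nat.Primes) (g : GQ) : ℕ :=
  padicValNat (q : ℕ) (resCard H q g)

omit [Fintype (GQ ⧸ H)] in
theorem resCard_eq_pow_and_pos :
    resCard H q g = (q : ℕ) ^ resDeg H q g ∧ 0 < resDeg H q g := by
  have := (placeH H q g).isPrime.isMaximal (placeH H q g).ne_bot
  obtain ⟨p, n, hn, hpP, hp, h⟩ := Ideal.exists_prime_and_absNorm_eq_pow (placeH H q g).asIdeal
  have hpq : p = (q : ℕ) :=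
    eq_of_natCast_mem_placeBelow _ (liesOverPrime_pullPlace (q : ℕ) g) q.2 hp hpP
  subst hpq
  rw [resDeg, resCard, h, padicValNat.prime_pow]
  exact ⟨rfl, hn⟩

omit [Fintype (GQ ⧸ H)] in
/-- The residue degree is positive. -/
theorem resDeg_pos : 0 < resDeg H q g := resCard_eq_pow_and_pos.2

omit [Fintype (GQ ⧸ H)] in
/-- The residue cardinality is `q` to the residue degree. -/
theorem resCard_eq_pow : resCard H q g = (q : ℕ) ^ resDeg H q g := resCard_eq_pow_and_pos.1

omit [Fintype (GQ ⧸ H)] in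
/-- An integer with order one at the place and no other zero over `q`. -/
theorem exists_prime_element :
    ∃ y : 𝓞 (coreField H), y ≠ 0 ∧
      padicValNat (q : ℕ) (Ideal.absNorm (Ideal.span {y})) = resDeg H q g ∧
      (placeH H q g).intValuation y = WithZero.exp (-1 : ℤ) ∧
      ∀ w : HeightOneSpectrum (𝓞 (coreField H)), w ≠ placeH H q g →
        ((q : ℕ) : 𝓞 (coreField H)) ∈ w.asIdeal → y ∉ w.asIdeal := by
  set K := coreField H
  set v := placeH H q g with hv
  obtain ⟨π, hπ⟩ := v.intValuation_exists_uniformizer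
  let s := (finite_setOf_exists_natCast_mem K {q}).toFinset
  obtain ⟨y, hy⟩ := IsDedekindDomain.exists_forall_sub_mem_ideal (R := 𝓞 K)
    (fun w : HeightOneSpectrum (𝓞 K) => w.asIdeal) (fun _ => 2) (s := s) (fun w _ => w.prime)
    (fun w _ w' _ h => fun he => h (HeightOneSpectrum.ext he))
    (fun w => if w.1 = v then π else 1)
  have hvs : v ∈ s := (Set.Finite.mem_toFinset _).2 ⟨q, Finset.mem_singleton_self q,
    natCast_mem_placeBelow K (liesOverPrime_pullPlace (q : ℕ) g) q.2⟩
  have hyv : v.intValuation y = WithZero.exp (-1 : ℤ) := by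
    rw [← hπ]
    refine Valuation.map_eq_of_sub_lt _ ?_
    have h := hy v hvs
    simp only [if_true] at h
    refine ((v.intValuation_le_pow_iff_mem _ _).2 h).trans_lt ?_
    rw [hπ, WithZero.exp_lt_exp]
    norm_num
  have hyw : ∀ w : HeightOneSpectrum (𝓞 K), w ≠ v → ((q : ℕ) : 𝓞 K) ∈ w.asIdeal →
      y ∉ w.asIdeal := fun w hw hqw hyw => by
    have hws : w ∈ s := (Set.Finite.mem_toFinset _).2 ⟨q, Finset.mem_singleton_self q, hqw⟩
    have h := hy w hws
    rw [if_neg hw] at h
    have h1 : (1 : 𝓞 K) ∈ w.asIdeal := by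
      have := w.asIdeal.sub_mem hyw (Ideal.pow_le_self two_ne_zero h)
      rwa [sub_sub_cancel] at this
    exact w.isPrime.ne_top ((Ideal.eq_top_iff_one _).2 h1)
  have hy0 : y ≠ 0 := fun h0 => by
    rw [h0, map_zero] at hyv
    exact WithZero.exp_ne_zero hyv.symm
  refine ⟨y, hy0, ?_, hyv, hyw⟩
  obtain ⟨J, hJ⟩ : v.asIdeal ∣ Ideal.span {y} := by
    rw [Ideal.dvd_span_singleton]
    have h := (v.intValuation_le_pow_iff_mem y 1).1 (by rw [hyv]; simp)
    rwa [pow_one] at h
  have hJ0 : J ≠ 0 := fun h0 => by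
    rw [h0, mul_zero, Ideal.zero_eq_bot, Ideal.span_singleton_eq_bot] at hJ
    exact hy0 hJ
  have hnd : ¬ (q : ℕ) ∣ Ideal.absNorm J := fun hd => by
    obtain ⟨P, hP, hPu, hPJ⟩ := Ideal.exists_isMaximal_dvd_of_dvd_absNorm' q.2 J hd
    have hqP : ((q : ℕ) : 𝓞 K) ∈ P := by
      have : ((q : ℕ) : ℤ) ∈ P.under ℤ := hPu ▸ Ideal.mem_span_singleton_self _
      simpa [Ideal.mem_comap] using this
    have hP0 : P ≠ ⊥ := fun h0 => by
      rw [h0, Ideal.mem_bot, Nat.cast_eq_zero] at hqP
      exact q.2.ne_zero hqP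
    let w : HeightOneSpectrum (𝓞 K) := ⟨P, hP.isPrime, hP0⟩
    have hyP : y ∈ P := by
      rw [← Ideal.dvd_span_singleton, hJ]
      exact hPJ.mul_left _
    by_cases hwv : w = v
    · have h2 : y ∈ v.asIdeal ^ 2 := by
        rw [← Ideal.dvd_span_singleton, hJ, sq]
        exact mul_dvd_mul_left _ (by rw [← hwv]; exact hPJ)
      have h3 := (v.intValuation_le_pow_iff_mem y 2).2 h2
      rw [hyv, WithZero.exp_le_exp] at h3
      norm_num at h3
    · exact hyw w hwv hqP hyP
  have hJn : Ideal.absNorm J ≠ 0 := Ideal.absNorm_eq_zero_iff.not.2 hJ0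
  rw [hJ, map_mul, show Ideal.absNorm v.asIdeal = (q : ℕ) ^ resDeg H q g from resCard_eq_pow,
    padicValNat.mul (pow_ne_zero _ q.2.ne_zero) hJn, padicValNat.prime_pow,
    padicValNat.eq_zero_of_not_dvd hnd, add_zero]

omit [Fintype (GQ ⧸ H)] [FiniteDimensional ℚ (coreField H)] in
theorem embedding_congr (hH : IsLevelSubgroup H) {a b : GQ} :
    (a : QBar →ₐ[ℚ] QBar).comp (coreField H).val = (b : QBar →ₐ[ℚ] QBar).comp (coreField H).val ↔
      (a : GQ ⧸ H) = (b : GQ ⧸ H) := by
  rw [QuotientGroup.eq]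
  conv_rhs => rw [← hH.fixingSubgroup_core, IntermediateField.mem_fixingSubgroup_iff]
  constructor
  · intro h y hy
    have h1 : a y = b y := DFunLike.congr_fun h ⟨y, hy⟩
    rw [AlgEquiv.mul_apply, ← h1, ← AlgEquiv.mul_apply, inv_mul_cancel, AlgEquiv.one_apply]
  · intro h
    refine AlgHom.ext fun y => ?_
    show a (y : QBar) = b (y : QBar)
    conv_lhs => rw [← h y y.2]
    rw [← AlgEquiv.mul_apply, mul_inv_cancel_left]

/-- The norm of a global element is the product of its conjugates. -/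
theorem norm_eq_prod (hH : IsLevelSubgroup H) (f : GlobalStar (cosetPerm H)) :
    algebraMap ℚ QBar (Algebra.norm ℚ ((valueAt (baseCoset H) f).toMul : coreField H)) =
      (((∑ x, f.1 x).toMul : QBarˣ) : QBar) := by
  set K := coreField H
  set a : K := ((valueAt (baseCoset H) f).toMul : K)
  let φ : GQ ⧸ H → (K →ₐ[ℚ] QBar) := fun x =>
    Quotient.liftOn' x (fun b : GQ => (b : QBar →ₐ[ℚ] QBar).comp K.val)
      fun b c h => (embedding_congr hH).2 (Quotient.sound' h)
  have hφ : Function.Bijective φ := by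
    refine ⟨fun x y h => ?_, fun τ => ?_⟩
    · induction x using QuotientGroup.induction_on with
      | H b =>
        induction y using QuotientGroup.induction_on with
        | H c => exact (embedding_congr hH).1 h
    · let τ' : QBar →ₐ[ℚ] QBar := τ.liftNormal QBar
      refine ⟨((AlgEquiv.ofBijective τ' (Algebra.IsAlgebraic.algHom_bijective τ') : GQ) : GQ ⧸ H),
        AlgHom.ext fun y => ?_⟩
      exact AlgHom.liftNormal_commutes τ QBar y
  have hval : ∀ x, (((f.1 x).toMul : QBarˣ) : QBar) = φ x a := fun x => by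
    induction x using QuotientGroup.induction_on with
    | H b =>
      rw [← cosetPerm_base b, value_apply]
      simp only [cosetPerm_base]
      rfl
  rw [Algebra.norm_eq_prod_embeddings ℚ QBar a, toMul_sum, Units.coe_prod]
  simp only [hval]
  exact (hφ.prod_comp fun τ => τ a).symm

/-- The number of points is the ramification index times the residue degree. -/
theorem orbitCard_eq (hH : IsLevelSubgroup H) :
    (orbitCard H q g : ℤ) = eAt (coreField H) (q : ℕ) g * resDeg H q g ∧
      ∃ u : LocalStar (q : ℕ) (cosetPerm H), IsSuppAt q g u ∧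
        ordQ (q : ℕ) (u.1 (g : GQ ⧸ H)) * eAt (coreField H) (q : ℕ) g = 1 := by
  set K := coreField H
  obtain ⟨y, hy0, hnorm, hyv, hyw⟩ := exists_prime_element (H := H) (q := q) (g := g)
  have hy0' : (y : K) ≠ 0 := RingOfIntegers.coe_ne_zero_iff.2 hy0
  obtain ⟨a, ha⟩ := valueAt_surjective (isTransitive_cosetPerm H) (baseCoset H)
    (Additive.ofMul (Units.mk0 (y : K) hy0'))
  have hord : ∀ (b : GQ) (w : HeightOneSpectrum (𝓞 K)), placeAt K (q : ℕ) b = w →
      ordQ (q : ℕ) ((toLocal (q : ℕ) (cosetPerm H) a).1 (b : GQ ⧸ H)) * eAt K (q : ℕ) b =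
        ord w (Additive.ofMul (Units.mk0 (y : K) hy0')) := fun b w hw => by
    subst hw
    rw [toLocal_coe, ← cosetPerm_base b, value_eq_valueAt, ha]
    exact ordQ_embUnits_mul K (q : ℕ) b _
  have hv1 : ord (placeH H q g) (Additive.ofMul (Units.mk0 (y : K) hy0')) = 1 := by
    have h := valuation_eq_exp_neg_ord (placeH H q g) (Units.mk0 (y : K) hy0')
    rw [show ((Units.mk0 (y : K) hy0' : Kˣ) : K) = algebraMap (𝓞 K) K y from rfl,
      HeightOneSpectrum.valuation_of_algebraMap, hyv, WithZero.exp_inj] at h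
    omega
  have hw0 : ∀ b : GQ, ¬ InOrbit H q g (b : GQ ⧸ H) →
      ordQ (q : ℕ) ((toLocal (q : ℕ) (cosetPerm H) a).1 (b : GQ ⧸ H)) = 0 := fun b hb => by
    have hne : placeAt K (q : ℕ) b ≠ placeH H q g := fun he => hb <| by
      obtain ⟨s, hs⟩ := placeAt_eq_iff.1 he.symm
      rw [hH.fixingSubgroup_core] at hs
      exact inOrbit_iff.2 ⟨s, hs⟩
    have hval : (placeAt K (q : ℕ) b).valuation K (y : K) = 1 := by
      rw [RingOfIntegers.coe_eq_algebraMap]
      exact (HeightOneSpectrum.valuation_eq_one_iff_notMem (K := K) _).2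
        (hyw _ hne (natCast_mem_placeBelow K (liesOverPrime_pullPlace (q : ℕ) b) q.2))
    have h0 := hord b _ rfl
    rw [(GlobalUnits.valuation_eq_one_iff _ (Units.mk0 (y : K) hy0')).1 hval, Int.cast_zero,
      mul_eq_zero] at h0
    exact h0.resolve_right (by exact_mod_cast (one_le_eAt K (q : ℕ) b).trans_lt' zero_lt_one |>.ne')
  set u := cutAt H q g (toLocal (q : ℕ) (cosetPerm H) a)
  have hu1 : ordQ (q : ℕ) (u.1 (g : GQ ⧸ H)) * eAt K (q : ℕ) g = 1 := by
    rw [cutAt_apply_self, hord g _ rfl, hv1, Int.cast_one]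
  refine ⟨?_, u, isSuppAt_cutAt _, hu1⟩
  have hr : algebraMap ℚ QBar (Algebra.norm ℚ (y : K)) = (((∑ x, a.1 x).toMul : QBarˣ) : QBar) := by
    rw [← norm_eq_prod hH a, ha]
    rfl
  have hsum : ∑ x, ordQ (q : ℕ) ((toLocal (q : ℕ) (cosetPerm H) a).1 x) =
      ∑ x, ordQ (q : ℕ) (u.1 x) := Finset.sum_congr rfl fun x _ => by
    by_cases hx : InOrbit H q g x
    · rw [cutAt_apply_of_mem _ hx]
    · rw [isSuppAt_cutAt _ x hx, map_zero]
      induction x using QuotientGroup.induction_on with
      | H b => exact hw0 b hx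
  have hp : padicValRat (q : ℕ) (Algebra.norm ℚ (y : K)) = resDeg H q g := by
    rw [← Algebra.coe_norm_int, padicValRat.of_int, padicValInt, ← Ideal.absNorm_span_singleton,
      hnorm]
  rw [sum_ordQ_of_isSuppAt (isSuppAt_cutAt _), sum_ordQ_eq a hr q, hp] at hsum
  have h : ((orbitCard H q g : ℤ) : ℝ) =
      ((eAt K (q : ℕ) g * resDeg H q g : ℤ) : ℝ) := by
    push_cast at hsum ⊢
    rw [hsum, mul_left_comm, mul_comm (eAt K (q : ℕ) g : ℝ), hu1, mul_one]
  exact_mod_cast h

omit [Fintype (GQ ⧸ H)] in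
/-- The order times the ramification index is an integer. -/
theorem exists_int_ord (hH : IsLevelSubgroup H) (u : LocalStar (q : ℕ) (cosetPerm H)) :
    ∃ m : ℤ, ordQ (q : ℕ) (u.1 (g : GQ ⧸ H)) * eAt (coreField H) (q : ℕ) g = m := by
  have := hH.finite_coset
  have := Fintype.ofFinite (GQ ⧸ H)
  obtain ⟨a, ha⟩ := exists_close hH.smooth (isTransitive_cosetPerm H)
    (singleIdele q u).1 {q} one_pos
  refine ⟨ord (placeH H q g) (valueAt (baseCoset H) a), ?_⟩
  have h := ordQ_eq_zero_of_mem_nearOne (ha q (Finset.mem_singleton_self q) (g : GQ ⧸ H))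
  rw [singleIdele_same, AddSubgroup.coe_sub, Pi.sub_apply, map_sub, sub_eq_zero] at h
  rw [← h, toLocal_coe, ← cosetPerm_base g, value_eq_valueAt]
  exact ordQ_embUnits_mul (coreField H) (q : ℕ) g _

/-- The total order is the residue degree times the order. -/
theorem sum_ordQ_eq_resDeg_mul (hH : IsLevelSubgroup H) {u : LocalStar (q : ℕ) (cosetPerm H)}
    (hu : IsSuppAt q g u) {m : ℤ}
    (hm : ordQ (q : ℕ) (u.1 (g : GQ ⧸ H)) * eAt (coreField H) (q : ℕ) g = m) :
    ∑ x, ordQ (q : ℕ) (u.1 x) = ((resDeg H q g * m : ℤ) : ℝ) := by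
  have h := congrArg (fun n : ℤ => (n : ℝ)) (orbitCard_eq (q := q) (g := g) hH).1
  rw [sum_ordQ_of_isSuppAt hu]
  push_cast at h ⊢
  rw [h, ← hm]
  ring

end Field

end Fermat.Agent.LT.Reciprocity

end
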