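import Fermat.Agent.LT.Reciprocity.AbCover

/-!
# Cyclic covers of order four as two steps of order two, and the index bound

The cover by a cocycle with values in `ℤ/4` is the cover of the cover by its reduction modulo two
by the halved cocycle; hence its norm-and-congruence subgroup has index at most four.
-/

set_option autoImplicit false

noncomputable section

namespace Fermat.Agent.LT.Reciprocity

open Fermat.Agent.PoitouTate

local instance factTwoFour : Fact (Nat.Prime 2) := ⟨Nat.prime_two⟩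

/-- Reduction modulo two. -/
def red2 : ZMod 4 →+ ZMod 2 := (ZMod.castHom (show 2 ∣ 4 by norm_num) (ZMod 2)).toAddMonoidHom

/-- The representative in `{0, 1}`. -/
def sec2 (i : ZMod 2) : ZMod 4 := (i.val : ZMod 4)

/-- Multiplication by two from `ℤ/2` to `ℤ/4`. -/
def dbl2 (i : ZMod 2) : ZMod 4 := 2 * (i.val : ZMod 4)

/-- Halving an even element. -/
def half4 (a : ZMod 4) : ZMod 2 := ((a.val / 2 : ℕ) : ZMod 2)

theorem red2_sec2 : ∀ i, red2 (sec2 i) = i := by decide

/-- Doubling the half of an even element gives it back. -/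
theorem dbl2_half4 : ∀ a, red2 a = 0 → dbl2 (half4 a) = a := by decide

/-- Doubling is additive. -/
theorem dbl2_add : ∀ i j, dbl2 (i + j) = dbl2 i + dbl2 j := by decide

/-- Doubling is injective. -/
theorem dbl2_injective : Function.Injective dbl2 := by unfold Function.Injective; decide

theorem bijective_sec2_dbl2 :
    Function.Bijective fun z : ZMod 2 × ZMod 2 => sec2 z.1 + dbl2 z.2 :=
  ⟨by unfold Function.Injective; decide, by unfold Function.Surjective; decide⟩

/-- Square roots of unity are rational. -/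
theorem hasRoots_two {X : Type*} (σ : GQ →* Equiv.Perm X) : HasRoots 2 σ :=
  fun _ _ _ => Subsingleton.elim _ _

variable {X : Type*} {σ : GQ →* Equiv.Perm X} {c : GQ → X → ZMod 4}

/-- The reduced cocycle. -/
def redCocycle (c : GQ → X → ZMod 4) (g : GQ) (x : X) : ZMod 2 := red2 (c g x)

/-- The reduced cocycle is a cocycle. -/
theorem isSetCocycle_redCocycle (hc : IsSetCocycle σ c) : IsSetCocycle σ (redCocycle c) :=
  fun g h x => by simp only [redCocycle, hc g h x, map_add]

/-- The halved cocycle on the intermediate cover. -/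
def halfCocycle (c : GQ → X → ZMod 4) (g : GQ) (z : X × ZMod 2) : ZMod 2 :=
  half4 (c g z.1 + sec2 (z.2 - redCocycle c g z.1) - sec2 z.2)

/-- The defining property of the halved cocycle. -/
theorem dbl2_halfCocycle (g : GQ) (z : X × ZMod 2) :
    dbl2 (halfCocycle c g z) = c g z.1 + sec2 (z.2 - redCocycle c g z.1) - sec2 z.2 :=
  dbl2_half4 _ (by rw [map_sub, map_add, red2_sec2, red2_sec2, redCocycle]; abel)

/-- The halved cocycle is a cocycle on the cover by the reduced one. -/
theorem isSetCocycle_halfCocycle (hc : IsSetCocycle σ c) :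
    IsSetCocycle (coverPerm σ (redCocycle c) (isSetCocycle_redCocycle hc)) (halfCocycle c) := by
  intro g h z
  refine dbl2_injective ?_
  rw [dbl2_add, dbl2_halfCocycle, dbl2_halfCocycle, dbl2_halfCocycle, coverPerm_symm_apply,
    hc g h z.1]
  simp only [redCocycle, hc g h z.1, map_add]
  rw [show z.2 - (red2 (c h ((σ g).symm z.1)) + red2 (c g z.1)) =
    z.2 - red2 (c g z.1) - red2 (c h ((σ g).symm z.1)) by abel]
  abel

/-- The reduced cocycle is locally constant. -/
theorem isLC₁_redCocycle (hlc : allLevels.IsLC₁ c) : allLevels.IsLC₁ (redCocycle c) :=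
  hlc.comp fun φ x => red2 (φ x)

/-- The halved cocycle is locally constant. -/
theorem isLC₁_halfCocycle (hlc : allLevels.IsLC₁ c) : allLevels.IsLC₁ (halfCocycle c) :=
  hlc.comp fun φ (z : X × ZMod 2) => half4 (φ z.1 + sec2 (z.2 - red2 (φ z.1)) - sec2 z.2)

/-- The two-step cover is the cover. -/
def twoStep (z : (X × ZMod 2) × ZMod 2) : X × ZMod 4 := (z.1.1, sec2 z.1.2 + dbl2 z.2)

theorem bijective_twoStep : Function.Bijective (twoStep (X := X)) := by
  refine ⟨fun a b h => ?_, fun y => ?_⟩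
  · simp only [twoStep, Prod.mk.injEq] at h
    have h2 := @bijective_sec2_dbl2.1 (a.1.2, a.2) (b.1.2, b.2) h.2
    simp only [Prod.mk.injEq] at h2
    exact Prod.ext (Prod.ext h.1 h2.1) h2.2
  · obtain ⟨⟨i, j⟩, hij⟩ := bijective_sec2_dbl2.2 y.2
    exact ⟨((y.1, i), j), Prod.ext rfl hij⟩

theorem isEquivMap_twoStep (hc : IsSetCocycle σ c) :
    IsEquivMap (coverPerm _ (halfCocycle c) (isSetCocycle_halfCocycle hc)) (coverPerm σ c hc)
      (twoStep (X := X)) := by
  intro g z
  simp only [twoStep, coverPerm_apply, dbl2_add, dbl2_halfCocycle, redCocycle,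
    add_sub_cancel_right, Prod.mk.injEq, true_and]
  abel

/-- The cover maps onto the cover by the reduced cocycle. -/
theorem isEquivMap_redFst (hc : IsSetCocycle σ c) :
    IsEquivMap (coverPerm σ c hc) (coverPerm σ (redCocycle c) (isSetCocycle_redCocycle hc))
      fun z => (z.1, red2 z.2) := fun g z => by
  simp [coverPerm_apply, redCocycle]

/-- An equivariant image of a transitive set is transitive. -/
theorem isTransitive_of_surjective {Y : Type*} {τ : GQ →* Equiv.Perm Y} {π : Y → X}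
    (h : IsEquivMap τ σ π) (hπ : Function.Surjective π) (htr : IsTransitive τ) :
    IsTransitive σ := by
  refine ⟨htr.1.map π, fun x x' => ?_⟩
  obtain ⟨y, rfl⟩ := hπ x
  obtain ⟨y', rfl⟩ := hπ x'
  obtain ⟨g, hg⟩ := htr.2 y y'
  exact ⟨g, by rw [← h, hg]⟩

theorem isTransitive_of_bijective {Y : Type*} {τ : GQ →* Equiv.Perm Y} {π : Y → X}
    (h : IsEquivMap τ σ π) (hπ : Function.Bijective π) (htr : IsTransitive σ) :
    IsTransitive τ := by
  refine ⟨⟨(hπ.2 htr.1.some).choose⟩, fun y y' => ?_⟩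
  obtain ⟨g, hg⟩ := htr.2 (π y) (π y')
  exact ⟨g, hπ.1 (by rw [h, hg])⟩

/-- Both steps of a transitive cover of order four which is unramified outside `S` are transitive
and unramified outside `S`. -/
theorem transitive_unramified_twoStep {S : Finset Nat.Primes} (hc : IsSetCocycle σ c)
    (htr' : IsTransitive (coverPerm σ c hc))
    (hu : ∀ q : Nat.Primes, q ∉ S → IsUnramifiedSet (q : ℕ) (coverPerm σ c hc)) :
    let σ₂ := coverPerm σ (redCocycle c) (isSetCocycle_redCocycle hc)
    let σ₄ := coverPerm σ₂ (halfCocycle c) (isSetCocycle_halfCocycle hc)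
    IsTransitive σ₂ ∧ IsTransitive σ₄ ∧
      (∀ q : Nat.Primes, q ∉ S → IsUnramifiedSet (q : ℕ) σ₂) ∧
      ∀ q : Nat.Primes, q ∉ S → IsUnramifiedSet (q : ℕ) σ₄ := by
  have hred := isEquivMap_redFst hc
  have hsurj : Function.Surjective fun z : X × ZMod 4 => (z.1, red2 z.2) :=
    fun y => ⟨(y.1, sec2 y.2), Prod.ext rfl (red2_sec2 _)⟩
  have htw := isEquivMap_twoStep hc
  exact ⟨isTransitive_of_surjective hred hsurj htr',
    isTransitive_of_bijective htw bijective_twoStep htr',
    fun q hq => (hu q hq).of_equivMap hsurj hred,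
    fun q hq A hA g hg => Equiv.ext fun z => bijective_twoStep.1 (by
      rw [htw g z, hu q hq A hA g hg]
      rfl)⟩

section Index

variable [Fintype X] {S : Finset Nat.Primes} {hc : IsSetCocycle σ c}
  (hσ : IsSmoothSet allLevels σ) (htr : IsTransitive σ) (hi : IsIntegralOff σ S)
  (hC : ∀ x, σ complexConjugation x ≠ x) (hlc : allLevels.IsLC₁ c)
  (htr' : IsTransitive (coverPerm σ c hc)) (h2S : (⟨2, Nat.prime_two⟩ : Nat.Primes) ∈ S)
  (hu : ∀ q : Nat.Primes, q ∉ S → IsUnramifiedSet (q : ℕ) (coverPerm σ c hc))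

include hσ htr hC hlc htr' h2S hu in
/-- The index bound for covers of order four. -/
theorem index_hSub_four_le {δ : ℝ} (hδ : 0 < δ) :
    (hSub hσ htr hi hc δ).index ≠ 0 ∧ (hSub hσ htr hi hc δ).index ≤ 4 := by
  classical
  set c₂ := redCocycle c
  have hc₂ : IsSetCocycle σ c₂ := isSetCocycle_redCocycle hc
  set σ₂ := coverPerm σ c₂ hc₂
  set c' := halfCocycle c
  have hc' : IsSetCocycle σ₂ c' := isSetCocycle_halfCocycle hc
  have hσ₂ : IsSmoothSet allLevels σ₂ :=
    isSmoothSet_coverPerm hc₂ hσ (isLC₁_redCocycle hlc)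
  have hred := isEquivMap_redFst hc
  have htw := isEquivMap_twoStep hc
  obtain ⟨htr₂, htr₄, hu₂, hu₄⟩ := transitive_unramified_twoStep hc htr' hu
  have hC₂ : ∀ z, σ₂ complexConjugation z ≠ z := fun z h => hC z.1 (congrArg Prod.fst h)
  obtain ⟨hA0, hA⟩ := index_hSub_le hσ htr (hasRoots_two σ) hC (isLC₁_redCocycle hlc) htr₂
    h2S hu₂ hδ
  obtain ⟨hB0, hB⟩ := index_hSub_le hσ₂ htr₂ (hasRoots_two σ₂) hC₂ (isLC₁_halfCocycle hlc) htr₄
    h2S hu₄ hδ
  set H := hSub hσ htr hi hc δ
  set H₂ := hSub hσ htr (integral_base hσ hu₂) hc₂ δ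
  set H' := hSub hσ₂ htr₂ (integral_base hσ₂ hu₄) hc' δ
  set π := pushDiv (S := S) (isEquivMap_fst hc₂)
  -- pushes through the two steps agree
  have hcomp : ∀ E, π (pushDiv (isEquivMap_fst hc') E) =
      pushDiv (isEquivMap_fst hc) (pushDiv htw E) := fun E => by
    refine Subtype.ext (funext fun q => ?_)
    simp only [π, pushDiv_coe, push_push]
    congr 1
  have hle : H ≤ H₂ := by
    refine sup_le_sup le_rfl ?_
    rintro _ ⟨E, rfl⟩
    refine ⟨pushDiv hred E, Subtype.ext (funext fun q => ?_)⟩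
    simp only [pushDiv_coe, push_push]
    congr 1
  have hπ : ∀ E, π E ∈ H₂ := fun E => AddSubgroup.mem_sup_right ⟨E, rfl⟩
  have hker : H'.map π ≤ H := by
    rw [AddSubgroup.map_le_iff_le_comap]
    intro E hE
    obtain ⟨a, ha, F, rfl⟩ := mem_hSub_iff.1 hE
    refine mem_hSub_iff.2 ⟨normGlobal (isEquivMap_fst hc₂) a, normGlobal_mem_nearS _ ha,
      pushDiv htw F, ?_⟩
    rw [map_add, hcomp, divOf_norm (isEquivMap_fst hc₂) hσ htr hi hσ₂ htr₂
      (integral_base hσ₂ hu₄) a]
  let φ : ↥(divS σ₂ S) →+ ↥H₂ ⧸ H.addSubgroupOf H₂ :=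
    (QuotientAddGroup.mk' _).comp (π.codRestrict H₂ hπ)
  have hφ : Function.Surjective φ := fun y => by
    induction y using QuotientAddGroup.induction_on with
    | H D =>
    obtain ⟨a, ha, E, hE⟩ := mem_hSub_iff.1 D.2
    refine ⟨E, QuotientAddGroup.eq.2 ?_⟩
    rw [AddSubgroup.mem_addSubgroupOf, AddSubgroup.coe_add, AddSubgroup.coe_neg]
    show -(π E) + (D : ↥(divS σ S)) ∈ H
    rw [← hE, add_comm (divOf hσ htr (integral_base hσ hu₂) a), neg_add_cancel_left]
    exact mem_hSub_iff.2 ⟨a, ha, 0, by rw [map_zero, add_zero]⟩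
  have hφker : H' ≤ φ.ker := fun E hE => by
    rw [AddMonoidHom.mem_ker]
    exact (QuotientAddGroup.eq_zero_iff _).2 (hker ⟨E, hE, rfl⟩)
  have : Finite (↥(divS σ₂ S) ⧸ H') := Nat.finite_of_card_ne_zero hB0
  have hlift := QuotientAddGroup.lift_surjective_of_surjective _ φ hφ hφker
  have : Finite (↥H₂ ⧸ H.addSubgroupOf H₂) := Finite.of_surjective _ hlift
  have hrel : H.relIndex H₂ ≤ 2 :=
    (Nat.card_le_card_of_surjective _ hlift).trans hB
  have hrel0 : H.relIndex H₂ ≠ 0 :=
    (Nat.card_pos (α := ↥H₂ ⧸ H.addSubgroupOf H₂)).ne'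
  rw [← AddSubgroup.relIndex_mul_index hle]
  exact ⟨mul_ne_zero hrel0 hA0, (Nat.mul_le_mul hrel hA).trans (by norm_num)⟩

end Index

end Fermat.Agent.LT.Reciprocity

end
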