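import Fermat.Agent.LT.Reciprocity.HomChar

/-!
# The idele character of a homomorphism on an open subgroup

`xiHom` is independent of the auxiliary set of primes, additive in the homomorphism, compatible
with norms, and known for the cyclotomic homomorphisms.
-/

set_option autoImplicit false

noncomputable section

namespace Fermat.Agent.LT.Reciprocity

open Fermat.Agent.PoitouTate

variable {H H' : Subgroup GQ} {A B : Type*} [AddCommGroup A] [AddCommGroup B]

theorem isIntegralOff_mono {X : Type*} {σ : GQ →* Equiv.Perm X} {S S' : Finset Nat.Primes}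
    (h : S ⊆ S') (hi : IsIntegralOff σ S) : IsIntegralOff σ S' :=
  fun q hq => hi q fun h' => hq (h h')

theorem exists_integral_finset [Finite (GQ ⧸ H)] (hH : IsLevelSubgroup H) :
    ∃ S₀ : Finset Nat.Primes, ∀ S, S₀ ⊆ S → IsIntegralOff (cosetPerm H) S := by
  classical
  have := Fintype.ofFinite (GQ ⧸ H)
  obtain ⟨T, hT⟩ := exists_finset_isUnramifiedSet hH.smooth
  exact ⟨T, fun S hS => isIntegralOff_of_unramified hH.smooth fun q hq => hT q fun h => hq (hS h)⟩

/-- A homomorphism trivial on a level. -/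
def IsLCHom (φ : ↥H →* Multiplicative A) : Prop :=
  ∃ U, allLevels.mem U ∧ U ≤ H ∧ U.subgroupOf H ≤ φ.ker

/-- The domain of a locally constant homomorphism is a level subgroup. -/
theorem IsLCHom.isLevel {φ : ↥H →* Multiplicative A} (h : IsLCHom φ) : IsLevelSubgroup H := by
  obtain ⟨U, hU, hUH, -⟩ := h
  exact ⟨U, hU, hUH⟩

/-- The image of a locally constant homomorphism is locally constant. -/
theorem IsLCHom.comp {φ : ↥H →* Multiplicative A} (h : IsLCHom φ) (f : A →+ B) :
    IsLCHom ((AddMonoidHom.toMultiplicative f).comp φ) := by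
  obtain ⟨U, hU, hUH, hφ⟩ := h
  refine ⟨U, hU, hUH, fun x hx => ?_⟩
  show AddMonoidHom.toMultiplicative f (φ x) = 1
  rw [show φ x = 1 from hφ hx, map_one]

/-- A product of locally constant homomorphisms is locally constant. -/
theorem IsLCHom.mul {φ ψ : ↥H →* Multiplicative A} (h : IsLCHom φ) (h' : IsLCHom ψ) :
    IsLCHom (φ * ψ) := by
  obtain ⟨U, hU, hUH, hφ⟩ := h
  obtain ⟨V, hV, -, hψ⟩ := h'
  obtain ⟨W, hW, hWU, hWV⟩ := allLevels.inf hU hV
  refine ⟨W, hW, hWU.trans hUH, fun x hx => ?_⟩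
  show φ x * ψ x = 1
  rw [show φ x = 1 from hφ (hWU hx), show ψ x = 1 from hψ (hWV hx), mul_one]

/-- A restriction of a locally constant homomorphism is locally constant. -/
theorem IsLCHom.restrict {φ : ↥H →* Multiplicative A} (h : IsLCHom φ) (hH' : IsLevelSubgroup H')
    (hle : H' ≤ H) : IsLCHom (φ.comp (Subgroup.inclusion hle)) := by
  obtain ⟨U, hU, -, hφ⟩ := h
  obtain ⟨V, hV, hVH⟩ := hH'
  obtain ⟨W, hW, hWU, hWV⟩ := allLevels.inf hU hV
  exact ⟨W, hW, hWV.trans hVH, fun x hx => hφ (x := Subgroup.inclusion hle x) (hWU hx)⟩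

/-- The kernel, in `G_ℚ`. -/
def kerSub (φ : ↥H →* Multiplicative A) : Subgroup GQ := φ.ker.map H.subtype

/-- The kernel is contained in the domain. -/
theorem kerSub_le (φ : ↥H →* Multiplicative A) : kerSub φ ≤ H := Subgroup.map_subtype_le _

/-- Membership in the kernel. -/
theorem mem_kerSub {φ : ↥H →* Multiplicative A} {g : GQ} :
    g ∈ kerSub φ ↔ ∃ hg : g ∈ H, φ ⟨g, hg⟩ = 1 := by
  constructor
  · rintro ⟨x, hx, rfl⟩
    exact ⟨x.2, hx⟩
  · rintro ⟨hg, h⟩
    exact ⟨⟨g, hg⟩, h, rfl⟩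

/-- The kernel of a locally constant homomorphism is a level subgroup. -/
theorem IsLCHom.isLevel_kerSub {φ : ↥H →* Multiplicative A} (h : IsLCHom φ) :
    IsLevelSubgroup (kerSub φ) := by
  obtain ⟨U, hU, hUH, hφ⟩ := h
  exact ⟨U, hU, fun u hu => mem_kerSub.2 ⟨hUH hu, hφ (x := ⟨u, hUH hu⟩) hu⟩⟩

/-- A homomorphism is trivial on its kernel. -/
theorem comp_inclusion_kerSub (φ : ↥H →* Multiplicative A) :
    φ.comp (Subgroup.inclusion (kerSub_le φ)) = 1 :=
  MonoidHom.ext fun x => (mem_kerSub.1 x.2).2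

/-- The cyclotomic homomorphism. -/
def cyclHom (H : Subgroup GQ) (ℓ : Nat.Primes) :
    ↥H →* Multiplicative (Additive (ZMod (ℓ : ℕ))ˣ) :=
  MonoidHom.mk' (fun g => Multiplicative.ofAdd (cyclAdd ℓ (g : GQ))) fun a b => by
    rw [Subgroup.coe_mul, cyclAdd_mul, ofAdd_add]

/-- The cyclotomic homomorphism is locally constant. -/
theorem isLCHom_cyclHom (hH : IsLevelSubgroup H) (ℓ : Nat.Primes) : IsLCHom (cyclHom H ℓ) := by
  obtain ⟨U, hU, hUH⟩ := hH
  obtain ⟨V, hV, hVc⟩ := exists_level_cyclAdd ℓ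
  obtain ⟨W, hW, hWU, hWV⟩ := allLevels.inf hU hV
  refine ⟨W, hW, hWU.trans hUH, fun x hx => ?_⟩
  show Multiplicative.ofAdd (cyclAdd ℓ (x : GQ)) = 1
  rw [show cyclAdd ℓ (x : GQ) = 0 from hVc _ (hWV hx), ofAdd_zero]

/-- A field containing a totally complex one is totally complex. -/
theorem complexConjugation_fixedFree_of_le
    (hC : ∀ x, cosetPerm H complexConjugation x ≠ x) (hle : H' ≤ H) :
    ∀ x, cosetPerm H' complexConjugation x ≠ x := fun x hx => hC (cosetMap hle x) (by
  rw [← isEquivMap_cosetMap hle complexConjugation x, hx])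

variable [Fintype (GQ ⧸ H)]

/-- The symbol of the homomorphism is reciprocal for some set of primes. -/
def IsRecipHom (hH : IsLevelSubgroup H) (φ : ↥H →* Multiplicative A) : Prop :=
  ∃ (S : Finset Nat.Primes) (hi : IsIntegralOff (cosetPerm H) S),
    IsRecip hH.smooth (isTransitive_cosetPerm H) hi (homCocycle φ)

variable {hH : IsLevelSubgroup H} {φ ψ : ↥H →* Multiplicative A}

/-- A product of reciprocal homomorphisms is reciprocal. -/
theorem IsRecipHom.add (h : IsRecipHom hH φ) (h' : IsRecipHom hH ψ) :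
    IsRecipHom hH (φ * ψ) := by
  classical
  obtain ⟨S, hi, h⟩ := h
  obtain ⟨S', hi', h'⟩ := h'
  exact ⟨S ∪ S', isIntegralOff_mono Finset.subset_union_left hi,
    (h.mono Finset.subset_union_left _).add (h'.mono Finset.subset_union_right _)⟩

/-- The image of a reciprocal homomorphism is reciprocal. -/
theorem IsRecipHom.comp (h : IsRecipHom hH φ) (f : A →+ B) :
    IsRecipHom hH ((AddMonoidHom.toMultiplicative f).comp φ) := by
  obtain ⟨S, hi, h⟩ := h
  exact ⟨S, hi, h.comp f⟩

/-- The trivial homomorphism is reciprocal. -/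
theorem isRecipHom_one (hH : IsLevelSubgroup H) :
    IsRecipHom hH (1 : ↥H →* Multiplicative A) := by
  obtain ⟨S₀, hS₀⟩ := exists_integral_finset hH
  refine ⟨S₀, hS₀ _ Finset.Subset.rfl, 1, one_pos, fun a _ => ?_⟩
  rw [homCocycle_one]
  exact art_coboundary (k := fun _ => 0) (fun g x => by simp) (divOf _ _ _ a).2

/-- For a totally complex field every continuous homomorphism to `ℤ/4` is reciprocal. -/
theorem isRecipHom_four (hH : IsLevelSubgroup H) (hC : ∀ x, cosetPerm H complexConjugation x ≠ x)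
    {φ : ↥H →* Multiplicative (ZMod 4)} (hφ : IsLCHom φ) : IsRecipHom hH φ := by
  classical
  obtain ⟨U, hU, hUH, hUφ⟩ := hφ
  obtain ⟨S₁, hS₁⟩ := exists_isRecip_four hH hC φ hU hUH hUφ
  obtain ⟨S₀, hS₀⟩ := exists_integral_finset hH
  exact ⟨S₀ ∪ S₁, hS₀ _ Finset.subset_union_left,
    hS₁ _ Finset.subset_union_right (hS₀ _ Finset.subset_union_left)⟩

theorem exists_cyclHom_congr (H : Subgroup GQ) (ℓ : Nat.Primes) :
    ∃ k : GQ ⧸ H → Additive (ZMod (ℓ : ℕ))ˣ, ∀ g x,
      homCocycle (cyclHom H ℓ) g x = cyclAdd ℓ g + (k x - k ((cosetPerm H g).symm x)) := by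
  obtain ⟨k, hk⟩ := exists_eq_homCocycle (d := fun g (_ : GQ ⧸ H) => cyclAdd ℓ g)
    (fun g h x => by
      show cyclAdd ℓ (g * h) = cyclAdd ℓ h + cyclAdd ℓ g
      rw [cyclAdd_mul, add_comm])
    (cyclHom H ℓ) fun _ => rfl
  refine ⟨-k, fun g x => ?_⟩
  rw [hk g x, Pi.neg_apply, Pi.neg_apply]
  abel

/-- The cyclotomic homomorphisms are reciprocal. -/
theorem isRecipHom_cycl (hH : IsLevelSubgroup H) (hC : ∀ x, cosetPerm H complexConjugation x ≠ x)
    (ℓ : Nat.Primes) : IsRecipHom hH (cyclHom H ℓ) := by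
  classical
  obtain ⟨S₀, hS₀⟩ := exists_integral_finset hH
  obtain ⟨k, hk⟩ := exists_cyclHom_congr H ℓ
  exact ⟨insert ℓ S₀, hS₀ _ (Finset.subset_insert _ _),
    (isRecip_cyclAdd ℓ hC (Finset.mem_insert_self _ _)).congr hk⟩

/-- The character of a homomorphism. -/
def xiHom (h : IsRecipHom hH φ) : IdeleX (cosetPerm H) →+ A := xiX h.choose_spec.choose_spec

/-- The character may be computed with any suitable set of primes. -/
theorem xiHom_eq (h : IsRecipHom hH φ) {S : Finset Nat.Primes}
    {hi : IsIntegralOff (cosetPerm H) S}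
    (h' : IsRecip hH.smooth (isTransitive_cosetPerm H) hi (homCocycle φ))
    (f : IdeleX (cosetPerm H)) : xiHom h f = xiX h' f := by
  classical
  have hi'' : IsIntegralOff (cosetPerm H) (h.choose ∪ S) :=
    isIntegralOff_mono Finset.subset_union_right hi
  rw [xiHom, ← xiX_mono h.choose_spec.choose_spec Finset.subset_union_left hi''
    (h'.mono Finset.subset_union_right hi''), xiX_mono h' Finset.subset_union_right hi'']

/-- The character is additive in the homomorphism. -/
theorem xiHom_add (h : IsRecipHom hH φ) (h' : IsRecipHom hH ψ) (f : IdeleX (cosetPerm H)) :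
    xiHom (h.add h') f = xiHom h f + xiHom h' f := by
  classical
  obtain ⟨S, hi, hS⟩ := id h
  obtain ⟨S', hi', hS'⟩ := id h'
  have hiU := isIntegralOff_mono (Finset.subset_union_left (s₂ := S')) hi
  have hU := hS.mono Finset.subset_union_left hiU
  have hU' := hS'.mono (Finset.subset_union_right (s₁ := S)) hiU
  rw [xiHom_eq _ (hU.add hU'), xiHom_eq h hU, xiHom_eq h' hU']
  exact xiX_add hU hU' f

/-- The character commutes with homomorphisms of the values. -/
theorem xiHom_comp (h : IsRecipHom hH φ) (g : A →+ B) (f : IdeleX (cosetPerm H)) :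
    xiHom (h.comp g) f = g (xiHom h f) := by
  obtain ⟨S, hi, hS⟩ := id h
  rw [xiHom_eq _ (hS.comp g), xiHom_eq h hS]
  exact xiX_comp hS g f

theorem xiHom_one (h : IsRecipHom hH (1 : ↥H →* Multiplicative A)) (f : IdeleX (cosetPerm H)) :
    xiHom h f = 0 :=
  art_coboundary (k := fun _ => 0) (fun g x => by
    rw [show homCocycle (1 : ↥H →* Multiplicative A) g x = 0 from rfl]
    simp) (corrDiv _ _ _ f _).2

/-- The trivial homomorphism has trivial character. -/
theorem xiHom_eq_zero_of_eq_one (e : φ = 1) (h : IsRecipHom hH φ) (f : IdeleX (cosetPerm H)) :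
    xiHom h f = 0 := by
  subst e
  exact xiHom_one h f

/-- The character kills the global elements. -/
@[simp] theorem xiHom_diag (h : IsRecipHom hH φ) (a : GlobalStar (cosetPerm H)) :
    xiHom h (diagIdele hH.smooth (isTransitive_cosetPerm H) a) = 0 :=
  xiX_diag _ a

/-- The character kills the families near one at some finite set with trivial orders elsewhere. -/
theorem xiHom_eq_zero_of_near (h : IsRecipHom hH φ) :
    ∃ S : Finset Nat.Primes, ∃ δ > 0, ∀ f : IdeleX (cosetPerm H), IsNearTrivial S δ f →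
      xiHom h f = 0 := by
  obtain ⟨δ, hδ, h0⟩ := xiX_eq_zero_of_near h.choose_spec.choose_spec
  exact ⟨_, δ, hδ, h0⟩

/-- The value of the cyclotomic character. -/
theorem xiHom_cycl (hC : ∀ x, cosetPerm H complexConjugation x ≠ x) {ℓ : Nat.Primes}
    (h : IsRecipHom hH (cyclHom H ℓ)) {q : Nat.Primes} (hq : q ≠ ℓ)
    (u : LocalStar (q : ℕ) (cosetPerm H)) {F : ℤ} (hF : ∑ x, ordQ (q : ℕ) (u.1 x) = F) :
    xiHom h (singleIdele q u) = F • cyclAdd ℓ (frob q) := by
  classical
  obtain ⟨S₀, hS₀⟩ := exists_integral_finset hH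
  obtain ⟨k, hk⟩ := exists_cyclHom_congr H ℓ
  have hi := hS₀ _ (Finset.subset_insert ℓ S₀)
  have hc : IsRecip hH.smooth (isTransitive_cosetPerm H) hi
      fun g (_ : GQ ⧸ H) => cyclAdd ℓ g := isRecip_cyclAdd ℓ hC (Finset.mem_insert_self _ _)
  rw [xiHom_eq h (hc.congr hk), xiX_congr hc (hc.congr hk) hk]
  exact xiX_cycl ℓ hC (Finset.mem_insert_self _ _) hc q hq u hF

/-- The character of a norm is the character of the restriction. -/
theorem xiHom_norm [Fintype (GQ ⧸ H')] {hH' : IsLevelSubgroup H'} (hle : H' ≤ H)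
    (h : IsRecipHom hH φ) (h' : IsRecipHom hH' (φ.comp (Subgroup.inclusion hle)))
    (f : IdeleX (cosetPerm H')) :
    xiHom h (normIdele (isEquivMap_cosetMap hle) f) = xiHom h' f := by
  classical
  obtain ⟨S, hi, hS⟩ := id h
  obtain ⟨S', hi', hS'⟩ := id h'
  have hiU := isIntegralOff_mono (Finset.subset_union_left (s₂ := S')) hi
  have hiU' := isIntegralOff_mono (Finset.subset_union_right (s₁ := S)) hi'
  have hU := hS.mono Finset.subset_union_left hiU
  have hU' := hS'.mono (Finset.subset_union_right (s₁ := S)) hiU'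
  have hd : IsAbCocycle (cosetPerm H') fun g y => homCocycle φ g (cosetMap hle y) :=
    fun g g' y => by
      show homCocycle φ (g * g') (cosetMap hle y) = _
      rw [isAbCocycle_homCocycle φ g g', ← (isEquivMap_cosetMap hle).symm_apply g y]
  obtain ⟨k, hk⟩ := exists_eq_homCocycle hd (φ.comp (Subgroup.inclusion hle)) fun g => by
    show homCocycle φ (g : GQ) (baseCoset H) = _
    exact homCocycle_base φ (Subgroup.inclusion hle g)
  rw [xiHom_eq h hU, xiHom_eq h' hU',
    xiX_norm (isEquivMap_cosetMap hle) hU (hU'.congr hk), xiX_congr hU' (hU'.congr hk) hk]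

end Fermat.Agent.LT.Reciprocity

end
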